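/-
S43lib / B1 / CommAbs  (helper3).

Abstract commutation of Hecke coset data on `Γ₀(M)` from integral representatives: a *representative
family* `RepFam M n ι` is a family of integral matrices of determinant `n`, of shape `(1 *; 0 *)`
modulo `M`, with the "peeling" and "uniqueness" properties of Hecke representatives.  Two coset data
with representative families of coprime determinants satisfy `ConjRel (unitHom M)`.
-/
import Fermat.Agent.S43lib.B1.Level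

set_option autoImplicit false
set_option linter.unusedSectionVars false
set_option linter.unusedVariables false

noncomputable section

namespace Fermat.Agent.S43lib.B1

open CongruenceSubgroup Matrix.SpecialLinearGroup
open Fermat.Agent.S16lib.LH Fermat.Agent.S41lib.HC Fermat.Agent.S48lib.W1
open scoped MatrixGroups

/-- integral `2 × 2` matrices -/
abbrev MZ : Type := Matrix (Fin 2) (Fin 2) ℤ

/-- the integral matrix of an element of `Γ₀(M)` -/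
def toMZ {M : ℕ} (γ : ↥(Gamma0 M)) : MZ := ((γ : SL(2, ℤ)) : Matrix (Fin 2) (Fin 2) ℤ)

theorem toMZ_mul {M : ℕ} (γ γ' : ↥(Gamma0 M)) : toMZ (γ * γ') = toMZ γ * toMZ γ' := by
  simp [toMZ]

theorem toMZ_one {M : ℕ} : toMZ (1 : ↥(Gamma0 M)) = 1 := by
  simp [toMZ]

theorem toMZ_injective {M : ℕ} : Function.Injective (toMZ (M := M)) := by
  intro γ γ' h
  apply Subtype.ext
  apply Subtype.ext
  exact h

theorem toMZ_det {M : ℕ} (γ : ↥(Gamma0 M)) : (toMZ γ).det = 1 := (γ : SL(2, ℤ)).2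

theorem toMZ_inv_mul {M : ℕ} (γ : ↥(Gamma0 M)) : toMZ γ⁻¹ * toMZ γ = 1 := by
  rw [← toMZ_mul, inv_mul_cancel, toMZ_one]

theorem toMZ_10 {M : ℕ} (γ : ↥(Gamma0 M)) : (M : ℤ) ∣ toMZ γ 1 0 :=
  (ZMod.intCast_zmod_eq_zero_iff_dvd _ _).mp (Gamma0_mem.mp γ.2)

/-- right cancellation of a matrix with nonzero determinant -/
theorem MZ_mul_right_cancel {A A' B : MZ} (hB : B.det ≠ 0) (h : A * B = A' * B) : A = A' :=
  (Matrix.isRegular_of_isLeftRegular_det (IsRegular.of_ne_zero hB).left).right h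

/-- the shape `(1 *; 0 *)` modulo `M` -/
def Shape1 (M : ℕ) (g : MZ) : Prop := (M : ℤ) ∣ g 1 0 ∧ ((g 0 0 : ℤ) : ZMod M) = 1

/-- the shape `(u *; 0 *)` modulo `M`, `u` a unit -/
def ShapeU (M : ℕ) (g : MZ) : Prop := (M : ℤ) ∣ g 1 0 ∧ IsCoprime (g 0 0) (M : ℤ)

theorem Shape1.mul {M : ℕ} {A B : MZ} (hA : Shape1 M A) (hB : Shape1 M B) : Shape1 M (A * B) := by
  obtain ⟨hA1, hA0⟩ := hA
  obtain ⟨hB1, hB0⟩ := hB
  constructor
  · rw [Matrix.mul_apply, Fin.sum_univ_two]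
    exact dvd_add (Dvd.dvd.mul_right hA1 _) (Dvd.dvd.mul_left hB1 _)
  · rw [Matrix.mul_apply, Fin.sum_univ_two]
    push_cast
    rw [hA0, hB0, (ZMod.intCast_zmod_eq_zero_iff_dvd _ _).mpr hB1]
    ring

theorem Shape1.shapeU {M : ℕ} {A : MZ} (hA : Shape1 M A) : ShapeU M A := by
  refine ⟨hA.1, ?_⟩
  have h := hA.2
  have h1 : ((A 0 0 - 1 : ℤ) : ZMod M) = 0 := by
    push_cast
    rw [h, sub_self]
  obtain ⟨k, hk⟩ := (ZMod.intCast_zmod_eq_zero_iff_dvd _ _).mp h1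
  exact ⟨1, -k, by linear_combination hk⟩

/-- an integral matrix of determinant one and shape `(u *; 0 *)` is in `Γ₀(M)` -/
def ofMZ {M : ℕ} (g : MZ) (hdet : g.det = 1) (h10 : (M : ℤ) ∣ g 1 0) : ↥(Gamma0 M) :=
  ⟨⟨g, hdet⟩, Gamma0_mem.mpr ((ZMod.intCast_zmod_eq_zero_iff_dvd _ _).mpr h10)⟩

@[simp] theorem toMZ_ofMZ {M : ℕ} (g : MZ) (hdet : g.det = 1) (h10 : (M : ℤ) ∣ g 1 0) :
    toMZ (ofMZ g hdet h10) = g := rfl

/-- A family of integral Hecke representatives of determinant `n` for `Γ₀(M)`. -/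
structure RepFam (M : ℕ) (n : ℤ) (ι : Type*) where
  /-- the representatives -/
  P : ι → MZ
  shape : ∀ x, Shape1 M (P x)
  det_eq : ∀ x, (P x).det = n
  peel : ∀ g : MZ, ShapeU M g → n ∣ g.det → ∃ x g', ShapeU M g' ∧ g = g' * P x
  uniq : ∀ (g' g'' : MZ) (x x' : ι), IsCoprime g'.det n → IsCoprime g''.det n →
    g' * P x = g'' * P x' → x = x'

/-- the relation between a coset datum and its representatives -/
def RepFam.Rel {M : ℕ} {n : ℤ} {ι : Type*} (F : RepFam M n ι)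
    (D : CosetData ↥(Gamma0 M) ↥(Gamma0 M) ι) : Prop :=
  ∀ γ x, F.P x * toMZ γ = toMZ (D.c γ x) * F.P (D.σ γ x)

/-- the lower right entry of `d` is `1` modulo `M` when `A = d * B` with `A`, `B` of shape `1` -/
theorem unitHom_eq_one_of_shape {M : ℕ} {A B : MZ} (hA : Shape1 M A) (hB : Shape1 M B)
    (d : ↥(Gamma0 M)) (h : A = toMZ d * B) : unitHom M d = 1 := by
  have h00 := congrFun (congrFun h 0) 0
  rw [Matrix.mul_apply, Fin.sum_univ_two] at h00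
  have h1 := congrArg (Int.cast : ℤ → ZMod M) h00
  push_cast at h1
  rw [hA.2, hB.2, (ZMod.intCast_zmod_eq_zero_iff_dvd _ _).mpr hB.1, mul_zero, add_zero,
    mul_one] at h1
  have h2 := upperLeft_mul_gamma0Map d
  have h3 : ((((d : SL(2, ℤ)) 0 0 : ℤ)) : ZMod M) = 1 := h1.symm
  rw [h3, one_mul] at h2
  apply Units.ext
  rw [coe_unitHom, h2]
  rfl

section main

variable {M : ℕ} [NeZero M] {n₁ n₂ : ℤ} {ι κ : Type*} [Fintype ι] [Fintype κ]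
  {D₁ : CosetData ↥(Gamma0 M) ↥(Gamma0 M) ι} {D₂ : CosetData ↥(Gamma0 M) ↥(Gamma0 M) κ}
  (F₁ : RepFam M n₁ ι) (F₂ : RepFam M n₂ κ)

/-- uniqueness of the decomposition `c * P₁ x * P₂ y` -/
theorem RepFam.uniq_pair (hcop : IsCoprime n₁ n₂) (hn₁ : n₁ ≠ 0) (hn₂ : n₂ ≠ 0)
    (c c' : ↥(Gamma0 M)) (x x' : ι) (y y' : κ)
    (h : toMZ c * (F₁.P x * F₂.P y) = toMZ c' * (F₁.P x' * F₂.P y')) :
    x = x' ∧ y = y' ∧ c = c' := by
  have hy : y = y' := by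
    refine F₂.uniq (toMZ c * F₁.P x) (toMZ c' * F₁.P x') y y' ?_ ?_ ?_
    · rw [Matrix.det_mul, toMZ_det, one_mul, F₁.det_eq]
      exact hcop
    · rw [Matrix.det_mul, toMZ_det, one_mul, F₁.det_eq]
      exact hcop
    · rw [Matrix.mul_assoc, Matrix.mul_assoc]
      exact h
  subst hy
  have h2 : toMZ c * F₁.P x = toMZ c' * F₁.P x' := by
    refine MZ_mul_right_cancel (B := F₂.P y) (by rw [F₂.det_eq]; exact hn₂) ?_
    rw [Matrix.mul_assoc, Matrix.mul_assoc]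
    exact h
  have hx : x = x' := by
    refine F₁.uniq (toMZ c) (toMZ c') x x' ?_ ?_ h2
    · rw [toMZ_det]
      exact isCoprime_one_left
    · rw [toMZ_det]
      exact isCoprime_one_left
  subst hx
  refine ⟨rfl, rfl, toMZ_injective ?_⟩
  exact MZ_mul_right_cancel (B := F₁.P x) (by rw [F₁.det_eq]; exact hn₁) h2

/-- existence of the decomposition `g = d * P₁ x * P₂ y` -/
theorem RepFam.exists_pair (hn₁ : n₁ ≠ 0) (hn₂ : n₂ ≠ 0) (g : MZ) (hg : ShapeU M g)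
    (hdet : g.det = n₁ * n₂) :
    ∃ (x : ι) (y : κ) (d : ↥(Gamma0 M)), g = toMZ d * (F₁.P x * F₂.P y) := by
  obtain ⟨y, g', hg', hgy⟩ := F₂.peel g hg (hdet ▸ Dvd.intro_left n₁ rfl)
  have hdet' : g'.det = n₁ := by
    have h1 : g.det = g'.det * n₂ := by rw [hgy, Matrix.det_mul, F₂.det_eq]
    rw [hdet] at h1
    exact (mul_right_cancel₀ hn₂ h1).symm
  obtain ⟨x, d, hd, hgx⟩ := F₁.peel g' hg' (hdet' ▸ dvd_refl _)
  have hdetd : d.det = 1 := by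
    have h1 : g'.det = d.det * n₁ := by rw [hgx, Matrix.det_mul, F₁.det_eq]
    rw [hdet'] at h1
    have h2 : 1 * n₁ = d.det * n₁ := by rw [one_mul]; exact h1
    exact (mul_right_cancel₀ hn₁ h2).symm
  refine ⟨x, y, ofMZ d hdetd hd.1, ?_⟩
  rw [toMZ_ofMZ, hgy, hgx, Matrix.mul_assoc]

include F₁ F₂ in
/-- **Commutation from representative families of coprime determinants.** -/
theorem conjRel_of_repFam (hcop : IsCoprime n₁ n₂) (hn₁ : n₁ ≠ 0) (hn₂ : n₂ ≠ 0)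
    (rel₁ : F₁.Rel D₁) (rel₂ : F₂.Rel D₂) : ConjRel (unitHom M) D₁ D₂ := by
  classical
  -- representatives of the two composites
  let Q₁₂ : ι × κ → MZ := fun p => F₂.P p.2 * F₁.P p.1
  let Q₂₁ : κ × ι → MZ := fun k => F₁.P k.2 * F₂.P k.1
  have hQ₁₂ : ∀ p, Shape1 M (Q₁₂ p) := fun p => (F₂.shape p.2).mul (F₁.shape p.1)
  have hQ₂₁ : ∀ k, Shape1 M (Q₂₁ k) := fun k => (F₁.shape k.2).mul (F₂.shape k.1)
  have h₁₂ : ∀ γ p, Q₁₂ p * toMZ γ =
      toMZ ((D₁.comp D₂).c γ p) * Q₁₂ ((D₁.comp D₂).σ γ p) := by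
    intro γ p
    show F₂.P p.2 * F₁.P p.1 * toMZ γ = toMZ (D₂.c (D₁.c γ p.1) p.2) *
      (F₂.P (D₂.σ (D₁.c γ p.1) p.2) * F₁.P (D₁.σ γ p.1))
    rw [Matrix.mul_assoc, rel₁ γ p.1, ← Matrix.mul_assoc, rel₂ (D₁.c γ p.1) p.2,
      Matrix.mul_assoc]
  have h₂₁ : ∀ γ k, Q₂₁ k * toMZ γ =
      toMZ ((D₂.comp D₁).c γ k) * Q₂₁ ((D₂.comp D₁).σ γ k) := by
    intro γ k
    show F₁.P k.2 * F₂.P k.1 * toMZ γ = toMZ (D₁.c (D₂.c γ k.1) k.2) *
      (F₁.P (D₁.σ (D₂.c γ k.1) k.2) * F₂.P (D₂.σ γ k.1))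
    rw [Matrix.mul_assoc, rel₂ γ k.1, ← Matrix.mul_assoc, rel₁ (D₂.c γ k.1) k.2,
      Matrix.mul_assoc]
  -- existence
  have hE : ∀ p : ι × κ, ∃ (k : κ × ι) (d : ↥(Gamma0 M)), Q₁₂ p = toMZ d * Q₂₁ k := by
    intro p
    have hdet : (Q₁₂ p).det = n₁ * n₂ := by
      show (F₂.P p.2 * F₁.P p.1).det = _
      rw [Matrix.det_mul, F₁.det_eq, F₂.det_eq, mul_comm]
    obtain ⟨x, y, d, hd⟩ := F₁.exists_pair F₂ hn₁ hn₂ (Q₁₂ p) (hQ₁₂ p).shapeU hdet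
    exact ⟨(y, x), d, hd⟩
  choose e d hd using hE
  -- uniqueness
  have hU₁₂ : ∀ (c c' : ↥(Gamma0 M)) (p p' : ι × κ),
      toMZ c * Q₁₂ p = toMZ c' * Q₁₂ p' → p = p' := by
    intro c c' p p' h
    obtain ⟨h1, h2, -⟩ := F₂.uniq_pair F₁ hcop.symm hn₂ hn₁ c c' p.2 p'.2 p.1 p'.1 h
    exact Prod.ext h2 h1
  have hU₂₁ : ∀ (c c' : ↥(Gamma0 M)) (k k' : κ × ι),
      toMZ c * Q₂₁ k = toMZ c' * Q₂₁ k' → k = k' ∧ c = c' := by
    intro c c' k k' h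
    obtain ⟨h1, h2, h3⟩ := F₁.uniq_pair F₂ hcop hn₁ hn₂ c c' k.2 k'.2 k.1 k'.1 h
    exact ⟨Prod.ext h2 h1, h3⟩
  have hinj : Function.Injective e := by
    intro p p' hpp'
    have e1 : toMZ (d p)⁻¹ * Q₁₂ p = Q₂₁ (e p) := by
      rw [hd p, ← Matrix.mul_assoc, toMZ_inv_mul, Matrix.one_mul]
    have e2 : toMZ (d p')⁻¹ * Q₁₂ p' = Q₂₁ (e p') := by
      rw [hd p', ← Matrix.mul_assoc, toMZ_inv_mul, Matrix.one_mul]
    refine hU₁₂ (d p)⁻¹ (d p')⁻¹ p p' ?_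
    rw [e1, e2, hpp']
  have hbij : Function.Bijective e :=
    (Fintype.bijective_iff_injective_and_card e).mpr
      ⟨hinj, by rw [Fintype.card_prod, Fintype.card_prod, mul_comm]⟩
  refine ⟨Equiv.ofBijective e hbij, fun p => (d p)⁻¹, fun p => ?_, fun γ p => ?_⟩
  · rw [map_inv, unitHom_eq_one_of_shape (hQ₁₂ p) (hQ₂₁ (e p)) (d p) (hd p), inv_one]
  · rw [inv_inv]
    show (D₂.comp D₁).c γ (e p) = (d p)⁻¹ * (D₁.comp D₂).c γ p * d ((D₁.comp D₂).σ γ p)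
    have e1 := h₂₁ γ (e p)
    have e2 : Q₂₁ (e p) * toMZ γ =
        toMZ ((d p)⁻¹ * (D₁.comp D₂).c γ p * d ((D₁.comp D₂).σ γ p)) *
          Q₂₁ (e ((D₁.comp D₂).σ γ p)) := by
      have e3 : Q₂₁ (e p) = toMZ (d p)⁻¹ * Q₁₂ p := by
        rw [hd p, ← Matrix.mul_assoc, toMZ_inv_mul, Matrix.one_mul]
      rw [e3, Matrix.mul_assoc, h₁₂ γ p, hd ((D₁.comp D₂).σ γ p), toMZ_mul, toMZ_mul]
      simp only [Matrix.mul_assoc]
    rw [e1] at e2
    exact (hU₂₁ _ _ _ _ e2).2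

end main

end Fermat.Agent.S43lib.B1
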