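/-
S43lib / B1 / Comm  (helper3).

**The commutation statement `CommStmt M` is a theorem**: the (normalised) coset data of the Hecke
operators `T_ℓ` (`ℓ ∤ M`) and `U_q` (`q ∣ M`) of level `M` commute up to conjugation by elements of
`Γ₁(M)`.  The proof is by integral representatives (`CommAbs.conjRel_of_repFam`): the representatives
of `T_ℓ` are `σ_ℓ (ℓ 0; 0 1)` and `(1 j; 0 ℓ)`, those of `U_q` are `(1 j; 0 q)`.
-/
import Fermat.Agent.S43lib.B1.CommAbs
import Fermat.Agent.S41lib.HC.Unique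

set_option autoImplicit false
set_option linter.unusedSectionVars false
set_option linter.unusedVariables false

noncomputable section

namespace Fermat.Agent.S43lib.B1

open CongruenceSubgroup Matrix.SpecialLinearGroup ModularForm
open Fermat.Agent.S16lib.LH Fermat.Agent.S41lib.HC Fermat.Agent.S48lib.W1
open P2MW.S_ModularForm_heckeT_slash_eq_self_of_mem_Gamma0.ModularForm.HeckeSlashInvariance
open scoped MatrixGroups

/-! ### Generalities on integral matrices modulo a prime -/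

/-- a matrix of determinant prime to `p` is injective modulo `p` -/
theorem dvd_of_dvd_mulVec {p : ℤ} {g : MZ} (hg : IsCoprime g.det p) (w : Fin 2 → ℤ)
    (h : ∀ i, p ∣ (g.mulVec w) i) (i : Fin 2) : p ∣ w i := by
  have h1 : g.adjugate.mulVec (g.mulVec w) = g.det • w := by
    rw [Matrix.mulVec_mulVec, Matrix.adjugate_mul, Matrix.smul_mulVec, Matrix.one_mulVec]
  have h2 : p ∣ (g.adjugate.mulVec (g.mulVec w)) i := by
    rw [Matrix.mulVec, dotProduct]
    exact Finset.dvd_sum fun k _ => Dvd.dvd.mul_left (h k) _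
  rw [h1, Pi.smul_apply, smul_eq_mul] at h2
  exact hg.symm.dvd_of_dvd_mul_left h2

/-- transport of the kernel modulo `p` -/
theorem dvd_mulVec_of_eq {p : ℤ} {g' g'' P P' : MZ} (hg : IsCoprime g''.det p)
    (h : g' * P = g'' * P') (v : Fin 2 → ℤ) (hv : ∀ i, p ∣ (P.mulVec v) i) (i : Fin 2) :
    p ∣ (P'.mulVec v) i := by
  refine dvd_of_dvd_mulVec hg _ (fun k => ?_) i
  rw [Matrix.mulVec_mulVec, ← h, ← Matrix.mulVec_mulVec]
  rw [Matrix.mulVec, dotProduct]
  exact Finset.dvd_sum fun m _ => Dvd.dvd.mul_left (hv m) _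

/-- the finite representatives `(1 j; 0 p)` -/
def finRep (p : ℕ) (j : ℕ) : MZ := !![1, (j : ℤ); 0, (p : ℤ)]

theorem finRep_det (p j : ℕ) : (finRep p j).det = p := by
  rw [finRep, Matrix.det_fin_two_of]
  ring

theorem finRep_shape (M p j : ℕ) : Shape1 M (finRep p j) := by
  constructor
  · show (M : ℤ) ∣ 0
    exact dvd_zero _
  · show ((1 : ℤ) : ZMod M) = 1
    simp

/-- uniqueness for the finite representatives -/
theorem finRep_uniq {p : ℕ} [Fact p.Prime] {g' g'' : MZ} (hg : IsCoprime g''.det (p : ℤ))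
    (j j' : ZMod p) (h : g' * finRep p j.val = g'' * finRep p j'.val) : j = j' := by
  have h1 := dvd_mulVec_of_eq hg h ![-(j.val : ℤ), 1] (fun i => by
    fin_cases i
    · simp [-ZMod.natCast_val, finRep, Matrix.mulVec, dotProduct]
    · simp [-ZMod.natCast_val, finRep, Matrix.mulVec, dotProduct]) 0
  simp [-ZMod.natCast_val, finRep, Matrix.mulVec, dotProduct] at h1
  have h2 : ((-(j.val : ℤ) + (j'.val : ℤ) : ℤ) : ZMod p) = 0 :=
    (ZMod.intCast_zmod_eq_zero_iff_dvd _ _).mpr h1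
  push_cast at h2
  rw [ZMod.natCast_zmod_val, ZMod.natCast_zmod_val] at h2
  linear_combination -h2

/-- peeling off a finite representative when the first column is nonzero modulo `p` -/
theorem finRep_peel {p : ℕ} [Fact p.Prime] (g : MZ) (hdet : (p : ℤ) ∣ g.det)
    (hcol : ¬ ((p : ℤ) ∣ g 0 0 ∧ (p : ℤ) ∣ g 1 0)) :
    ∃ (j : ZMod p) (g' : MZ), g = g' * finRep p j.val ∧ g' 0 0 = g 0 0 ∧ g' 1 0 = g 1 0 := by
  have hp : (p : ℤ) ≠ 0 := by exact_mod_cast (Fact.out : p.Prime).ne_zero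
  -- the coefficients modulo `p`
  have hdet' : ((g 0 0 : ℤ) : ZMod p) * (g 1 1 : ℤ) - (g 0 1 : ℤ) * (g 1 0 : ℤ) = 0 := by
    have := (ZMod.intCast_zmod_eq_zero_iff_dvd _ _).mpr hdet
    rw [Matrix.det_fin_two] at this
    push_cast at this
    exact this
  have hex : ∃ j : ZMod p, ((g 0 1 : ℤ) : ZMod p) = (g 0 0 : ℤ) * j ∧
      ((g 1 1 : ℤ) : ZMod p) = (g 1 0 : ℤ) * j := by
    by_cases ha : ((g 0 0 : ℤ) : ZMod p) = 0
    · have hc : ((g 1 0 : ℤ) : ZMod p) ≠ 0 := by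
        intro hc
        exact hcol ⟨(ZMod.intCast_zmod_eq_zero_iff_dvd _ _).mp ha,
          (ZMod.intCast_zmod_eq_zero_iff_dvd _ _).mp hc⟩
      refine ⟨(g 1 1 : ℤ) * ((g 1 0 : ℤ) : ZMod p)⁻¹, ?_, ?_⟩
      · rw [ha, zero_mul]
        rw [ha, zero_mul, zero_sub, neg_eq_zero] at hdet'
        rcases mul_eq_zero.mp hdet' with h | h
        · exact h
        · exact absurd h hc
      · field_simp
    · refine ⟨(g 0 1 : ℤ) * ((g 0 0 : ℤ) : ZMod p)⁻¹, ?_, ?_⟩
      · field_simp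
      · field_simp
        linear_combination hdet'
  obtain ⟨j, hj0, hj1⟩ := hex
  have hd0 : (p : ℤ) ∣ g 0 1 - g 0 0 * (j.val : ℤ) := by
    apply (ZMod.intCast_zmod_eq_zero_iff_dvd _ _).mp
    push_cast
    rw [ZMod.natCast_zmod_val, hj0, sub_self]
  have hd1 : (p : ℤ) ∣ g 1 1 - g 1 0 * (j.val : ℤ) := by
    apply (ZMod.intCast_zmod_eq_zero_iff_dvd _ _).mp
    push_cast
    rw [ZMod.natCast_zmod_val, hj1, sub_self]
  obtain ⟨u, hu⟩ := hd0
  obtain ⟨v, hv⟩ := hd1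
  refine ⟨j, !![g 0 0, u; g 1 0, v], ?_, rfl, rfl⟩
  ext a b
  fin_cases a <;> fin_cases b
  · simp [-ZMod.natCast_val, finRep, Matrix.mul_apply, Fin.sum_univ_two]
  · simp [-ZMod.natCast_val, finRep, Matrix.mul_apply, Fin.sum_univ_two]
    linear_combination hu
  · simp [-ZMod.natCast_val, finRep, Matrix.mul_apply, Fin.sum_univ_two]
  · simp [-ZMod.natCast_val, finRep, Matrix.mul_apply, Fin.sum_univ_two]
    linear_combination hv

/-! ### `ShapeU` is stable under right multiplication by `Γ₀(M)` -/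

theorem toMZ_00_isCoprime {M : ℕ} (γ : ↥(Gamma0 M)) : IsCoprime (toMZ γ 0 0) (M : ℤ) := by
  have h := toMZ_det γ
  rw [Matrix.det_fin_two] at h
  obtain ⟨k, hk⟩ := toMZ_10 γ
  exact ⟨toMZ γ 1 1, -(toMZ γ 0 1 * k), by rw [hk] at h; linear_combination h⟩

theorem ShapeU.mul_toMZ {M : ℕ} {g : MZ} (hg : ShapeU M g) (γ : ↥(Gamma0 M)) :
    ShapeU M (g * toMZ γ) := by
  obtain ⟨h1, h0⟩ := hg
  constructor
  · rw [Matrix.mul_apply, Fin.sum_univ_two]
    exact dvd_add (Dvd.dvd.mul_right h1 _) (Dvd.dvd.mul_left (toMZ_10 γ) _)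
  · rw [Matrix.mul_apply, Fin.sum_univ_two]
    obtain ⟨k, hk⟩ := toMZ_10 γ
    rw [hk]
    have h2 : IsCoprime (g 0 0 * toMZ γ 0 0) (M : ℤ) := h0.mul_left (toMZ_00_isCoprime γ)
    have h3 : g 0 0 * toMZ γ 0 0 + g 0 1 * ((M : ℤ) * k) =
        g 0 0 * toMZ γ 0 0 + (g 0 1 * k) * (M : ℤ) := by ring
    rw [h3]
    exact h2.add_mul_right_left _

/-! ### The integral relations -/

theorem coe_heckeMatrix {p : ℕ} [NeZero p] (j : ℕ) :
    ((heckeMatrix p j : GL (Fin 2) ℝ) : Matrix (Fin 2) (Fin 2) ℝ) =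
      (finRep p j).map (Int.castRingHom ℝ) := by
  rw [val_heckeMatrix (NeZero.ne p), finRep]
  ext i k
  fin_cases i <;> fin_cases k <;> simp

theorem repInt_coe_eq {ℓ : ℕ} (j : ZMod ℓ) : repInt ℓ (j : OnePoint (ZMod ℓ)) = finRep ℓ j.val := rfl

/-- the integral form of `tCoc_rel` -/
theorem tCoc_rel_int {M ℓ : ℕ} [Fact ℓ.Prime] (hℓM : ¬ ℓ ∣ M) (γ : ↥(Gamma0 M))
    (x : OnePoint (ZMod ℓ)) :
    repInt ℓ x * toMZ γ = toMZ (tCoc hℓM γ x) * repInt ℓ (tPerm ℓ γ x) := by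
  have h := tCoc_rel hℓM γ x
  have h1 := congrArg (fun g : GL (Fin 2) ℝ => (g : Matrix (Fin 2) (Fin 2) ℝ)) h
  simp only [Units.val_mul] at h1
  rw [coe_mapGL_int, coe_mapGL_int, coe_heckeRep, coe_heckeRep, ← Matrix.map_mul,
    ← Matrix.map_mul] at h1
  exact Matrix.map_injective (Int.cast_injective (α := ℝ)) h1

/-- the integral form of `uCoc_rel` -/
theorem uCoc_rel_int {M q : ℕ} [NeZero q] (hqM : q ∣ M) (γ : ↥(Gamma0 M)) (x : ZMod q) :
    finRep q x.val * toMZ γ = toMZ (uCoc hqM γ x) * finRep q (uPerm hqM γ x).val := by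
  have h := uCoc_rel hqM γ x
  have h1 := congrArg (fun g : GL (Fin 2) ℝ => (g : Matrix (Fin 2) (Fin 2) ℝ)) h
  simp only [Units.val_mul] at h1
  rw [coe_mapGL_int, coe_mapGL_int, coe_heckeMatrix, coe_heckeMatrix, ← Matrix.map_mul,
    ← Matrix.map_mul] at h1
  exact Matrix.map_injective (Int.cast_injective (α := ℝ)) h1

/-! ### The family of `U_q` -/

section U

variable {M q : ℕ} [NeZero M] [Fact q.Prime] (hqM : q ∣ M)

theorem not_prime_dvd_one {p : ℕ} [Fact p.Prime] : ¬ (p : ℤ) ∣ 1 := by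
  intro h
  have h1 : p ∣ 1 := by exact_mod_cast h
  exact (Fact.out : p.Prime).one_lt.ne' (Nat.dvd_one.mp h1)

/-- the representative family of `U_q` -/
def uFam : RepFam M (q : ℤ) (ZMod q) where
  P j := finRep q j.val
  shape j := finRep_shape M q j.val
  det_eq j := finRep_det q j.val
  peel g hg hdet := by
    have hcol : ¬ ((q : ℤ) ∣ g 0 0 ∧ (q : ℤ) ∣ g 1 0) := by
      rintro ⟨h0, -⟩
      have h1 : IsCoprime (g 0 0) (q : ℤ) :=
        hg.2.of_isCoprime_of_dvd_right (Int.natCast_dvd_natCast.mpr hqM)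
      have h2 : IsUnit (q : ℤ) := h1.isUnit_of_dvd' h0 (dvd_refl _)
      exact not_prime_dvd_one (p := q) h2.dvd
    obtain ⟨j, g', hg', h00, h10⟩ := finRep_peel g hdet hcol
    exact ⟨j, g', ⟨h10 ▸ hg.1, h00 ▸ hg.2⟩, hg'⟩
  uniq g' g'' x x' h1 h2 h := finRep_uniq h2 x x' h

theorem uFam_rel :
    (uFam (M := M) hqM).Rel (@uData M q ⟨(Fact.out : q.Prime).ne_zero⟩ hqM) := by
  intro γ x
  exact @uCoc_rel_int M q ⟨(Fact.out : q.Prime).ne_zero⟩ hqM γ x

end U

/-! ### The family of `T_ℓ` -/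

section T

variable {M ℓ : ℕ} [NeZero M] [Fact ℓ.Prime] (hℓM : ¬ ℓ ∣ M)

/-- raw uniqueness for the representatives `repInt` -/
theorem repInt_uniq {g' g'' : MZ} (hg : IsCoprime g''.det (ℓ : ℤ)) (hg' : IsCoprime g'.det (ℓ : ℤ))
    (x x' : OnePoint (ZMod ℓ)) (h : g' * repInt ℓ x = g'' * repInt ℓ x') : x = x' := by
  induction x using OnePoint.rec with
  | infty =>
    induction x' using OnePoint.rec with
    | infty => rfl
    | coe j' =>
      exfalso
      have h1 := dvd_mulVec_of_eq hg h ![1, 0] (fun i => by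
        fin_cases i
        · simp [repInt, Matrix.mulVec, dotProduct]
        · simp [repInt, Matrix.mulVec, dotProduct]) 0
      simp [-ZMod.natCast_val, repInt, Matrix.mulVec, dotProduct] at h1
      exact not_prime_dvd_one (p := ℓ) h1
  | coe j =>
    induction x' using OnePoint.rec with
    | infty =>
      exfalso
      have h1 := dvd_mulVec_of_eq hg h ![-(j.val : ℤ), 1] (fun i => by
        fin_cases i
        · simp [-ZMod.natCast_val, repInt, Matrix.mulVec, dotProduct]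
        · simp [-ZMod.natCast_val, repInt, Matrix.mulVec, dotProduct]) 1
      simp [-ZMod.natCast_val, repInt, Matrix.mulVec, dotProduct] at h1
      exact not_prime_dvd_one (p := ℓ) h1
    | coe j' =>
      rw [repInt_coe_eq, repInt_coe_eq] at h
      rw [finRep_uniq hg j j' h]

/-- the representatives of the normalised datum of `T_ℓ` -/
def tRepN (x : OnePoint (ZMod ℓ)) : MZ := toMZ (nDelta hℓM x) * repInt ℓ x

theorem tRepN_shape (x : OnePoint (ZMod ℓ)) : Shape1 M (tRepN hℓM x) := by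
  induction x using OnePoint.rec with
  | infty =>
    have hu : Gamma0Map M (unitRep (ellUnit hℓM)) = (ℓ : ZMod M) := by
      rw [← coe_unitHom, unitHom_apply, gamma0Unit_unitRep, coe_ellUnit]
    have h2 := upperLeft_mul_gamma0Map (unitRep (ellUnit hℓM))
    rw [hu] at h2
    constructor
    · show (M : ℤ) ∣ (toMZ (unitRep (ellUnit hℓM)) * repInt ℓ OnePoint.infty) 1 0
      rw [Matrix.mul_apply, Fin.sum_univ_two]
      simp only [repInt_infty, Matrix.of_apply, Matrix.cons_val', Matrix.cons_val_zero,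
        Matrix.cons_val_one, Matrix.empty_val', Matrix.cons_val_fin_one, mul_zero, add_zero]
      exact Dvd.dvd.mul_right (toMZ_10 _) _
    · show (((toMZ (unitRep (ellUnit hℓM)) * repInt ℓ OnePoint.infty) 0 0 : ℤ) : ZMod M) = 1
      rw [Matrix.mul_apply, Fin.sum_univ_two]
      simp only [repInt_infty, Matrix.of_apply, Matrix.cons_val', Matrix.cons_val_zero,
        Matrix.cons_val_one, Matrix.empty_val', Matrix.cons_val_fin_one, mul_zero, add_zero]
      push_cast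
      exact h2
  | coe j =>
    show Shape1 M (toMZ (1 : ↥(Gamma0 M)) * repInt ℓ (j : OnePoint (ZMod ℓ)))
    rw [toMZ_one, Matrix.one_mul, repInt_coe_eq]
    exact finRep_shape M ℓ j.val

include hℓM in
theorem isCoprime_ell_M : IsCoprime (ℓ : ℤ) (M : ℤ) :=
  Nat.isCoprime_iff_coprime.mpr ((Nat.Prime.coprime_iff_not_dvd Fact.out).mpr hℓM)

/-- the representative family of `T_ℓ` -/
def tFam : RepFam M (ℓ : ℤ) (OnePoint (ZMod ℓ)) where
  P := tRepN hℓM
  shape := tRepN_shape hℓM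
  det_eq x := by rw [tRepN, Matrix.det_mul, toMZ_det, one_mul, det_repInt]
  peel g hg hdet := by
    by_cases hcol : (ℓ : ℤ) ∣ g 0 0 ∧ (ℓ : ℤ) ∣ g 1 0
    · obtain ⟨⟨a', ha'⟩, ⟨c', hc'⟩⟩ := hcol
      have hg₁ : ShapeU M !![a', g 0 1; c', g 1 1] := by
        constructor
        · show (M : ℤ) ∣ c'
          have h1 : (M : ℤ) ∣ (ℓ : ℤ) * c' := hc' ▸ hg.1
          exact (isCoprime_ell_M hℓM).symm.dvd_of_dvd_mul_left h1
        · show IsCoprime a' (M : ℤ)
          have h1 : IsCoprime ((ℓ : ℤ) * a') (M : ℤ) := ha' ▸ hg.2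
          exact h1.of_mul_left_right
      refine ⟨OnePoint.infty, !![a', g 0 1; c', g 1 1] * toMZ (unitRep (ellUnit hℓM))⁻¹,
        hg₁.mul_toMZ _, ?_⟩
      show g = !![a', g 0 1; c', g 1 1] * toMZ (unitRep (ellUnit hℓM))⁻¹ *
        (toMZ (unitRep (ellUnit hℓM)) * repInt ℓ OnePoint.infty)
      rw [Matrix.mul_assoc, ← Matrix.mul_assoc (toMZ _), toMZ_inv_mul, Matrix.one_mul]
      ext a b
      fin_cases a <;> fin_cases b
      · simp [Matrix.mul_apply, Fin.sum_univ_two, ha', mul_comm]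
      · simp [Matrix.mul_apply, Fin.sum_univ_two]
      · simp [Matrix.mul_apply, Fin.sum_univ_two, hc', mul_comm]
      · simp [Matrix.mul_apply, Fin.sum_univ_two]
    · obtain ⟨j, g', hg', h00, h10⟩ := finRep_peel g hdet hcol
      refine ⟨(j : OnePoint (ZMod ℓ)), g', ⟨h10 ▸ hg.1, h00 ▸ hg.2⟩, ?_⟩
      show g = g' * (toMZ (1 : ↥(Gamma0 M)) * repInt ℓ (j : OnePoint (ZMod ℓ)))
      rw [toMZ_one, Matrix.one_mul, repInt_coe_eq]
      exact hg'
  uniq g' g'' x x' h1 h2 h := by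
    refine repInt_uniq (g' := g' * toMZ (nDelta hℓM x)) (g'' := g'' * toMZ (nDelta hℓM x'))
      ?_ ?_ x x' ?_
    · rw [Matrix.det_mul, toMZ_det, mul_one]
      exact h2
    · rw [Matrix.det_mul, toMZ_det, mul_one]
      exact h1
    · rw [Matrix.mul_assoc, Matrix.mul_assoc]
      exact h

theorem tFam_rel : (tFam hℓM).Rel (nData hℓM) := by
  intro γ x
  show toMZ (nDelta hℓM x) * repInt ℓ x * toMZ γ =
    toMZ (nDelta hℓM x * tCoc hℓM γ x * (nDelta hℓM (tPerm ℓ γ x))⁻¹) *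
      (toMZ (nDelta hℓM (tPerm ℓ γ x)) * repInt ℓ (tPerm ℓ γ x))
  rw [← Matrix.mul_assoc, ← toMZ_mul, inv_mul_cancel_right, toMZ_mul, Matrix.mul_assoc,
    Matrix.mul_assoc, tCoc_rel_int hℓM γ x]

/-- the real representatives of the normalised datum of `T_ℓ` -/
def repN (x : OnePoint (ZMod ℓ)) : GL (Fin 2) ℝ :=
  (mapGL ℝ ((nDelta hℓM x : ↥(Gamma0 M)) : SL(2, ℤ)) : GL (Fin 2) ℝ) * heckeRep ℓ x

/-- **The `GL₂(ℝ)`-relation of the normalised datum of `T_ℓ`** (for the bridge to modular forms). -/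
theorem repN_rel (γ : ↥(Gamma0 M)) (x : OnePoint (ZMod ℓ)) :
    repN hℓM x * (mapGL ℝ (γ : SL(2, ℤ)) : GL (Fin 2) ℝ) =
      (mapGL ℝ (((nData hℓM).c γ x : ↥(Gamma0 M)) : SL(2, ℤ)) : GL (Fin 2) ℝ) *
        repN hℓM ((nData hℓM).σ γ x) := by
  show (mapGL ℝ ((nDelta hℓM x : ↥(Gamma0 M)) : SL(2, ℤ)) : GL (Fin 2) ℝ) * heckeRep ℓ x *
      (mapGL ℝ (γ : SL(2, ℤ)) : GL (Fin 2) ℝ) =
    (mapGL ℝ (((nDelta hℓM x * tCoc hℓM γ x * (nDelta hℓM (tPerm ℓ γ x))⁻¹ : ↥(Gamma0 M)) :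
      ↥(Gamma0 M)) : SL(2, ℤ)) : GL (Fin 2) ℝ) *
      ((mapGL ℝ ((nDelta hℓM (tPerm ℓ γ x) : ↥(Gamma0 M)) : SL(2, ℤ)) : GL (Fin 2) ℝ) *
        heckeRep ℓ (tPerm ℓ γ x))
  rw [mul_assoc, tCoc_rel hℓM γ x]
  simp only [Subgroup.coe_mul, Subgroup.coe_inv, map_mul, map_inv]
  group

end T

/-! ### The commutation statement -/

section comm

variable (M : ℕ) [NeZero M]

/-- the index type of the operators `T_ℓ`, `U_q` -/
abbrev LvlIdx₀ : Type := {ℓ : ℕ // ℓ.Prime ∧ ¬ ℓ ∣ M} ⊕ {q : ℕ // q.Prime ∧ q ∣ M}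

/-- the prime of an index -/
def lvlN : LvlIdx₀ M → ℕ
  | Sum.inl ℓ => ℓ.1
  | Sum.inr q => q.1

theorem lvlN_prime : ∀ i : LvlIdx₀ M, (lvlN M i).Prime
  | Sum.inl ℓ => ℓ.2.1
  | Sum.inr q => q.2.1

theorem lvlN_injective : Function.Injective (lvlN M) := by
  rintro (ℓ | q) (ℓ' | q') h
  · exact congrArg Sum.inl (Subtype.ext h)
  · exact absurd (show ℓ.1 ∣ M from (show ℓ.1 = q'.1 from h) ▸ q'.2.2) ℓ.2.2
  · exact absurd (show ℓ'.1 ∣ M from (show q.1 = ℓ'.1 from h) ▸ q.2.2) ℓ'.2.2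
  · exact congrArg Sum.inr (Subtype.ext h)

/-- the representative families -/
def lvlFam : ∀ i : LvlIdx₀ M, RepFam M ((lvlN M i : ℕ) : ℤ) (lvlIota M (Sum.inl i))
  | Sum.inl ℓ =>
    haveI : Fact ℓ.1.Prime := ⟨ℓ.2.1⟩
    tFam (ℓ := ℓ.1) ℓ.2.2
  | Sum.inr q =>
    haveI : Fact q.1.Prime := ⟨q.2.1⟩
    uFam (q := q.1) q.2.2

theorem lvlFam_rel : ∀ i : LvlIdx₀ M, (lvlFam M i).Rel (lvlD M (Sum.inl i))
  | Sum.inl ℓ =>
    haveI : Fact ℓ.1.Prime := ⟨ℓ.2.1⟩
    tFam_rel (ℓ := ℓ.1) ℓ.2.2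
  | Sum.inr q =>
    haveI : Fact q.1.Prime := ⟨q.2.1⟩
    uFam_rel (q := q.1) q.2.2

/-- **The Hecke operators of level `M` commute** (on the level of coset data, up to `Γ₁(M)`). -/
theorem commStmt : CommStmt M := by
  rintro (i | u) (j | v)
  · by_cases hij : i = j
    · subst hij
      exact ⟨Equiv.refl _, fun _ => 1, fun _ => map_one _, fun γ p => by simp⟩
    · have hne : lvlN M i ≠ lvlN M j := fun h => hij (lvlN_injective M h)
      have hcop : IsCoprime ((lvlN M i : ℕ) : ℤ) ((lvlN M j : ℕ) : ℤ) :=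
        Nat.isCoprime_iff_coprime.mpr
          ((Nat.coprime_primes (lvlN_prime M i) (lvlN_prime M j)).mpr hne)
      have h0 : ∀ k, ((lvlN M k : ℕ) : ℤ) ≠ 0 := fun k => by
        exact_mod_cast (lvlN_prime M k).ne_zero
      exact conjRel_of_repFam (lvlFam M i) (lvlFam M j) hcop (h0 i) (h0 j)
        (lvlFam_rel M i) (lvlFam_rel M j)
  · exact conjRel_diam_right (lvlD_equivariant M (Sum.inl i)) (unitRep v)
  · exact conjRel_diam_left (lvlD_equivariant M (Sum.inl j)) (unitRep u)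
  · exact conjRel_diam_diam (unitRep u) (unitRep v)

/-- the Hecke system of level `M` with diamond group `G` (through `χ`), commutation proved -/
abbrev levelSys {M : ℕ} [NeZero M] {G : Type} [Group G] (χ : (ZMod M)ˣ →* G) {I : Type}
    (f : I → LvlIdx M) : HeckeSys ↥(Gamma0 M) G I :=
  lvlSys χ f (commStmt M)

end comm

end Fermat.Agent.S43lib.B1
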