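/-
S43lib / B1 / HeckeLoc  (helper3).

Pure algebra for the localisation of Hecke modules:
* `polyHom`: a commuting family of elements of an algebra gives an algebra map from the polynomial
  ring; linear maps commuting with the generators commute with all polynomials;
* `mkLinearMap_surjective_of_finite`: for a module `M`, finite over a complete Noetherian local ring
  `𝒪`, with a compatible action of a commutative `𝒪`-algebra `𝕋`, the localisation map at a maximal
  ideal of `𝕋` is surjective (the localisation is a direct summand);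
* localisation kills modules annihilated by an element outside the prime; a map whose kernel is so
  annihilated localises to an injective map.
-/
import Mathlib
import Fermat.Prelude.Thm_Algebra_finite_maximalSpectrum_and_bijective_localization_of_module_finite

set_option autoImplicit false
set_option linter.unusedSectionVars false
set_option linter.unusedVariables false
set_option linter.style.haveILetI false

noncomputable section

namespace Fermat.Agent.S43lib.B1

open IsLocalRing MvPolynomial

/-! ### Polynomial rings acting through commuting families -/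

section poly

variable {R : Type*} [CommRing R] {I : Type*} {E : Type*} [Ring E] [Algebra R E]

open scoped IsMulCommutative in
/-- the algebra map `R[X_i] → E` of a commuting family -/
def polyHom (t : I → E) (ht : ∀ i j, t i * t j = t j * t i) : MvPolynomial I R →ₐ[R] E :=
  haveI := Algebra.isMulCommutative_adjoin R (s := Set.range t) (by
    rintro _ ⟨i, rfl⟩ _ ⟨j, rfl⟩
    exact ht i j)
  (Algebra.adjoin R (Set.range t)).val.comp
    (MvPolynomial.aeval
      (fun i => (⟨t i, Algebra.subset_adjoin ⟨i, rfl⟩⟩ : Algebra.adjoin R (Set.range t))))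

@[simp] theorem polyHom_X (t : I → E) (ht : ∀ i j, t i * t j = t j * t i) (i : I) :
    polyHom (R := R) t ht (X i) = t i := by
  unfold polyHom
  simp

end poly

section polymod

variable {R : Type*} [CommRing R] {I : Type*}
variable {M M' : Type*} [AddCommGroup M] [Module R M] [AddCommGroup M'] [Module R M']

/-- a linear map intertwining two commuting families intertwines all polynomials in them -/
theorem polyHom_intertwine (t : I → Module.End R M) (ht : ∀ i j, t i * t j = t j * t i)
    (t' : I → Module.End R M') (ht' : ∀ i j, t' i * t' j = t' j * t' i) (φ : M →ₗ[R] M')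
    (h : ∀ i x, φ (t i x) = t' i (φ x)) (p : MvPolynomial I R) (x : M) :
    φ (polyHom t ht p x) = polyHom t' ht' p (φ x) := by
  induction p using MvPolynomial.induction_on generalizing x with
  | C a =>
    have h1 : polyHom t ht (C a) = algebraMap R (Module.End R M) a := by
      rw [← MvPolynomial.algebraMap_eq]; exact (polyHom t ht).commutes a
    have h2 : polyHom t' ht' (C a) = algebraMap R (Module.End R M') a := by
      rw [← MvPolynomial.algebraMap_eq]; exact (polyHom t' ht').commutes a
    rw [h1, h2, Module.algebraMap_end_apply, Module.algebraMap_end_apply, map_smul]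
  | add p q hp hq =>
    rw [map_add, map_add, LinearMap.add_apply, LinearMap.add_apply, map_add, hp, hq]
  | mul_X p i hp =>
    rw [map_mul, map_mul, polyHom_X, polyHom_X, Module.End.mul_apply, Module.End.mul_apply, hp, h]

end polymod

/-! ### Localisation is a direct summand -/

theorem mkLinearMap_surjective_of_finite
    {𝒪 : Type} [CommRing 𝒪] [IsLocalRing 𝒪] [IsNoetherianRing 𝒪]
    [IsAdicComplete (maximalIdeal 𝒪) 𝒪]
    {𝕋 : Type} [CommRing 𝕋] [Algebra 𝒪 𝕋] {M : Type*} [AddCommGroup M] [Module 𝒪 M] [Module 𝕋 M]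
    [IsScalarTower 𝒪 𝕋 M] [Module.Finite 𝒪 M] (𝔪 : Ideal 𝕋) [h𝔪 : 𝔪.IsMaximal] :
    Function.Surjective (LocalizedModule.mkLinearMap 𝔪.primeCompl M) := by
  classical
  set J : Ideal 𝕋 := Module.annihilator 𝕋 M with hJdef
  by_cases hJ : J ≤ 𝔪
  swap
  · obtain ⟨t, htJ, ht𝔪⟩ := SetLike.not_le_iff_exists.mp hJ
    intro y
    induction y using LocalizedModule.induction_on with
    | h x s =>
      refine ⟨0, ?_⟩
      rw [map_zero, ← LocalizedModule.zero_mk s]
      refine LocalizedModule.mk_eq.mpr ⟨⟨t, ht𝔪⟩, ?_⟩
      have h1 : ∀ m : M, t • m = 0 := fun m => Module.mem_annihilator.mp htJ m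
      simp only [Submonoid.smul_def, smul_zero]
      rw [smul_comm, h1, smul_zero]
  -- the finite algebra `A = 𝕋 / J`
  obtain ⟨n, sgen, hsgen⟩ := Module.Finite.exists_fin (R := 𝒪) (M := M)
  have hkill : ∀ t : 𝕋, (∀ j, t • sgen j = 0) → t ∈ J := by
    intro t ht
    rw [hJdef, Module.mem_annihilator]
    intro m
    have hm : m ∈ Submodule.span 𝒪 (Set.range sgen) := by rw [hsgen]; trivial
    induction hm using Submodule.span_induction with
    | mem x hx =>
      obtain ⟨j, rfl⟩ := hx
      exact ht j
    | zero => exact smul_zero _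
    | add x y _ _ hx hy => rw [smul_add, hx, hy, add_zero]
    | smul a x _ hx => rw [smul_comm, hx, smul_zero]
  let φ : 𝕋 →ₗ[𝕋] (Fin n → M) := LinearMap.toSpanSingleton 𝕋 (Fin n → M) sgen
  have hφ : J ≤ LinearMap.ker φ := by
    intro t ht
    rw [LinearMap.mem_ker]
    funext j
    show t • sgen j = 0
    exact Module.mem_annihilator.mp ht _
  let ψ : (𝕋 ⧸ J) →ₗ[𝒪] (Fin n → M) := (Submodule.liftQ J φ hφ).restrictScalars 𝒪
  have hψ : Function.Injective ψ := by
    have : LinearMap.ker (Submodule.liftQ J φ hφ) = ⊥ := by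
      rw [Submodule.ker_liftQ_eq_bot']
      refine le_antisymm hφ ?_
      intro t ht
      refine hkill t fun j => ?_
      exact congrFun (LinearMap.mem_ker.mp ht) j
    intro x y hxy
    exact LinearMap.ker_eq_bot.mp this hxy
  have : Module.Finite 𝒪 (𝕋 ⧸ J) := Module.Finite.of_injective ψ hψ
  obtain ⟨hfin, hbij, -, -⟩ :=
    Algebra.finite_maximalSpectrum_and_bijective_localization_of_module_finite (𝒪 := 𝒪) (𝕋 ⧸ J)
  haveI := Fintype.ofFinite (MaximalSpectrum (𝕋 ⧸ J))
  -- the maximal ideal of `A`
  have hsurj : Function.Surjective (Ideal.Quotient.mk J) := Ideal.Quotient.mk_surjective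
  have hcomap : (𝔪.map (Ideal.Quotient.mk J)).comap (Ideal.Quotient.mk J) = 𝔪 := by
    rw [Ideal.comap_map_of_surjective _ hsurj, ← RingHom.ker_eq_comap_bot, Ideal.mk_ker]
    exact sup_eq_left.mpr hJ
  have hmax : (𝔪.map (Ideal.Quotient.mk J)).IsMaximal := by
    rcases Ideal.map_eq_top_or_isMaximal_of_surjective _ hsurj h𝔪 with h | h
    · exfalso
      rw [h, Ideal.comap_top] at hcomap
      exact h𝔪.ne_top hcomap.symm
    · exact h
  let I₀ : MaximalSpectrum (𝕋 ⧸ J) := ⟨_, hmax⟩
  set Φ := (RingHom.pi fun I : MaximalSpectrum (𝕋 ⧸ J) =>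
        algebraMap (𝕋 ⧸ J) (Localization.AtPrime I.asIdeal)) with hΦ
  obtain ⟨e', he'⟩ := hbij.2 (Pi.single I₀ 1)
  obtain ⟨e, rfl⟩ := hsurj e'
  have he𝔪 : e ∉ 𝔪 := by
    intro he
    have h1 : Ideal.Quotient.mk J e ∈ I₀.asIdeal := Ideal.mem_map_of_mem _ he
    have h2 := (IsLocalization.AtPrime.to_map_mem_maximal_iff
      (Localization.AtPrime I₀.asIdeal) I₀.asIdeal (Ideal.Quotient.mk J e)).mpr h1
    have h3 : algebraMap (𝕋 ⧸ J) (Localization.AtPrime I₀.asIdeal) (Ideal.Quotient.mk J e) = 1 := by
      have := congrFun he' I₀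
      rwa [Pi.single_eq_same] at this
    rw [h3] at h2
    exact (Ideal.ne_top_iff_one _).mp (IsLocalRing.maximalIdeal.isMaximal _).ne_top h2
  have hee : ∀ x : M, e • e • x = e • x := by
    intro x
    have h1 : Ideal.Quotient.mk J (e * e - e) = 0 := by
      apply hbij.1
      rw [map_sub (Ideal.Quotient.mk J), map_mul (Ideal.Quotient.mk J), map_sub Φ, map_mul Φ, he',
        map_zero]
      funext I
      by_cases hI : I = I₀
      · subst hI; simp
      · simp [Pi.single_eq_of_ne hI]
    have h2 : e * e - e ∈ J := Ideal.Quotient.eq_zero_iff_mem.mp h1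
    have h3 := Module.mem_annihilator.mp h2 x
    rw [sub_smul, mul_smul, sub_eq_zero] at h3
    exact h3
  intro y
  induction y using LocalizedModule.induction_on with
  | h x s =>
    obtain ⟨s, hs⟩ := s
    have hs' : Ideal.Quotient.mk J s ∈ I₀.asIdeal.primeCompl := by
      intro h
      have : s ∈ (𝔪.map (Ideal.Quotient.mk J)).comap (Ideal.Quotient.mk J) := h
      rw [hcomap] at this
      exact hs this
    have hunit := (IsLocalization.AtPrime.isUnit_to_map_iff
      (Localization.AtPrime I₀.asIdeal) I₀.asIdeal (Ideal.Quotient.mk J s)).mpr hs'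
    obtain ⟨v, hv⟩ := hunit
    obtain ⟨u', hu'⟩ := hbij.2 (Pi.single I₀ (↑v⁻¹ : Localization.AtPrime I₀.asIdeal))
    obtain ⟨u, rfl⟩ := hsurj u'
    have hus : ∀ x : M, s • u • e • x = e • x := by
      intro x
      have h1 : Ideal.Quotient.mk J (s * u * e - e) = 0 := by
        apply hbij.1
        rw [map_sub (Ideal.Quotient.mk J), map_mul (Ideal.Quotient.mk J),
          map_mul (Ideal.Quotient.mk J), map_sub Φ, map_mul Φ, map_mul Φ, he', hu', map_zero]
        funext I
        by_cases hI : I = I₀
        · subst hI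
          simp only [Pi.sub_apply, Pi.mul_apply, Pi.single_eq_same, mul_one, Pi.zero_apply, hΦ,
            RingHom.pi_apply]
          rw [← hv, Units.mul_inv, sub_self]
        · simp [Pi.single_eq_of_ne hI]
      have h2 : s * u * e - e ∈ J := Ideal.Quotient.eq_zero_iff_mem.mp h1
      have h3 := Module.mem_annihilator.mp h2 x
      rw [sub_smul, mul_smul, mul_smul, sub_eq_zero] at h3
      exact h3
    refine ⟨u • e • x, ?_⟩
    rw [LocalizedModule.mkLinearMap_apply]
    refine LocalizedModule.mk_eq.mpr ⟨⟨e, he𝔪⟩, ?_⟩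
    simp only [Submonoid.smul_def, one_smul]
    rw [hus, hee]

/-! ### Killing and injectivity -/

section kill

variable {𝕋 : Type*} [CommRing 𝕋] (S : Submonoid 𝕋)
variable {M N : Type*} [AddCommGroup M] [Module 𝕋 M] [AddCommGroup N] [Module 𝕋 N]

/-- an element of the localisation vanishes as soon as its numerator is killed by an element of
`S` -/
theorem localizedModule_mk_eq_zero {m : M} {s t : S} (h : (t : 𝕋) • m = 0) :
    LocalizedModule.mk m s = 0 := by
  rw [← LocalizedModule.zero_mk s]
  refine LocalizedModule.mk_eq.mpr ⟨t, ?_⟩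
  simp only [Submonoid.smul_def, smul_zero]
  rw [smul_comm, h, smul_zero]

theorem localizedModule_mk_eq_zero_iff {m : M} {s : S} :
    LocalizedModule.mk m s = 0 ↔ ∃ t : S, (t : 𝕋) • m = 0 := by
  constructor
  · intro h
    rw [← LocalizedModule.zero_mk s] at h
    obtain ⟨u, hu⟩ := LocalizedModule.mk_eq.mp h
    simp only [Submonoid.smul_def, smul_zero] at hu
    exact ⟨u * s, by rw [Submonoid.coe_mul, mul_smul]; exact hu⟩
  · rintro ⟨t, ht⟩
    exact localizedModule_mk_eq_zero S ht

/-- a module killed by an element of `S` has trivial localisation -/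
theorem localizedModule_subsingleton_of_kill (t : 𝕋) (ht : t ∈ S) (h : ∀ m : M, t • m = 0) :
    Subsingleton (LocalizedModule S M) := by
  refine ⟨fun a b => ?_⟩
  have h0 : ∀ c : LocalizedModule S M, c = 0 := by
    intro c
    induction c using LocalizedModule.induction_on with
    | h m s => exact localizedModule_mk_eq_zero S (t := ⟨t, ht⟩) (h m)
  rw [h0 a, h0 b]

/-- a map whose kernel is killed by an element of `S` localises to an injective map -/
theorem localizedModule_map_injective_of_kill (φ : M →ₗ[𝕋] N) (t : 𝕋) (ht : t ∈ S)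
    (h : ∀ m : M, φ m = 0 → t • m = 0) :
    Function.Injective (IsLocalizedModule.map S (LocalizedModule.mkLinearMap S M)
      (LocalizedModule.mkLinearMap S N) φ) := by
  rw [← LinearMap.ker_eq_bot, Submodule.eq_bot_iff]
  intro y hy
  induction y using LocalizedModule.induction_on with
  | h m s =>
    rw [LinearMap.mem_ker, IsLocalizedModule.mk_eq_mk', IsLocalizedModule.map_mk',
      ← IsLocalizedModule.mk_eq_mk'] at hy
    obtain ⟨r, hr⟩ := (localizedModule_mk_eq_zero_iff S).mp hy
    rw [← map_smul] at hr
    have h1 := h _ hr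
    refine localizedModule_mk_eq_zero S (t := ⟨t, ht⟩ * r) ?_
    rw [Submonoid.coe_mul, mul_smul]
    exact h1

end kill

end Fermat.Agent.S43lib.B1
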