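/-
S43lib / B1 / Sys  (helper3).

A *Hecke system*: a group `Γ` with a homomorphism `π : Γ →* G` and a family of pairwise commuting
(up to `ker π`-conjugacy) equivariant coset data.  For every `G`-module `W` the cohomology
`S.Coh R W = H¹(Γ, W)` is a module over the polynomial ring `R[X_i]`, functorially in `W`, and
`S.F R W 𝔪` is its localisation at a prime `𝔪`.  Exactness properties of `W ↦ S.Coh R W`:
the kernel of the map induced by an injection is Eisenstein, exactness in the middle.
-/
import Fermat.Agent.S43lib.B1.ZCoh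
import Fermat.Agent.S43lib.B1.HeckeLoc

set_option autoImplicit false
set_option linter.unusedSectionVars false
set_option linter.unusedVariables false

noncomputable section

namespace Fermat.Agent.S43lib.B1

open Fermat.Agent.S41lib.HC MvPolynomial

/-- A system of commuting equivariant coset data. -/
structure HeckeSys (Γ G : Type) [Group Γ] [Group G] (I : Type) where
  /-- the homomorphism to the group of diamond operators -/
  π : Γ →* G
  /-- the index sets -/
  ι : I → Type
  fin : ∀ i, Fintype (ι i)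
  /-- the coset data -/
  D : ∀ i, CosetData Γ Γ (ι i)
  equi : ∀ i, CosetData.IsEquivariant π (D i)
  comm : ∀ i j, ConjRel π (D i) (D j)

attribute [instance] HeckeSys.fin

namespace HeckeSys

variable {Γ G : Type} [Group Γ] [Group G] {I : Type} (S : HeckeSys Γ G I)
variable (R : Type) [CommRing R]
variable (W : Type) [AddCommGroup W] [Module R W] [DistribMulAction G W] [SMulCommClass G R W]

/-- the cohomology `H¹(Γ, W)` of the system -/
def Coh : Type := H1 S.π R W

instance : AddCommGroup (S.Coh R W) := inferInstanceAs (AddCommGroup (H1 S.π R W))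
instance : Module R (S.Coh R W) := inferInstanceAs (Module R (H1 S.π R W))

/-- the class of a crossed homomorphism -/
def cls : ↥(Z1 S.π R W) →ₗ[R] S.Coh R W := H1.mk S.π R W

theorem cls_surjective : Function.Surjective (S.cls R W) := H1.mk_surjective S.π R W

variable {R W} in
theorem cls_eq_zero_iff (f : ↥(Z1 S.π R W)) :
    S.cls R W f = 0 ↔ ∃ w : W, ∀ γ, (f : Γ → W) γ = S.π γ • w - w :=
  H1.mk_eq_zero_iff f

/-- the Hecke operators -/
def T (i : I) : Module.End R (S.Coh R W) := heckeH R W (S.equi i)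

theorem T_cls (i : I) (f : ↥(Z1 S.π R W)) :
    S.T R W i (S.cls R W f) = S.cls R W (heckeZ R W (S.equi i) f) := rfl

theorem T_comm (i j : I) : S.T R W i * S.T R W j = S.T R W j * S.T R W i := by
  apply LinearMap.ext
  intro x
  exact heckeH_comm (S.equi j) (S.equi i) (S.comm j i) x

instance instModulePoly : Module (MvPolynomial I R) (S.Coh R W) :=
  Module.compHom _ (polyHom (S.T R W) (S.T_comm R W)).toRingHom

theorem poly_smul (p : MvPolynomial I R) (x : S.Coh R W) :
    p • x = polyHom (S.T R W) (S.T_comm R W) p x := rfl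

instance : IsScalarTower R (MvPolynomial I R) (S.Coh R W) :=
  ⟨fun r p x => by rw [poly_smul, poly_smul, map_smul]; rfl⟩

@[simp] theorem X_smul (i : I) (x : S.Coh R W) : (X i : MvPolynomial I R) • x = S.T R W i x := by
  rw [poly_smul, polyHom_X]

@[simp] theorem C_smul (a : R) (x : S.Coh R W) : (C a : MvPolynomial I R) • x = a • x := by
  rw [← MvPolynomial.algebraMap_eq, algebraMap_smul]

/-! ### Functoriality -/

variable {R W}
variable {W' : Type} [AddCommGroup W'] [Module R W'] [DistribMulAction G W'] [SMulCommClass G R W']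
variable {W'' : Type} [AddCommGroup W''] [Module R W''] [DistribMulAction G W'']
  [SMulCommClass G R W'']

/-- the map induced by an equivariant map of coefficients -/
def map (u : W →ₗ[R] W') (hu : IsEquivar G u) : S.Coh R W →ₗ[MvPolynomial I R] S.Coh R W' where
  toFun := H1.map S.π u hu
  map_add' := map_add _
  map_smul' p x :=
    polyHom_intertwine (S.T R W) (S.T_comm R W) (S.T R W') (S.T_comm R W') (H1.map S.π u hu)
      (fun i x => H1.map_heckeH (S.equi i) u hu x) p x

theorem map_apply (u : W →ₗ[R] W') (hu : IsEquivar G u) (x : S.Coh R W) :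
    S.map u hu x = H1.map S.π u hu x := rfl

theorem map_cls (u : W →ₗ[R] W') (hu : IsEquivar G u) (f : ↥(Z1 S.π R W)) :
    S.map u hu (S.cls R W f) = S.cls R W' (Z1.map S.π u hu f) := rfl

theorem map_comp (u : W →ₗ[R] W') (hu : IsEquivar G u) (v : W' →ₗ[R] W'')
    (hv : IsEquivar G v) (x : S.Coh R W) :
    S.map (v.comp u) (hu.comp hv) x = S.map v hv (S.map u hu x) := by
  rw [map_apply, map_apply, map_apply]
  exact H1.map_comp u hu v hv x

theorem isEquivar_id : IsEquivar G (LinearMap.id : W →ₗ[R] W) := fun _ _ => rfl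

theorem map_id (x : S.Coh R W) :
    S.map (LinearMap.id : W →ₗ[R] W) isEquivar_id x = x := by
  rw [map_apply]
  exact H1.map_id x

/-! ### Exactness before localisation -/

/-- the kernel of the map induced by an injection is Eisenstein -/
theorem map_injective_kill {u : W' →ₗ[R] W} (hu : IsEquivar G u) (hinj : Function.Injective u)
    (i : I) (x : S.Coh R W') (hx : S.map u hu x = 0) :
    (X i - C (Fintype.card (S.ι i) : R) : MvPolynomial I R) • x = 0 := by
  obtain ⟨f, rfl⟩ := S.cls_surjective R W' x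
  rw [map_cls, cls_eq_zero_iff] at hx
  obtain ⟨w, hw⟩ := hx
  rw [sub_smul, X_smul, C_smul, T_cls, ← map_smul, ← map_sub]
  have h0 : heckeZ R W' (S.equi i) f - (Fintype.card (S.ι i) : R) • f = 0 := by
    apply Subtype.ext
    funext γ
    apply hinj
    have h1 : ∀ γ, u ((f : Γ → W') γ) = S.π γ • w - w := hw
    show u (∑ x, (f : Γ → W') ((S.D i).c γ x) - (Fintype.card (S.ι i) : R) • (f : Γ → W') γ) =
      u 0
    rw [map_sub, map_sum, map_smul, map_zero]
    simp_rw [h1, S.equi i γ]
    rw [Finset.sum_const, Finset.card_univ, Nat.cast_smul_eq_nsmul, sub_self]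
  rw [h0, map_zero]

/-- exactness in the middle -/
theorem map_exact {u : W' →ₗ[R] W} (hu : IsEquivar G u) {v : W →ₗ[R] W''} (hv : IsEquivar G v)
    (hinj : Function.Injective u) (hsurj : Function.Surjective v)
    (hex : ∀ w, v w = 0 ↔ ∃ w', u w' = w) (x : S.Coh R W) :
    S.map v hv x = 0 ↔ ∃ x', S.map u hu x' = x := by
  constructor
  · intro hx
    obtain ⟨f, rfl⟩ := S.cls_surjective R W x
    rw [map_cls, cls_eq_zero_iff] at hx
    obtain ⟨w'', hw''⟩ := hx
    obtain ⟨w, rfl⟩ := hsurj w''
    -- `f - ∂w` has values in `ker v = range u`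
    have h1 : ∀ γ, ∃ w', u w' = (f : Γ → W) γ - (S.π γ • w - w) := by
      intro γ
      apply (hex _).mp
      have := hw'' γ
      simp only [Z1.map_apply] at this
      rw [map_sub, this, map_sub, hv, sub_self]
    choose f' hf' using h1
    have hf'Z : f' ∈ Z1 S.π R W' := by
      intro γ γ'
      apply hinj
      rw [map_add, hu, hf', hf', hf', f.2 γ γ', map_mul, mul_smul]
      simp only [smul_sub]
      abel
    refine ⟨S.cls R W' ⟨f', hf'Z⟩, ?_⟩
    rw [map_cls, ← sub_eq_zero, ← map_sub, cls_eq_zero_iff]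
    refine ⟨-w, fun γ => ?_⟩
    show u (f' γ) - (f : Γ → W) γ = _
    rw [hf', smul_neg]
    abel
  · rintro ⟨x', rfl⟩
    obtain ⟨f', rfl⟩ := S.cls_surjective R W' x'
    rw [map_cls, map_cls, cls_eq_zero_iff]
    refine ⟨0, fun γ => ?_⟩
    show v (u ((f' : Γ → W') γ)) = _
    rw [(hex _).mpr ⟨_, rfl⟩, smul_zero, sub_zero]

/-- lifting of crossed homomorphisms along surjections (`H² = 0`) -/
def RightExact (S : HeckeSys Γ G I) (R : Type) [CommRing R] : Prop :=
  ∀ (W W'' : Type) [AddCommGroup W] [Module R W] [DistribMulAction G W] [SMulCommClass G R W]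
    [AddCommGroup W''] [Module R W''] [DistribMulAction G W''] [SMulCommClass G R W'']
    (v : W →ₗ[R] W'') (hv : IsEquivar G v), Function.Surjective v →
    Function.Surjective (Z1.map S.π v hv)

theorem map_surjective (hS : S.RightExact R) {v : W →ₗ[R] W''} (hv : IsEquivar G v)
    (hsurj : Function.Surjective v) : Function.Surjective (S.map v hv) := by
  intro x
  obtain ⟨f, rfl⟩ := S.cls_surjective R W'' x
  obtain ⟨g, rfl⟩ := hS W W'' v hv hsurj f
  exact ⟨S.cls R W g, rfl⟩

/-! ### Localisation -/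

variable (R W) in
/-- the localisation of the cohomology at a prime of the polynomial ring -/
abbrev F (𝔪 : Ideal (MvPolynomial I R)) [𝔪.IsPrime] : Type := LocalizedModule 𝔪.primeCompl (S.Coh R W)

variable (R W) in
/-- the localisation map -/
abbrev loc (𝔪 : Ideal (MvPolynomial I R)) [𝔪.IsPrime] : S.Coh R W →ₗ[MvPolynomial I R] S.F R W 𝔪 :=
  LocalizedModule.mkLinearMap 𝔪.primeCompl (S.Coh R W)

/-- the localised map induced by an equivariant map of coefficients -/
def Fmap (𝔪 : Ideal (MvPolynomial I R)) [𝔪.IsPrime] (u : W →ₗ[R] W') (hu : IsEquivar G u) :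
    S.F R W 𝔪 →ₗ[MvPolynomial I R] S.F R W' 𝔪 :=
  IsLocalizedModule.map 𝔪.primeCompl (S.loc R W 𝔪) (S.loc R W' 𝔪) (S.map u hu)

theorem Fmap_loc (𝔪 : Ideal (MvPolynomial I R)) [𝔪.IsPrime] (u : W →ₗ[R] W') (hu : IsEquivar G u)
    (x : S.Coh R W) : S.Fmap 𝔪 u hu (S.loc R W 𝔪 x) = S.loc R W' 𝔪 (S.map u hu x) :=
  IsLocalizedModule.map_apply _ _ _ _ _

/-- the non-Eisenstein condition -/
def NonEis (𝔪 : Ideal (MvPolynomial I R)) [𝔪.IsPrime] : Prop :=
  ∃ i, (X i - C (Fintype.card (S.ι i) : R) : MvPolynomial I R) ∉ 𝔪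

theorem Fmap_injective {𝔪 : Ideal (MvPolynomial I R)} [𝔪.IsPrime] (h𝔪 : S.NonEis 𝔪) {u : W' →ₗ[R] W}
    (hu : IsEquivar G u) (hinj : Function.Injective u) : Function.Injective (S.Fmap 𝔪 u hu) := by
  obtain ⟨i, hi⟩ := h𝔪
  exact localizedModule_map_injective_of_kill 𝔪.primeCompl (S.map u hu) _ hi
    (fun x hx => S.map_injective_kill hu hinj i x hx)

theorem Fmap_surjective (𝔪 : Ideal (MvPolynomial I R)) [𝔪.IsPrime] (hS : S.RightExact R) {v : W →ₗ[R] W''}
    (hv : IsEquivar G v) (hsurj : Function.Surjective v) :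
    Function.Surjective (S.Fmap 𝔪 v hv) :=
  IsLocalizedModule.map_surjective _ _ _ _ (S.map_surjective hS hv hsurj)

theorem Fmap_exact (𝔪 : Ideal (MvPolynomial I R)) [𝔪.IsPrime] {u : W' →ₗ[R] W} (hu : IsEquivar G u)
    {v : W →ₗ[R] W''} (hv : IsEquivar G v)
    (hinj : Function.Injective u) (hsurj : Function.Surjective v)
    (hex : ∀ w, v w = 0 ↔ ∃ w', u w' = w) :
    Function.Exact (S.Fmap 𝔪 u hu) (S.Fmap 𝔪 v hv) :=
  IsLocalizedModule.map_exact 𝔪.primeCompl (S.loc R W' 𝔪) (S.loc R W 𝔪) (S.loc R W'' 𝔪)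
    (S.map u hu) (S.map v hv) (fun x => by
      rw [S.map_exact hu hv hinj hsurj hex x]
      rfl)

end HeckeSys

end Fermat.Agent.S43lib.B1
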