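/-
S43lib / B1 / Count  (helper3).

Finiteness of the cohomology of a Hecke system and of its localisations, multiplicativity of
cardinalities in short exact sequences, and the **counting theorem**: for a finite `p`-group `G`, a
local ring `𝒪` with principal maximal ideal and finite residue field `k` of characteristic `p`, and an
exact localised cohomology functor `F`, every finite `𝒪[G]`-module `W` has `|W| = |k|^n` and
`|F W| = |F k|^n`.
-/
import Fermat.Agent.S43lib.B1.Sys
import Fermat.Agent.S43lib.B1.GMod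

set_option autoImplicit false
set_option linter.unusedSectionVars false
set_option linter.unusedVariables false
set_option linter.style.haveILetI false

noncomputable section

namespace Fermat.Agent.S43lib.B1

open IsLocalRing MvPolynomial Fermat.Agent.S41lib.HC

/-! ### Crossed homomorphisms are determined on generators -/

section fg

variable {Γ G : Type*} [Group Γ] [Group G] {π : Γ →* G} {R : Type*} [CommRing R]
variable {W : Type*} [AddCommGroup W] [Module R W] [DistribMulAction G W] [SMulCommClass G R W]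

theorem Z1_ext_of_closure {s : Set Γ} (hs : Subgroup.closure s = ⊤) {f f' : Γ → W}
    (hf : f ∈ Z1 π R W) (hf' : f' ∈ Z1 π R W) (h : ∀ γ ∈ s, f γ = f' γ) : f = f' := by
  let K : Subgroup Γ :=
    { carrier := {γ | f γ = f' γ}
      one_mem' := by
        show f 1 = f' 1
        rw [Z1_one hf, Z1_one hf']
      mul_mem' := by
        intro a b ha hb
        show f (a * b) = f' (a * b)
        rw [hf a b, hf' a b, show f a = f' a from ha, show f b = f' b from hb]
      inv_mem' := by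
        intro a ha
        show f a⁻¹ = f' a⁻¹
        rw [Z1_inv hf, Z1_inv hf', show f a = f' a from ha] }
  have hK : Subgroup.closure s ≤ K := (Subgroup.closure_le K).mpr h
  rw [hs] at hK
  funext γ
  exact hK (Subgroup.mem_top γ)

variable (π R W) in
/-- restriction of crossed homomorphisms to a set of generators -/
def Z1.restrictGen (s : Set Γ) : ↥(Z1 π R W) →ₗ[R] (s → W) where
  toFun f x := (f : Γ → W) x
  map_add' _ _ := rfl
  map_smul' _ _ := rfl

theorem Z1.restrictGen_injective {s : Set Γ} (hs : Subgroup.closure s = ⊤) :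
    Function.Injective (Z1.restrictGen π R W s) := by
  intro f f' h
  apply Subtype.ext
  exact Z1_ext_of_closure hs f.2 f'.2 (fun γ hγ => congrFun h ⟨γ, hγ⟩)

theorem Z1.module_finite [Group.FG Γ] [IsNoetherianRing R] [Module.Finite R W] :
    Module.Finite R ↥(Z1 π R W) := by
  obtain ⟨s, hs⟩ := Group.fg_iff.mp (inferInstance : Group.FG Γ)
  obtain ⟨hs, hfin⟩ := hs
  haveI : Finite s := hfin.to_subtype
  exact Module.Finite.of_injective (Z1.restrictGen π R W s) (Z1.restrictGen_injective hs)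

theorem Z1.finite [Group.FG Γ] [Finite W] : Finite ↥(Z1 π R W) := by
  obtain ⟨s, hs⟩ := Group.fg_iff.mp (inferInstance : Group.FG Γ)
  obtain ⟨hs, hfin⟩ := hs
  haveI : Finite s := hfin.to_subtype
  exact Finite.of_injective (Z1.restrictGen π R W s) (Z1.restrictGen_injective hs)

end fg

/-! ### Cardinalities in short exact sequences -/

theorem card_of_exact {A B C : Type*} [AddCommGroup A] [AddCommGroup B] [AddCommGroup C]
    [Finite B] (f : A →+ B) (g : B →+ C) (hf : Function.Injective f) (hg : Function.Surjective g)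
    (hex : ∀ b, g b = 0 ↔ ∃ a, f a = b) : Nat.card B = Nat.card A * Nat.card C := by
  have h1 := AddSubgroup.card_eq_card_quotient_mul_card_addSubgroup g.ker
  have h2 : Nat.card (B ⧸ g.ker) = Nat.card C :=
    Nat.card_congr (QuotientAddGroup.quotientKerEquivOfSurjective g hg).toEquiv
  have h3 : Nat.card g.ker = Nat.card A := by
    have hker : g.ker = f.range := by
      ext b
      rw [AddMonoidHom.mem_ker, AddMonoidHom.mem_range]
      exact hex b
    rw [hker]
    exact (Nat.card_congr (AddMonoidHom.ofInjective hf).toEquiv).symm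
  rw [h1, h2, h3, mul_comm]

namespace HeckeSys

variable {Γ G : Type} [Group Γ] [Group G] {I : Type} (S : HeckeSys Γ G I)
variable {𝒪 : Type} [CommRing 𝒪]

section finite

variable (W : Type) [AddCommGroup W] [Module 𝒪 W] [DistribMulAction G W] [SMulCommClass G 𝒪 W]

instance coh_module_finite [Group.FG Γ] [IsNoetherianRing 𝒪] [Module.Finite 𝒪 W] :
    Module.Finite 𝒪 (S.Coh 𝒪 W) := by
  haveI : Module.Finite 𝒪 ↥(Z1 S.π 𝒪 W) := Z1.module_finite
  exact Module.Finite.of_surjective (S.cls 𝒪 W) (S.cls_surjective 𝒪 W)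

instance coh_finite [Group.FG Γ] [Finite W] : Finite (S.Coh 𝒪 W) := by
  haveI : Finite ↥(Z1 S.π 𝒪 W) := Z1.finite
  exact Finite.of_surjective (S.cls 𝒪 W) (S.cls_surjective 𝒪 W)

variable [IsLocalRing 𝒪] [IsNoetherianRing 𝒪] [IsAdicComplete (maximalIdeal 𝒪) 𝒪]
variable (𝔪 : Ideal (MvPolynomial I 𝒪)) [h𝔪 : 𝔪.IsMaximal]

theorem loc_surjective [Group.FG Γ] [Module.Finite 𝒪 W] : Function.Surjective (S.loc 𝒪 W 𝔪) :=
  mkLinearMap_surjective_of_finite (𝒪 := 𝒪) (M := S.Coh 𝒪 W) 𝔪

instance F_module_finite [Group.FG Γ] [Module.Finite 𝒪 W] : Module.Finite 𝒪 (S.F 𝒪 W 𝔪) :=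
  Module.Finite.of_surjective ((S.loc 𝒪 W 𝔪).restrictScalars 𝒪) (S.loc_surjective W 𝔪)

instance F_finite [Group.FG Γ] [Finite W] : Finite (S.F 𝒪 W 𝔪) := by
  haveI : Module.Finite 𝒪 W := Module.Finite.of_finite
  exact Finite.of_surjective (S.loc 𝒪 W 𝔪) (S.loc_surjective W 𝔪)

theorem F_subsingleton [Subsingleton W] : Subsingleton (S.F 𝒪 W 𝔪) := by
  haveI : Subsingleton (S.Coh 𝒪 W) := by
    refine ⟨fun a b => ?_⟩
    obtain ⟨f, rfl⟩ := S.cls_surjective 𝒪 W a
    obtain ⟨f', rfl⟩ := S.cls_surjective 𝒪 W b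
    congr 1
    apply Subtype.ext
    funext γ
    exact Subsingleton.elim _ _
  infer_instance

end finite

/-! ### The counting theorem -/

section count

variable [IsLocalRing 𝒪] [IsNoetherianRing 𝒪] [IsAdicComplete (maximalIdeal 𝒪) 𝒪]
variable (𝔪 : Ideal (MvPolynomial I 𝒪)) [h𝔪 : 𝔪.IsMaximal]
variable [Group.FG Γ] [Finite (ResidueField 𝒪)]

/-- cardinalities in a short exact sequence of coefficient modules -/
theorem card_F_of_exact (hS : S.RightExact 𝒪) (hne : S.NonEis 𝔪)
    {W' W W'' : Type} [AddCommGroup W'] [Module 𝒪 W'] [DistribMulAction G W']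
    [SMulCommClass G 𝒪 W'] [AddCommGroup W] [Module 𝒪 W] [DistribMulAction G W]
    [SMulCommClass G 𝒪 W] [AddCommGroup W''] [Module 𝒪 W''] [DistribMulAction G W'']
    [SMulCommClass G 𝒪 W''] [Finite W]
    {u : W' →ₗ[𝒪] W} (hu : IsEquivar G u) {v : W →ₗ[𝒪] W''} (hv : IsEquivar G v)
    (hinj : Function.Injective u) (hsurj : Function.Surjective v)
    (hex : ∀ w, v w = 0 ↔ ∃ w', u w' = w) :
    Nat.card (S.F 𝒪 W 𝔪) = Nat.card (S.F 𝒪 W' 𝔪) * Nat.card (S.F 𝒪 W'' 𝔪) := by
  refine card_of_exact (S.Fmap 𝔪 u hu).toAddMonoidHom (S.Fmap 𝔪 v hv).toAddMonoidHom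
    (S.Fmap_injective hne hu hinj) (S.Fmap_surjective 𝔪 hS hv hsurj) ?_
  intro b
  have := S.Fmap_exact 𝔪 hu hv hinj hsurj hex b
  simpa [Set.mem_range] using this

variable {p : ℕ} [hp : Fact p.Prime]

/-- a nonzero finite module has a nonzero `G`-fixed vector killed by the uniformiser -/
theorem exists_socle_fixed (hG : IsPGroup p G) {ϖ : 𝒪} (hϖ : maximalIdeal 𝒪 = Ideal.span {ϖ})
    (hp𝒪 : (p : 𝒪) ∈ maximalIdeal 𝒪)
    (W : Type) [AddCommGroup W] [Module 𝒪 W] [DistribMulAction G W] [SMulCommClass G 𝒪 W]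
    [Finite W] [Nontrivial W] :
    ∃ w₀ : W, w₀ ≠ 0 ∧ ϖ • w₀ = 0 ∧ ∀ g : G, g • w₀ = w₀ := by
  let B : AddSubgroup W := (LinearMap.ker (LinearMap.lsmul 𝒪 W ϖ)).toAddSubgroup
  have hBmem : ∀ w, w ∈ B ↔ ϖ • w = 0 := fun w => by
    show w ∈ LinearMap.ker (LinearMap.lsmul 𝒪 W ϖ) ↔ _
    rw [LinearMap.mem_ker]
    rfl
  have hBne : B ≠ ⊥ := by
    intro hB
    -- multiplication by `ϖ` is injective, hence surjective, contradicting Nakayama
    have hinj : Function.Injective (fun w : W => ϖ • w) := by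
      intro a b hab
      have h0 : a - b ∈ B := by
        rw [hBmem, smul_sub]
        exact sub_eq_zero.mpr hab
      rw [hB, AddSubgroup.mem_bot] at h0
      exact sub_eq_zero.mp h0
    have hsurj : Function.Surjective (fun w : W => ϖ • w) := Finite.injective_iff_surjective.mp hinj
    have htop : (⊤ : Submodule 𝒪 W) ≤ maximalIdeal 𝒪 • (⊤ : Submodule 𝒪 W) := by
      intro w _
      obtain ⟨w', rfl⟩ := hsurj w
      refine Submodule.smul_mem_smul ?_ Submodule.mem_top
      rw [hϖ]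
      exact Ideal.subset_span rfl
    have hfg : (⊤ : Submodule 𝒪 W).FG := by
      haveI : Module.Finite 𝒪 W := Module.Finite.of_finite
      exact Module.Finite.fg_top
    have hbot := Submodule.eq_bot_of_le_smul_of_le_jacobson_bot (maximalIdeal 𝒪) ⊤ hfg htop
      (le_of_eq (IsLocalRing.jacobson_eq_maximalIdeal ⊥ bot_ne_top).symm)
    obtain ⟨w, hw⟩ := exists_ne (0 : W)
    have : w ∈ (⊥ : Submodule 𝒪 W) := hbot ▸ Submodule.mem_top
    exact hw ((Submodule.mem_bot 𝒪).mp this)
  have hBst : ∀ (g : G), ∀ b ∈ B, g • b ∈ B := by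
    intro g b hb
    rw [hBmem] at hb ⊢
    rw [← smul_comm g ϖ b, hb, smul_zero]
  have hBp : ∀ b ∈ B, p • b = 0 := by
    intro b hb
    rw [hBmem] at hb
    rw [hϖ, Ideal.mem_span_singleton] at hp𝒪
    obtain ⟨a, ha⟩ := hp𝒪
    rw [← Nat.cast_smul_eq_nsmul 𝒪, ha, mul_comm, mul_smul, hb, smul_zero]
  obtain ⟨w₀, hw₀B, hw₀, hfix⟩ := exists_fixed_ne_zero_of_stable hG B hBst hBp hBne
  exact ⟨w₀, hw₀, (hBmem w₀).mp hw₀B, hfix⟩

/-- the embedding of the residue field at a fixed socle vector -/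
def socleMap {ϖ : 𝒪} (hϖ : maximalIdeal 𝒪 = Ideal.span {ϖ})
    {W : Type} [AddCommGroup W] [Module 𝒪 W] (w₀ : W) (h0 : ϖ • w₀ = 0) :
    TrivMod G (ResidueField 𝒪) →ₗ[𝒪] W :=
  Submodule.liftQ (maximalIdeal 𝒪) (LinearMap.toSpanSingleton 𝒪 W w₀) (by
    intro c hc
    rw [hϖ, Ideal.mem_span_singleton] at hc
    obtain ⟨a, rfl⟩ := hc
    rw [LinearMap.mem_ker, LinearMap.toSpanSingleton_apply, mul_comm, mul_smul, h0, smul_zero])

theorem socleMap_residue {ϖ : 𝒪} (hϖ : maximalIdeal 𝒪 = Ideal.span {ϖ})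
    {W : Type} [AddCommGroup W] [Module 𝒪 W] (w₀ : W) (h0 : ϖ • w₀ = 0) (c : 𝒪) :
    socleMap (G := G) hϖ w₀ h0 (IsLocalRing.residue 𝒪 c) = c • w₀ := rfl

theorem socleMap_injective {ϖ : 𝒪} (hϖ : maximalIdeal 𝒪 = Ideal.span {ϖ})
    {W : Type} [AddCommGroup W] [Module 𝒪 W] (w₀ : W) (h0 : ϖ • w₀ = 0) (hw₀ : w₀ ≠ 0) :
    Function.Injective (socleMap (G := G) hϖ w₀ h0) := by
  intro x y hxy
  obtain ⟨c, rfl⟩ := IsLocalRing.residue_surjective (R := 𝒪) x
  obtain ⟨c', rfl⟩ := IsLocalRing.residue_surjective (R := 𝒪) y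
  rw [socleMap_residue, socleMap_residue] at hxy
  have h1 : (c - c') • w₀ = 0 := by rw [sub_smul, hxy, sub_self]
  have h2 : c - c' ∈ maximalIdeal 𝒪 := by
    by_contra hcm
    have hunit : IsUnit (c - c') := by
      by_contra hnu
      exact hcm ((IsLocalRing.mem_maximalIdeal _).mpr hnu)
    obtain ⟨v, hv⟩ := hunit
    apply hw₀
    have := congrArg (fun w => (↑v⁻¹ : 𝒪) • w) h1
    simp only [smul_zero, smul_smul] at this
    rwa [← hv, Units.inv_mul, one_smul] at this
  have h3 : IsLocalRing.residue 𝒪 (c - c') = 0 := (IsLocalRing.residue_eq_zero_iff _).mpr h2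
  rw [map_sub, sub_eq_zero] at h3
  exact h3

theorem socleMap_equivar {ϖ : 𝒪} (hϖ : maximalIdeal 𝒪 = Ideal.span {ϖ})
    {W : Type} [AddCommGroup W] [Module 𝒪 W] [DistribMulAction G W] [SMulCommClass G 𝒪 W]
    (w₀ : W) (h0 : ϖ • w₀ = 0) (hfix : ∀ g : G, g • w₀ = w₀) :
    IsEquivar G (socleMap (G := G) hϖ w₀ h0) := by
  intro g x
  obtain ⟨c, rfl⟩ := IsLocalRing.residue_surjective (R := 𝒪) x
  change socleMap hϖ w₀ h0 (IsLocalRing.residue 𝒪 c) = _
  rw [socleMap_residue, smul_comm g c w₀, hfix]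

/-- **The counting theorem.** -/
theorem card_F_pow (hS : S.RightExact 𝒪) (hne : S.NonEis 𝔪) (hG : IsPGroup p G) {ϖ : 𝒪}
    (hϖ : maximalIdeal 𝒪 = Ideal.span {ϖ}) (hp𝒪 : (p : 𝒪) ∈ maximalIdeal 𝒪) :
    ∀ (N : ℕ) (W : Type) [AddCommGroup W] [Module 𝒪 W] [DistribMulAction G W]
      [SMulCommClass G 𝒪 W] [Finite W], Nat.card W ≤ N →
      ∃ n : ℕ, Nat.card W = Nat.card (ResidueField 𝒪) ^ n ∧
        Nat.card (S.F 𝒪 W 𝔪) = Nat.card (S.F 𝒪 (TrivMod G (ResidueField 𝒪)) 𝔪) ^ n := by
  intro N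
  induction N with
  | zero =>
    intro W _ _ _ _ _ hW
    exfalso
    have : 0 < Nat.card W := Nat.card_pos
    omega
  | succ N ih =>
    intro W _ _ _ _ _ hW
    by_cases hsub : Subsingleton W
    · refine ⟨0, ?_, ?_⟩
      · rw [pow_zero]
        exact Nat.card_unique
      · rw [pow_zero]
        haveI := S.F_subsingleton W 𝔪
        exact Nat.card_unique
    · haveI : Nontrivial W := not_subsingleton_iff_nontrivial.mp hsub
      obtain ⟨w₀, hw₀, h0, hfix⟩ := exists_socle_fixed hG hϖ hp𝒪 W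
      set u := socleMap (G := G) hϖ w₀ h0 with hu_def
      have hu : IsEquivar G u := socleMap_equivar hϖ w₀ h0 hfix
      have hinj : Function.Injective u := socleMap_injective hϖ w₀ h0 hw₀
      have hst : ∀ (g : G), ∀ w ∈ LinearMap.range u, g • w ∈ LinearMap.range u := by
        rintro g _ ⟨x, rfl⟩
        exact ⟨g • x, hu g x⟩
      let W'' := QuotG (LinearMap.range u) hst
      have hex : ∀ w, QuotG.mk (LinearMap.range u) hst w = 0 ↔ ∃ w', u w' = w := by
        intro w
        rw [QuotG.mk_eq_zero_iff]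
        rfl
      -- cardinalities
      have hcardW : Nat.card W = Nat.card (ResidueField 𝒪) * Nat.card W'' := by
        have h1 := Submodule.card_eq_card_quotient_mul_card (LinearMap.range u)
        have h2 : Nat.card (LinearMap.range u) = Nat.card (ResidueField 𝒪) :=
          (Nat.card_congr (LinearEquiv.ofInjective u hinj).toEquiv).symm
        rw [h1, h2]
        rfl
      have hk2 : 2 ≤ Nat.card (ResidueField 𝒪) := by
        have : 1 < Nat.card (ResidueField 𝒪) := Finite.one_lt_card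
        omega
      have hpos'' : 0 < Nat.card W'' := Nat.card_pos
      have hlt : Nat.card W'' ≤ N := by
        have : Nat.card W'' < Nat.card W := by
          rw [hcardW]
          nlinarith
        omega
      obtain ⟨n, hn1, hn2⟩ := ih W'' hlt
      refine ⟨n + 1, ?_, ?_⟩
      · rw [hcardW, hn1, pow_succ, mul_comm]
      · rw [S.card_F_of_exact 𝔪 hS hne hu (QuotG.isEquivar_mk (LinearMap.range u) hst) hinj
          (QuotG.mk_surjective _ _) hex, hn2, pow_succ, mul_comm]

end count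

end HeckeSys

end Fermat.Agent.S43lib.B1
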