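/-
S43lib / B1 / ZCoh  (helper3).

Crossed homomorphisms `Γ → W` for a group `Γ` acting on a module `W` through a homomorphism
`π : Γ →* G`, the first cohomology `H1 π R W`, and the operators induced by *equivariant* coset data
(`π (D.c γ x) = π γ`) on crossed homomorphisms and on `H1`.  Two such operators commute on `H1` as soon
as the composed coset data are conjugate by elements of `ker π`.  Functoriality in `W`.
-/
import Mathlib
import Fermat.Agent.S41lib.HC.CosetData

set_option autoImplicit false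
set_option linter.unusedSectionVars false
set_option linter.unusedVariables false

noncomputable section

namespace Fermat.Agent.S43lib.B1

open Fermat.Agent.S41lib.HC

variable {Γ G : Type*} [Group Γ] [Group G] (π : Γ →* G)
variable (R : Type*) [CommRing R]
variable (W : Type*) [AddCommGroup W] [Module R W] [DistribMulAction G W] [SMulCommClass G R W]

/-! ### Crossed homomorphisms and principal ones -/

/-- crossed homomorphisms `f (γ γ') = f γ + π γ • f γ'` -/
def Z1 : Submodule R (Γ → W) where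
  carrier := {f | ∀ γ γ', f (γ * γ') = f γ + π γ • f γ'}
  add_mem' := by
    intro f f' hf hf' γ γ'
    simp only [Pi.add_apply, hf γ γ', hf' γ γ', smul_add]
    abel
  zero_mem' := by
    intro γ γ'
    simp
  smul_mem' := by
    intro r f hf γ γ'
    simp only [Pi.smul_apply, hf γ γ', smul_add, smul_comm (π γ) r]

variable {π R W}

theorem mem_Z1 {f : Γ → W} : f ∈ Z1 π R W ↔ ∀ γ γ', f (γ * γ') = f γ + π γ • f γ' := Iff.rfl

theorem Z1_one {f : Γ → W} (hf : f ∈ Z1 π R W) : f 1 = 0 := by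
  have h := hf 1 1
  rw [mul_one, map_one, one_smul] at h
  exact left_eq_add.mp h

theorem Z1_inv {f : Γ → W} (hf : f ∈ Z1 π R W) (γ : Γ) : f γ⁻¹ = - ((π γ)⁻¹ • f γ) := by
  have h := hf γ⁻¹ γ
  rw [inv_mul_cancel, Z1_one hf, map_inv] at h
  exact eq_neg_of_add_eq_zero_left h.symm

variable (π R W)

/-- the coboundary map `w ↦ (γ ↦ π γ • w - w)` -/
def dW : W →ₗ[R] (Γ → W) where
  toFun w γ := π γ • w - w
  map_add' w w' := by
    funext γ
    simp only [Pi.add_apply, smul_add]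
    abel
  map_smul' r w := by
    funext γ
    simp only [Pi.smul_apply, RingHom.id_apply, smul_sub, smul_comm (π γ) r]

@[simp] theorem dW_apply (w : W) (γ : Γ) : dW π R W w γ = π γ • w - w := rfl

/-- principal crossed homomorphisms -/
def B1s : Submodule R (Γ → W) := LinearMap.range (dW π R W)

theorem B1s_le_Z1 : B1s π R W ≤ Z1 π R W := by
  rintro _ ⟨w, rfl⟩ γ γ'
  simp only [dW_apply, map_mul, mul_smul, smul_sub]
  abel

/-- principal crossed homomorphisms, inside `Z1` -/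
def B1z : Submodule R ↥(Z1 π R W) := (B1s π R W).comap (Z1 π R W).subtype

/-- the first cohomology -/
abbrev H1 : Type _ := ↥(Z1 π R W) ⧸ B1z π R W

/-- the class of a crossed homomorphism -/
def H1.mk : ↥(Z1 π R W) →ₗ[R] H1 π R W := (B1z π R W).mkQ

theorem H1.mk_surjective : Function.Surjective (H1.mk π R W) := Submodule.mkQ_surjective _

variable {π R W}

theorem H1.mk_eq_zero_iff (f : ↥(Z1 π R W)) :
    H1.mk π R W f = 0 ↔ ∃ w : W, ∀ γ, (f : Γ → W) γ = π γ • w - w := by
  show (B1z π R W).mkQ f = 0 ↔ _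
  rw [Submodule.mkQ_apply, Submodule.Quotient.mk_eq_zero]
  constructor
  · rintro ⟨w, hw⟩
    exact ⟨w, fun γ => (congrFun hw γ).symm⟩
  · rintro ⟨w, hw⟩
    exact ⟨w, funext fun γ => (hw γ).symm⟩

/-! ### The operator of an equivariant coset datum -/

section hecke

variable {ι : Type*} [Fintype ι] (D : CosetData Γ Γ ι)

variable (R W) in
/-- the operator on functions `(T f)(γ) = ∑ x, f (c γ x)` -/
def heckeFun : (Γ → W) →ₗ[R] (Γ → W) where
  toFun f γ := ∑ x, f (D.c γ x)
  map_add' f f' := by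
    funext γ
    simp [Finset.sum_add_distrib]
  map_smul' r f := by
    funext γ
    simp [Finset.smul_sum]

@[simp] theorem heckeFun_apply (f : Γ → W) (γ : Γ) :
    heckeFun R W D f γ = ∑ x, f (D.c γ x) := rfl

/-- the datum is equivariant for `π` -/
def CosetData.IsEquivariant (π : Γ →* G) (D : CosetData Γ Γ ι) : Prop :=
  ∀ γ x, π (D.c γ x) = π γ

variable {D}

theorem heckeFun_mem_Z1 (hD : CosetData.IsEquivariant π D) {f : Γ → W} (hf : f ∈ Z1 π R W) :
    heckeFun R W D f ∈ Z1 π R W := by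
  intro γ γ'
  simp only [heckeFun_apply]
  simp_rw [D.c_mul, hf (D.c γ _) _, hD γ]
  rw [Finset.sum_add_distrib, ← Finset.smul_sum]
  congr 2
  exact Equiv.sum_comp (D.σ γ) (fun x => f (D.c γ' x))

theorem heckeFun_dW (hD : CosetData.IsEquivariant π D) (w : W) :
    heckeFun R W D (dW π R W w) = dW π R W (Fintype.card ι • w) := by
  funext γ
  simp only [heckeFun_apply, dW_apply, hD γ, Finset.sum_const, Finset.card_univ, smul_sub,
    smul_comm (π γ) (Fintype.card ι)]

theorem heckeFun_mem_B1s (hD : CosetData.IsEquivariant π D) {f : Γ → W} (hf : f ∈ B1s π R W) :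
    heckeFun R W D f ∈ B1s π R W := by
  obtain ⟨w, rfl⟩ := hf
  exact ⟨Fintype.card ι • w, (heckeFun_dW hD w).symm⟩

variable (R W) in
/-- the operator on crossed homomorphisms -/
def heckeZ (hD : CosetData.IsEquivariant π D) : ↥(Z1 π R W) →ₗ[R] ↥(Z1 π R W) :=
  (heckeFun R W D).restrict fun f hf => heckeFun_mem_Z1 hD hf

@[simp] theorem heckeZ_coe (hD : CosetData.IsEquivariant π D) (f : ↥(Z1 π R W)) :
    ((heckeZ R W hD f : ↥(Z1 π R W)) : Γ → W) = heckeFun R W D (f : Γ → W) := rfl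

variable (R W) in
/-- the operator on `H1` -/
def heckeH (hD : CosetData.IsEquivariant π D) : H1 π R W →ₗ[R] H1 π R W :=
  (B1z π R W).mapQ (B1z π R W) (heckeZ R W hD) (by
    intro f hf
    exact heckeFun_mem_B1s hD hf)

@[simp] theorem heckeH_mk (hD : CosetData.IsEquivariant π D) (f : ↥(Z1 π R W)) :
    heckeH R W hD (H1.mk π R W f) = H1.mk π R W (heckeZ R W hD f) := rfl

end hecke

/-! ### Commutation -/

section comm

variable {ι κ : Type*} [Fintype ι] [Fintype κ]

/-- The composites `D₁ ∘ D₂` and `D₂ ∘ D₁` are conjugate by elements of `ker π`. -/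
def ConjRel (π : Γ →* G) (D₁ : CosetData Γ Γ ι) (D₂ : CosetData Γ Γ κ) : Prop :=
  ∃ (e : ι × κ ≃ κ × ι) (d : ι × κ → Γ), (∀ p, π (d p) = 1) ∧
    ∀ γ p, (D₂.comp D₁).c γ (e p) =
      d p * (D₁.comp D₂).c γ p * (d ((D₁.comp D₂).σ γ p))⁻¹

theorem heckeFun_comm_sub_mem {D₁ : CosetData Γ Γ ι} {D₂ : CosetData Γ Γ κ}
    (h₁ : CosetData.IsEquivariant π D₁) (h₂ : CosetData.IsEquivariant π D₂)
    (hrel : ConjRel π D₁ D₂) {f : Γ → W} (hf : f ∈ Z1 π R W) :
    heckeFun R W D₂ (heckeFun R W D₁ f) - heckeFun R W D₁ (heckeFun R W D₂ f) ∈ B1s π R W := by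
  obtain ⟨e, d, hd, hc⟩ := hrel
  refine ⟨- ∑ p, f (d p), ?_⟩
  funext γ
  have h12 : heckeFun R W D₁ (heckeFun R W D₂ f) γ = ∑ p : ι × κ, f ((D₁.comp D₂).c γ p) := by
    simp only [heckeFun_apply, CosetData.comp_c]
    rw [Fintype.sum_prod_type]
  have h21 : heckeFun R W D₂ (heckeFun R W D₁ f) γ = ∑ q : κ × ι, f ((D₂.comp D₁).c γ q) := by
    simp only [heckeFun_apply, CosetData.comp_c]
    rw [Fintype.sum_prod_type]
  have hπc : ∀ p, π ((D₁.comp D₂).c γ p) = π γ := by
    intro p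
    rw [CosetData.comp_c, h₂, h₁]
  have key : ∀ p, f ((D₂.comp D₁).c γ (e p)) =
      f ((D₁.comp D₂).c γ p) + f (d p) - π γ • f (d ((D₁.comp D₂).σ γ p)) := by
    intro p
    rw [hc γ p, hf, hf, Z1_inv hf, map_mul, hd, hd, hπc]
    simp only [one_smul, inv_one, smul_neg, one_mul]
    abel
  simp only [Pi.sub_apply, dW_apply]
  rw [h12, h21, ← Equiv.sum_comp e]
  simp_rw [key]
  rw [Finset.sum_sub_distrib, Finset.sum_add_distrib, ← Finset.smul_sum,
    Equiv.sum_comp ((D₁.comp D₂).σ γ) (fun p => f (d p))]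
  simp only [smul_neg]
  abel

theorem heckeH_comm {D₁ : CosetData Γ Γ ι} {D₂ : CosetData Γ Γ κ}
    (h₁ : CosetData.IsEquivariant π D₁) (h₂ : CosetData.IsEquivariant π D₂)
    (hrel : ConjRel π D₁ D₂) (x : H1 π R W) :
    heckeH R W h₂ (heckeH R W h₁ x) = heckeH R W h₁ (heckeH R W h₂ x) := by
  obtain ⟨f, rfl⟩ := H1.mk_surjective π R W x
  simp only [heckeH_mk]
  rw [← sub_eq_zero, ← map_sub]
  show (B1z π R W).mkQ _ = 0
  rw [Submodule.mkQ_apply, Submodule.Quotient.mk_eq_zero]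
  exact heckeFun_comm_sub_mem h₁ h₂ hrel f.2

end comm

/-! ### Functoriality in the coefficients -/

section functor

variable {W' : Type*} [AddCommGroup W'] [Module R W'] [DistribMulAction G W'] [SMulCommClass G R W']
variable {W'' : Type*} [AddCommGroup W''] [Module R W''] [DistribMulAction G W'']
  [SMulCommClass G R W'']

/-- equivariance of a linear map -/
def IsEquivar (G : Type*) [Group G] {R : Type*} [CommRing R] {W W' : Type*} [AddCommGroup W]
    [AddCommGroup W'] [Module R W] [Module R W'] [DistribMulAction G W] [DistribMulAction G W']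
    (u : W →ₗ[R] W') : Prop :=
  ∀ (g : G) (w : W), u (g • w) = g • u w

theorem compLeft_mem_Z1 {u : W →ₗ[R] W'} (hu : IsEquivar G u) {f : Γ → W} (hf : f ∈ Z1 π R W) :
    u.compLeft Γ f ∈ Z1 π R W' := by
  intro γ γ'
  show u (f (γ * γ')) = u (f γ) + π γ • u (f γ')
  rw [hf, map_add, hu]

theorem compLeft_mem_B1s {u : W →ₗ[R] W'} (hu : IsEquivar G u) {f : Γ → W} (hf : f ∈ B1s π R W) :
    u.compLeft Γ f ∈ B1s π R W' := by
  obtain ⟨w, rfl⟩ := hf
  refine ⟨u w, ?_⟩
  funext γ
  show π γ • u w - u w = u (π γ • w - w)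
  rw [map_sub, hu]

variable (π) in
/-- the map on crossed homomorphisms -/
def Z1.map (u : W →ₗ[R] W') (hu : IsEquivar G u) : ↥(Z1 π R W) →ₗ[R] ↥(Z1 π R W') :=
  ((u.compLeft Γ).domRestrict (Z1 π R W)).codRestrict (Z1 π R W') fun f => compLeft_mem_Z1 hu f.2

@[simp] theorem Z1.map_apply (u : W →ₗ[R] W') (hu : IsEquivar G u) (f : ↥(Z1 π R W)) (γ : Γ) :
    ((Z1.map π u hu f : ↥(Z1 π R W')) : Γ → W') γ = u ((f : Γ → W) γ) := rfl

variable (π) in
/-- the map on `H1` -/
def H1.map (u : W →ₗ[R] W') (hu : IsEquivar G u) : H1 π R W →ₗ[R] H1 π R W' :=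
  (B1z π R W).mapQ (B1z π R W') (Z1.map π u hu) (by
    intro f hf
    exact compLeft_mem_B1s hu hf)

@[simp] theorem H1.map_mk (u : W →ₗ[R] W') (hu : IsEquivar G u) (f : ↥(Z1 π R W)) :
    H1.map π u hu (H1.mk π R W f) = H1.mk π R W' (Z1.map π u hu f) := rfl

theorem H1.map_heckeH {ι : Type*} [Fintype ι] {D : CosetData Γ Γ ι}
    (hD : CosetData.IsEquivariant π D) (u : W →ₗ[R] W') (hu : IsEquivar G u) (x : H1 π R W) :
    H1.map π u hu (heckeH R W hD x) = heckeH R W' hD (H1.map π u hu x) := by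
  obtain ⟨f, rfl⟩ := H1.mk_surjective π R W x
  simp only [heckeH_mk, H1.map_mk]
  congr 1
  apply Subtype.ext
  funext γ
  show u (∑ x, (f : Γ → W) (D.c γ x)) = ∑ x, u ((f : Γ → W) (D.c γ x))
  rw [map_sum]

theorem IsEquivar.comp {u : W →ₗ[R] W'} {v : W' →ₗ[R] W''} (hu : IsEquivar G u)
    (hv : IsEquivar G v) : IsEquivar G (v.comp u) := by
  intro g w
  show v (u (g • w)) = g • v (u w)
  rw [hu, hv]

theorem H1.map_comp (u : W →ₗ[R] W') (hu : IsEquivar G u) (v : W' →ₗ[R] W'')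
    (hv : IsEquivar G v) (x : H1 π R W) :
    H1.map π (v.comp u) (hu.comp hv) x = H1.map π v hv (H1.map π u hu x) := by
  obtain ⟨f, rfl⟩ := H1.mk_surjective π R W x
  rfl

theorem H1.map_id (x : H1 π R W) :
    H1.map π (LinearMap.id : W →ₗ[R] W) (fun _ _ => rfl) x = x := by
  obtain ⟨f, rfl⟩ := H1.mk_surjective π R W x
  rfl

end functor

end Fermat.Agent.S43lib.B1
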