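/-
S43lib / B1 / GMod  (helper3).

Modules with an action of a group `G` (unbundled: `[Module R W] [DistribMulAction G W]
[SMulCommClass G R W]`): the trivial module `TrivMod G A`, the regular module `Reg G A = (G → A)`, the
quotient `QuotG N hN` by a stable submodule, augmentation, norm, translations; the fixed point lemma for
`p`-groups acting on finite groups killed by `p`.
-/
import Mathlib
import Fermat.Agent.S43lib.B1.ZCoh

set_option autoImplicit false
set_option linter.unusedSectionVars false
set_option linter.unusedVariables false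

noncomputable section

namespace Fermat.Agent.S43lib.B1

/-! ### The fixed point lemma -/

theorem exists_fixed_ne_zero_of_stable {G : Type*} [Group G] {p : ℕ} [hp : Fact p.Prime]
    (hG : IsPGroup p G) {A : Type*} [AddCommGroup A] [DistribMulAction G A] (B : AddSubgroup A)
    [Finite B] (hB : ∀ (g : G), ∀ b ∈ B, g • b ∈ B) (hpB : ∀ b ∈ B, p • b = 0) (hne : B ≠ ⊥) :
    ∃ a ∈ B, a ≠ 0 ∧ ∀ g : G, g • a = a := by
  classical
  let _ : MulAction G B :=
    { smul := fun g b => ⟨g • b.1, hB g b.1 b.2⟩
      one_smul := fun b => Subtype.ext (one_smul G b.1)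
      mul_smul := fun g h b => Subtype.ext (mul_smul g h b.1) }
  have hsmul : ∀ (g : G) (b : B), ((g • b : B) : A) = g • (b : A) := fun g b => rfl
  have h1 := hG.card_modEq_card_fixedPoints (α := B)
  -- `p ∣ card B`
  obtain ⟨b₀, hb₀, hb₀ne⟩ : ∃ b ∈ B, b ≠ 0 := by
    by_contra hcon
    push Not at hcon
    exact hne ((AddSubgroup.eq_bot_iff_forall B).mpr hcon)
  have hpdvd : p ∣ Nat.card B := by
    have hord : addOrderOf (⟨b₀, hb₀⟩ : B) = p := by
      refine addOrderOf_eq_prime ?_ ?_
      · exact Subtype.ext (hpB b₀ hb₀)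
      · intro h
        exact hb₀ne (congrArg Subtype.val h)
    rw [← hord]
    exact addOrderOf_dvd_natCard _
  have hpfix : p ∣ Nat.card (MulAction.fixedPoints G B) := by
    have := (Nat.modEq_zero_iff_dvd.mpr hpdvd).symm.trans h1
    exact Nat.modEq_zero_iff_dvd.mp this.symm
  have : Finite (MulAction.fixedPoints G B) := Subtype.finite
  have hzero : (0 : B) ∈ MulAction.fixedPoints G B := by
    intro g
    apply Subtype.ext
    rw [hsmul]
    exact smul_zero g
  have hcard : 1 < Nat.card (MulAction.fixedPoints G B) := by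
    have hpos : 0 < Nat.card (MulAction.fixedPoints G B) :=
      Nat.card_pos_iff.mpr ⟨⟨⟨0, hzero⟩⟩, inferInstance⟩
    exact lt_of_lt_of_le hp.out.one_lt (Nat.le_of_dvd hpos hpfix)
  obtain ⟨x, y, hxy⟩ := (Finite.one_lt_card_iff_nontrivial.mp hcard).exists_pair_ne
  -- one of the two is nonzero
  have key : ∀ z : MulAction.fixedPoints G B, (z : B) ≠ 0 →
      ∃ a ∈ B, a ≠ 0 ∧ ∀ g : G, g • a = a := by
    intro z hz
    refine ⟨((z : B) : A), (z : B).2, fun h => hz (Subtype.ext h), fun g => ?_⟩
    have := z.2 g
    rw [← hsmul]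
    exact congrArg Subtype.val this
  by_cases hx : (x : B) = 0
  · refine key y fun hy => hxy ?_
    apply Subtype.ext
    rw [hx, hy]
  · exact key x hx

/-! ### The trivial module -/

/-- `A` with the trivial action of `G` -/
def TrivMod (G : Type*) (A : Type*) : Type _ := A

namespace TrivMod

variable {G : Type*} [Group G] {A : Type*} [AddCommGroup A]

instance : AddCommGroup (TrivMod G A) := inferInstanceAs (AddCommGroup A)

instance {R : Type*} [Semiring R] [Module R A] : Module R (TrivMod G A) :=
  inferInstanceAs (Module R A)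

instance : DistribMulAction G (TrivMod G A) where
  smul _ a := a
  one_smul _ := rfl
  mul_smul _ _ _ := rfl
  smul_zero _ := rfl
  smul_add _ _ _ := rfl

@[simp] theorem smul_def (g : G) (a : TrivMod G A) : g • a = a := rfl

instance {R : Type*} [Semiring R] [Module R A] : SMulCommClass G R (TrivMod G A) :=
  ⟨fun _ _ _ => rfl⟩

instance [Finite A] : Finite (TrivMod G A) := inferInstanceAs (Finite A)

/-- the identification with `A` -/
def toA (R : Type*) [Semiring R] [Module R A] : TrivMod G A ≃ₗ[R] A := LinearEquiv.refl R A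

end TrivMod

/-! ### The regular module -/

/-- functions on `G` with the translation action `(g • f) x = f (g⁻¹ * x)` -/
structure Reg (G : Type*) (A : Type*) where
  /-- the underlying function -/
  toFun : G → A

namespace Reg

variable {G : Type*} {A : Type*}

instance : CoeFun (Reg G A) (fun _ => G → A) := ⟨Reg.toFun⟩

/-- the identification with functions -/
def equiv : Reg G A ≃ (G → A) := ⟨Reg.toFun, Reg.mk, fun _ => rfl, fun _ => rfl⟩

@[ext] theorem ext {f f' : Reg G A} (h : ∀ x, f x = f' x) : f = f' := by
  cases f; cases f'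
  congr 1
  exact funext h

@[simp] theorem mk_apply (f : G → A) (x : G) : (Reg.mk f : Reg G A) x = f x := rfl

variable [AddCommGroup A]

instance : AddCommGroup (Reg G A) := equiv.addCommGroup

instance {R : Type*} [Semiring R] [Module R A] : Module R (Reg G A) := equiv.module R

@[simp] theorem add_apply (f f' : Reg G A) (x : G) : (f + f') x = f x + f' x := rfl
@[simp] theorem zero_apply (x : G) : (0 : Reg G A) x = 0 := rfl
@[simp] theorem neg_apply (f : Reg G A) (x : G) : (-f) x = -f x := rfl
@[simp] theorem sub_apply (f f' : Reg G A) (x : G) : (f - f') x = f x - f' x := rfl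
@[simp] theorem smul_apply' {R : Type*} [Semiring R] [Module R A] (r : R) (f : Reg G A) (x : G) :
    (r • f) x = r • f x := rfl

/-- evaluation at a point, as an additive map -/
def evalHom (x : G) : Reg G A →+ A where
  toFun f := f x
  map_zero' := rfl
  map_add' _ _ := rfl

@[simp] theorem evalHom_apply (x : G) (f : Reg G A) : evalHom x f = f x := rfl

theorem sum_apply {κ : Type*} (s : Finset κ) (f : κ → Reg G A) (x : G) :
    (∑ j ∈ s, f j) x = ∑ j ∈ s, f j x := map_sum (evalHom x) f s

theorem nsmul_apply (n : ℕ) (f : Reg G A) (x : G) : (n • f) x = n • f x :=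
  map_nsmul (evalHom x) n f

variable [Group G]

instance : DistribMulAction G (Reg G A) where
  smul g f := ⟨fun x => f (g⁻¹ * x)⟩
  one_smul f := by
    ext x
    show f ((1 : G)⁻¹ * x) = f x
    rw [inv_one, one_mul]
  mul_smul g h f := by
    ext x
    show f ((g * h)⁻¹ * x) = f (h⁻¹ * (g⁻¹ * x))
    rw [mul_inv_rev, mul_assoc]
  smul_zero g := rfl
  smul_add g f f' := rfl

@[simp] theorem smul_apply (g : G) (f : Reg G A) (x : G) : (g • f) x = f (g⁻¹ * x) := rfl

instance {R : Type*} [Semiring R] [Module R A] : SMulCommClass G R (Reg G A) :=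
  ⟨fun _ _ _ => rfl⟩

instance [Finite G] [Finite A] : Finite (Reg G A) := Finite.of_equiv _ equiv.symm

end Reg

/-! ### Quotients by stable submodules -/

section quot

variable {G : Type*} [Group G] {R : Type*} [CommRing R]
variable {W : Type*} [AddCommGroup W] [Module R W] [DistribMulAction G W] [SMulCommClass G R W]

/-- the quotient of a `G`-module by a stable submodule -/
def QuotG (N : Submodule R W) (hN : ∀ (g : G), ∀ w ∈ N, g • w ∈ N) : Type _ := W ⧸ N

namespace QuotG

variable (N : Submodule R W) (hN : ∀ (g : G), ∀ w ∈ N, g • w ∈ N)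

instance : AddCommGroup (QuotG N hN) := inferInstanceAs (AddCommGroup (W ⧸ N))
instance : Module R (QuotG N hN) := inferInstanceAs (Module R (W ⧸ N))

/-- the quotient map -/
def mk : W →ₗ[R] QuotG N hN := N.mkQ

theorem mk_surjective : Function.Surjective (mk N hN) := Submodule.mkQ_surjective N

theorem mk_eq_zero_iff (w : W) : mk N hN w = 0 ↔ w ∈ N := by
  show N.mkQ w = 0 ↔ _
  rw [Submodule.mkQ_apply, Submodule.Quotient.mk_eq_zero]

/-- the action of `g` as a linear map -/
def actLin (R : Type*) [CommRing R] (W : Type*) [AddCommGroup W] [Module R W] [DistribMulAction G W]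
    [SMulCommClass G R W] (g : G) : W →ₗ[R] W where
  toFun w := g • w
  map_add' := smul_add g
  map_smul' r w := smul_comm g r w

@[simp] theorem actLin_apply (g : G) (w : W) : actLin R W g w = g • w := rfl

instance : DistribMulAction G (QuotG N hN) where
  smul g x := N.mapQ N (actLin R W g) (fun w hw => hN g w hw) x
  one_smul x := by
    obtain ⟨w, rfl⟩ := mk_surjective N hN x
    show (Submodule.Quotient.mk ((1 : G) • w) : W ⧸ N) = Submodule.Quotient.mk w
    rw [one_smul]
  mul_smul g h x := by
    obtain ⟨w, rfl⟩ := mk_surjective N hN x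
    show (Submodule.Quotient.mk ((g * h) • w) : W ⧸ N) = Submodule.Quotient.mk (g • h • w)
    rw [mul_smul]
  smul_zero g := map_zero _
  smul_add g x y := map_add _ x y

theorem smul_mk (g : G) (w : W) : g • mk N hN w = mk N hN (g • w) := rfl

instance : SMulCommClass G R (QuotG N hN) where
  smul_comm g r x := by
    obtain ⟨w, rfl⟩ := mk_surjective N hN x
    rw [← map_smul, smul_mk, smul_mk, smul_comm, map_smul]

theorem isEquivar_mk : IsEquivar G (mk N hN) := fun g w => (smul_mk N hN g w).symm

instance [Finite W] : Finite (QuotG N hN) := Finite.of_surjective _ (mk_surjective N hN)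

end QuotG

end quot

end Fermat.Agent.S43lib.B1
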