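/-
S43lib / B1 / Fun  (helper3).

Functorial calculus for the localised cohomology `S.F R W 𝔪`: extensionality, identity, composition,
additivity and linearity in the coefficient map; for commutative `G`, the induced action of `G` on
`S.F R W 𝔪` and its compatibility with all induced maps and with the Hecke operators.
-/
import Fermat.Agent.S43lib.B1.Sys
import Fermat.Agent.S43lib.B1.GMod

set_option autoImplicit false
set_option linter.unusedSectionVars false
set_option linter.unusedVariables false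

noncomputable section

namespace Fermat.Agent.S43lib.B1

open MvPolynomial Fermat.Agent.S41lib.HC

section equivar

variable {G : Type*} [Group G] {R : Type*} [CommRing R]
variable {W W' : Type*} [AddCommGroup W] [Module R W] [DistribMulAction G W] [SMulCommClass G R W]
  [AddCommGroup W'] [Module R W'] [DistribMulAction G W'] [SMulCommClass G R W']

theorem IsEquivar.zero : IsEquivar G (0 : W →ₗ[R] W') := fun g w => by simp

theorem IsEquivar.add {u u' : W →ₗ[R] W'} (hu : IsEquivar G u) (hu' : IsEquivar G u') :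
    IsEquivar G (u + u') := fun g w => by
  rw [LinearMap.add_apply, LinearMap.add_apply, hu, hu', smul_add]

theorem IsEquivar.smul {u : W →ₗ[R] W'} (hu : IsEquivar G u) (a : R) :
    IsEquivar G (a • u) := fun g w => by
  rw [LinearMap.smul_apply, LinearMap.smul_apply, hu, smul_comm g a]

theorem IsEquivar.sum {κ : Type*} (s : Finset κ) {u : κ → (W →ₗ[R] W')}
    (hu : ∀ j, IsEquivar G (u j)) : IsEquivar G (∑ j ∈ s, u j) := by
  classical
  induction s using Finset.induction_on with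
  | empty => simpa using IsEquivar.zero
  | insert a s ha ih =>
    rw [Finset.sum_insert ha]
    exact (hu a).add ih

end equivar

theorem isEquivar_actLin {G : Type*} [CommGroup G] {R : Type*} [CommRing R] {W : Type*}
    [AddCommGroup W] [Module R W] [DistribMulAction G W] [SMulCommClass G R W] (g : G) :
    IsEquivar G (QuotG.actLin (G := G) R W g) := fun h w => by
  simp only [QuotG.actLin_apply]
  rw [← mul_smul, ← mul_smul, mul_comm]

namespace HeckeSys

variable {Γ G : Type} [Group Γ] [Group G] {I : Type} (S : HeckeSys Γ G I)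
variable {R : Type} [CommRing R]
variable {W : Type} [AddCommGroup W] [Module R W] [DistribMulAction G W] [SMulCommClass G R W]
variable {W' : Type} [AddCommGroup W'] [Module R W'] [DistribMulAction G W'] [SMulCommClass G R W']
variable {W'' : Type} [AddCommGroup W''] [Module R W''] [DistribMulAction G W'']
  [SMulCommClass G R W'']

/-! ### Before localisation -/

theorem map_congr {u u' : W →ₗ[R] W'} (h : u = u') (hu : IsEquivar G u) (x : S.Coh R W) :
    S.map u hu x = S.map u' (h ▸ hu) x := by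
  subst h
  rfl

theorem map_add' {u u' : W →ₗ[R] W'} (hu : IsEquivar G u) (hu' : IsEquivar G u')
    (x : S.Coh R W) : S.map (u + u') (hu.add hu') x = S.map u hu x + S.map u' hu' x := by
  obtain ⟨f, rfl⟩ := S.cls_surjective R W x
  rw [map_cls, map_cls, map_cls, ← _root_.map_add]
  rfl

theorem map_smul'' {u : W →ₗ[R] W'} (hu : IsEquivar G u) (a : R) (x : S.Coh R W) :
    S.map (a • u) (hu.smul a) x = a • S.map u hu x := by
  obtain ⟨f, rfl⟩ := S.cls_surjective R W x
  rw [map_cls, map_cls, ← _root_.map_smul]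
  rfl

theorem map_zero' (x : S.Coh R W) : S.map (0 : W →ₗ[R] W') IsEquivar.zero x = 0 := by
  obtain ⟨f, rfl⟩ := S.cls_surjective R W x
  rw [map_cls]
  have : Z1.map S.π (0 : W →ₗ[R] W') IsEquivar.zero f = 0 := by
    apply Subtype.ext
    funext γ
    rfl
  rw [this, _root_.map_zero]

/-! ### After localisation -/

variable (𝔪 : Ideal (MvPolynomial I R)) [𝔪.IsPrime]

theorem F_hom_ext {φ ψ : S.F R W 𝔪 →ₗ[MvPolynomial I R] S.F R W' 𝔪}
    (h : ∀ x, φ (S.loc R W 𝔪 x) = ψ (S.loc R W 𝔪 x)) : φ = ψ :=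
  IsLocalizedModule.linearMap_ext 𝔪.primeCompl (S.loc R W 𝔪) (S.loc R W' 𝔪)
    (LinearMap.ext h)

theorem F_induction {P : S.F R W 𝔪 → Prop}
    (h : ∀ (x : S.Coh R W) (s : 𝔪.primeCompl), P (LocalizedModule.mk x s)) (y : S.F R W 𝔪) : P y :=
  LocalizedModule.induction_on h y

theorem Fmap_congr {u u' : W →ₗ[R] W'} (h : u = u') (hu : IsEquivar G u) :
    S.Fmap 𝔪 u hu = S.Fmap 𝔪 u' (h ▸ hu) := by
  subst h
  rfl

theorem Fmap_id : S.Fmap 𝔪 (LinearMap.id : W →ₗ[R] W) isEquivar_id = LinearMap.id := by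
  apply S.F_hom_ext 𝔪
  intro x
  rw [Fmap_loc, map_id, LinearMap.id_apply]

theorem Fmap_comp {u : W →ₗ[R] W'} (hu : IsEquivar G u) {v : W' →ₗ[R] W''}
    (hv : IsEquivar G v) :
    S.Fmap 𝔪 (v.comp u) (hu.comp hv) = (S.Fmap 𝔪 v hv).comp (S.Fmap 𝔪 u hu) := by
  apply S.F_hom_ext 𝔪
  intro x
  rw [Fmap_loc, map_comp, LinearMap.comp_apply, Fmap_loc, Fmap_loc]

theorem Fmap_comp_apply {u : W →ₗ[R] W'} (hu : IsEquivar G u) {v : W' →ₗ[R] W''}
    (hv : IsEquivar G v) (y : S.F R W 𝔪) :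
    S.Fmap 𝔪 (v.comp u) (hu.comp hv) y = S.Fmap 𝔪 v hv (S.Fmap 𝔪 u hu y) := by
  rw [Fmap_comp]
  rfl

theorem Fmap_add {u u' : W →ₗ[R] W'} (hu : IsEquivar G u) (hu' : IsEquivar G u') :
    S.Fmap 𝔪 (u + u') (hu.add hu') = S.Fmap 𝔪 u hu + S.Fmap 𝔪 u' hu' := by
  apply S.F_hom_ext 𝔪
  intro x
  rw [LinearMap.add_apply, Fmap_loc, Fmap_loc, Fmap_loc, map_add', _root_.map_add]

theorem Fmap_zero : S.Fmap 𝔪 (0 : W →ₗ[R] W') IsEquivar.zero = 0 := by
  apply S.F_hom_ext 𝔪
  intro x
  rw [LinearMap.zero_apply, Fmap_loc, map_zero', _root_.map_zero]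

theorem Fmap_smul_apply {u : W →ₗ[R] W'} (hu : IsEquivar G u) (a : R) (y : S.F R W 𝔪) :
    S.Fmap 𝔪 (a • u) (hu.smul a) y = a • S.Fmap 𝔪 u hu y := by
  have h : S.Fmap 𝔪 (a • u) (hu.smul a) = (C a : MvPolynomial I R) • S.Fmap 𝔪 u hu := by
    apply S.F_hom_ext 𝔪
    intro x
    rw [LinearMap.smul_apply, Fmap_loc, Fmap_loc, map_smul'', ← C_smul, _root_.map_smul]
  rw [h, LinearMap.smul_apply, ← MvPolynomial.algebraMap_eq, algebraMap_smul]

theorem Fmap_sum {κ : Type} (s : Finset κ) {u : κ → (W →ₗ[R] W')}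
    (hu : ∀ j, IsEquivar G (u j)) :
    S.Fmap 𝔪 (∑ j ∈ s, u j) (IsEquivar.sum s hu) = ∑ j ∈ s, S.Fmap 𝔪 (u j) (hu j) := by
  classical
  induction s using Finset.induction_on with
  | empty =>
    simp only [Finset.sum_empty]
    exact (S.Fmap_congr 𝔪 (by simp) _).trans (S.Fmap_zero 𝔪)
  | insert a s ha ih =>
    rw [Finset.sum_insert ha (f := fun j => S.Fmap 𝔪 (u j) (hu j)), ← ih, ← Fmap_add]
    exact S.Fmap_congr 𝔪 (Finset.sum_insert ha) _

/-- the Hecke operator `T_i` on the localisation is multiplication by `X i` -/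
theorem X_smul_loc (i : I) (x : S.Coh R W) :
    (X i : MvPolynomial I R) • S.loc R W 𝔪 x = S.loc R W 𝔪 (S.T R W i x) := by
  rw [← _root_.map_smul, X_smul]

end HeckeSys

/-! ### The action of a commutative `G` -/

namespace HeckeSys

variable {Γ G : Type} [Group Γ] [CommGroup G] {I : Type} (S : HeckeSys Γ G I)
variable {R : Type} [CommRing R]
variable {W : Type} [AddCommGroup W] [Module R W] [DistribMulAction G W] [SMulCommClass G R W]
variable {W' : Type} [AddCommGroup W'] [Module R W'] [DistribMulAction G W'] [SMulCommClass G R W']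
variable (𝔪 : Ideal (MvPolynomial I R)) [𝔪.IsPrime]

/-- the action of `g : G` on the localised cohomology -/
def Gact (g : G) : S.F R W 𝔪 →ₗ[MvPolynomial I R] S.F R W 𝔪 :=
  S.Fmap 𝔪 (QuotG.actLin (G := G) R W g) (isEquivar_actLin g)

theorem Gact_one (y : S.F R W 𝔪) : S.Gact 𝔪 (1 : G) y = y := by
  have h : QuotG.actLin (G := G) R W 1 = LinearMap.id := by
    ext w
    simp
  unfold Gact
  rw [S.Fmap_congr 𝔪 h, Fmap_id]
  rfl

theorem Gact_mul (g h : G) (y : S.F R W 𝔪) :
    S.Gact 𝔪 (g * h) y = S.Gact 𝔪 g (S.Gact 𝔪 h y) := by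
  have h' : QuotG.actLin (G := G) R W (g * h) =
      (QuotG.actLin (G := G) R W g).comp (QuotG.actLin (G := G) R W h) := by
    ext w
    simp [mul_smul]
  unfold Gact
  rw [S.Fmap_congr 𝔪 h', Fmap_comp]
  rfl

theorem Fmap_Gact {u : W →ₗ[R] W'} (hu : IsEquivar G u) (g : G) (y : S.F R W 𝔪) :
    S.Fmap 𝔪 u hu (S.Gact 𝔪 g y) = S.Gact 𝔪 g (S.Fmap 𝔪 u hu y) := by
  unfold Gact
  rw [← Fmap_comp_apply, ← Fmap_comp_apply]
  have h : u.comp (QuotG.actLin (G := G) R W g) = (QuotG.actLin (G := G) R W' g).comp u := by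
    ext w
    simp [hu g w]
  rw [S.Fmap_congr 𝔪 h]

end HeckeSys

end Fermat.Agent.S43lib.B1
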