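/-
S43lib / B1 / Free  (helper3).

**Freeness over the group ring.**  For a finite abelian `p`-group `G`, a complete discrete valuation
ring `𝒪` (Noetherian local domain with principal maximal ideal `(ϖ)`, finite residue field `k` of
characteristic `p`) and an exact non-Eisenstein localised cohomology functor `F = S.F 𝒪 · 𝔪`:
the module `F (𝒪[G])` is free over `𝒪[G]`, of rank `r` with `|F k| = |k|^r`
(`exists_basis_reg`).  Here `𝒪[G] = Reg G 𝒪` acts by `regSmul c x = ∑ g, c g • (g • x)`.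
-/
import Fermat.Agent.S43lib.B1.Count
import Fermat.Agent.S43lib.B1.Fun

set_option autoImplicit false
set_option linter.unusedSectionVars false
set_option linter.unusedVariables false
set_option linter.style.haveILetI false

noncomputable section

namespace Fermat.Agent.S43lib.B1

open IsLocalRing MvPolynomial Fermat.Agent.S41lib.HC

/-! ### A basis of a finite module killed by the maximal ideal, in `𝒪`-language -/

theorem exists_residue_basis {𝒪 : Type*} [CommRing 𝒪] [IsLocalRing 𝒪] (L : Type*) [AddCommGroup L]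
    [Module 𝒪 L] [Finite L] (hL : ∀ c ∈ maximalIdeal 𝒪, ∀ y : L, c • y = 0) :
    ∃ (r : ℕ) (ℓ : Fin r → L), (∀ y, ∃ a : Fin r → 𝒪, y = ∑ i, a i • ℓ i) ∧
      (∀ a : Fin r → 𝒪, ∑ i, a i • ℓ i = 0 → ∀ i, a i ∈ maximalIdeal 𝒪) ∧
      Nat.card L = Nat.card (ResidueField 𝒪) ^ r := by
  classical
  have htors : Module.IsTorsionBySet 𝒪 L (maximalIdeal 𝒪 : Set 𝒪) := by
    intro y c
    exact hL c.1 c.2 y
  letI : Field (𝒪 ⧸ maximalIdeal 𝒪) := Ideal.Quotient.field _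
  letI : Module (𝒪 ⧸ maximalIdeal 𝒪) L := htors.module
  have hmk : ∀ (c : 𝒪) (y : L), (Ideal.Quotient.mk (maximalIdeal 𝒪) c) • y = c • y :=
    fun c y => htors.mk_smul c y
  haveI : Module.Finite (𝒪 ⧸ maximalIdeal 𝒪) L := Module.Finite.of_finite
  let b := Module.finBasis (𝒪 ⧸ maximalIdeal 𝒪) L
  refine ⟨_, b, ?_, ?_, ?_⟩
  · intro y
    choose a ha using fun i => Ideal.Quotient.mk_surjective (I := maximalIdeal 𝒪) (b.repr y i)
    refine ⟨a, ?_⟩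
    conv_lhs => rw [← b.sum_repr y]
    refine Finset.sum_congr rfl fun i _ => ?_
    rw [← ha i, hmk]
  · intro a ha i
    have h1 : ∑ i, (Ideal.Quotient.mk (maximalIdeal 𝒪) (a i)) • b i = 0 := by
      rw [← ha]
      exact Finset.sum_congr rfl fun i _ => hmk _ _
    have h2 := Fintype.linearIndependent_iff.mp b.linearIndependent _ h1 i
    exact Ideal.Quotient.eq_zero_iff_mem.mp h2
  · have h1 : Nat.card L = Nat.card (Fin (Module.finrank (𝒪 ⧸ maximalIdeal 𝒪) L) →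
        (𝒪 ⧸ maximalIdeal 𝒪)) := Nat.card_congr b.equivFun.toEquiv
    rw [h1, Nat.card_fun, Nat.card_fin]
    rfl


namespace Reg

variable {G : Type*} [Group G] [Fintype G] (R : Type*) [CommRing R]
variable (A : Type*) [AddCommGroup A] [Module R A]

/-- the augmentation `f ↦ ∑ g, f g` -/
def aug : Reg G A →ₗ[R] TrivMod G A where
  toFun f := ∑ g, f g
  map_add' f f' := by
    show ∑ g, (f g + f' g) = ∑ g, f g + ∑ g, f' g
    rw [Finset.sum_add_distrib]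
  map_smul' r f := by
    show ∑ g, r • f g = r • ∑ g, f g
    rw [Finset.smul_sum]

@[simp] theorem aug_apply (f : Reg G A) : aug R A f = ∑ g, f g := rfl

theorem isEquivar_aug : IsEquivar G (aug (G := G) R A) := by
  intro g f
  show ∑ x, f (g⁻¹ * x) = ∑ x, f x
  exact Fintype.sum_equiv (Equiv.mulLeft g⁻¹) _ _ (fun x => rfl)

theorem aug_surjective : Function.Surjective (aug (G := G) R A) := by
  classical
  intro a
  refine ⟨⟨fun x => if x = 1 then a else 0⟩, ?_⟩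
  show ∑ x, (if x = 1 then a else 0) = a
  rw [Finset.sum_ite_eq' Finset.univ (1 : G) (fun _ => a)]
  simp

/-- the constant functions -/
def nu : TrivMod G A →ₗ[R] Reg G A where
  toFun a := ⟨fun _ => a⟩
  map_add' _ _ := rfl
  map_smul' _ _ := rfl

@[simp] theorem nu_apply (a : TrivMod G A) (x : G) : nu (G := G) R A a x = a := rfl

theorem isEquivar_nu : IsEquivar G (nu (G := G) R A) := fun g a => rfl

theorem nu_injective : Function.Injective (nu (G := G) R A) := by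
  intro a b hab
  exact congrArg (fun f : Reg G A => f 1) hab

/-- `ν ∘ ε` is the norm -/
theorem nu_comp_aug :
    (nu (G := G) R A).comp (aug R A) = ∑ g : G, QuotG.actLin (G := G) R (Reg G A) g := by
  apply LinearMap.ext
  intro f
  ext x
  rw [LinearMap.sum_apply]
  show ∑ g, f g = (∑ g : G, g • f) x
  rw [sum_apply]
  simp only [smul_apply]
  exact (Fintype.sum_equiv ((Equiv.inv G).trans (Equiv.mulRight x)) _ _ (fun g => rfl)).symm

end Reg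

section red

variable {G : Type*} [Group G] (𝒪 : Type*) [CommRing 𝒪] [IsLocalRing 𝒪]

/-- reduction of the coefficients modulo the maximal ideal -/
def redReg : Reg G 𝒪 →ₗ[𝒪] Reg G (ResidueField 𝒪) where
  toFun f := ⟨fun x => IsLocalRing.residue 𝒪 (f x)⟩
  map_add' f f' := by
    ext x
    show IsLocalRing.residue 𝒪 (f x + f' x) = _
    rw [map_add]
    rfl
  map_smul' c f := by
    ext x
    show IsLocalRing.residue 𝒪 (c * f x) = c • IsLocalRing.residue 𝒪 (f x)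
    rw [map_mul, Algebra.smul_def]
    rfl

@[simp] theorem redReg_apply (f : Reg G 𝒪) (x : G) :
    redReg (G := G) 𝒪 f x = IsLocalRing.residue 𝒪 (f x) := rfl

theorem isEquivar_redReg : IsEquivar G (redReg (G := G) 𝒪) := fun g f => rfl

theorem redReg_surjective : Function.Surjective (redReg (G := G) 𝒪) := by
  intro f
  choose a ha using fun x => IsLocalRing.residue_surjective (R := 𝒪) (f x)
  exact ⟨⟨a⟩, Reg.ext ha⟩

theorem redReg_eq_zero_iff {ϖ : 𝒪} (hϖ : maximalIdeal 𝒪 = Ideal.span {ϖ}) (f : Reg G 𝒪) :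
    redReg (G := G) 𝒪 f = 0 ↔ ∃ f' : Reg G 𝒪, ϖ • f' = f := by
  constructor
  · intro h
    have h1 : ∀ x, ∃ a, ϖ * a = f x := by
      intro x
      have h2 : IsLocalRing.residue 𝒪 (f x) = 0 := congrArg (fun u : Reg G _ => u x) h
      rw [IsLocalRing.residue_eq_zero_iff, hϖ, Ideal.mem_span_singleton] at h2
      obtain ⟨a, ha⟩ := h2
      exact ⟨a, ha.symm⟩
    choose a ha using h1
    exact ⟨⟨a⟩, Reg.ext ha⟩
  · rintro ⟨f', rfl⟩
    ext x
    show IsLocalRing.residue 𝒪 (ϖ * f' x) = 0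
    rw [IsLocalRing.residue_eq_zero_iff, hϖ]
    exact Ideal.mul_mem_right _ _ (Ideal.subset_span rfl)

end red


namespace HeckeSys

variable {Γ G : Type} [Group Γ] [CommGroup G] [Fintype G] {I : Type} (S : HeckeSys Γ G I)
variable {𝒪 : Type} [CommRing 𝒪] [IsDomain 𝒪] [IsLocalRing 𝒪] [IsNoetherianRing 𝒪]
  [IsAdicComplete (maximalIdeal 𝒪) 𝒪]
variable (𝔪 : Ideal (MvPolynomial I 𝒪)) [h𝔪 : 𝔪.IsMaximal]

section general

variable {W : Type} [AddCommGroup W] [Module 𝒪 W] [DistribMulAction G W] [SMulCommClass G 𝒪 W]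
variable {W' : Type} [AddCommGroup W'] [Module 𝒪 W'] [DistribMulAction G W']
  [SMulCommClass G 𝒪 W']

/-- the action of the group ring `𝒪[G] = Reg G 𝒪` on the localised cohomology -/
def regSmul (c : Reg G 𝒪) (x : S.F 𝒪 W 𝔪) : S.F 𝒪 W 𝔪 := ∑ g, c g • S.Gact 𝔪 g x

theorem regSmul_add (c c' : Reg G 𝒪) (x : S.F 𝒪 W 𝔪) :
    S.regSmul 𝔪 (c + c') x = S.regSmul 𝔪 c x + S.regSmul 𝔪 c' x := by
  unfold regSmul
  rw [← Finset.sum_add_distrib]
  exact Finset.sum_congr rfl fun g _ => by rw [Reg.add_apply, add_smul]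

theorem regSmul_smul (a : 𝒪) (c : Reg G 𝒪) (x : S.F 𝒪 W 𝔪) :
    S.regSmul 𝔪 (a • c) x = a • S.regSmul 𝔪 c x := by
  unfold regSmul
  rw [Finset.smul_sum]
  exact Finset.sum_congr rfl fun g _ => by rw [Reg.smul_apply', smul_eq_mul, mul_smul]

theorem regSmul_zero (x : S.F 𝒪 W 𝔪) : S.regSmul 𝔪 (0 : Reg G 𝒪) x = 0 := by
  unfold regSmul
  exact Finset.sum_eq_zero fun g _ => by rw [Reg.zero_apply, zero_smul]

theorem regSmul_sub (c c' : Reg G 𝒪) (x : S.F 𝒪 W 𝔪) :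
    S.regSmul 𝔪 (c - c') x = S.regSmul 𝔪 c x - S.regSmul 𝔪 c' x := by
  have h := S.regSmul_add 𝔪 (c - c') c' x
  rw [sub_add_cancel] at h
  rw [h, add_sub_cancel_right]

theorem Fmap_regSmul {u : W →ₗ[𝒪] W'} (hu : IsEquivar G u) (c : Reg G 𝒪) (x : S.F 𝒪 W 𝔪) :
    S.Fmap 𝔪 u hu (S.regSmul 𝔪 c x) = S.regSmul 𝔪 c (S.Fmap 𝔪 u hu x) := by
  unfold regSmul
  rw [map_sum]
  refine Finset.sum_congr rfl fun g _ => ?_
  rw [← IsScalarTower.algebraMap_smul (MvPolynomial I 𝒪) (c g), map_smul,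
    IsScalarTower.algebraMap_smul, Fmap_Gact]

theorem Gact_regSmul (g : G) (c : Reg G 𝒪) (x : S.F 𝒪 W 𝔪) :
    S.Gact 𝔪 g (S.regSmul 𝔪 c x) = S.regSmul 𝔪 (g • c) x := by
  unfold regSmul
  rw [map_sum]
  rw [← Fintype.sum_equiv (Equiv.mulLeft g) (fun h => c h • S.Gact 𝔪 (g * h) x)
    (fun h => (g • c) h • S.Gact 𝔪 h x) (fun h => by
      show c h • S.Gact 𝔪 (g * h) x = (g • c) (g * h) • S.Gact 𝔪 (g * h) x
      rw [Reg.smul_apply, inv_mul_cancel_left])]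
  refine Finset.sum_congr rfl fun h _ => ?_
  rw [← IsScalarTower.algebraMap_smul (MvPolynomial I 𝒪) (c h), map_smul,
    IsScalarTower.algebraMap_smul, Gact_mul]

/-- a scalar killing `W` kills `F W` -/
theorem F_kill (a : 𝒪) (ha : ∀ w : W, a • w = 0) (y : S.F 𝒪 W 𝔪) : a • y = 0 := by
  have h1 : a • (LinearMap.id : W →ₗ[𝒪] W) = 0 := by
    ext w
    exact ha w
  have h2 := S.Fmap_smul_apply 𝔪 (isEquivar_id (G := G) (R := 𝒪) (W := W)) a y
  rw [S.Fmap_congr 𝔪 h1, Fmap_zero, Fmap_id] at h2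
  exact h2.symm

end general

/-! ### The main theorem -/

section main

variable [Group.FG Γ] [Finite (ResidueField 𝒪)] {p : ℕ} [hp : Fact p.Prime]
variable (hS : S.RightExact 𝒪) (hne : S.NonEis 𝔪) (hG : IsPGroup p G) {ϖ : 𝒪}
  (hϖ : maximalIdeal 𝒪 = Ideal.span {ϖ}) (hϖ0 : ϖ ≠ 0) (hp𝒪 : (p : 𝒪) ∈ maximalIdeal 𝒪)

include hS hne hG hϖ hp𝒪 in
theorem card_F_reg :
    Nat.card (S.F 𝒪 (Reg G (ResidueField 𝒪)) 𝔪) =
      Nat.card (S.F 𝒪 (TrivMod G (ResidueField 𝒪)) 𝔪) ^ Fintype.card G := by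
  obtain ⟨n, hn1, hn2⟩ := S.card_F_pow 𝔪 hS hne hG hϖ hp𝒪 _ (Reg G (ResidueField 𝒪)) le_rfl
  have h1 : Nat.card (Reg G (ResidueField 𝒪)) = Nat.card (ResidueField 𝒪) ^ Fintype.card G := by
    rw [Nat.card_congr Reg.equiv, Nat.card_fun, Nat.card_eq_fintype_card (α := G)]
  have hk2 : 2 ≤ Nat.card (ResidueField 𝒪) := by
    have : 1 < Nat.card (ResidueField 𝒪) := Finite.one_lt_card
    omega
  have hn : n = Fintype.card G := Nat.pow_right_injective hk2 (hn1.symm.trans h1)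
  rw [hn2, hn]

theorem norm_eq (v : S.F 𝒪 (Reg G (ResidueField 𝒪)) 𝔪) :
    ∑ g, S.Gact 𝔪 g v =
      S.Fmap 𝔪 (Reg.nu 𝒪 (ResidueField 𝒪)) (Reg.isEquivar_nu 𝒪 _)
        (S.Fmap 𝔪 (Reg.aug 𝒪 (ResidueField 𝒪)) (Reg.isEquivar_aug 𝒪 _) v) := by
  rw [← Fmap_comp_apply, S.Fmap_congr 𝔪 (Reg.nu_comp_aug (G := G) 𝒪 (ResidueField 𝒪)),
    S.Fmap_sum 𝔪 Finset.univ (fun g => isEquivar_actLin g), LinearMap.sum_apply]
  rfl


/-- the pointwise reduction `(Fin r → 𝒪[G]) → (Fin r → k[G])` -/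
def redA (G : Type) [Group G] (𝒪 : Type) [CommRing 𝒪] [IsLocalRing 𝒪] (r : ℕ) :
    (Fin r → Reg G 𝒪) →+ (Fin r → Reg G (ResidueField 𝒪)) where
  toFun c i := redReg 𝒪 (c i)
  map_zero' := by
    funext i
    exact map_zero _
  map_add' c c' := by
    funext i
    exact map_add _ _ _

/-- the combination map `c ↦ ∑ i, c i • v i` -/
def combo {W : Type} [AddCommGroup W] [Module 𝒪 W] [DistribMulAction G W] [SMulCommClass G 𝒪 W]
    {r : ℕ} (v : Fin r → S.F 𝒪 W 𝔪) : (Fin r → Reg G 𝒪) →+ S.F 𝒪 W 𝔪 where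
  toFun c := ∑ i, S.regSmul 𝔪 (c i) (v i)
  map_zero' := Finset.sum_eq_zero fun i _ => S.regSmul_zero 𝔪 _
  map_add' c c' := by
    rw [← Finset.sum_add_distrib]
    exact Finset.sum_congr rfl fun i _ => S.regSmul_add 𝔪 _ _ _

theorem combo_apply {W : Type} [AddCommGroup W] [Module 𝒪 W] [DistribMulAction G W]
    [SMulCommClass G 𝒪 W] {r : ℕ} (v : Fin r → S.F 𝒪 W 𝔪) (c : Fin r → Reg G 𝒪) :
    S.combo 𝔪 v c = ∑ i, S.regSmul 𝔪 (c i) (v i) := rfl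

theorem combo_smul {W : Type} [AddCommGroup W] [Module 𝒪 W] [DistribMulAction G W]
    [SMulCommClass G 𝒪 W] {r : ℕ} (v : Fin r → S.F 𝒪 W 𝔪) (a : 𝒪) (c : Fin r → Reg G 𝒪) :
    S.combo 𝔪 v (a • c) = a • S.combo 𝔪 v c := by
  rw [combo_apply, combo_apply, Finset.smul_sum]
  exact Finset.sum_congr rfl fun i _ => S.regSmul_smul 𝔪 a _ _

theorem Gact_combo {W : Type} [AddCommGroup W] [Module 𝒪 W] [DistribMulAction G W]
    [SMulCommClass G 𝒪 W] {r : ℕ} (v : Fin r → S.F 𝒪 W 𝔪) (g : G) (c : Fin r → Reg G 𝒪) :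
    S.Gact 𝔪 g (S.combo 𝔪 v c) = S.combo 𝔪 v (g • c) := by
  rw [combo_apply, combo_apply, map_sum]
  exact Finset.sum_congr rfl fun i _ => S.Gact_regSmul 𝔪 g _ _

theorem Fmap_combo {W W' : Type} [AddCommGroup W] [Module 𝒪 W] [DistribMulAction G W]
    [SMulCommClass G 𝒪 W] [AddCommGroup W'] [Module 𝒪 W'] [DistribMulAction G W']
    [SMulCommClass G 𝒪 W'] {u : W →ₗ[𝒪] W'} (hu : IsEquivar G u)
    {r : ℕ} (v : Fin r → S.F 𝒪 W 𝔪) (c : Fin r → Reg G 𝒪) :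
    S.Fmap 𝔪 u hu (S.combo 𝔪 v c) = S.combo 𝔪 (fun i => S.Fmap 𝔪 u hu (v i)) c := by
  rw [combo_apply, combo_apply, map_sum]
  exact Finset.sum_congr rfl fun i _ => S.Fmap_regSmul 𝔪 hu _ _

include hS hne hG hϖ hp𝒪 in
/-- the key injectivity statement modulo `ϖ` -/
theorem combo_eq_zero_imp {r : ℕ} (ℓ : Fin r → S.F 𝒪 (TrivMod G (ResidueField 𝒪)) 𝔪)
    (hℓ : ∀ a : Fin r → 𝒪, ∑ i, a i • ℓ i = 0 → ∀ i, a i ∈ maximalIdeal 𝒪)
    (v : Fin r → S.F 𝒪 (Reg G (ResidueField 𝒪)) 𝔪)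
    (hv : ∀ i, S.Fmap 𝔪 (Reg.aug 𝒪 (ResidueField 𝒪)) (Reg.isEquivar_aug 𝒪 _) (v i) = ℓ i)
    (c : Fin r → Reg G 𝒪) (hc : S.combo 𝔪 v c = 0) : redA G 𝒪 r c = 0 := by
  classical
  -- `ϖ` kills `V`
  have hkillV : ∀ y : S.F 𝒪 (Reg G (ResidueField 𝒪)) 𝔪, ϖ • y = 0 := by
    refine S.F_kill 𝔪 ϖ fun w => ?_
    ext x
    show ϖ • w x = 0
    rw [Algebra.smul_def, IsLocalRing.ResidueField.algebraMap_eq,
      (IsLocalRing.residue_eq_zero_iff ϖ).mpr (hϖ ▸ Ideal.subset_span rfl), zero_mul]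
  let K : AddSubgroup (Fin r → Reg G 𝒪) := (S.combo 𝔪 v).ker
  let Kbar : AddSubgroup (Fin r → Reg G (ResidueField 𝒪)) := K.map (redA G 𝒪 r)
  suffices hK : Kbar = ⊥ by
    have : redA G 𝒪 r c ∈ Kbar := ⟨c, hc, rfl⟩
    rw [hK, AddSubgroup.mem_bot] at this
    exact this
  by_contra hKne
  have hst : ∀ (g : G), ∀ b ∈ Kbar, g • b ∈ Kbar := by
    rintro g _ ⟨d, hd, rfl⟩
    refine ⟨g • d, ?_, rfl⟩
    show S.combo 𝔪 v (g • d) = 0
    rw [← Gact_combo, show S.combo 𝔪 v d = 0 from hd, map_zero]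
  have hpk : ((p : ℕ) : ResidueField 𝒪) = 0 := by
    have : ((p : 𝒪) : 𝒪) ∈ maximalIdeal 𝒪 := hp𝒪
    rw [← map_natCast (IsLocalRing.residue 𝒪), IsLocalRing.residue_eq_zero_iff]
    exact this
  have hpB : ∀ b ∈ Kbar, p • b = 0 := by
    intro b _
    funext i
    ext x
    show (p • b i) x = 0
    rw [Reg.nsmul_apply, nsmul_eq_mul, hpk, zero_mul]
  obtain ⟨cb, hcb, hcb0, hfix⟩ := exists_fixed_ne_zero_of_stable hG Kbar hst hpB hKne
  obtain ⟨d, hd, rfl⟩ := hcb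
  -- the fixed element is constant
  have hconst : ∀ i x, redA G 𝒪 r d i x = redA G 𝒪 r d i 1 := by
    intro i x
    have h1 := congrFun (hfix x) i
    have h2 : (x • redA G 𝒪 r d) i x = redA G 𝒪 r d i x :=
      congrArg (fun f : Reg G (ResidueField 𝒪) => f x) h1
    rw [← h2]
    show redA G 𝒪 r d i (x⁻¹ * x) = redA G 𝒪 r d i 1
    rw [inv_mul_cancel]
  -- replace `d` by the constant lift
  let d' : Fin r → Reg G 𝒪 := fun i => ⟨fun _ => d i 1⟩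
  have hred : redA G 𝒪 r (d - d') = 0 := by
    rw [map_sub, sub_eq_zero]
    funext i
    ext x
    rw [hconst i x]
    rfl
  have hdiff : ∃ e : Fin r → Reg G 𝒪, ϖ • e = d - d' := by
    have h1 : ∀ i, ∃ e : Reg G 𝒪, ϖ • e = (d - d') i :=
      fun i => (redReg_eq_zero_iff 𝒪 hϖ _).mp (congrFun hred i)
    choose e he using h1
    exact ⟨e, funext he⟩
  obtain ⟨e, he⟩ := hdiff
  have hd' : S.combo 𝔪 v d' = 0 := by
    have h1 : S.combo 𝔪 v (d - d') = 0 := by rw [← he, combo_smul, hkillV]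
    rw [map_sub, show S.combo 𝔪 v d = 0 from hd, zero_sub, neg_eq_zero] at h1
    exact h1
  -- compute `combo v d'` through the norm
  have hnorm : S.combo 𝔪 v d' =
      S.Fmap 𝔪 (Reg.nu 𝒪 (ResidueField 𝒪)) (Reg.isEquivar_nu 𝒪 _) (∑ i, d i 1 • ℓ i) := by
    rw [combo_apply, map_sum]
    refine Finset.sum_congr rfl fun i _ => ?_
    rw [← IsScalarTower.algebraMap_smul (MvPolynomial I 𝒪) (d i 1), map_smul,
      IsScalarTower.algebraMap_smul, ← hv i, ← norm_eq, Finset.smul_sum]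
    rfl
  rw [hnorm] at hd'
  have hinj := S.Fmap_injective hne (Reg.isEquivar_nu (G := G) 𝒪 (ResidueField 𝒪))
    (Reg.nu_injective 𝒪 _)
  have hsum : ∑ i, d i 1 • ℓ i = 0 := hinj (by rw [hd', map_zero])
  have hmem := hℓ _ hsum
  apply hcb0
  funext i
  ext x
  rw [hconst i x]
  show IsLocalRing.residue 𝒪 (d i 1) = 0
  exact (IsLocalRing.residue_eq_zero_iff _).mpr (hmem i)

include hS hne hG hϖ hp𝒪 in
/-- surjectivity modulo `ϖ`, by counting -/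
theorem combo_surjective_modp {r : ℕ} (ℓ : Fin r → S.F 𝒪 (TrivMod G (ResidueField 𝒪)) 𝔪)
    (hℓ : ∀ a : Fin r → 𝒪, ∑ i, a i • ℓ i = 0 → ∀ i, a i ∈ maximalIdeal 𝒪)
    (hcardL : Nat.card (S.F 𝒪 (TrivMod G (ResidueField 𝒪)) 𝔪) = Nat.card (ResidueField 𝒪) ^ r)
    (v : Fin r → S.F 𝒪 (Reg G (ResidueField 𝒪)) 𝔪)
    (hv : ∀ i, S.Fmap 𝔪 (Reg.aug 𝒪 (ResidueField 𝒪)) (Reg.isEquivar_aug 𝒪 _) (v i) = ℓ i) :
    Function.Surjective (S.combo 𝔪 v) := by
  have hsurjA : Function.Surjective (redA G 𝒪 r) := by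
    intro cb
    choose c hc using fun i => redReg_surjective (G := G) 𝒪 (cb i)
    exact ⟨c, funext hc⟩
  let Ψbar : (Fin r → Reg G (ResidueField 𝒪)) → S.F 𝒪 (Reg G (ResidueField 𝒪)) 𝔪 :=
    fun cb => S.combo 𝔪 v (Function.surjInv hsurjA cb)
  have hinj : Function.Injective Ψbar := by
    intro cb cb' h
    have h1 : S.combo 𝔪 v (Function.surjInv hsurjA cb - Function.surjInv hsurjA cb') = 0 := by
      rw [map_sub, sub_eq_zero]
      exact h
    have h2 := S.combo_eq_zero_imp 𝔪 hS hne hG hϖ hp𝒪 ℓ hℓ v hv _ h1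
    rw [map_sub, Function.surjInv_eq hsurjA, Function.surjInv_eq hsurjA, sub_eq_zero] at h2
    exact h2
  have hcard : Nat.card (S.F 𝒪 (Reg G (ResidueField 𝒪)) 𝔪) ≤
      Nat.card (Fin r → Reg G (ResidueField 𝒪)) := by
    rw [S.card_F_reg 𝔪 hS hne hG hϖ hp𝒪, hcardL, Nat.card_fun, Nat.card_fin,
      Nat.card_congr (Reg.equiv (G := G) (A := ResidueField 𝒪)), Nat.card_fun,
      Nat.card_eq_fintype_card (α := G), ← pow_mul, ← pow_mul, mul_comm]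
  have hbij := hinj.bijective_of_nat_card_le hcard
  intro y
  obtain ⟨cb, hcb⟩ := hbij.2 y
  exact ⟨_, hcb⟩

variable (G 𝒪) in
/-- multiplication by `ϖ` on `𝒪[G]` -/
def mulPi (ϖ : 𝒪) : Reg G 𝒪 →ₗ[𝒪] Reg G 𝒪 := ϖ • LinearMap.id

theorem isEquivar_mulPi (ϖ : 𝒪) : IsEquivar G (mulPi G 𝒪 ϖ) :=
  (isEquivar_id (G := G) (R := 𝒪) (W := Reg G 𝒪)).smul ϖ

theorem Fmap_mulPi (ϖ : 𝒪) (y : S.F 𝒪 (Reg G 𝒪) 𝔪) :
    S.Fmap 𝔪 (mulPi G 𝒪 ϖ) (isEquivar_mulPi ϖ) y = ϖ • y := by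
  have h := S.Fmap_smul_apply 𝔪 (isEquivar_id (G := G) (R := 𝒪) (W := Reg G 𝒪)) ϖ y
  rw [Fmap_id] at h
  exact h

instance : Module.Finite 𝒪 (Reg G 𝒪) :=
  Module.Finite.equiv (Equiv.linearEquiv 𝒪 (Reg.equiv (G := G) (A := 𝒪))).symm

include hS hne hG hϖ hϖ0 hp𝒪 in
/-- **Freeness of `F (𝒪[G])` over `𝒪[G]`.** -/
theorem exists_basis_reg :
    ∃ (r : ℕ) (b : Fin r → S.F 𝒪 (Reg G 𝒪) 𝔪),
      Nat.card (S.F 𝒪 (TrivMod G (ResidueField 𝒪)) 𝔪) = Nat.card (ResidueField 𝒪) ^ r ∧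
      ∀ x : S.F 𝒪 (Reg G 𝒪) 𝔪, ∃! c : Fin r → Reg G 𝒪, x = S.combo 𝔪 b c := by
  classical
  -- a basis of `L = F k`
  have hkillL : ∀ c ∈ maximalIdeal 𝒪, ∀ y : S.F 𝒪 (TrivMod G (ResidueField 𝒪)) 𝔪, c • y = 0 := by
    intro c hc
    refine S.F_kill 𝔪 c fun w => ?_
    have h1 : ∀ w' : ResidueField 𝒪, c • w' = 0 := fun w' => by
      rw [Algebra.smul_def, IsLocalRing.ResidueField.algebraMap_eq,
        (IsLocalRing.residue_eq_zero_iff c).mpr hc, zero_mul]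
    exact h1 w
  obtain ⟨r, ℓ, -, hℓ, hcardL⟩ :=
    exists_residue_basis (S.F 𝒪 (TrivMod G (ResidueField 𝒪)) 𝔪) hkillL
  -- lifts
  choose v hv using fun i => S.Fmap_surjective 𝔪 hS (Reg.isEquivar_aug (G := G) 𝒪 (ResidueField 𝒪))
    (Reg.aug_surjective 𝒪 _) (ℓ i)
  choose b hb using fun i => S.Fmap_surjective 𝔪 hS (isEquivar_redReg (G := G) 𝒪)
    (redReg_surjective 𝒪) (v i)
  refine ⟨r, b, hcardL, ?_⟩
  have hredcombo : ∀ c, S.Fmap 𝔪 (redReg 𝒪) (isEquivar_redReg (G := G) 𝒪) (S.combo 𝔪 b c) =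
      S.combo 𝔪 v c := by
    intro c
    rw [Fmap_combo]
    have h1 : (fun i => S.Fmap 𝔪 (redReg 𝒪) (isEquivar_redReg (G := G) 𝒪) (b i)) = v :=
      _root_.funext hb
    rw [h1]
  -- the exact sequence `ϖ, red`
  have hmulinj : Function.Injective (mulPi G 𝒪 ϖ) := by
    intro f f' h
    ext x
    have h1 : ϖ * f x = ϖ * f' x := congrArg (fun u : Reg G 𝒪 => u x) h
    exact mul_left_cancel₀ hϖ0 h1
  have hex : ∀ w, redReg (G := G) 𝒪 w = 0 ↔ ∃ w', mulPi G 𝒪 ϖ w' = w :=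
    fun w => redReg_eq_zero_iff 𝒪 hϖ w
  have hker : ∀ x : S.F 𝒪 (Reg G 𝒪) 𝔪,
      S.Fmap 𝔪 (redReg 𝒪) (isEquivar_redReg (G := G) 𝒪) x = 0 → ∃ y, ϖ • y = x := by
    intro x hx
    have := (S.Fmap_exact 𝔪 (isEquivar_mulPi (G := G) ϖ) (isEquivar_redReg (G := G) 𝒪) hmulinj
      (redReg_surjective 𝒪) hex x).mp hx
    obtain ⟨y, hy⟩ := this
    exact ⟨y, by rw [← hy, Fmap_mulPi]⟩
  have hϖinj : ∀ y : S.F 𝒪 (Reg G 𝒪) 𝔪, ϖ • y = 0 → y = 0 := by
    intro y hy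
    have h1 := S.Fmap_injective hne (isEquivar_mulPi (G := G) ϖ) hmulinj
    apply h1
    rw [Fmap_mulPi, hy, map_zero]
  have hVsurj := S.combo_surjective_modp 𝔪 hS hne hG hϖ hp𝒪 ℓ hℓ hcardL v hv
  -- surjectivity by Nakayama
  let Ψ : (Fin r → Reg G 𝒪) →ₗ[𝒪] S.F 𝒪 (Reg G 𝒪) 𝔪 :=
    { toFun := S.combo 𝔪 b
      map_add' := map_add _
      map_smul' := fun a c => S.combo_smul 𝔪 b a c }
  have hsurj : Function.Surjective (S.combo 𝔪 b) := by
    have htop : (⊤ : Submodule 𝒪 (S.F 𝒪 (Reg G 𝒪) 𝔪)) ≤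
        LinearMap.range Ψ ⊔ maximalIdeal 𝒪 • (⊤ : Submodule 𝒪 (S.F 𝒪 (Reg G 𝒪) 𝔪)) := by
      intro x _
      obtain ⟨c, hc⟩ := hVsurj (S.Fmap 𝔪 (redReg 𝒪) (isEquivar_redReg (G := G) 𝒪) x)
      have h1 : S.Fmap 𝔪 (redReg 𝒪) (isEquivar_redReg (G := G) 𝒪) (x - S.combo 𝔪 b c) = 0 := by
        rw [map_sub, hredcombo, hc, sub_self]
      obtain ⟨y, hy⟩ := hker _ h1
      have h2 : x = S.combo 𝔪 b c + ϖ • y := by rw [hy]; abel
      rw [h2]
      refine Submodule.add_mem_sup ⟨c, rfl⟩ (Submodule.smul_mem_smul ?_ Submodule.mem_top)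
      rw [hϖ]
      exact Ideal.subset_span rfl
    have hfg : (⊤ : Submodule 𝒪 (S.F 𝒪 (Reg G 𝒪) 𝔪)).FG := Module.Finite.fg_top
    have hle := Submodule.le_of_le_smul_of_le_jacobson_bot hfg
      (le_of_eq (IsLocalRing.jacobson_eq_maximalIdeal (⊥ : Ideal 𝒪) bot_ne_top).symm) htop
    intro x
    obtain ⟨c, hc⟩ := hle (Submodule.mem_top (x := x))
    exact ⟨c, hc⟩
  -- injectivity by the Krull intersection theorem
  have hpow : ∀ (j : ℕ) (c : Fin r → Reg G 𝒪), S.combo 𝔪 b c = 0 →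
      ∀ i x, c i x ∈ maximalIdeal 𝒪 ^ j := by
    intro j
    induction j with
    | zero =>
      intro c _ i x
      rw [pow_zero, Ideal.one_eq_top]
      trivial
    | succ j ih =>
      intro c hc i x
      have h1 : S.combo 𝔪 v c = 0 := by rw [← hredcombo, hc, map_zero]
      have h2 := S.combo_eq_zero_imp 𝔪 hS hne hG hϖ hp𝒪 ℓ hℓ v hv c h1
      have h3 : ∀ i, ∃ e : Reg G 𝒪, ϖ • e = c i :=
        fun i => (redReg_eq_zero_iff 𝒪 hϖ _).mp (congrFun h2 i)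
      choose e he using h3
      have hce : c = ϖ • e := (funext he).symm
      have h4 : S.combo 𝔪 b e = 0 := by
        apply hϖinj
        rw [← combo_smul, ← hce, hc]
      have h5 := ih e h4 i x
      rw [← he i, pow_succ']
      show ϖ * e i x ∈ _
      refine Ideal.mul_mem_mul ?_ h5
      rw [hϖ]
      exact Ideal.subset_span rfl
  have hinj : ∀ c, S.combo 𝔪 b c = 0 → c = 0 := by
    intro c hc
    funext i
    ext x
    have h1 : c i x ∈ ⨅ j, maximalIdeal 𝒪 ^ j :=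
      (Ideal.mem_iInf).mpr fun j => hpow j c hc i x
    rw [Ideal.iInf_pow_eq_bot_of_isLocalRing (maximalIdeal 𝒪) Ideal.IsPrime.ne_top'] at h1
    exact h1
  intro x
  obtain ⟨c, hc⟩ := hsurj x
  refine ⟨c, hc.symm, fun c' hc' => ?_⟩
  have h1 : S.combo 𝔪 b (c' - c) = 0 := by rw [map_sub, ← hc', hc, sub_self]
  exact sub_eq_zero.mp (hinj _ h1)

end main

end HeckeSys

end Fermat.Agent.S43lib.B1
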