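/-
S43lib / B1 / Diamond  (helper3).

The diamond operators as coset data: for `s : Γ` the datum `diamData s` (index set `Unit`,
`c γ () = s γ s⁻¹`) is equivariant when `G` is commutative, commutes (in the sense of `ConjRel`) with
every equivariant datum, and induces on `H¹(Γ, W)` the action of `π s ∈ G` on the coefficients.
-/
import Fermat.Agent.S43lib.B1.Fun

set_option autoImplicit false
set_option linter.unusedSectionVars false
set_option linter.unusedVariables false

noncomputable section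

namespace Fermat.Agent.S43lib.B1

open Fermat.Agent.S41lib.HC

variable {Γ G : Type*} [Group Γ] [CommGroup G] (π : Γ →* G)

/-- the coset datum of conjugation by `s` -/
def diamData (s : Γ) : CosetData Γ Γ Unit := CosetData.ofHom (MulAut.conj s).toMonoidHom

@[simp] theorem diamData_c (s γ : Γ) (u : Unit) : (diamData s).c γ u = s * γ * s⁻¹ := rfl

@[simp] theorem diamData_σ (s γ : Γ) (u : Unit) : (diamData s).σ γ u = u := rfl

theorem diamData_equivariant (s : Γ) : CosetData.IsEquivariant π (diamData s) := by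
  intro γ u
  rw [diamData_c, map_mul, map_mul, map_inv, mul_comm (π s), mul_inv_cancel_right]

section conj

variable {π} {ι : Type*} [Fintype ι] {D : CosetData Γ Γ ι}

theorem CosetData.c_one' (D : CosetData Γ Γ ι) (x : ι) : D.c 1 x = 1 := by
  have h := D.c_mul 1 1 x
  rw [mul_one] at h
  have h1 : D.σ 1 x = x := by
    have h2 := D.σ_mul 1 1 x
    rw [mul_one] at h2
    exact (D.σ 1).injective h2.symm
  rw [h1] at h
  exact (left_eq_mul.mp h)

theorem CosetData.σ_one' (D : CosetData Γ Γ ι) (x : ι) : D.σ 1 x = x := by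
  have h2 := D.σ_mul 1 1 x
  rw [mul_one] at h2
  exact (D.σ 1).injective h2.symm

/-- `c (s γ s⁻¹) x = c s x * c γ (σ s x) * (c s (σ (s γ s⁻¹) x))⁻¹` -/
theorem CosetData.c_conj (D : CosetData Γ Γ ι) (s γ : Γ) (x : ι) :
    D.c (s * γ * s⁻¹) x = D.c s x * D.c γ (D.σ s x) * (D.c s (D.σ (s * γ * s⁻¹) x))⁻¹ := by
  have h1 : D.c (s * γ * s⁻¹ * s) x = D.c (s * γ * s⁻¹) x * D.c s (D.σ (s * γ * s⁻¹) x) :=
    D.c_mul _ _ _
  rw [inv_mul_cancel_right, D.c_mul] at h1
  rw [h1, mul_inv_cancel_right]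

theorem conjRel_diam_right (hD : CosetData.IsEquivariant π D) (s : Γ) :
    ConjRel π D (diamData s) := by
  refine ⟨⟨fun p => ((), (D.σ s).symm p.1), fun p => (D.σ s p.2, ()), fun p => by simp,
    fun p => by simp⟩, fun p => D.c s ((D.σ s).symm p.1) * s⁻¹, fun p => ?_, fun γ p => ?_⟩
  · rw [map_mul, hD, map_inv, mul_inv_cancel]
  · obtain ⟨x, u⟩ := p
    show D.c (s * γ * s⁻¹) ((D.σ s).symm x) =
      D.c s ((D.σ s).symm x) * s⁻¹ * (s * D.c γ x * s⁻¹) *
        (D.c s ((D.σ s).symm (D.σ γ x)) * s⁻¹)⁻¹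
    rw [CosetData.c_conj]
    have h1 : D.σ (s * γ * s⁻¹) ((D.σ s).symm x) = (D.σ s).symm (D.σ γ x) := by
      apply (D.σ s).injective
      rw [Equiv.apply_symm_apply, ← D.σ_mul, inv_mul_cancel_right, D.σ_mul,
        Equiv.apply_symm_apply]
    rw [h1, Equiv.apply_symm_apply]
    group

theorem conjRel_diam_left (hD : CosetData.IsEquivariant π D) (s : Γ) :
    ConjRel π (diamData s) D := by
  refine ⟨⟨fun p => (D.σ s p.2, ()), fun p => ((), (D.σ s).symm p.1), fun p => by simp,
    fun p => by simp⟩, fun p => s * (D.c s p.2)⁻¹, fun p => ?_, fun γ p => ?_⟩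
  · rw [map_mul, map_inv, hD, mul_inv_cancel]
  · obtain ⟨u, x⟩ := p
    show s * D.c γ (D.σ s x) * s⁻¹ =
      s * (D.c s x)⁻¹ * D.c (s * γ * s⁻¹) x * (s * (D.c s (D.σ (s * γ * s⁻¹) x))⁻¹)⁻¹
    rw [CosetData.c_conj]
    group

theorem conjRel_diam_diam (s s' : Γ) : ConjRel π (diamData s) (diamData s') := by
  refine ⟨Equiv.refl _, fun _ => s * s' * s⁻¹ * s'⁻¹, fun p => ?_, fun γ p => ?_⟩
  · simp only [map_mul, map_inv]
    rw [mul_comm (π s) (π s'), mul_inv_cancel_right, mul_inv_cancel]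
  · show s * (s' * γ * s'⁻¹) * s⁻¹ =
      s * s' * s⁻¹ * s'⁻¹ * (s' * (s * γ * s⁻¹) * s'⁻¹) * (s * s' * s⁻¹ * s'⁻¹)⁻¹
    group

end conj

/-! ### The operator on cohomology -/

section op

variable (R : Type*) [CommRing R]
variable (W : Type*) [AddCommGroup W] [Module R W] [DistribMulAction G W] [SMulCommClass G R W]

/-- the diamond datum of `s` induces the action of `π s` on the coefficients -/
theorem heckeH_diamData (s : Γ) (x : H1 π R W) :
    heckeH R W (diamData_equivariant π s) x =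
      H1.map π (QuotG.actLin (G := G) R W (π s)) (isEquivar_actLin (π s)) x := by
  obtain ⟨f, rfl⟩ := H1.mk_surjective π R W x
  rw [heckeH_mk, H1.map_mk, ← sub_eq_zero, ← map_sub, H1.mk_eq_zero_iff]
  refine ⟨-((f : Γ → W) s), fun γ => ?_⟩
  have hf := f.2
  show ∑ u : Unit, (f : Γ → W) (s * γ * s⁻¹) - π s • (f : Γ → W) γ =
    π γ • -((f : Γ → W) s) - -((f : Γ → W) s)
  rw [Finset.univ_unique, Finset.sum_singleton, hf (s * γ) s⁻¹, hf s γ, Z1_inv hf s, map_mul,
    smul_neg, smul_neg, mul_smul]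
  have h1 : π s • π γ • (π s)⁻¹ • (f : Γ → W) s = π γ • (f : Γ → W) s := by
    rw [← mul_smul, ← mul_smul, mul_comm (π s), mul_assoc, mul_inv_cancel, mul_one]
  rw [h1]
  abel

end op

end Fermat.Agent.S43lib.B1
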