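/-
S43lib / B1 / Level  (helper3).

The concrete Hecke system on `Γ₀(M)`:
* `unitHom M : Γ₀(M) →* (ZMod M)ˣ` (lower right entry), and `levelPi χ = χ ∘ unitHom M` for a
  character `χ : (ZMod M)ˣ →* G`;
* `nData hℓM` : the coset datum of `T_ℓ` (`ℓ ∤ M`) with *normalised* representatives
  `(1 j; 0 ℓ)` (`j : ZMod ℓ`) and `σ_ℓ (ℓ 0; 0 1)` (`σ_ℓ ∈ Γ₀(M)` with lower right entry `≡ ℓ`), so that
  `unitHom (c γ x) = unitHom γ`; it induces the same operator as `tData hℓM` on `Hom(Γ₀(M), A)`;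
* `uData hqM` : the coset datum of `U_q` (`q ∣ M`), representatives `(1 j; 0 q)`, equivariant as well;
* `lvlSys M χ hcomm` : the Hecke system of all these operators on `Γ₀(M)` over `G`, given the
  commutation statement `CommStmt M`.
-/
import Mathlib
import Fermat.Agent.S41lib.HC.Level
import Fermat.Agent.S48lib.W1.Diamond
import Fermat.Agent.S43lib.B1.Sys
import Fermat.Agent.S43lib.B1.Diamond

set_option autoImplicit false
set_option linter.unusedSectionVars false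
set_option linter.unusedVariables false

noncomputable section

namespace Fermat.Agent.S43lib.B1

open CongruenceSubgroup Matrix.SpecialLinearGroup
open Fermat.Agent.S16lib.LH Fermat.Agent.S29lib.H Fermat.Agent.S41lib.HC Fermat.Agent.S48lib.W1
open scoped MatrixGroups

/-! ### Conjugating a coset datum -/

section conj

variable {Γ Γ' : Type*} [Group Γ] [Group Γ'] {ι : Type*}

/-- the coset datum with cocycle `δ x * c γ x * (δ (σ γ x))⁻¹` -/
def conjBy (D : CosetData Γ Γ' ι) (δ : ι → Γ') : CosetData Γ Γ' ι where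
  σ := D.σ
  c γ x := δ x * D.c γ x * (δ (D.σ γ x))⁻¹
  σ_mul := D.σ_mul
  c_mul γ γ' x := by
    rw [D.c_mul, D.σ_mul]
    group

@[simp] theorem conjBy_σ (D : CosetData Γ Γ' ι) (δ : ι → Γ') (γ : Γ) :
    (conjBy D δ).σ γ = D.σ γ := rfl

@[simp] theorem conjBy_c (D : CosetData Γ Γ' ι) (δ : ι → Γ') (γ : Γ) (x : ι) :
    (conjBy D δ).c γ x = δ x * D.c γ x * (δ (D.σ γ x))⁻¹ := rfl

theorem conjBy_op [Fintype ι] (D : CosetData Γ Γ' ι) (δ : ι → Γ') (A : Type*) [AddCommGroup A] :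
    (conjBy D δ).op A = D.op A :=
  CosetData.op_eq_of_conj D (conjBy D δ) (Equiv.refl _) δ (fun γ x => rfl) A

end conj

/-! ### The unit homomorphism -/

/-- the lower right entry, as a homomorphism to the units of `ZMod M` -/
def unitHom (M : ℕ) : ↥(Gamma0 M) →* (ZMod M)ˣ := MonoidHom.mk' gamma0Unit gamma0Unit_mul

@[simp] theorem unitHom_apply (M : ℕ) (γ : ↥(Gamma0 M)) : unitHom M γ = gamma0Unit γ := rfl

theorem coe_unitHom (M : ℕ) (γ : ↥(Gamma0 M)) :
    ((unitHom M γ : (ZMod M)ˣ) : ZMod M) = Gamma0Map M γ := rfl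

/-- the homomorphism `Γ₀(M) → G` of a character of `(ZMod M)ˣ` -/
def levelPi {M : ℕ} {G : Type*} [Group G] (χ : (ZMod M)ˣ →* G) : ↥(Gamma0 M) →* G :=
  χ.comp (unitHom M)

theorem levelPi_apply {M : ℕ} {G : Type*} [Group G] (χ : (ZMod M)ˣ →* G) (γ : ↥(Gamma0 M)) :
    levelPi χ γ = χ (unitHom M γ) := rfl

theorem isEquivariant_levelPi {M : ℕ} {G : Type*} [Group G] (χ : (ZMod M)ˣ →* G) {ι : Type*}
    {D : CosetData ↥(Gamma0 M) ↥(Gamma0 M) ι} (hD : CosetData.IsEquivariant (unitHom M) D) :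
    CosetData.IsEquivariant (levelPi χ) D := fun γ x => by
  rw [levelPi_apply, levelPi_apply, hD γ x]

theorem conjRel_levelPi {M : ℕ} {G : Type*} [Group G] (χ : (ZMod M)ˣ →* G) {ι κ : Type*}
    [Fintype ι] [Fintype κ] {D₁ : CosetData ↥(Gamma0 M) ↥(Gamma0 M) ι}
    {D₂ : CosetData ↥(Gamma0 M) ↥(Gamma0 M) κ} (h : ConjRel (unitHom M) D₁ D₂) :
    ConjRel (levelPi χ) D₁ D₂ := by
  obtain ⟨e, d, hd, hc⟩ := h
  exact ⟨e, d, fun p => by rw [levelPi_apply, hd p, map_one], hc⟩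

/-! ### The normalised datum of `T_ℓ` -/

section T

variable {M ℓ : ℕ} [NeZero M] [Fact ℓ.Prime] (hℓM : ¬ ℓ ∣ M)

/-- `ℓ` as a unit modulo `M` -/
def ellUnit : (ZMod M)ˣ :=
  ZMod.unitOfCoprime ℓ ((Nat.Prime.coprime_iff_not_dvd Fact.out).mpr hℓM)

@[simp] theorem coe_ellUnit : ((ellUnit hℓM : (ZMod M)ˣ) : ZMod M) = (ℓ : ZMod M) := rfl

/-- the unit `repD ℓ x` (`1` at `∞`, `ℓ` at finite points) -/
def repDUnit (x : OnePoint (ZMod ℓ)) : (ZMod M)ˣ := x.elim 1 (fun _ => ellUnit hℓM)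

theorem coe_repDUnit (x : OnePoint (ZMod ℓ)) :
    ((repDUnit hℓM x : (ZMod M)ˣ) : ZMod M) = (repD ℓ x : ZMod M) := by
  induction x using OnePoint.rec with
  | infty => simp [repDUnit]
  | coe j => simp [repDUnit]

/-- the normalising elements: `σ_ℓ` at `∞`, `1` at finite points -/
def nDelta (x : OnePoint (ZMod ℓ)) : ↥(Gamma0 M) :=
  x.elim (unitRep (ellUnit hℓM)) (fun _ => 1)

@[simp] theorem nDelta_infty : nDelta hℓM (OnePoint.infty) = unitRep (ellUnit hℓM) := rfl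
@[simp] theorem nDelta_coe (j : ZMod ℓ) : nDelta hℓM (j : OnePoint (ZMod ℓ)) = 1 := rfl

theorem unitHom_nDelta (x : OnePoint (ZMod ℓ)) :
    unitHom M (nDelta hℓM x) = ellUnit hℓM * (repDUnit hℓM x)⁻¹ := by
  induction x using OnePoint.rec with
  | infty => simp [repDUnit]
  | coe j => simp [repDUnit, gamma0Unit_one]

/-- the normalised coset datum of `T_ℓ` -/
def nData : CosetData ↥(Gamma0 M) ↥(Gamma0 M) (OnePoint (ZMod ℓ)) :=
  conjBy (tData hℓM) (nDelta hℓM)

theorem nData_op (A : Type*) [AddCommGroup A] : (nData hℓM).op A = heckeT hℓM A :=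
  conjBy_op _ _ A

theorem unitHom_tCoc (γ : ↥(Gamma0 M)) (x : OnePoint (ZMod ℓ)) :
    unitHom M (tCoc hℓM γ x) * repDUnit hℓM (tPerm ℓ γ x) = repDUnit hℓM x * unitHom M γ := by
  apply Units.ext
  rw [Units.val_mul, Units.val_mul, coe_repDUnit, coe_repDUnit, coe_unitHom, coe_unitHom]
  exact gamma0Map_tCoc hℓM γ x

theorem nData_equivariant : CosetData.IsEquivariant (unitHom M) (nData hℓM) := by
  intro γ x
  show unitHom M (nDelta hℓM x * tCoc hℓM γ x * (nDelta hℓM (tPerm ℓ γ x))⁻¹) = unitHom M γ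
  rw [map_mul, map_mul, map_inv, unitHom_nDelta, unitHom_nDelta]
  have h := unitHom_tCoc hℓM γ x
  have h' : unitHom M (tCoc hℓM γ x) =
      repDUnit hℓM x * unitHom M γ * (repDUnit hℓM (tPerm ℓ γ x))⁻¹ := by
    rw [← h, mul_inv_cancel_right]
  rw [h']
  rw [mul_inv_rev, inv_inv]
  have hc : ∀ a b c d : (ZMod M)ˣ, a * b⁻¹ * (b * c * d⁻¹) * (d * a⁻¹) = c := by
    intro a b c d
    have h1 : a * b⁻¹ * (b * c * d⁻¹) * (d * a⁻¹) = a * c * a⁻¹ := by group
    rw [h1, mul_comm a c, mul_inv_cancel_right]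
  exact hc _ _ _ _

end T

/-! ### The datum of `U_q` -/

section U

variable {M q : ℕ} [NeZero q] (hqM : q ∣ M)

/-- the coset datum of `U_q`, `q ∣ M` -/
def uData : CosetData ↥(Gamma0 M) ↥(Gamma0 M) (ZMod q) where
  σ := uPerm hqM
  c := uCoc hqM
  σ_mul := uPerm_mul hqM
  c_mul := (uDatum hqM).c_mul

@[simp] theorem uData_σ (γ : ↥(Gamma0 M)) : (uData hqM).σ γ = uPerm hqM γ := rfl
@[simp] theorem uData_c (γ : ↥(Gamma0 M)) (x : ZMod q) : (uData hqM).c γ x = uCoc hqM γ x := rfl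

theorem uData_equivariant : CosetData.IsEquivariant (unitHom M) (uData hqM) := by
  intro γ x
  apply Units.ext
  exact gamma0Map_uCoc hqM γ x

end U

/-! ### The system of all Hecke operators of level `M` -/

section sys

variable (M : ℕ) [NeZero M]

/-- the index type: primes not dividing `M` (operators `T_ℓ`), primes dividing `M` (`U_q`), and units
modulo `M` (diamond operators `⟨u⟩`) -/
abbrev LvlIdx : Type :=
  ({ℓ : ℕ // ℓ.Prime ∧ ¬ ℓ ∣ M} ⊕ {q : ℕ // q.Prime ∧ q ∣ M}) ⊕ (ZMod M)ˣ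

/-- the index sets of the coset data -/
def lvlIota : LvlIdx M → Type
  | Sum.inl (Sum.inl ℓ) => OnePoint (ZMod ℓ.1)
  | Sum.inl (Sum.inr q) => ZMod q.1
  | Sum.inr _ => Unit

instance lvlIota_fintype : ∀ i : LvlIdx M, Fintype (lvlIota M i)
  | Sum.inl (Sum.inl ℓ) => by
    haveI : NeZero ℓ.1 := ⟨ℓ.2.1.ne_zero⟩
    exact (inferInstance : Fintype (OnePoint (ZMod ℓ.1)))
  | Sum.inl (Sum.inr q) => by
    haveI : NeZero q.1 := ⟨q.2.1.ne_zero⟩
    exact (inferInstance : Fintype (ZMod q.1))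
  | Sum.inr _ => (inferInstance : Fintype Unit)

/-- the coset data -/
def lvlD : ∀ i : LvlIdx M, CosetData ↥(Gamma0 M) ↥(Gamma0 M) (lvlIota M i)
  | Sum.inl (Sum.inl ℓ) =>
    haveI : Fact ℓ.1.Prime := ⟨ℓ.2.1⟩
    nData ℓ.2.2
  | Sum.inl (Sum.inr q) =>
    haveI : NeZero q.1 := ⟨q.2.1.ne_zero⟩
    uData q.2.2
  | Sum.inr u => diamData (unitRep u)

theorem lvlD_equivariant : ∀ i : LvlIdx M, CosetData.IsEquivariant (unitHom M) (lvlD M i)
  | Sum.inl (Sum.inl ℓ) =>
    haveI : Fact ℓ.1.Prime := ⟨ℓ.2.1⟩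
    nData_equivariant ℓ.2.2
  | Sum.inl (Sum.inr q) =>
    haveI : NeZero q.1 := ⟨q.2.1.ne_zero⟩
    uData_equivariant q.2.2
  | Sum.inr u => diamData_equivariant (unitHom M) (unitRep u)

/-- **The commutation statement** for the Hecke operators of level `M`: the composites of the
(normalised) coset data in the two orders are conjugate by elements of `Γ₁(M)`. -/
def CommStmt : Prop := ∀ i j : LvlIdx M, ConjRel (unitHom M) (lvlD M i) (lvlD M j)

variable {M}

/-- the Hecke system of level `M` with diamond group `G` (through `χ`), for a family of indices -/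
def lvlSys {G : Type} [Group G] (χ : (ZMod M)ˣ →* G) {I : Type} (f : I → LvlIdx M)
    (hcomm : CommStmt M) : HeckeSys ↥(Gamma0 M) G I where
  π := levelPi χ
  ι i := lvlIota M (f i)
  fin i := lvlIota_fintype M (f i)
  D i := lvlD M (f i)
  equi i := isEquivariant_levelPi χ (lvlD_equivariant M (f i))
  comm i j := conjRel_levelPi χ (hcomm (f i) (f j))

end sys

end Fermat.Agent.S43lib.B1
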