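/-
S43lib / B1 / SL2ZAmalgam  (helper3).

`SL(2, ℤ) = C₄ *_{C₂} C₆` (generated by `S` of order `4` and `R = S T` of order `6` with
`S² = R³ = -1`), by the amalgam ping-pong lemma of `S41lib/TREE/PingPong` applied to the action on
the upper half plane (`X_S = {Re z ≥ 0}`, `X_R = {Re z < 0}`).

Output: `exists_hom_of_SL2Z` — for `s, r` in a group `K` with `s ^ 4 = 1` and `s ^ 2 = r ^ 3` there
is a homomorphism `SL(2, ℤ) → K` with `S ↦ s`, `S T ↦ r`.
-/
import Mathlib
import Fermat.Agent.S41lib.TREE.PingPong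

set_option autoImplicit false
set_option linter.unusedSectionVars false
set_option linter.unusedVariables false

noncomputable section

namespace Fermat.Agent.S43lib.B1

open Monoid ModularGroup UpperHalfPlane Matrix.SpecialLinearGroup
open Fermat.Agent.S41lib.TREE
open scoped MatrixGroups

/-! ### Homomorphisms out of finite cyclic groups -/

section cyc

variable {K : Type*} [Group K]

/-- the homomorphism `C_n → K`, `1 ↦ k`, for `k ^ n = 1` -/
def cycHom (n : ℕ) (k : K) (hk : k ^ n = 1) : Multiplicative (ZMod n) →* K :=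
  AddMonoidHom.toMultiplicativeLeft
    (ZMod.lift n ⟨zmultiplesHom (Additive K) (Additive.ofMul k), by
      rw [zmultiplesHom_apply, natCast_zsmul, ← ofMul_pow, hk, ofMul_one]⟩)

theorem cycHom_ofAdd_intCast (n : ℕ) (k : K) (hk : k ^ n = 1) (m : ℤ) :
    cycHom n k hk (Multiplicative.ofAdd (m : ZMod n)) = k ^ m := by
  show Additive.toMul (ZMod.lift n _ (m : ZMod n)) = k ^ m
  rw [ZMod.lift_coe]
  show Additive.toMul (zmultiplesHom (Additive K) (Additive.ofMul k) m) = k ^ m
  rw [zmultiplesHom_apply, ← ofMul_zpow, toMul_ofMul]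

theorem cycHom_ofAdd_natCast (n : ℕ) (k : K) (hk : k ^ n = 1) (m : ℕ) :
    cycHom n k hk (Multiplicative.ofAdd (m : ZMod n)) = k ^ m := by
  have := cycHom_ofAdd_intCast n k hk (m : ℤ)
  simpa using this

theorem cycHom_ofAdd (n : ℕ) [NeZero n] (k : K) (hk : k ^ n = 1) (x : ZMod n) :
    cycHom n k hk (Multiplicative.ofAdd x) = k ^ x.val := by
  conv_lhs => rw [← ZMod.natCast_zmod_val x]
  exact cycHom_ofAdd_natCast n k hk x.val

end cyc


/-! ### Matrix identities -/

/-- `R = S T`, of order `6` -/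
abbrev Rmat : SL(2, ℤ) := S * T

theorem S_sq : (S : SL(2, ℤ)) ^ 2 = -1 := by
  ext i j
  fin_cases i <;> fin_cases j <;>
    simp [pow_succ, coe_mul, coe_S, Matrix.mul_apply, Fin.sum_univ_two]

theorem R_cube : Rmat ^ 3 = -1 := by
  ext i j
  fin_cases i <;> fin_cases j <;>
    simp [Rmat, pow_succ, coe_mul, coe_S, coe_T, Matrix.mul_apply, Fin.sum_univ_two]

theorem neg_one_sq : (-1 : SL(2, ℤ)) ^ 2 = 1 := by
  ext i j
  fin_cases i <;> fin_cases j <;> simp [pow_succ]

theorem S_pow_four : (S : SL(2, ℤ)) ^ 4 = 1 := by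
  rw [show 4 = 2 * 2 by norm_num, pow_mul, S_sq, neg_one_sq]

theorem R_pow_six : Rmat ^ 6 = 1 := by
  rw [show 6 = 3 * 2 by norm_num, pow_mul, R_cube, neg_one_sq]

theorem neg_one_ne_one : (-1 : SL(2, ℤ)) ≠ 1 := by
  intro h
  have := congrArg (fun g : SL(2, ℤ) => g 0 0) h
  simp at this

theorem neg_one_mul' (g : SL(2, ℤ)) : (-1 : SL(2, ℤ)) * g = -g := by
  ext i j
  simp

theorem S_pow_three : (S : SL(2, ℤ)) ^ 3 = -S := by
  rw [pow_succ, S_sq, neg_one_mul']

theorem R_pow_four : Rmat ^ 4 = -Rmat := by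
  rw [pow_succ, R_cube, neg_one_mul']

theorem R_pow_five : Rmat ^ 5 = -(Rmat ^ 2) := by
  rw [show 5 = 3 + 2 by norm_num, pow_add, R_cube, neg_one_mul']

/-! ### The action on the upper half plane -/

theorem S_smul_re (z : ℍ) : ((S : SL(2, ℤ)) • z).re = -z.re / Complex.normSq (z : ℂ) := by
  rw [modular_S_smul]
  show ((-(z : ℂ))⁻¹).re = _
  rw [Complex.inv_re, Complex.normSq_neg, Complex.neg_re]
  rfl

theorem R_smul_re (z : ℍ) :
    (Rmat • z).re = -(1 + z.re) / Complex.normSq (((1 : ℝ) +ᵥ z : ℍ) : ℂ) := by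
  rw [Rmat, mul_smul, modular_T_smul, S_smul_re, vadd_re]

theorem normSq_vadd (z : ℍ) :
    Complex.normSq (((1 : ℝ) +ᵥ z : ℍ) : ℂ) = (1 + z.re) ^ 2 + z.im ^ 2 := by
  rw [Complex.normSq_apply]
  have h1 : (((1 : ℝ) +ᵥ z : ℍ) : ℂ).re = 1 + z.re := vadd_re 1 z
  have h2 : (((1 : ℝ) +ᵥ z : ℍ) : ℂ).im = z.im := vadd_im 1 z
  rw [h1, h2]
  ring

theorem normSq_vadd_pos (z : ℍ) : 0 < Complex.normSq (((1 : ℝ) +ᵥ z : ℍ) : ℂ) := by
  rw [normSq_vadd]
  have := z.im_pos
  positivity

/-- `X_S = {Re z ≥ 0}` -/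
def XS : Set ℍ := {z | 0 ≤ z.re}

/-- `X_R = {Re z < 0}` -/
def XR : Set ℍ := {z | z.re < 0}

theorem disjoint_XS_XR : Disjoint XS XR := by
  rw [Set.disjoint_left]
  intro z hz hz'
  have h1 : 0 ≤ z.re := hz
  have h2 : z.re < 0 := hz'
  linarith

theorem S_smul_mem_XS {z : ℍ} (hz : z ∈ XR) : (S : SL(2, ℤ)) • z ∈ XS := by
  show 0 ≤ ((S : SL(2, ℤ)) • z).re
  rw [S_smul_re]
  have h1 : 0 < Complex.normSq (z : ℂ) := Complex.normSq_pos.mpr z.ne_zero
  have h2 : z.re < 0 := hz
  apply div_nonneg _ h1.le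
  linarith

theorem R_smul_re_neg {z : ℍ} (hz : 0 < 1 + z.re) : (Rmat • z).re < 0 := by
  rw [R_smul_re]
  apply div_neg_of_neg_of_pos _ (normSq_vadd_pos z)
  linarith

theorem one_add_R_smul_re_pos {z : ℍ} (hz : 1 + z.re < (1 + z.re) ^ 2 + z.im ^ 2) :
    0 < 1 + (Rmat • z).re := by
  rw [R_smul_re, normSq_vadd]
  have hpos : 0 < (1 + z.re) ^ 2 + z.im ^ 2 := by
    have := z.im_pos
    positivity
  rw [neg_div, ← sub_eq_add_neg, sub_pos, div_lt_one hpos]
  exact hz

theorem R_smul_mem_XR {z : ℍ} (hz : z ∈ XS) : Rmat • z ∈ XR := by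
  have h : 0 ≤ z.re := hz
  exact R_smul_re_neg (by linarith)

theorem R_sq_smul_mem_XR {z : ℍ} (hz : z ∈ XS) : Rmat ^ 2 • z ∈ XR := by
  have h : 0 ≤ z.re := hz
  rw [pow_two, mul_smul]
  apply R_smul_re_neg
  apply one_add_R_smul_re_pos
  have := z.im_pos
  nlinarith

/-- the base point for the properness of the `C₆`-side -/
def z0 : ℍ := ⟨⟨-1 / 2, 1⟩, by simp⟩

theorem z0_re : z0.re = -1 / 2 := rfl
theorem z0_im : z0.im = 1 := rfl

theorem z0_mem_XR : z0 ∈ XR := by
  show z0.re < 0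
  rw [z0_re]; norm_num

theorem R_smul_z0_mem_XR : Rmat • z0 ∈ XR := by
  apply R_smul_re_neg
  rw [z0_re]; norm_num

theorem R_sq_smul_z0_mem_XR : Rmat ^ 2 • z0 ∈ XR := by
  rw [pow_two, mul_smul]
  apply R_smul_re_neg
  apply one_add_R_smul_re_pos
  rw [z0_re, z0_im]; norm_num


/-! ### The amalgam -/

section cycext

variable {K : Type*} [Group K]

theorem cycHom_ext {n : ℕ} (f g : Multiplicative (ZMod n) →* K)
    (h : f (Multiplicative.ofAdd 1) = g (Multiplicative.ofAdd 1)) : f = g := by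
  refine MonoidHom.ext fun x => ?_
  obtain ⟨m, hm⟩ := ZMod.intCast_surjective (Multiplicative.toAdd x)
  have hx : x = (Multiplicative.ofAdd (1 : ZMod n)) ^ m := by
    rw [← ofAdd_zsmul, zsmul_one, hm]
    rfl
  rw [hx, map_zpow, map_zpow, h]

end cycext

/-- the orders of the two factors -/
abbrev nn : Bool → ℕ := fun i => cond i 6 4

/-- the two factors `C₄`, `C₆` -/
abbrev CC (i : Bool) : Type := Multiplicative (ZMod (nn i))

/-- the amalgamated subgroup `C₂` -/
abbrev HH : Type := Multiplicative (ZMod 2)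

/-- the generators `S`, `R` -/
def gen (i : Bool) : SL(2, ℤ) := cond i Rmat S

theorem gen_pow (i : Bool) : gen i ^ nn i = 1 := by
  cases i
  · exact S_pow_four
  · exact R_pow_six

/-- half of the order -/
abbrev hh : Bool → ℕ := fun i => cond i 3 2

theorem gen_pow_hh (i : Bool) : gen i ^ hh i = -1 := by
  cases i
  · exact S_sq
  · exact R_cube

theorem ofAdd_hh_sq (i : Bool) :
    (Multiplicative.ofAdd ((hh i : ℕ) : ZMod (nn i))) ^ 2 = 1 := by
  cases i <;> decide

/-- `C₂ → C₄`, `C₂ → C₆` -/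
def phiC (i : Bool) : HH →* CC i :=
  cycHom 2 (Multiplicative.ofAdd ((hh i : ℕ) : ZMod (nn i))) (ofAdd_hh_sq i)

/-- `C₄ → SL(2, ℤ)`, `C₆ → SL(2, ℤ)` -/
def fC (i : Bool) : CC i →* SL(2, ℤ) := cycHom (nn i) (gen i) (gen_pow i)

/-- `C₂ → SL(2, ℤ)` -/
def kC : HH →* SL(2, ℤ) := cycHom 2 (-1) neg_one_sq

theorem phiC_gen (i : Bool) :
    phiC i (Multiplicative.ofAdd 1) = Multiplicative.ofAdd ((hh i : ℕ) : ZMod (nn i)) := by
  have := cycHom_ofAdd_natCast 2 (Multiplicative.ofAdd ((hh i : ℕ) : ZMod (nn i)))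
    (ofAdd_hh_sq i) 1
  simpa [phiC] using this

theorem fC_ofAdd_natCast (i : Bool) (m : ℕ) :
    fC i (Multiplicative.ofAdd ((m : ℕ) : ZMod (nn i))) = gen i ^ m :=
  cycHom_ofAdd_natCast _ _ _ m

theorem kC_gen : kC (Multiplicative.ofAdd 1) = -1 := by
  have := cycHom_ofAdd_natCast 2 (-1 : SL(2, ℤ)) neg_one_sq 1
  simpa [kC] using this

theorem fC_comp_phiC (i : Bool) : (fC i).comp (phiC i) = kC := by
  apply cycHom_ext
  rw [MonoidHom.comp_apply, phiC_gen, fC_ofAdd_natCast, gen_pow_hh, kC_gen]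

theorem kC_apply (h : HH) : kC h = 1 ∨ kC h = -1 := by
  have hx : ∀ x : ZMod 2, x = 0 ∨ x = 1 := by decide
  rcases hx (Multiplicative.toAdd h) with h0 | h1
  · left
    have : h = 1 := by
      rw [← ofAdd_toAdd h, h0]; rfl
    rw [this, map_one]
  · right
    have : h = Multiplicative.ofAdd 1 := by
      rw [← ofAdd_toAdd h, h1]
    rw [this, kC_gen]

theorem kC_smul (h : HH) (z : ℍ) : kC h • z = z := by
  rcases kC_apply h with h1 | h1
  · rw [h1, one_smul]
  · rw [h1, SL_neg_smul, one_smul]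

theorem kC_injective : Function.Injective kC := by
  rw [injective_iff_map_eq_one]
  intro h hh
  have hx : ∀ x : ZMod 2, x = 0 ∨ x = 1 := by decide
  rcases hx (Multiplicative.toAdd h) with h0 | h1
  · rw [← ofAdd_toAdd h, h0]; rfl
  · exfalso
    have : h = Multiplicative.ofAdd 1 := by
      rw [← ofAdd_toAdd h, h1]
    rw [this, kC_gen] at hh
    exact neg_one_ne_one hh

theorem phiC_injective (i : Bool) : Function.Injective (phiC i) := by
  intro a b hab
  apply kC_injective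
  rw [← fC_comp_phiC i, MonoidHom.comp_apply, MonoidHom.comp_apply, hab]

/-- the elements of `C₄` outside `C₂` act as `± S` -/
theorem fC_false_cases (g : CC false) (hg : g ∉ (phiC false).range) :
    fC false g = S ∨ fC false g = -S := by
  have hx : ∀ x : ZMod 4, x = 0 ∨ x = 1 ∨ x = 2 ∨ x = 3 := by decide
  have hgx : g = Multiplicative.ofAdd (Multiplicative.toAdd g) := (ofAdd_toAdd g).symm
  rcases hx (Multiplicative.toAdd g) with h | h | h | h
  · exfalso
    apply hg
    rw [hgx, h]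
    exact one_mem _
  · left
    rw [hgx, h]
    have := fC_ofAdd_natCast false 1
    simpa [gen] using this
  · exfalso
    apply hg
    rw [hgx, h]
    exact ⟨Multiplicative.ofAdd 1, by rw [phiC_gen]; rfl⟩
  · right
    rw [hgx, h]
    have := fC_ofAdd_natCast false 3
    rw [S_pow_three.symm]
    simpa [gen] using this

/-- the elements of `C₆` outside `C₂` act as `± R`, `± R²` -/
theorem fC_true_cases (g : CC true) (hg : g ∉ (phiC true).range) :
    fC true g = Rmat ∨ fC true g = Rmat ^ 2 ∨ fC true g = -Rmat ∨ fC true g = -(Rmat ^ 2) := by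
  have hx : ∀ x : ZMod 6, x = 0 ∨ x = 1 ∨ x = 2 ∨ x = 3 ∨ x = 4 ∨ x = 5 := by decide
  have hgx : g = Multiplicative.ofAdd (Multiplicative.toAdd g) := (ofAdd_toAdd g).symm
  rcases hx (Multiplicative.toAdd g) with h | h | h | h | h | h
  · exfalso
    apply hg
    rw [hgx, h]
    exact one_mem _
  · left
    rw [hgx, h]
    have := fC_ofAdd_natCast true 1
    simpa [gen] using this
  · right; left
    rw [hgx, h]
    have := fC_ofAdd_natCast true 2
    simpa [gen] using this
  · exfalso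
    apply hg
    rw [hgx, h]
    exact ⟨Multiplicative.ofAdd 1, by rw [phiC_gen]; rfl⟩
  · right; right; left
    rw [hgx, h]
    have := fC_ofAdd_natCast true 4
    rw [R_pow_four.symm]
    simpa [gen] using this
  · right; right; right
    rw [hgx, h]
    have := fC_ofAdd_natCast true 5
    rw [R_pow_five.symm]
    simpa [gen] using this

/-- the ping-pong sets -/
def XX (i : Bool) : Set ℍ := cond i XR XS

/-- **`C₄ *_{C₂} C₆ → SL(2, ℤ)` is injective.** -/
theorem lift_injective :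
    Function.Injective (PushoutI.lift fC kC fC_comp_phiC) := by
  refine lift_injective_of_ping_pong phiC fC kC fC_comp_phiC phiC_injective kC_injective XX
    ?_ ?_ ?_ ?_ ?_
  · exact disjoint_XS_XR
  · intro i
    cases i
    · exact ⟨UpperHalfPlane.I, by show (0 : ℝ) ≤ UpperHalfPlane.I.re; simp⟩
    · exact ⟨z0, z0_mem_XR⟩
  · intro i g hg z hz
    cases i
    · rcases fC_false_cases g hg with h | h
      · rw [h]; exact S_smul_mem_XS hz
      · rw [h, SL_neg_smul]; exact S_smul_mem_XS hz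
    · rcases fC_true_cases g hg with h | h | h | h
      · rw [h]; exact R_smul_mem_XR hz
      · rw [h]; exact R_sq_smul_mem_XR hz
      · rw [h, SL_neg_smul]; exact R_smul_mem_XR hz
      · rw [h, SL_neg_smul]; exact R_sq_smul_mem_XR hz
  · intro h i z hz
    rw [kC_smul]
    exact hz
  · intro i g hg
    cases i
    · refine ⟨UpperHalfPlane.I, by show (0 : ℝ) ≤ UpperHalfPlane.I.re; simp, ?_⟩
      have hI : ((S : SL(2, ℤ)) • UpperHalfPlane.I) ∈ XS := by
        show 0 ≤ ((S : SL(2, ℤ)) • UpperHalfPlane.I).re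
        rw [S_smul_re]
        simp
      rcases fC_false_cases g hg with h | h
      · rw [h]; exact hI
      · rw [h, SL_neg_smul]; exact hI
    · refine ⟨z0, z0_mem_XR, ?_⟩
      rcases fC_true_cases g hg with h | h | h | h
      · rw [h]; exact R_smul_z0_mem_XR
      · rw [h]; exact R_sq_smul_z0_mem_XR
      · rw [h, SL_neg_smul]; exact R_smul_z0_mem_XR
      · rw [h, SL_neg_smul]; exact R_sq_smul_z0_mem_XR


theorem lift_of_gen (i : Bool) :
    PushoutI.lift fC kC fC_comp_phiC (PushoutI.of (φ := phiC) i (Multiplicative.ofAdd 1)) =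
      gen i := by
  rw [PushoutI.lift_of]
  have := fC_ofAdd_natCast i 1
  simpa using this

theorem lift_surjective :
    Function.Surjective (PushoutI.lift fC kC fC_comp_phiC) := by
  rw [← MonoidHom.range_eq_top, eq_top_iff, ← SpecialLinearGroup.SL2Z_generators,
    Subgroup.closure_le]
  have hS : (S : SL(2, ℤ)) ∈ (PushoutI.lift fC kC fC_comp_phiC).range :=
    ⟨_, lift_of_gen false⟩
  have hR : Rmat ∈ (PushoutI.lift fC kC fC_comp_phiC).range := ⟨_, lift_of_gen true⟩
  rintro g (rfl | rfl)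
  · exact hS
  · have : (T : SL(2, ℤ)) = S⁻¹ * Rmat := by rw [Rmat, inv_mul_cancel_left]
    rw [this]
    exact mul_mem (inv_mem hS) hR

/-- `C₄ *_{C₂} C₆ ≃ SL(2, ℤ)` -/
def amalgamEquiv : PushoutI phiC ≃* SL(2, ℤ) :=
  MulEquiv.ofBijective (PushoutI.lift fC kC fC_comp_phiC) ⟨lift_injective, lift_surjective⟩

theorem amalgamEquiv_of_gen (i : Bool) :
    amalgamEquiv (PushoutI.of (φ := phiC) i (Multiplicative.ofAdd 1)) = gen i :=
  lift_of_gen i

/-- **The universal property of `SL(2, ℤ) = C₄ *_{C₂} C₆`.** -/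
theorem exists_hom_of_SL2Z {K : Type*} [Group K] (s r : K) (hs : s ^ 4 = 1)
    (hsr : s ^ 2 = r ^ 3) :
    ∃ F : SL(2, ℤ) →* K, F S = s ∧ F (S * T) = r := by
  have hr : r ^ 6 = 1 := by
    rw [show 6 = 3 * 2 by norm_num, pow_mul, ← hsr, ← pow_mul]
    exact hs
  let genK : Bool → K := fun i => cond i r s
  have hgenK : ∀ i, genK i ^ nn i = 1 := by
    intro i
    cases i
    · exact hs
    · exact hr
  have hgenK2 : ∀ i, genK i ^ hh i = s ^ 2 := by
    intro i
    cases i
    · rfl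
    · exact hsr.symm
  have hs2 : (s ^ 2) ^ 2 = 1 := by rw [← pow_mul]; exact hs
  let Ψ : PushoutI phiC →* K :=
    PushoutI.lift (fun i => cycHom (nn i) (genK i) (hgenK i)) (cycHom 2 (s ^ 2) hs2) (by
      intro i
      apply cycHom_ext
      rw [MonoidHom.comp_apply, phiC_gen, cycHom_ofAdd_natCast, hgenK2]
      have := cycHom_ofAdd_natCast 2 (s ^ 2) hs2 1
      simpa using this.symm)
  have hΨ : ∀ i, Ψ (PushoutI.of (φ := phiC) i (Multiplicative.ofAdd 1)) = genK i := by
    intro i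
    show PushoutI.lift _ _ _ _ = _
    rw [PushoutI.lift_of]
    have := cycHom_ofAdd_natCast (nn i) (genK i) (hgenK i) 1
    simpa using this
  refine ⟨Ψ.comp amalgamEquiv.symm.toMonoidHom, ?_, ?_⟩
  · have h1 : amalgamEquiv.symm (S : SL(2, ℤ)) =
        PushoutI.of (φ := phiC) false (Multiplicative.ofAdd 1) := by
      rw [MulEquiv.symm_apply_eq, amalgamEquiv_of_gen]
      rfl
    show Ψ (amalgamEquiv.symm S) = s
    rw [h1, hΨ]
    rfl
  · have h1 : amalgamEquiv.symm (S * T : SL(2, ℤ)) =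
        PushoutI.of (φ := phiC) true (Multiplicative.ofAdd 1) := by
      rw [MulEquiv.symm_apply_eq, amalgamEquiv_of_gen]
      rfl
    show Ψ (amalgamEquiv.symm (S * T)) = r
    rw [h1, hΨ]
    rfl

end Fermat.Agent.S43lib.B1
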