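/-
S43lib / B1 / CrossedLift  (helper3).

Crossed homomorphisms `SL(2, ℤ) → A` (`A` a module with an `SL(2, ℤ)`-action on which `-1` acts
trivially and `2`, `3` are invertible) lift along equivariant surjections `A ↠ A''`:
"`H²(SL(2, ℤ), ker) = 0`", from the amalgam structure `SL(2, ℤ) = C₄ *_{C₂} C₆`
(`exists_hom_of_SL2Z`) applied to the semidirect product `A ⋊ SL(2, ℤ)`.
-/
import Mathlib
import Fermat.Agent.S43lib.B1.SL2ZAmalgam

set_option autoImplicit false
set_option linter.unusedSectionVars false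
set_option linter.unusedVariables false

noncomputable section

namespace Fermat.Agent.S43lib.B1

open ModularGroup Matrix.SpecialLinearGroup
open scoped MatrixGroups

/-! ### The semidirect product `A ⋊ G` -/

/-- the semidirect product `A ⋊ G` of an abelian group with a group acting on it -/
@[ext] structure SD (G A : Type*) where
  /-- the `A`-component -/
  a : A
  /-- the `G`-component -/
  g : G

namespace SD

variable {G A : Type*} [Group G] [AddCommGroup A] [DistribMulAction G A]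

instance : Group (SD G A) where
  mul x y := ⟨x.a + x.g • y.a, x.g * y.g⟩
  one := ⟨0, 1⟩
  inv x := ⟨-(x.g⁻¹ • x.a), x.g⁻¹⟩
  mul_assoc x y z := by
    apply SD.ext
    · show (x.a + x.g • y.a) + (x.g * y.g) • z.a = x.a + x.g • (y.a + y.g • z.a)
      rw [smul_add, mul_smul, add_assoc]
    · show (x.g * y.g) * z.g = x.g * (y.g * z.g)
      rw [mul_assoc]
  one_mul x := by
    apply SD.ext
    · show (0 : A) + (1 : G) • x.a = x.a
      rw [one_smul, zero_add]
    · show (1 : G) * x.g = x.g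
      rw [one_mul]
  mul_one x := by
    apply SD.ext
    · show x.a + x.g • (0 : A) = x.a
      rw [smul_zero, add_zero]
    · show x.g * (1 : G) = x.g
      rw [mul_one]
  inv_mul_cancel x := by
    apply SD.ext
    · show -(x.g⁻¹ • x.a) + x.g⁻¹ • x.a = 0
      rw [neg_add_cancel]
    · show x.g⁻¹ * x.g = 1
      rw [inv_mul_cancel]

@[simp] theorem mul_a (x y : SD G A) : (x * y).a = x.a + x.g • y.a := rfl
@[simp] theorem mul_g (x y : SD G A) : (x * y).g = x.g * y.g := rfl
@[simp] theorem one_a : (1 : SD G A).a = 0 := rfl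
@[simp] theorem one_g : (1 : SD G A).g = 1 := rfl

/-- the projection `A ⋊ G → G` -/
def snd : SD G A →* G where
  toFun x := x.g
  map_one' := rfl
  map_mul' _ _ := rfl

@[simp] theorem snd_apply (x : SD G A) : snd x = x.g := rfl

/-- a crossed homomorphism as a homomorphism `G → A ⋊ G` -/
def ofCrossed (c : G → A) (hc : ∀ g h, c (g * h) = c g + g • c h) : G →* SD G A where
  toFun g := ⟨c g, g⟩
  map_one' := by
    apply SD.ext
    · show c 1 = 0
      have h := hc 1 1
      rw [mul_one, one_smul] at h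
      exact left_eq_add.mp h
    · rfl
  map_mul' g h := by
    apply SD.ext
    · exact hc g h
    · rfl

@[simp] theorem ofCrossed_apply_a (c : G → A) (hc : ∀ g h, c (g * h) = c g + g • c h) (g : G) :
    (ofCrossed c hc g).a = c g := rfl

@[simp] theorem ofCrossed_apply_g (c : G → A) (hc : ∀ g h, c (g * h) = c g + g • c h) (g : G) :
    (ofCrossed c hc g).g = g := rfl

end SD

/-! ### Homomorphisms out of `SL(2, ℤ)` are determined by `S` and `S T` -/

theorem hom_ext_SL2Z {K : Type*} [Group K] (f g : SL(2, ℤ) →* K) (hS : f S = g S)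
    (hR : f (S * T) = g (S * T)) : f = g := by
  have hT : f T = g T := by
    have e1 : f T = (f S)⁻¹ * f (S * T) := by rw [map_mul, inv_mul_cancel_left]
    have e2 : g T = (g S)⁻¹ * g (S * T) := by rw [map_mul, inv_mul_cancel_left]
    rw [e1, e2, hS, hR]
  have hcl : Subgroup.closure ({S, T} : Set SL(2, ℤ)) = ⊤ := SpecialLinearGroup.SL2Z_generators
  apply MonoidHom.eq_of_eqOn_dense hcl
  rintro x (rfl | rfl)
  · exact hS
  · exact hT

/-! ### The lifting theorem -/

section lift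

variable (R : Type*) [CommRing R] [Invertible (2 : R)] [Invertible (3 : R)]
variable {A A'' : Type*} [AddCommGroup A] [AddCommGroup A''] [Module R A] [Module R A'']
  [DistribMulAction SL(2, ℤ) A] [DistribMulAction SL(2, ℤ) A'']
  [SMulCommClass SL(2, ℤ) R A] [SMulCommClass SL(2, ℤ) R A'']

include R in
/-- the averaging step for an element `σ` acting as an involution -/
theorem exists_lift_two (σ : SL(2, ℤ)) (hσA : ∀ a : A, σ • σ • a = a)
    (π : A →ₗ[R] A'') (hπ : ∀ (g : SL(2, ℤ)) (a : A), π (g • a) = g • π a)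
    (hsurj : Function.Surjective π) (a'' : A'') (ha'' : a'' + σ • a'' = 0) :
    ∃ a : A, a + σ • a = 0 ∧ π a = a'' := by
  obtain ⟨a₀, ha₀⟩ := hsurj a''
  refine ⟨(⅟(2 : R)) • (a₀ - σ • a₀), ?_, ?_⟩
  · rw [smul_comm σ (⅟(2 : R)), ← smul_add, smul_sub, hσA]
    have : a₀ - σ • a₀ + (σ • a₀ - a₀) = 0 := by abel
    rw [this, smul_zero]
  · rw [map_smul, map_sub, hπ, ha₀]
    have h1 : σ • a'' = -a'' := by
      rw [eq_neg_iff_add_eq_zero, add_comm]; exact ha''
    rw [h1, sub_neg_eq_add, ← two_smul R, smul_smul, invOf_mul_self, one_smul]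

include R in
/-- the averaging step for an element `ρ` acting with order `3` -/
theorem exists_lift_three (ρ : SL(2, ℤ)) (hρA : ∀ a : A, ρ • ρ • ρ • a = a)
    (π : A →ₗ[R] A'') (hπ : ∀ (g : SL(2, ℤ)) (a : A), π (g • a) = g • π a)
    (hsurj : Function.Surjective π) (b'' : A'') (hb'' : b'' + ρ • b'' + ρ • ρ • b'' = 0) :
    ∃ b : A, b + ρ • b + ρ • ρ • b = 0 ∧ π b = b'' := by
  obtain ⟨b₀, hb₀⟩ := hsurj b''
  refine ⟨(⅟(3 : R)) • (b₀ + b₀ - ρ • b₀ - ρ • ρ • b₀), ?_, ?_⟩
  · have hX : (b₀ + b₀ - ρ • b₀ - ρ • ρ • b₀) + ρ • (b₀ + b₀ - ρ • b₀ - ρ • ρ • b₀) +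
        ρ • ρ • (b₀ + b₀ - ρ • b₀ - ρ • ρ • b₀) = 0 := by
      simp only [smul_sub, smul_add, hρA]
      abel
    have e : (⅟(3 : R)) • (b₀ + b₀ - ρ • b₀ - ρ • ρ • b₀) +
        ρ • (⅟(3 : R)) • (b₀ + b₀ - ρ • b₀ - ρ • ρ • b₀) +
        ρ • ρ • (⅟(3 : R)) • (b₀ + b₀ - ρ • b₀ - ρ • ρ • b₀) =
        (⅟(3 : R)) • ((b₀ + b₀ - ρ • b₀ - ρ • ρ • b₀) + ρ • (b₀ + b₀ - ρ • b₀ - ρ • ρ • b₀) +
          ρ • ρ • (b₀ + b₀ - ρ • b₀ - ρ • ρ • b₀)) := by
      simp only [smul_comm ρ (⅟(3 : R)), smul_add]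
    rw [e, hX, smul_zero]
  · rw [map_smul, map_sub, map_sub, map_add, hπ, hπ, hπ, hb₀]
    have h1 : b'' + b'' - ρ • b'' - ρ • ρ • b'' = (3 : R) • b'' := by
      have h3 : (3 : R) • b'' = b'' + b'' + b'' := by
        rw [show (3 : R) = 1 + 1 + 1 by norm_num, add_smul, add_smul, one_smul]
      rw [h3]
      have e : b'' + b'' - ρ • b'' - ρ • ρ • b'' =
          b'' + b'' + b'' - (b'' + ρ • b'' + ρ • ρ • b'') := by abel
      rw [e, hb'', sub_zero]
    rw [h1, smul_smul, invOf_mul_self, one_smul]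

include R in
/-- **Lifting of crossed homomorphisms** along an equivariant surjection. -/
theorem exists_crossed_lift
    (hneg : ∀ a : A, (-1 : SL(2, ℤ)) • a = a) (hneg'' : ∀ a : A'', (-1 : SL(2, ℤ)) • a = a)
    (π : A →ₗ[R] A'') (hπ : ∀ (g : SL(2, ℤ)) (a : A), π (g • a) = g • π a)
    (hsurj : Function.Surjective π)
    (c'' : SL(2, ℤ) → A'') (hc'' : ∀ g h, c'' (g * h) = c'' g + g • c'' h) :
    ∃ c : SL(2, ℤ) → A, (∀ g h, c (g * h) = c g + g • c h) ∧ ∀ g, π (c g) = c'' g := by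
  -- `c''(1) = 0`, `c''(-1) = 0`
  have h2A'' : ∀ x : A'', x + x = 0 → x = 0 := by
    intro x hx
    have h : (2 : R) • x = 0 := by rw [two_smul]; exact hx
    have := congrArg (fun y => (⅟(2 : R)) • y) h
    simpa [smul_smul] using this
  have hc1 : c'' 1 = 0 := by
    have h := hc'' 1 1
    rw [mul_one, one_smul] at h
    exact left_eq_add.mp h
  have hcneg : c'' (-1) = 0 := by
    apply h2A''
    have h := hc'' (-1) (-1)
    rw [hneg'', show (-1 : SL(2, ℤ)) * (-1) = 1 by simp, hc1] at h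
    exact h.symm
  -- generic names for the two generators
  obtain ⟨σ, hσ⟩ : ∃ σ : SL(2, ℤ), σ = S := ⟨_, rfl⟩
  obtain ⟨ρ, hρ⟩ : ∃ ρ : SL(2, ℤ), ρ = S * T := ⟨_, rfl⟩
  have hSS : σ * σ = -1 := by rw [hσ, ← pow_two, S_sq]
  have hRRR : ρ * ρ * ρ = -1 := by
    rw [hρ, ← pow_two, ← pow_succ]; exact R_cube
  have ha'' : c'' σ + σ • c'' σ = 0 := by
    rw [← hc'', hSS, hcneg]
  have hb'' : c'' ρ + ρ • c'' ρ + ρ • ρ • c'' ρ = 0 := by
    have h1 : c'' (ρ * ρ * ρ) = c'' ρ + ρ • c'' ρ + ρ • ρ • c'' ρ := by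
      rw [hc'', hc'', mul_smul]
    rw [← h1, hRRR, hcneg]
  have hSSA : ∀ a : A, σ • σ • a = a := by
    intro a
    rw [← mul_smul, hSS, hneg]
  have hRRRA : ∀ a : A, ρ • ρ • ρ • a = a := by
    intro a
    rw [← mul_smul, ← mul_smul, hRRR, hneg]
  obtain ⟨a, haS, hπa⟩ := exists_lift_two R σ hSSA π hπ hsurj (c'' σ) ha''
  obtain ⟨b, hbR, hπb⟩ := exists_lift_three R ρ hRRRA π hπ hsurj (c'' ρ) hb''
  -- the homomorphism into the semidirect product
  let s : SD SL(2, ℤ) A := ⟨a, σ⟩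
  let r : SD SL(2, ℤ) A := ⟨b, ρ⟩
  have hs2 : s ^ 2 = ⟨0, -1⟩ := by
    rw [pow_two]
    apply SD.ext
    · exact haS
    · exact hSS
  have hr3 : r ^ 3 = ⟨0, -1⟩ := by
    rw [pow_succ, pow_two]
    apply SD.ext
    · show b + ρ • b + (ρ * ρ) • b = 0
      rw [mul_smul]
      exact hbR
    · exact hRRR
  have hs4 : s ^ 4 = 1 := by
    rw [show 4 = 2 * 2 by norm_num, pow_mul, hs2, pow_two]
    apply SD.ext
    · show (0 : A) + (-1 : SL(2, ℤ)) • (0 : A) = 0
      rw [smul_zero, add_zero]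
    · show (-1 : SL(2, ℤ)) * (-1) = 1
      simp
  obtain ⟨F, hFS, hFR⟩ := exists_hom_of_SL2Z s r hs4 (by rw [hs2, hr3])
  rw [← hσ] at hFS
  rw [← hρ] at hFR
  have hFg : ∀ g, (F g).g = g := by
    have : (SD.snd).comp F = MonoidHom.id _ := by
      apply hom_ext_SL2Z
      · show (F S).g = S
        rw [← hσ, hFS]
      · show (F (S * T)).g = S * T
        rw [← hρ, hFR]
    intro g
    exact congrArg (fun f : SL(2, ℤ) →* SL(2, ℤ) => f g) this
  refine ⟨fun g => (F g).a, ?_, ?_⟩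
  · intro g h
    show (F (g * h)).a = (F g).a + g • (F h).a
    rw [map_mul, SD.mul_a, hFg]
  · -- compare the two homomorphisms into `A'' ⋊ SL(2, ℤ)`
    have hcross : ∀ g h, π ((F (g * h)).a) = π ((F g).a) + g • π ((F h).a) := by
      intro g h
      rw [map_mul, SD.mul_a, hFg, map_add, hπ]
    have heq : SD.ofCrossed (fun g => π ((F g).a)) hcross = SD.ofCrossed c'' hc'' := by
      apply hom_ext_SL2Z
      · apply SD.ext
        · show π ((F S).a) = c'' S
          rw [← hσ, hFS]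
          exact hπa
        · rfl
      · apply SD.ext
        · show π ((F (S * T)).a) = c'' (S * T)
          rw [← hρ, hFR]
          exact hπb
        · rfl
    intro g
    have := congrArg (fun f : SL(2, ℤ) →* SD SL(2, ℤ) A'' => (f g).a) heq
    exact this

end lift

end Fermat.Agent.S43lib.B1
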