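/-
S43lib / B1 / ShapiroW  (helper3).

Right exactness of `W ↦ Z¹(Γ, W)` for a subgroup `Γ` of `SL(2, ℤ)` containing `-1`, acting on its
coefficient modules through `π : Γ →* G` with `π (-1) = 1`, when `6` is invertible in the coefficient
ring: crossed homomorphisms lift along equivariant surjections.  Proof: coinduce to `SL(2, ℤ)`
(`coIndW`), apply `exists_crossed_lift`, evaluate at `1`.
-/
import Fermat.Agent.S43lib.B1.CrossedLift
import Fermat.Agent.S43lib.B1.ZCoh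

set_option autoImplicit false
set_option linter.unusedSectionVars false
set_option linter.unusedVariables false

noncomputable section

namespace Fermat.Agent.S43lib.B1

open Matrix.SpecialLinearGroup
open scoped MatrixGroups

variable {Γ₀ : Subgroup SL(2, ℤ)} {G : Type*} [Group G] (π : ↥Γ₀ →* G)
variable (R : Type*) [CommRing R]
variable (W : Type*) [AddCommGroup W] [Module R W] [DistribMulAction G W] [SMulCommClass G R W]

/-- the coinduced module: functions `u` on `SL(2, ℤ)` with `u (γ t) = π γ • u t` -/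
def coIndW : Submodule R (SL(2, ℤ) → W) where
  carrier := {u | ∀ (γ : ↥Γ₀) (t : SL(2, ℤ)), u ((γ : SL(2, ℤ)) * t) = π γ • u t}
  add_mem' := by
    intro u u' hu hu' γ t
    simp only [Pi.add_apply, hu γ t, hu' γ t, smul_add]
  zero_mem' := by
    intro γ t
    simp
  smul_mem' := by
    intro r u hu γ t
    simp only [Pi.smul_apply, hu γ t, smul_comm (π γ) r]

instance : DistribMulAction SL(2, ℤ) ↥(coIndW π R W) where
  smul s u := ⟨fun t => (u : SL(2, ℤ) → W) (t * s), fun γ t => by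
    show (u : SL(2, ℤ) → W) ((γ : SL(2, ℤ)) * t * s) = π γ • (u : SL(2, ℤ) → W) (t * s)
    rw [mul_assoc]
    exact u.2 γ (t * s)⟩
  one_smul u := by
    apply Subtype.ext
    funext t
    show (u : SL(2, ℤ) → W) (t * 1) = _
    rw [mul_one]
  mul_smul s s' u := by
    apply Subtype.ext
    funext t
    show (u : SL(2, ℤ) → W) (t * (s * s')) = (u : SL(2, ℤ) → W) (t * s * s')
    rw [mul_assoc]
  smul_zero s := rfl
  smul_add s u u' := rfl

variable {π R W}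

@[simp] theorem coIndW_smul_apply (s : SL(2, ℤ)) (u : ↥(coIndW π R W)) (t : SL(2, ℤ)) :
    ((s • u : ↥(coIndW π R W)) : SL(2, ℤ) → W) t = (u : SL(2, ℤ) → W) (t * s) := rfl

instance : SMulCommClass SL(2, ℤ) R ↥(coIndW π R W) where
  smul_comm s r u := rfl

theorem coIndW_neg_one_smul (hneg : (-1 : SL(2, ℤ)) ∈ Γ₀) (hπ : π ⟨-1, hneg⟩ = 1)
    (u : ↥(coIndW π R W)) : (-1 : SL(2, ℤ)) • u = u := by
  apply Subtype.ext
  funext t
  rw [coIndW_smul_apply]
  have h1 : t * (-1 : SL(2, ℤ)) = ((⟨-1, hneg⟩ : ↥Γ₀) : SL(2, ℤ)) * t := by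
    show t * -1 = -1 * t
    rw [mul_neg, mul_one, neg_mul, one_mul]
  rw [h1, u.2, hπ, one_smul]

/-! ### Coset decomposition `t = γ_t * rep t` -/

variable (Γ₀) in
/-- a representative of the right coset `Γ₀ t` -/
def rrep (t : SL(2, ℤ)) : SL(2, ℤ) :=
  (Quotient.mk (QuotientGroup.rightRel Γ₀) t).out

variable (Γ₀) in
/-- the `Γ₀`-component of `t` -/
def rcomp (t : SL(2, ℤ)) : ↥Γ₀ :=
  ⟨t * (rrep Γ₀ t)⁻¹, by
    have h : (QuotientGroup.rightRel Γ₀) (rrep Γ₀ t) t := Quotient.mk_out (s := QuotientGroup.rightRel Γ₀) t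
    exact QuotientGroup.rightRel_apply.mp h⟩

theorem rcomp_mul_rrep (t : SL(2, ℤ)) : (rcomp Γ₀ t : SL(2, ℤ)) * rrep Γ₀ t = t := by
  show t * (rrep Γ₀ t)⁻¹ * rrep Γ₀ t = t
  rw [inv_mul_cancel_right]

theorem rrep_mul (γ : ↥Γ₀) (t : SL(2, ℤ)) : rrep Γ₀ ((γ : SL(2, ℤ)) * t) = rrep Γ₀ t := by
  unfold rrep
  congr 1
  apply Quotient.sound
  show (QuotientGroup.rightRel Γ₀) ((γ : SL(2, ℤ)) * t) t
  rw [QuotientGroup.rightRel_apply, mul_inv_rev, mul_inv_cancel_left]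
  exact Γ₀.inv_mem γ.2

theorem rcomp_mul (γ : ↥Γ₀) (t : SL(2, ℤ)) : rcomp Γ₀ ((γ : SL(2, ℤ)) * t) = γ * rcomp Γ₀ t := by
  apply Subtype.ext
  show (γ : SL(2, ℤ)) * t * (rrep Γ₀ ((γ : SL(2, ℤ)) * t))⁻¹ = (γ : SL(2, ℤ)) * (t * (rrep Γ₀ t)⁻¹)
  rw [rrep_mul, mul_assoc]

/-! ### The lifting theorem -/

section lift

variable [Invertible (2 : R)] [Invertible (3 : R)]
variable {W'' : Type*} [AddCommGroup W''] [Module R W''] [DistribMulAction G W'']
  [SMulCommClass G R W'']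

/-- composition with an equivariant map, on the coinduced modules -/
def coIndW.map (v : W →ₗ[R] W'') (hv : IsEquivar G v) : ↥(coIndW π R W) →ₗ[R] ↥(coIndW π R W'') :=
  ((v.compLeft SL(2, ℤ)).domRestrict (coIndW π R W)).codRestrict (coIndW π R W'') (by
    intro u γ t
    show v ((u : SL(2, ℤ) → W) ((γ : SL(2, ℤ)) * t)) = π γ • v ((u : SL(2, ℤ) → W) t)
    rw [u.2, hv])

@[simp] theorem coIndW.map_apply (v : W →ₗ[R] W'') (hv : IsEquivar G v) (u : ↥(coIndW π R W))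
    (t : SL(2, ℤ)) :
    ((coIndW.map v hv u : ↥(coIndW π R W'')) : SL(2, ℤ) → W'') t = v ((u : SL(2, ℤ) → W) t) := rfl

theorem coIndW.map_surjective (v : W →ₗ[R] W'') (hv : IsEquivar G v)
    (hsurj : Function.Surjective v) : Function.Surjective (coIndW.map (π := π) v hv) := by
  intro u''
  choose lift hlift using hsurj
  refine ⟨⟨fun t => π (rcomp Γ₀ t) • lift ((u'' : SL(2, ℤ) → W'') (rrep Γ₀ t)), ?_⟩, ?_⟩
  · intro γ t
    show π (rcomp Γ₀ ((γ : SL(2, ℤ)) * t)) • lift ((u'' : SL(2, ℤ) → W'') (rrep Γ₀ ((γ : SL(2, ℤ)) * t)))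
      = π γ • π (rcomp Γ₀ t) • lift ((u'' : SL(2, ℤ) → W'') (rrep Γ₀ t))
    rw [rcomp_mul, rrep_mul, map_mul, mul_smul]
  · apply Subtype.ext
    funext t
    show v (π (rcomp Γ₀ t) • lift ((u'' : SL(2, ℤ) → W'') (rrep Γ₀ t))) = (u'' : SL(2, ℤ) → W'') t
    rw [hv, hlift, ← u''.2, rcomp_mul_rrep]

include R in
/-- **Crossed homomorphisms lift along equivariant surjections.** -/
theorem Z1_map_surjective (hneg : (-1 : SL(2, ℤ)) ∈ Γ₀) (hπ : π ⟨-1, hneg⟩ = 1)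
    (v : W →ₗ[R] W'') (hv : IsEquivar G v) (hsurj : Function.Surjective v) :
    Function.Surjective (Z1.map π v hv) := by
  intro f''
  -- the extension `f̃ (t) = f'' (γ_t)` and the cocycle `F'' (s) (t) = f̃ (t s) - f̃ (t)`
  set ft : SL(2, ℤ) → W'' := fun t => (f'' : ↥Γ₀ → W'') (rcomp Γ₀ t) with hft
  have hft_mul : ∀ (γ : ↥Γ₀) (t : SL(2, ℤ)), ft ((γ : SL(2, ℤ)) * t) =
      (f'' : ↥Γ₀ → W'') γ + π γ • ft t := by
    intro γ t
    simp only [hft]
    rw [rcomp_mul, f''.2]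
  let F'' : SL(2, ℤ) → ↥(coIndW π R W'') := fun s => ⟨fun t => ft (t * s) - ft t, by
    intro γ t
    show ft ((γ : SL(2, ℤ)) * t * s) - ft ((γ : SL(2, ℤ)) * t) = π γ • (ft (t * s) - ft t)
    rw [mul_assoc, hft_mul, hft_mul, smul_sub]
    abel⟩
  have hF'' : ∀ s s', F'' (s * s') = F'' s + s • F'' s' := by
    intro s s'
    apply Subtype.ext
    funext t
    show ft (t * (s * s')) - ft t = (ft (t * s) - ft t) + (ft (t * s * s') - ft (t * s))
    rw [mul_assoc]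
    abel
  obtain ⟨F, hF, hFv⟩ := exists_crossed_lift R
    (coIndW_neg_one_smul (π := π) (R := R) (W := W) hneg hπ)
    (coIndW_neg_one_smul (π := π) (R := R) (W := W'') hneg hπ)
    (coIndW.map (π := π) v hv) (fun g u => rfl) (coIndW.map_surjective v hv hsurj) F'' hF''
  -- evaluate at `1`
  obtain ⟨w, hw⟩ := hsurj (ft 1)
  have hfZ : (fun γ : ↥Γ₀ => (F (γ : SL(2, ℤ)) : SL(2, ℤ) → W) 1 - (π γ • w - w)) ∈ Z1 π R W := by
    intro γ γ'
    show (F ((γ : SL(2, ℤ)) * (γ' : SL(2, ℤ))) : SL(2, ℤ) → W) 1 - (π (γ * γ') • w - w) =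
      (F (γ : SL(2, ℤ)) : SL(2, ℤ) → W) 1 - (π γ • w - w) +
        π γ • ((F (γ' : SL(2, ℤ)) : SL(2, ℤ) → W) 1 - (π γ' • w - w))
    rw [hF]
    show (F (γ : SL(2, ℤ)) : SL(2, ℤ) → W) 1 + (F (γ' : SL(2, ℤ)) : SL(2, ℤ) → W) (1 * (γ : SL(2, ℤ)))
      - (π (γ * γ') • w - w) = _
    have h1 : (F (γ' : SL(2, ℤ)) : SL(2, ℤ) → W) (1 * (γ : SL(2, ℤ))) =
        π γ • (F (γ' : SL(2, ℤ)) : SL(2, ℤ) → W) 1 := by
      rw [one_mul]
      have := (F (γ' : SL(2, ℤ))).2 γ 1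
      rwa [mul_one] at this
    rw [h1, map_mul, mul_smul]
    simp only [smul_sub]
    abel
  refine ⟨⟨_, hfZ⟩, ?_⟩
  apply Subtype.ext
  funext γ
  show v ((F (γ : SL(2, ℤ)) : SL(2, ℤ) → W) 1 - (π γ • w - w)) = (f'' : ↥Γ₀ → W'') γ
  have h2 : v ((F (γ : SL(2, ℤ)) : SL(2, ℤ) → W) 1) = ft (1 * (γ : SL(2, ℤ))) - ft 1 := by
    have := congrArg (fun u : ↥(coIndW π R W'') => (u : SL(2, ℤ) → W'') 1) (hFv (γ : SL(2, ℤ)))
    exact this
  rw [map_sub, map_sub, hv, hw, h2, one_mul]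
  have h3 : ft (γ : SL(2, ℤ)) = (f'' : ↥Γ₀ → W'') γ + π γ • ft 1 := by
    have := hft_mul γ 1
    rwa [mul_one] at this
  rw [h3]
  abel

end lift

end Fermat.Agent.S43lib.B1
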