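/-
S43lib / B1 / LevelFree  (helper3).

The concrete instances for `Γ₀(M)`: finite generation, right exactness (`H² = 0`, `6` invertible),
and the freeness theorem for the level system `lvlSys χ f hcomm`.
-/
import Fermat.Agent.S43lib.B1.Level
import Fermat.Agent.S43lib.B1.ShapiroW
import Fermat.Agent.S43lib.B1.Free

set_option autoImplicit false
set_option linter.unusedSectionVars false
set_option linter.unusedVariables false

noncomputable section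

namespace Fermat.Agent.S43lib.B1

open CongruenceSubgroup Matrix.SpecialLinearGroup IsLocalRing MvPolynomial
open Fermat.Agent.S41lib.HC
open scoped MatrixGroups

instance : Group.FG SL(2, ℤ) :=
  Group.fg_iff.mpr ⟨{ModularGroup.S, ModularGroup.T}, SpecialLinearGroup.SL2Z_generators, by simp⟩

instance (M : ℕ) [NeZero M] : Group.FG ↥(Gamma0 M) := Subgroup.fg_of_index_ne_zero _

theorem neg_one_mem_Gamma0 (M : ℕ) : (-1 : SL(2, ℤ)) ∈ Gamma0 M := by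
  rw [Gamma0_mem]
  simp

theorem unitHom_neg_one (M : ℕ) : unitHom M ⟨-1, neg_one_mem_Gamma0 M⟩ = -1 := by
  apply Units.ext
  rw [coe_unitHom]
  simp [Gamma0Map]

variable {M : ℕ} [NeZero M] {G : Type} [CommGroup G] (χ : (ZMod M)ˣ →* G) {I : Type}
  (f : I → LvlIdx M) (hcomm : CommStmt M)

/-- right exactness for the level system: `H² = 0` -/
theorem lvlSys_rightExact (hχ : χ (-1) = 1) (𝒪 : Type) [CommRing 𝒪] [Invertible (2 : 𝒪)]
    [Invertible (3 : 𝒪)] : (lvlSys χ f hcomm).RightExact 𝒪 := by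
  intro W W'' _ _ _ _ _ _ _ _ v hv hsurj
  refine Z1_map_surjective (R := 𝒪) (π := levelPi χ) (neg_one_mem_Gamma0 M) ?_ v hv hsurj
  rw [levelPi_apply, unitHom_neg_one, hχ]

variable [Fintype G] {𝒪 : Type} [CommRing 𝒪] [IsDomain 𝒪] [IsLocalRing 𝒪] [IsNoetherianRing 𝒪]
  [IsAdicComplete (maximalIdeal 𝒪) 𝒪] [Finite (ResidueField 𝒪)]
  [Invertible (2 : 𝒪)] [Invertible (3 : 𝒪)]

/-- **Freeness of the localised cohomology of `Γ₀(M)` with coefficients in `𝒪[G]` over `𝒪[G]`.** -/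
theorem lvlSys_exists_basis {p : ℕ} [Fact p.Prime] (hG : IsPGroup p G) (hχ : χ (-1) = 1)
    {ϖ : 𝒪} (hϖ : maximalIdeal 𝒪 = Ideal.span {ϖ}) (hϖ0 : ϖ ≠ 0)
    (hp𝒪 : (p : 𝒪) ∈ maximalIdeal 𝒪)
    (𝔪 : Ideal (MvPolynomial I 𝒪)) [𝔪.IsMaximal] (hne : (lvlSys χ f hcomm).NonEis 𝔪) :
    ∃ (r : ℕ) (b : Fin r → (lvlSys χ f hcomm).F 𝒪 (Reg G 𝒪) 𝔪),
      Nat.card ((lvlSys χ f hcomm).F 𝒪 (TrivMod G (ResidueField 𝒪)) 𝔪) =
        Nat.card (ResidueField 𝒪) ^ r ∧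
      ∀ x, ∃! c : Fin r → Reg G 𝒪, x = (lvlSys χ f hcomm).combo 𝔪 b c :=
  (lvlSys χ f hcomm).exists_basis_reg 𝔪 (lvlSys_rightExact χ f hcomm hχ 𝒪) hne hG hϖ hϖ0 hp𝒪

end Fermat.Agent.S43lib.B1
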