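/-
S43lib / B1 / Iface  (helper3).

**The statement consumed from block B1** (Taylor–Wiles control + freeness), as a `Prop`.

Levels: `M₀` (base) and `M = M₀ * ∏ Q` (`Q` a list of distinct Taylor–Wiles primes `q ∤ M₀`,
`q ≡ 1` in the residue field).  Diamond groups: `G` (top level, through `χ`) and its quotient `G₀`
(base level, through `χ₀`), `φ : G ↠ G₀`, `φ ∘ χ = χ₀ ∘ (reduction mod M₀)`.  One index type `I` for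
the Hecke operators at both levels: `f : I → LvlIdx M` at the top level and `f₀ = down ∘ f` at the
base level (`T_ℓ ↦ T_ℓ`, `U_v ↦ U_v` for `v ∣ M₀`, `U_q ↦ T_q` for `q ∈ Q`, `⟨u⟩ ↦ ⟨u mod M₀⟩`).
For `q ∈ Q`: `o q` is the index of `U_q`, `z q` the index of a diamond operator of a unit `≡ q mod M₀`.
Points: `ev`, `ev₀ : 𝒪[X_I] → k` with kernels `𝔪`, `𝔪₀`, equal on the `X i`, `i ≠ o q`, and
`α_q · ev₀ (X (o q)) = α_q² + 1` for `α_q = ev (X (o q))`, `α_q² ≠ 1`.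

Conclusion: `M_Q = H¹(Γ₀(M), 𝒪[G])_𝔪` and `M_∅ = H¹(Γ₀(M₀), 𝒪[G₀])_𝔪₀` are free of the SAME rank over
`𝒪[G]`, `𝒪[G₀]`, and there is a surjection `v : M_Q → M_∅`, semilinear for `φ`, commuting with the
`X i` (`i ≠ o q`), whose kernel is `aug(ker φ) · M_Q`.
-/
import Mathlib
import Fermat.Agent.S43lib.B1.Comm
import Fermat.Agent.S43lib.B1.LevelFree

set_option autoImplicit false

noncomputable section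

namespace Fermat.Agent.S43lib.B1

open MvPolynomial IsLocalRing

/-- pushing an index down to a divisor level: `T_ℓ ↦ T_ℓ`, `U_q ↦ U_q` or `T_q`, `⟨u⟩ ↦ ⟨u mod M'⟩` -/
def LvlIdx.down {M M' : ℕ} [NeZero M] [NeZero M'] (h : M' ∣ M) : LvlIdx M → LvlIdx M'
  | Sum.inl (Sum.inl ℓ) => Sum.inl (Sum.inl ⟨ℓ.1, ℓ.2.1, fun hd => ℓ.2.2 (hd.trans h)⟩)
  | Sum.inl (Sum.inr q) =>
    if hq : q.1 ∣ M' then Sum.inl (Sum.inr ⟨q.1, q.2.1, hq⟩) else Sum.inl (Sum.inl ⟨q.1, q.2.1, hq⟩)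
  | Sum.inr u => Sum.inr (ZMod.unitsMap h u)

/-- **The Taylor–Wiles control statement** (the statement consumed from B1). -/
def TWControlStmt : Prop :=
  ∀ {𝒪 : Type} [CommRing 𝒪] [IsDomain 𝒪] [IsLocalRing 𝒪] [IsNoetherianRing 𝒪]
    [IsAdicComplete (maximalIdeal 𝒪) 𝒪] [Finite (ResidueField 𝒪)]
    [Invertible (2 : 𝒪)] [Invertible (3 : 𝒪)]
    {p : ℕ} [Fact p.Prime] {ϖ : 𝒪} (_hϖ : maximalIdeal 𝒪 = Ideal.span {ϖ}) (_hϖ0 : ϖ ≠ 0)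
    (_hp𝒪 : (p : 𝒪) ∈ maximalIdeal 𝒪)
    {M₀ M : ℕ} [NeZero M₀] [NeZero M] (Q : List ℕ) (_hQ : Q.Nodup) (hdvd : M₀ ∣ M)
    (_hM : M = M₀ * Q.prod)
    (_hQp : ∀ q ∈ Q, q.Prime ∧ ¬ q ∣ M₀ ∧ ((q : ℕ) : ResidueField 𝒪) = 1)
    {G G₀ : Type} [CommGroup G] [CommGroup G₀] [Fintype G] [Fintype G₀] (_hG : IsPGroup p G)
    (φ : G →* G₀) (_hφ : Function.Surjective φ)
    (χ : (ZMod M)ˣ →* G) (χ₀ : (ZMod M₀)ˣ →* G₀)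
    (_hχ : ∀ u, φ (χ u) = χ₀ (ZMod.unitsMap hdvd u)) (_hχ1 : χ (-1) = 1)
    {I : Type} (f : I → LvlIdx M) (f₀ : I → LvlIdx M₀) (_hf : ∀ i, f₀ i = LvlIdx.down hdvd (f i))
    (o z : ℕ → I)
    (_ho : ∀ q ∈ Q, ∃ h : q.Prime ∧ q ∣ M, f (o q) = Sum.inl (Sum.inr ⟨q, h⟩))
    (_hinj : ∀ q ∈ Q, ∀ i, f i = f (o q) → i = o q)
    (_hz : ∀ q ∈ Q, ∃ u : (ZMod M)ˣ, f (z q) = Sum.inr u ∧
      ((ZMod.unitsMap hdvd u : (ZMod M₀)ˣ) : ZMod M₀) = (q : ZMod M₀))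
    (ev ev₀ : MvPolynomial I 𝒪 →+* ResidueField 𝒪)
    (_hevC : ∀ a, ev (C a) = residue 𝒪 a) (_hev₀C : ∀ a, ev₀ (C a) = residue 𝒪 a)
    (_hevX : ∀ i, (∀ q ∈ Q, i ≠ o q) → ev₀ (X i) = ev (X i))
    (_hevz : ∀ q ∈ Q, ev (X (z q)) = 1)
    (_hevo : ∀ q ∈ Q, ev (X (o q)) * ev₀ (X (o q)) = ev (X (o q)) ^ 2 + 1)
    (_hα : ∀ q ∈ Q, ev (X (o q)) ^ 2 ≠ 1)
    (_hne : ∃ i, (∀ q ∈ Q, i ≠ o q) ∧
      ev (X i) ≠ ((Fintype.card (lvlIota M (f i)) : ℕ) : ResidueField 𝒪))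
    (𝔪 𝔪₀ : Ideal (MvPolynomial I 𝒪)) [𝔪.IsMaximal] [𝔪₀.IsMaximal]
    (_h𝔪 : ∀ s, s ∈ 𝔪 ↔ ev s = 0) (_h𝔪₀ : ∀ s, s ∈ 𝔪₀ ↔ ev₀ s = 0),
    ∃ (r : ℕ) (b : Fin r → (levelSys χ f).F 𝒪 (Reg G 𝒪) 𝔪)
      (b₀ : Fin r → (levelSys χ₀ f₀).F 𝒪 (Reg G₀ 𝒪) 𝔪₀)
      (v : (levelSys χ f).F 𝒪 (Reg G 𝒪) 𝔪 →+ (levelSys χ₀ f₀).F 𝒪 (Reg G₀ 𝒪) 𝔪₀),
      (∀ x, ∃! c : Fin r → Reg G 𝒪, x = (levelSys χ f).combo 𝔪 b c) ∧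
      (∀ x, ∃! c : Fin r → Reg G₀ 𝒪, x = (levelSys χ₀ f₀).combo 𝔪₀ b₀ c) ∧
      Function.Surjective v ∧
      (∀ y, v y = 0 ↔ y ∈ AddSubgroup.closure
        {x | ∃ δ : G, φ δ = 1 ∧ ∃ y', x = (levelSys χ f).Gact 𝔪 δ y' - y'}) ∧
      (∀ i, (∀ q ∈ Q, i ≠ o q) → ∀ y,
        v ((X i : MvPolynomial I 𝒪) • y) = (X i : MvPolynomial I 𝒪) • v y) ∧
      (∀ (a : 𝒪) y, v (a • y) = a • v y) ∧
      (∀ (g : G) y, v ((levelSys χ f).Gact 𝔪 g y) = (levelSys χ₀ f₀).Gact 𝔪₀ (φ g) (v y))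

end Fermat.Agent.S43lib.B1
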