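/-
S43lib / B1 / RExact  (helper3).

Stable submodules as `G`-modules, and right exactness of `W ↦ S.F R W 𝔪` for a right exact sequence
`W' → W → W'' → 0` of coefficient modules (the first map need not be injective).
-/
import Fermat.Agent.S43lib.B1.Fun

set_option autoImplicit false
set_option linter.unusedSectionVars false
set_option linter.unusedVariables false

noncomputable section

namespace Fermat.Agent.S43lib.B1

open MvPolynomial Fermat.Agent.S41lib.HC

section sub

variable {G : Type*} [Group G] {R : Type*} [CommRing R]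
variable {W : Type*} [AddCommGroup W] [Module R W] [DistribMulAction G W] [SMulCommClass G R W]

/-- a stable submodule of a `G`-module, as a `G`-module -/
def SubG (N : Submodule R W) (hN : ∀ (g : G), ∀ w ∈ N, g • w ∈ N) : Type _ := ↥N

namespace SubG

variable (N : Submodule R W) (hN : ∀ (g : G), ∀ w ∈ N, g • w ∈ N)

instance : AddCommGroup (SubG N hN) := inferInstanceAs (AddCommGroup ↥N)
instance : Module R (SubG N hN) := inferInstanceAs (Module R ↥N)

/-- the inclusion -/
def incl : SubG N hN →ₗ[R] W := N.subtype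

theorem incl_injective : Function.Injective (incl N hN) := Subtype.val_injective

theorem incl_mem (x : SubG N hN) : incl N hN x ∈ N := x.2

instance : DistribMulAction G (SubG N hN) where
  smul g x := (⟨g • incl N hN x, hN g _ x.2⟩ : ↥N)
  one_smul x := Subtype.ext (one_smul G (incl N hN x))
  mul_smul g h x := Subtype.ext (mul_smul g h (incl N hN x))
  smul_zero g := Subtype.ext (smul_zero g)
  smul_add g x y := Subtype.ext (smul_add g (incl N hN x) (incl N hN y))

theorem incl_smul (g : G) (x : SubG N hN) : incl N hN (g • x) = g • incl N hN x := rfl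

instance : SMulCommClass G R (SubG N hN) where
  smul_comm g r x := Subtype.ext (smul_comm g r (incl N hN x))

theorem isEquivar_incl : IsEquivar G (incl N hN) := fun g x => rfl

variable {W' : Type*} [AddCommGroup W'] [Module R W'] [DistribMulAction G W']
  [SMulCommClass G R W']

/-- a map with values in the submodule -/
def lift (u : W' →ₗ[R] W) (h : ∀ w', u w' ∈ N) : W' →ₗ[R] SubG N hN := u.codRestrict N h

theorem incl_lift (u : W' →ₗ[R] W) (h : ∀ w', u w' ∈ N) (w' : W') :
    incl N hN (lift N hN u h w') = u w' := rfl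

theorem incl_comp_lift (u : W' →ₗ[R] W) (h : ∀ w', u w' ∈ N) :
    (incl N hN).comp (lift N hN u h) = u := rfl

theorem isEquivar_lift {u : W' →ₗ[R] W} (hu : IsEquivar G u) (h : ∀ w', u w' ∈ N) :
    IsEquivar G (lift N hN u h) := fun g w' => Subtype.ext (hu g w')

end SubG

end sub

namespace HeckeSys

variable {Γ G : Type} [Group Γ] [Group G] {I : Type} (S : HeckeSys Γ G I)
variable {R : Type} [CommRing R]
variable {W : Type} [AddCommGroup W] [Module R W] [DistribMulAction G W] [SMulCommClass G R W]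
variable {W' : Type} [AddCommGroup W'] [Module R W'] [DistribMulAction G W'] [SMulCommClass G R W']
variable {W'' : Type} [AddCommGroup W''] [Module R W''] [DistribMulAction G W'']
  [SMulCommClass G R W'']
variable (𝔪 : Ideal (MvPolynomial I R)) [𝔪.IsPrime]

theorem isEquivar_neg {u : W →ₗ[R] W'} (hu : IsEquivar G u) : IsEquivar G (-u) := fun g w => by
  rw [LinearMap.neg_apply, LinearMap.neg_apply, hu, smul_neg]

theorem isEquivar_sub {u u' : W →ₗ[R] W'} (hu : IsEquivar G u) (hu' : IsEquivar G u') :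
    IsEquivar G (u - u') := fun g w => by
  rw [LinearMap.sub_apply, LinearMap.sub_apply, hu, hu', smul_sub]

theorem Fmap_sub {u u' : W →ₗ[R] W'} (hu : IsEquivar G u) (hu' : IsEquivar G u') :
    S.Fmap 𝔪 (u - u') (isEquivar_sub hu hu') = S.Fmap 𝔪 u hu - S.Fmap 𝔪 u' hu' := by
  have h : u = (u - u') + u' := (sub_add_cancel u u').symm
  have h1 := S.Fmap_add 𝔪 (isEquivar_sub hu hu') hu'
  rw [eq_sub_iff_add_eq, ← h1]
  exact (S.Fmap_congr 𝔪 h hu).symm

/-- **right exactness** of the localised cohomology -/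
theorem Fmap_exact_right (hS : S.RightExact R) {u : W' →ₗ[R] W} (hu : IsEquivar G u)
    {v : W →ₗ[R] W''} (hv : IsEquivar G v) (hsurj : Function.Surjective v)
    (hex : ∀ w, v w = 0 ↔ ∃ w', u w' = w) (y : S.F R W 𝔪) :
    S.Fmap 𝔪 v hv y = 0 ↔ ∃ y', S.Fmap 𝔪 u hu y' = y := by
  -- the kernel of `v` as a `G`-module
  have hN : ∀ (g : G), ∀ w ∈ LinearMap.ker v, g • w ∈ LinearMap.ker v := by
    intro g w hw
    rw [LinearMap.mem_ker] at hw ⊢
    rw [hv, hw, smul_zero]
  have hmem : ∀ w', u w' ∈ LinearMap.ker v := fun w' => by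
    rw [LinearMap.mem_ker]
    exact (hex _).mpr ⟨w', rfl⟩
  have hex' : ∀ w, v w = 0 ↔ ∃ x, SubG.incl (LinearMap.ker v) hN x = w := by
    intro w
    constructor
    · intro hw
      exact ⟨⟨w, hw⟩, rfl⟩
    · rintro ⟨x, rfl⟩
      exact x.2
  have hE := S.Fmap_exact 𝔪 (SubG.isEquivar_incl (LinearMap.ker v) hN) hv
    (SubG.incl_injective _ hN) hsurj hex'
  have hliftsurj : Function.Surjective (SubG.lift (LinearMap.ker v) hN u hmem) := by
    intro x
    obtain ⟨w', hw'⟩ := (hex _).mp x.2
    exact ⟨w', Subtype.ext hw'⟩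
  have hsurjF := S.Fmap_surjective 𝔪 hS (SubG.isEquivar_lift (LinearMap.ker v) hN hu hmem)
    hliftsurj
  have hcomp : ∀ y', S.Fmap 𝔪 u hu y' =
      S.Fmap 𝔪 (SubG.incl (LinearMap.ker v) hN) (SubG.isEquivar_incl _ hN)
        (S.Fmap 𝔪 (SubG.lift (LinearMap.ker v) hN u hmem) (SubG.isEquivar_lift _ hN hu hmem) y') := by
    intro y'
    rw [← Fmap_comp_apply]
    rfl
  constructor
  · intro hy
    obtain ⟨k, hk⟩ := (hE y).mp hy
    obtain ⟨y', rfl⟩ := hsurjF k
    exact ⟨y', (hcomp y').trans hk⟩
  · rintro ⟨y', rfl⟩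
    rw [hcomp]
    exact (hE _).mpr ⟨_, rfl⟩

end HeckeSys

end Fermat.Agent.S43lib.B1
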