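/-
S43lib / B1 / Via  (helper3).

Change of the group of diamond operators along a homomorphism `φ : G →* G₀`:  a `G₀`-module `W`
viewed as a `G`-module `Via φ W`, the pushed Hecke system `S.push φ`, and the identification
`S.F R (Via φ W) 𝔪 ≃ (S.push φ).F R W 𝔪`, compatible with the Hecke operators, with the maps induced
by equivariant maps of coefficients and with the action of the diamond groups.
-/
import Fermat.Agent.S43lib.B1.Fun

set_option autoImplicit false
set_option linter.unusedSectionVars false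
set_option linter.unusedVariables false

noncomputable section

namespace Fermat.Agent.S43lib.B1

open MvPolynomial Fermat.Agent.S41lib.HC

/-- a `G₀`-module viewed as a `G`-module through `φ : G →* G₀` -/
def Via {G G₀ : Type*} [Group G] [Group G₀] (φ : G →* G₀) (W : Type*) : Type _ := W

namespace Via

variable {G G₀ : Type*} [Group G] [Group G₀] (φ : G →* G₀) (W : Type*)

/-- the underlying element -/
def out (w : Via φ W) : W := w

/-- an element of `W` as an element of `Via φ W` -/
def mk (w : W) : Via φ W := w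

instance [AddCommGroup W] : AddCommGroup (Via φ W) := inferInstanceAs (AddCommGroup W)

instance {R : Type*} [Semiring R] [AddCommGroup W] [Module R W] : Module R (Via φ W) :=
  inferInstanceAs (Module R W)

instance [AddCommGroup W] [DistribMulAction G₀ W] : DistribMulAction G (Via φ W) where
  smul g w := mk φ W (φ g • out φ W w)
  one_smul w := by
    show (φ 1 • out φ W w) = out φ W w
    rw [map_one, one_smul]
  mul_smul g h w := by
    show (φ (g * h) • out φ W w) = (φ g • (φ h • out φ W w))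
    rw [map_mul, mul_smul]
  smul_zero g := smul_zero (A := W) (φ g)
  smul_add g w w' := smul_add (A := W) (φ g) (out φ W w) (out φ W w')

variable {φ W} in
theorem smul_def [AddCommGroup W] [DistribMulAction G₀ W] (g : G) (w : Via φ W) :
    g • w = mk φ W (φ g • out φ W w) := rfl

instance {R : Type*} [Semiring R] [AddCommGroup W] [Module R W] [DistribMulAction G₀ W]
    [SMulCommClass G₀ R W] : SMulCommClass G R (Via φ W) :=
  ⟨fun g r w => smul_comm (N := R) (α := W) (φ g) r (out φ W w)⟩

instance [Finite W] : Finite (Via φ W) := inferInstanceAs (Finite W)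

instance {R : Type*} [Semiring R] [AddCommGroup W] [Module R W] [Module.Finite R W] :
    Module.Finite R (Via φ W) := inferInstanceAs (Module.Finite R W)

variable {W}
variable {R : Type*} [CommRing R] [AddCommGroup W] [Module R W] [DistribMulAction G₀ W]
  {W' : Type*} [AddCommGroup W'] [Module R W'] [DistribMulAction G₀ W']

/-- a linear map, between the modules viewed as `G`-modules -/
def map (u : W →ₗ[R] W') : Via φ W →ₗ[R] Via φ W' := u

@[simp] theorem map_apply (u : W →ₗ[R] W') (w : Via φ W) :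
    map φ u w = mk φ W' (u (out φ W w)) := rfl

theorem isEquivar_map {u : W →ₗ[R] W'} (hu : IsEquivar G₀ u) : IsEquivar G (map φ u) :=
  fun g w => hu (φ g) (out φ W w)

/-- a linear map into `W` which is semi-equivariant is equivariant into `Via φ W` -/
def lin {V : Type*} [AddCommGroup V] [Module R V] (u : V →ₗ[R] W) : V →ₗ[R] Via φ W := u

@[simp] theorem lin_apply {V : Type*} [AddCommGroup V] [Module R V] (u : V →ₗ[R] W) (x : V) :
    lin φ u x = mk φ W (u x) := rfl

theorem isEquivar_lin {V : Type*} [AddCommGroup V] [Module R V] [DistribMulAction G V]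
    {u : V →ₗ[R] W} (hu : ∀ (g : G) (x : V), u (g • x) = φ g • u x) : IsEquivar G (lin φ u) :=
  fun g x => hu g x

end Via

/-! ### Crossed homomorphisms -/

section cocycles

variable {Γ G G₀ : Type*} [Group Γ] [Group G] [Group G₀] (π : Γ →* G) (φ : G →* G₀)
variable (R : Type*) [CommRing R]
variable (W : Type*) [AddCommGroup W] [Module R W] [DistribMulAction G₀ W] [SMulCommClass G₀ R W]

/-- crossed homomorphisms with values in `Via φ W` are crossed homomorphisms for `φ ∘ π` -/
def Z1.via : ↥(Z1 π R (Via φ W)) ≃ₗ[R] ↥(Z1 (φ.comp π) R W) where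
  toFun f := ⟨fun γ => Via.out φ W ((f : Γ → Via φ W) γ), f.2⟩
  invFun f := ⟨fun γ => Via.mk φ W ((f : Γ → W) γ), f.2⟩
  map_add' _ _ := rfl
  map_smul' _ _ := rfl
  left_inv _ := rfl
  right_inv _ := rfl

@[simp] theorem Z1.via_apply (f : ↥(Z1 π R (Via φ W))) (γ : Γ) :
    ((Z1.via π φ R W f : ↥(Z1 (φ.comp π) R W)) : Γ → W) γ =
      Via.out φ W ((f : Γ → Via φ W) γ) := rfl

theorem Z1.via_mem_B1z (f : ↥(Z1 π R (Via φ W))) :
    Z1.via π φ R W f ∈ B1z (φ.comp π) R W ↔ f ∈ B1z π R (Via φ W) := by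
  constructor
  · rintro ⟨w, hw⟩
    refine ⟨Via.mk φ W w, ?_⟩
    funext γ
    exact congrFun hw γ
  · rintro ⟨w, hw⟩
    refine ⟨Via.out φ W w, ?_⟩
    funext γ
    exact congrFun hw γ

/-- the identification on cohomology -/
def H1.via : H1 π R (Via φ W) ≃ₗ[R] H1 (φ.comp π) R W :=
  Submodule.Quotient.equiv (B1z π R (Via φ W)) (B1z (φ.comp π) R W) (Z1.via π φ R W) (by
    ext f
    rw [Submodule.mem_map]
    constructor
    · rintro ⟨f', hf', rfl⟩
      exact (Z1.via_mem_B1z π φ R W f').mpr hf'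
    · intro hf
      refine ⟨(Z1.via π φ R W).symm f, ?_, LinearEquiv.apply_symm_apply _ f⟩
      rw [← Z1.via_mem_B1z, LinearEquiv.apply_symm_apply]
      exact hf)

@[simp] theorem H1.via_mk (f : ↥(Z1 π R (Via φ W))) :
    H1.via π φ R W (H1.mk π R (Via φ W) f) = H1.mk (φ.comp π) R W (Z1.via π φ R W f) := rfl

variable {π R W}

theorem H1.via_heckeH {ι : Type*} [Fintype ι] {D : CosetData Γ Γ ι}
    (hD : CosetData.IsEquivariant π D) (hD' : CosetData.IsEquivariant (φ.comp π) D)
    (x : H1 π R (Via φ W)) :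
    H1.via π φ R W (heckeH R (Via φ W) hD x) = heckeH R W hD' (H1.via π φ R W x) := by
  obtain ⟨f, rfl⟩ := H1.mk_surjective π R (Via φ W) x
  rw [heckeH_mk, H1.via_mk, H1.via_mk, heckeH_mk]
  rfl

variable {W' : Type*} [AddCommGroup W'] [Module R W'] [DistribMulAction G₀ W']
  [SMulCommClass G₀ R W']

theorem H1.via_map (u : W →ₗ[R] W') (hu : IsEquivar G₀ u) (x : H1 π R (Via φ W)) :
    H1.via π φ R W' (H1.map π (Via.map φ u) (Via.isEquivar_map φ hu) x) =
      H1.map (φ.comp π) u hu (H1.via π φ R W x) := by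
  obtain ⟨f, rfl⟩ := H1.mk_surjective π R (Via φ W) x
  rfl

end cocycles

/-! ### Hecke systems -/

namespace HeckeSys

variable {Γ G G₀ : Type} [Group Γ] [Group G] [Group G₀] {I : Type} (S : HeckeSys Γ G I)
  (φ : G →* G₀)

/-- the same system with the group of diamond operators pushed along `φ` -/
def push : HeckeSys Γ G₀ I where
  π := φ.comp S.π
  ι := S.ι
  fin := S.fin
  D := S.D
  equi i γ x := by
    show φ (S.π ((S.D i).c γ x)) = φ (S.π γ)
    rw [S.equi i γ x]
  comm i j := by
    obtain ⟨e, d, hd, hc⟩ := S.comm i j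
    refine ⟨e, d, fun p => ?_, hc⟩
    show φ (S.π (d p)) = 1
    rw [hd, map_one]

variable (R : Type) [CommRing R]
variable (W : Type) [AddCommGroup W] [Module R W] [DistribMulAction G₀ W] [SMulCommClass G₀ R W]
variable {W' : Type} [AddCommGroup W'] [Module R W'] [DistribMulAction G₀ W']
  [SMulCommClass G₀ R W']

/-- the identification of the cohomologies, as modules over the polynomial ring -/
def viaCoh : S.Coh R (Via φ W) ≃ₗ[MvPolynomial I R] (S.push φ).Coh R W where
  toFun := H1.via S.π φ R W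
  invFun := (H1.via S.π φ R W).symm
  left_inv := (H1.via S.π φ R W).left_inv
  right_inv := (H1.via S.π φ R W).right_inv
  map_add' := map_add _
  map_smul' p x :=
    polyHom_intertwine (S.T R (Via φ W)) (S.T_comm R (Via φ W)) ((S.push φ).T R W)
      ((S.push φ).T_comm R W) (H1.via S.π φ R W).toLinearMap
      (fun i x => H1.via_heckeH φ (S.equi i) ((S.push φ).equi i) x) p x

theorem viaCoh_apply (x : S.Coh R (Via φ W)) : S.viaCoh φ R W x = H1.via S.π φ R W x := rfl

variable {R W}

theorem viaCoh_map (u : W →ₗ[R] W') (hu : IsEquivar G₀ u) (x : S.Coh R (Via φ W)) :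
    S.viaCoh φ R W' (S.map (Via.map φ u) (Via.isEquivar_map φ hu) x) =
      (S.push φ).map u hu (S.viaCoh φ R W x) :=
  H1.via_map φ u hu x

variable (R W)
variable (𝔪 : Ideal (MvPolynomial I R)) [𝔪.IsPrime]

/-- the identification of the localised cohomologies -/
def viaF : S.F R (Via φ W) 𝔪 ≃ₗ[MvPolynomial I R] (S.push φ).F R W 𝔪 :=
  LinearEquiv.ofLinearMap
    (IsLocalizedModule.map 𝔪.primeCompl (S.loc R (Via φ W) 𝔪) ((S.push φ).loc R W 𝔪)
      (S.viaCoh φ R W).toLinearMap)
    (IsLocalizedModule.map 𝔪.primeCompl ((S.push φ).loc R W 𝔪) (S.loc R (Via φ W) 𝔪)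
      (S.viaCoh φ R W).symm.toLinearMap)
    (by
      apply IsLocalizedModule.linearMap_ext 𝔪.primeCompl ((S.push φ).loc R W 𝔪)
        ((S.push φ).loc R W 𝔪)
      ext x
      simp only [LinearMap.coe_comp, Function.comp_apply, LinearMap.id_comp]
      rw [IsLocalizedModule.map_apply, IsLocalizedModule.map_apply]
      simp)
    (by
      apply IsLocalizedModule.linearMap_ext 𝔪.primeCompl (S.loc R (Via φ W) 𝔪)
        (S.loc R (Via φ W) 𝔪)
      ext x
      simp only [LinearMap.coe_comp, Function.comp_apply, LinearMap.id_comp]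
      rw [IsLocalizedModule.map_apply, IsLocalizedModule.map_apply]
      simp)

theorem viaF_loc (x : S.Coh R (Via φ W)) :
    S.viaF φ R W 𝔪 (S.loc R (Via φ W) 𝔪 x) = (S.push φ).loc R W 𝔪 (S.viaCoh φ R W x) :=
  IsLocalizedModule.map_apply _ _ _ _ _

variable {R W}

theorem viaF_Fmap (u : W →ₗ[R] W') (hu : IsEquivar G₀ u) (y : S.F R (Via φ W) 𝔪) :
    S.viaF φ R W' 𝔪 (S.Fmap 𝔪 (Via.map φ u) (Via.isEquivar_map φ hu) y) =
      (S.push φ).Fmap 𝔪 u hu (S.viaF φ R W 𝔪 y) := by
  have h : (S.viaF φ R W' 𝔪).toLinearMap.comp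
        (S.Fmap 𝔪 (Via.map φ u) (Via.isEquivar_map φ hu)) =
      ((S.push φ).Fmap 𝔪 u hu).comp (S.viaF φ R W 𝔪).toLinearMap := by
    apply IsLocalizedModule.linearMap_ext 𝔪.primeCompl (S.loc R (Via φ W) 𝔪)
      ((S.push φ).loc R W' 𝔪)
    ext x
    simp only [LinearMap.coe_comp, Function.comp_apply, LinearEquiv.coe_coe]
    rw [Fmap_loc, viaF_loc, viaF_loc, Fmap_loc, viaCoh_map]
  exact LinearMap.congr_fun h y

end HeckeSys

/-! ### The action of the diamond groups -/

namespace HeckeSys

variable {Γ G G₀ : Type} [Group Γ] [CommGroup G] [CommGroup G₀] {I : Type} (S : HeckeSys Γ G I)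
  (φ : G →* G₀)
variable {R : Type} [CommRing R]
variable {W : Type} [AddCommGroup W] [Module R W] [DistribMulAction G₀ W] [SMulCommClass G₀ R W]
variable (𝔪 : Ideal (MvPolynomial I R)) [𝔪.IsPrime]

theorem viaF_Gact (g : G) (y : S.F R (Via φ W) 𝔪) :
    S.viaF φ R W 𝔪 (S.Gact 𝔪 g y) = (S.push φ).Gact 𝔪 (φ g) (S.viaF φ R W 𝔪 y) := by
  have h : QuotG.actLin (G := G) R (Via φ W) g =
      Via.map φ (QuotG.actLin (G := G₀) R W (φ g)) := rfl
  unfold Gact
  rw [S.Fmap_congr 𝔪 h]
  exact S.viaF_Fmap φ 𝔪 _ (isEquivar_actLin (φ g)) y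

end HeckeSys

end Fermat.Agent.S43lib.B1
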