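/-
S43lib / B1 / RegPush  (helper3).

The push-forward `𝒪[G] → 𝒪[G₀]` along a surjection `φ : G → G₀` (summation over the fibres): it is
semi-equivariant, surjective, and its kernel is the image of `(w_δ) ↦ ∑_{φ δ = 1} (δ • w_δ - w_δ)`.
Consequence for a right exact Hecke system: control of the localised cohomology.
-/
import Fermat.Agent.S43lib.B1.Via
import Fermat.Agent.S43lib.B1.RExact

set_option autoImplicit false
set_option linter.unusedSectionVars false
set_option linter.unusedVariables false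

noncomputable section

namespace Fermat.Agent.S43lib.B1

open MvPolynomial Fermat.Agent.S41lib.HC

open scoped Classical in
/-- the push-forward of functions along `φ`: summation over the fibres -/
def regPush {G G₀ : Type} [Group G] [Group G₀] [Fintype G] (φ : G →* G₀) (A : Type)
    [CommRing A] : Reg G A →ₗ[A] Reg G₀ A where
  toFun f := Reg.mk fun x₀ => ∑ x, if φ x = x₀ then f x else 0
  map_add' f f' := by
    ext x₀
    show (∑ x, if φ x = x₀ then (f + f') x else 0) =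
      (∑ x, if φ x = x₀ then f x else 0) + ∑ x, if φ x = x₀ then f' x else 0
    rw [← Finset.sum_add_distrib]
    refine Finset.sum_congr rfl fun x _ => ?_
    split_ifs
    · rfl
    · rw [add_zero]
  map_smul' a f := by
    ext x₀
    show (∑ x, if φ x = x₀ then (a • f) x else 0) = a • ∑ x, if φ x = x₀ then f x else 0
    rw [Finset.smul_sum]
    refine Finset.sum_congr rfl fun x _ => ?_
    split_ifs
    · rfl
    · rw [smul_zero]

section

variable {G G₀ : Type} [Group G] [Group G₀] [Fintype G] (φ : G →* G₀) (A : Type) [CommRing A]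

open scoped Classical in
theorem regPush_apply (f : Reg G A) (x₀ : G₀) :
    regPush φ A f x₀ = ∑ x, if φ x = x₀ then f x else 0 := rfl

/-- semi-equivariance -/
theorem regPush_smul (g : G) (f : Reg G A) : regPush φ A (g • f) = φ g • regPush φ A f := by
  classical
  ext x₀
  rw [Reg.smul_apply, regPush_apply, regPush_apply]
  refine Fintype.sum_equiv (Equiv.mulLeft g⁻¹) _ _ fun x => ?_
  have h : φ x = x₀ ↔ φ (g⁻¹ * x) = (φ g)⁻¹ * x₀ := by
    rw [map_mul, map_inv, mul_right_inj]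
  rw [Reg.smul_apply, Equiv.coe_mulLeft]
  by_cases hx : φ x = x₀
  · rw [if_pos hx, if_pos (h.mp hx)]
  · rw [if_neg hx, if_neg (fun h' => hx (h.mpr h'))]

/-- the indicator function of a point -/
def regDelta [DecidableEq G] (y : G) : Reg G A := Reg.mk (Pi.single y 1)

theorem regDelta_apply [DecidableEq G] (y x : G) :
    regDelta A y x = if x = y then 1 else 0 := by
  show (Pi.single y (1 : A) : G → A) x = _
  rw [Pi.single_apply]

theorem smul_regDelta [DecidableEq G] (g y : G) : g • regDelta A y = regDelta A (g * y) := by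
  ext x
  rw [Reg.smul_apply, regDelta_apply, regDelta_apply]
  have h : g⁻¹ * x = y ↔ x = g * y := inv_mul_eq_iff_eq_mul
  simp only [h]

theorem reg_eq_sum_delta [DecidableEq G] (f : Reg G A) : f = ∑ x, f x • regDelta A x := by
  ext y
  rw [Reg.sum_apply]
  simp only [Reg.smul_apply', regDelta_apply, smul_eq_mul, mul_ite, mul_one, mul_zero]
  rw [Finset.sum_ite_eq Finset.univ y (fun x => f x), if_pos (Finset.mem_univ y)]

theorem regPush_delta [Fintype G₀] [DecidableEq G] [DecidableEq G₀] (y : G) :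
    regPush φ A (regDelta A y) = regDelta A (φ y) := by
  classical
  ext x₀
  rw [regPush_apply, regDelta_apply]
  simp only [regDelta_apply]
  rw [Finset.sum_eq_single y]
  · simp only [if_true]
    by_cases h : φ y = x₀
    · rw [if_pos h, if_pos h.symm]
    · rw [if_neg h, if_neg (fun h' => h h'.symm)]
  · intro x _ hx
    rw [if_neg hx]
    simp
  · intro h
    exact absurd (Finset.mem_univ y) h

theorem regPush_surjective [Fintype G₀] (hφ : Function.Surjective φ) :
    Function.Surjective (regPush φ A) := by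
  classical
  intro f₀
  refine ⟨∑ x₀, f₀ x₀ • regDelta A (Function.surjInv hφ x₀), ?_⟩
  rw [map_sum]
  simp_rw [map_smul, regPush_delta, Function.surjInv_eq hφ]
  exact (reg_eq_sum_delta A f₀).symm

/-- the differences `∑_{φ δ = 1} (δ • w_δ - w_δ)` -/
def regDiff : (G → Reg G A) →ₗ[A] Reg G A :=
  open scoped Classical in
  ∑ δ ∈ Finset.univ.filter (fun δ : G => φ δ = 1),
    (QuotG.actLin (G := G) A (Reg G A) δ - LinearMap.id).comp (LinearMap.proj δ)

open scoped Classical in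
theorem regDiff_apply (w : G → Reg G A) :
    regDiff φ A w = ∑ δ ∈ Finset.univ.filter (fun δ : G => φ δ = 1), (δ • w δ - w δ) := by
  unfold regDiff
  rw [LinearMap.sum_apply]
  rfl

theorem regPush_regDiff (w : G → Reg G A) : regPush φ A (regDiff φ A w) = 0 := by
  classical
  rw [regDiff_apply, map_sum]
  refine Finset.sum_eq_zero fun δ hδ => ?_
  rw [Finset.mem_filter] at hδ
  rw [map_sub, regPush_smul, hδ.2, one_smul, sub_self]

theorem regDiff_single [DecidableEq G] (δ : G) (hδ : φ δ = 1) (y : Reg G A) :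
    regDiff φ A (Pi.single δ y) = δ • y - y := by
  classical
  rw [regDiff_apply, Finset.sum_eq_single δ]
  · rw [Pi.single_eq_same]
  · intro δ' _ hne
    rw [Pi.single_eq_of_ne hne, smul_zero, sub_zero]
  · intro h
    exact absurd (Finset.mem_filter.mpr ⟨Finset.mem_univ δ, hδ⟩) h

/-- exactness: the kernel of the push-forward is the image of the differences -/
theorem regPush_eq_zero_iff [Fintype G₀] (hφ : Function.Surjective φ) (f : Reg G A) :
    regPush φ A f = 0 ↔ ∃ w, regDiff φ A w = f := by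
  classical
  constructor
  · intro hf
    set s : G₀ → G := Function.surjInv hφ with hs
    have hφs : ∀ x₀, φ (s x₀) = x₀ := Function.surjInv_eq hφ
    -- each `e_x - e_{s (φ x)}` is a difference
    have h1 : ∀ x : G, regDelta A x - regDelta A (s (φ x)) ∈ LinearMap.range (regDiff φ A) := by
      intro x
      have hδ : φ (x * (s (φ x))⁻¹) = 1 := by
        rw [map_mul, map_inv, hφs, mul_inv_cancel]
      refine ⟨Pi.single (x * (s (φ x))⁻¹) (regDelta A (s (φ x))), ?_⟩
      rw [regDiff_single φ A _ hδ, smul_regDelta, inv_mul_cancel_right]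
    have h2 : ∑ x, f x • regDelta A (s (φ x)) = 0 := by
      have h3 : ∀ x₀ : G₀, (∑ x, if φ x = x₀ then f x else 0) = 0 := fun x₀ => by
        rw [← regPush_apply, hf, Reg.zero_apply]
      have h4 : ∑ x, f x • regDelta A (s (φ x)) =
          ∑ x₀ : G₀, (∑ x, if φ x = x₀ then f x else 0) • regDelta A (s x₀) := by
        simp_rw [Finset.sum_smul, ite_smul, zero_smul]
        rw [Finset.sum_comm]
        refine Finset.sum_congr rfl fun x _ => ?_
        rw [Finset.sum_ite_eq Finset.univ (φ x) (fun x₀ => f x • regDelta A (s x₀)),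
          if_pos (Finset.mem_univ _)]
      rw [h4]
      refine Finset.sum_eq_zero fun x₀ _ => ?_
      rw [h3, zero_smul]
    have h5 : f = ∑ x, f x • (regDelta A x - regDelta A (s (φ x))) := by
      simp_rw [smul_sub]
      rw [Finset.sum_sub_distrib, h2, sub_zero]
      exact reg_eq_sum_delta A f
    have h6 : f ∈ LinearMap.range (regDiff φ A) := by
      rw [h5]
      exact Submodule.sum_mem _ fun x _ => Submodule.smul_mem _ _ (h1 x)
    exact h6
  · rintro ⟨w, rfl⟩
    exact regPush_regDiff φ A w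

end

/-! ### Control for a right exact Hecke system -/

namespace HeckeSys

section inverse

variable {Γ G : Type} [Group Γ] [Group G] {I : Type} (S : HeckeSys Γ G I)
variable {R : Type} [CommRing R]
variable {W : Type} [AddCommGroup W] [Module R W] [DistribMulAction G W] [SMulCommClass G R W]
variable {W' : Type} [AddCommGroup W'] [Module R W'] [DistribMulAction G W'] [SMulCommClass G R W']
variable (𝔪 : Ideal (MvPolynomial I R)) [𝔪.IsPrime]

/-- an equivariant isomorphism of coefficients induces a bijection -/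
theorem Fmap_bijective_of_inverse {u : W →ₗ[R] W'} (hu : IsEquivar G u) {u' : W' →ₗ[R] W}
    (hu' : IsEquivar G u') (h1 : u'.comp u = LinearMap.id) (h2 : u.comp u' = LinearMap.id) :
    Function.Bijective (S.Fmap 𝔪 u hu) := by
  have e1 : ∀ y, S.Fmap 𝔪 u' hu' (S.Fmap 𝔪 u hu y) = y := by
    intro y
    rw [← Fmap_comp_apply, S.Fmap_congr 𝔪 h1, Fmap_id]
    rfl
  have e2 : ∀ y, S.Fmap 𝔪 u hu (S.Fmap 𝔪 u' hu' y) = y := by
    intro y
    rw [← Fmap_comp_apply, S.Fmap_congr 𝔪 h2, Fmap_id]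
    rfl
  exact ⟨Function.LeftInverse.injective e1, Function.RightInverse.surjective e2⟩

end inverse

variable {Γ G G₀ : Type} [Group Γ] [CommGroup G] [CommGroup G₀] [Fintype G] [Fintype G₀]
  {I : Type} (S : HeckeSys Γ G I) (φ : G →* G₀)
variable (𝒪 : Type) [CommRing 𝒪]

/-- the push-forward as an equivariant map -/
def prVia : Reg G 𝒪 →ₗ[𝒪] Via φ (Reg G₀ 𝒪) := Via.lin φ (regPush φ 𝒪)

theorem isEquivar_prVia : IsEquivar G (prVia φ 𝒪) := Via.isEquivar_lin φ (regPush_smul φ 𝒪)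

theorem prVia_surjective (hφ : Function.Surjective φ) : Function.Surjective (prVia φ 𝒪) :=
  regPush_surjective φ 𝒪 hφ

theorem isEquivar_regDiff : IsEquivar G (regDiff φ 𝒪) := by
  classical
  unfold regDiff
  refine IsEquivar.sum _ fun δ => ?_
  refine IsEquivar.comp (fun g w => rfl) (isEquivar_sub (isEquivar_actLin δ) isEquivar_id)

theorem prVia_eq_zero_iff (hφ : Function.Surjective φ) (f : Reg G 𝒪) :
    prVia φ 𝒪 f = 0 ↔ ∃ w, regDiff φ 𝒪 w = f :=
  regPush_eq_zero_iff φ 𝒪 hφ f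

variable {𝒪}
variable (𝔪 : Ideal (MvPolynomial I 𝒪)) [𝔪.IsPrime]

/-- the control map `F_S(𝒪[G]) → F_{S.push φ}(𝒪[G₀])` -/
def ctrl : S.F 𝒪 (Reg G 𝒪) 𝔪 →ₗ[MvPolynomial I 𝒪] (S.push φ).F 𝒪 (Reg G₀ 𝒪) 𝔪 :=
  (S.viaF φ 𝒪 (Reg G₀ 𝒪) 𝔪).toLinearMap.comp (S.Fmap 𝔪 (prVia φ 𝒪) (isEquivar_prVia φ 𝒪))

theorem ctrl_apply (y : S.F 𝒪 (Reg G 𝒪) 𝔪) :
    S.ctrl φ 𝔪 y = S.viaF φ 𝒪 (Reg G₀ 𝒪) 𝔪 (S.Fmap 𝔪 (prVia φ 𝒪) (isEquivar_prVia φ 𝒪) y) := rfl

theorem ctrl_surjective (hS : S.RightExact 𝒪) (hφ : Function.Surjective φ) :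
    Function.Surjective (S.ctrl φ 𝔪) := by
  intro z
  obtain ⟨y, hy⟩ := S.Fmap_surjective 𝔪 hS (isEquivar_prVia φ 𝒪) (prVia_surjective φ 𝒪 hφ)
    ((S.viaF φ 𝒪 (Reg G₀ 𝒪) 𝔪).symm z)
  refine ⟨y, ?_⟩
  rw [ctrl_apply, hy, LinearEquiv.apply_symm_apply]

theorem ctrl_Gact (g : G) (y : S.F 𝒪 (Reg G 𝒪) 𝔪) :
    S.ctrl φ 𝔪 (S.Gact 𝔪 g y) = (S.push φ).Gact 𝔪 (φ g) (S.ctrl φ 𝔪 y) := by
  rw [ctrl_apply, ctrl_apply, Fmap_Gact, viaF_Gact]

theorem ctrl_eq_zero_iff (hS : S.RightExact 𝒪) (hφ : Function.Surjective φ)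
    (y : S.F 𝒪 (Reg G 𝒪) 𝔪) :
    S.ctrl φ 𝔪 y = 0 ↔ y ∈ AddSubgroup.closure
      {x | ∃ δ : G, φ δ = 1 ∧ ∃ y', x = S.Gact 𝔪 δ y' - y'} := by
  classical
  constructor
  · intro hy
    rw [ctrl_apply, LinearEquiv.map_eq_zero_iff] at hy
    obtain ⟨y', rfl⟩ := (S.Fmap_exact_right 𝔪 hS (isEquivar_regDiff φ 𝒪) (isEquivar_prVia φ 𝒪)
      (prVia_surjective φ 𝒪 hφ) (prVia_eq_zero_iff φ 𝒪 hφ) y).mp hy
    -- decompose `F(regDiff)`
    have hu : ∀ δ : G, IsEquivar G
        ((QuotG.actLin (G := G) 𝒪 (Reg G 𝒪) δ - LinearMap.id).comp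
          (LinearMap.proj δ : (G → Reg G 𝒪) →ₗ[𝒪] Reg G 𝒪)) := fun δ =>
      IsEquivar.comp (fun g w => rfl) (isEquivar_sub (isEquivar_actLin δ) isEquivar_id)
    have h1 : S.Fmap 𝔪 (regDiff φ 𝒪) (isEquivar_regDiff φ 𝒪) y' =
        ∑ δ ∈ Finset.univ.filter (fun δ : G => φ δ = 1),
          S.Fmap 𝔪 _ (hu δ) y' := by
      have := S.Fmap_sum 𝔪 (Finset.univ.filter (fun δ : G => φ δ = 1)) hu
      rw [← LinearMap.sum_apply, ← this]
      rfl
    rw [h1]
    refine AddSubgroup.sum_mem _ fun δ hδ => ?_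
    rw [Finset.mem_filter] at hδ
    refine AddSubgroup.subset_closure ⟨δ, hδ.2,
      S.Fmap 𝔪 (LinearMap.proj δ : (G → Reg G 𝒪) →ₗ[𝒪] Reg G 𝒪) (fun g w => rfl) y', ?_⟩
    have h2 := S.Fmap_comp_apply 𝔪 (u := (LinearMap.proj δ : (G → Reg G 𝒪) →ₗ[𝒪] Reg G 𝒪))
      (fun g w => rfl) (isEquivar_sub (isEquivar_actLin δ) (isEquivar_id (G := G) (R := 𝒪)
        (W := Reg G 𝒪))) y'
    rw [S.Fmap_sub 𝔪 (isEquivar_actLin δ) (isEquivar_id (G := G) (R := 𝒪) (W := Reg G 𝒪)),
      Fmap_id] at h2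
    exact h2
  · intro hy
    induction hy using AddSubgroup.closure_induction with
    | mem x hx =>
      obtain ⟨δ, hδ, y', rfl⟩ := hx
      rw [map_sub, ctrl_Gact, hδ, Gact_one, sub_self]
    | zero => exact map_zero _
    | add x x' _ _ hx hx' => rw [map_add, hx, hx', add_zero]
    | neg x _ hx => rw [map_neg, hx, neg_zero]

/-! ### Trivial coefficients -/

variable (A : Type) [AddCommGroup A] [Module 𝒪 A]

/-- the identity `TrivMod G A → Via φ (TrivMod G₀ A)` -/
def trivVia : TrivMod G A →ₗ[𝒪] Via φ (TrivMod G₀ A) := LinearMap.id (M := A)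

/-- the identity `Via φ (TrivMod G₀ A) → TrivMod G A` -/
def trivViaInv : Via φ (TrivMod G₀ A) →ₗ[𝒪] TrivMod G A := LinearMap.id (M := A)

theorem isEquivar_trivVia : IsEquivar G (trivVia (𝒪 := 𝒪) φ A) := fun g w => rfl

theorem isEquivar_trivViaInv : IsEquivar G (trivViaInv (𝒪 := 𝒪) φ A) := fun g w => rfl

/-- the comparison of the cohomologies with trivial coefficients -/
def ctrlTriv : S.F 𝒪 (TrivMod G A) 𝔪 →ₗ[MvPolynomial I 𝒪] (S.push φ).F 𝒪 (TrivMod G₀ A) 𝔪 :=
  (S.viaF φ 𝒪 (TrivMod G₀ A) 𝔪).toLinearMap.comp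
    (S.Fmap 𝔪 (trivVia φ A) (isEquivar_trivVia φ A))

theorem ctrlTriv_bijective : Function.Bijective (S.ctrlTriv φ 𝔪 A) :=
  (S.viaF φ 𝒪 (TrivMod G₀ A) 𝔪).bijective.comp
    (S.Fmap_bijective_of_inverse 𝔪 (isEquivar_trivVia φ A) (isEquivar_trivViaInv φ A) rfl rfl)

end HeckeSys

end Fermat.Agent.S43lib.B1
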