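/-
S43lib / B1 / TWNat  (helper3).

Natural transformations between the localised cohomology functors `W ↦ S.F 𝒪 W 𝔪` of two Hecke
systems with the same diamond group `G` and the same index type, on finitely generated coefficient
modules.  (The Taylor–Wiles comparison map is such a transformation; it is bijective on the residue
field by `TWAlg`, hence on all finite modules by dévissage and on `𝒪[G]` by a limit argument.)
-/
import Fermat.Agent.S43lib.B1.Free

set_option autoImplicit false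
set_option linter.unusedSectionVars false
set_option linter.unusedVariables false

noncomputable section

namespace Fermat.Agent.S43lib.B1

open MvPolynomial IsLocalRing

variable {Γ Γ' G : Type} [Group Γ] [Group Γ'] [CommGroup G] {I : Type}
variable (S : HeckeSys Γ G I) (S' : HeckeSys Γ' G I)
variable (𝒪 : Type) [CommRing 𝒪]
variable (𝔪 𝔪' : Ideal (MvPolynomial I 𝒪)) [𝔪.IsPrime] [𝔪'.IsPrime]

/-- a natural transformation `S.F 𝒪 · 𝔪 ⟶ S'.F 𝒪 · 𝔪'` on finitely generated coefficient modules -/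
structure NatF where
  /-- the components -/
  Φ : ∀ (W : Type) [AddCommGroup W] [Module 𝒪 W] [DistribMulAction G W] [SMulCommClass G 𝒪 W]
    [Module.Finite 𝒪 W], S.F 𝒪 W 𝔪 →+ S'.F 𝒪 W 𝔪'
  nat : ∀ (W W' : Type) [AddCommGroup W] [Module 𝒪 W] [DistribMulAction G W] [SMulCommClass G 𝒪 W]
    [Module.Finite 𝒪 W] [AddCommGroup W'] [Module 𝒪 W'] [DistribMulAction G W']
    [SMulCommClass G 𝒪 W'] [Module.Finite 𝒪 W'] (u : W →ₗ[𝒪] W') (hu : IsEquivar G u)
    (y : S.F 𝒪 W 𝔪), Φ W' (S.Fmap 𝔪 u hu y) = S'.Fmap 𝔪' u hu (Φ W y)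

namespace NatF

variable {S S' 𝒪 𝔪 𝔪'} (T : NatF S S' 𝒪 𝔪 𝔪')
variable (W : Type) [AddCommGroup W] [Module 𝒪 W] [DistribMulAction G W] [SMulCommClass G 𝒪 W]
  [Module.Finite 𝒪 W]

/-- the components are `𝒪`-linear -/
theorem map_smul' (a : 𝒪) (y : S.F 𝒪 W 𝔪) : T.Φ W (a • y) = a • T.Φ W y := by
  have hu : IsEquivar G (a • (LinearMap.id : W →ₗ[𝒪] W)) := HeckeSys.isEquivar_id.smul a
  have h1 := T.nat W W (a • LinearMap.id) hu y
  rw [S.Fmap_smul_apply 𝔪 HeckeSys.isEquivar_id a y, S'.Fmap_smul_apply 𝔪' HeckeSys.isEquivar_id a,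
    S.Fmap_id, S'.Fmap_id] at h1
  exact h1

/-- the components commute with the action of `G` -/
theorem map_Gact (g : G) (y : S.F 𝒪 W 𝔪) : T.Φ W (S.Gact 𝔪 g y) = S'.Gact 𝔪' g (T.Φ W y) :=
  T.nat W W _ _ y

end NatF

end Fermat.Agent.S43lib.B1
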