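/-
S43lib / B1 / TWRel  (helper3).

Composition of natural transformations `NatF`, and the relation `TWRel S S' 𝔪 𝔪' ϖ E` : there is a
natural transformation `S.F · 𝔪 ⟶ S'.F · 𝔪'` which is bijective on finite and on `ϖ`-torsion-free
finitely generated coefficient modules and commutes with the operators `X i`, `i ∉ E`.
-/
import Fermat.Agent.S43lib.B1.TWNat

set_option autoImplicit false
set_option linter.unusedSectionVars false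
set_option linter.unusedVariables false

noncomputable section

namespace Fermat.Agent.S43lib.B1

open MvPolynomial IsLocalRing

variable {Γ Γ' Γ'' G : Type} [Group Γ] [Group Γ'] [Group Γ''] [CommGroup G] {I : Type}
variable {S : HeckeSys Γ G I} {S' : HeckeSys Γ' G I} {S'' : HeckeSys Γ'' G I}
variable {𝒪 : Type} [CommRing 𝒪]
variable {𝔪 𝔪' 𝔪'' : Ideal (MvPolynomial I 𝒪)} [𝔪.IsPrime] [𝔪'.IsPrime] [𝔪''.IsPrime]

/-- the identity transformation -/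
def NatF.id (S : HeckeSys Γ G I) (𝔪 : Ideal (MvPolynomial I 𝒪)) [𝔪.IsPrime] : NatF S S 𝒪 𝔪 𝔪 where
  Φ W _ _ _ _ _ := AddMonoidHom.id _
  nat W W' _ _ _ _ _ _ _ _ _ _ u hu y := rfl

/-- composition of transformations -/
def NatF.comp (T : NatF S S' 𝒪 𝔪 𝔪') (T' : NatF S' S'' 𝒪 𝔪' 𝔪'') : NatF S S'' 𝒪 𝔪 𝔪'' where
  Φ W _ _ _ _ _ := (T'.Φ W).comp (T.Φ W)
  nat W W' _ _ _ _ _ _ _ _ _ _ u hu y := by
    show T'.Φ W' (T.Φ W' (S.Fmap 𝔪 u hu y)) = S''.Fmap 𝔪'' u hu (T'.Φ W (T.Φ W y))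
    rw [T.nat, T'.nat]

/-- the coefficient modules on which the comparison is bijective -/
def GoodW (ϖ : 𝒪) (W : Type) [AddCommGroup W] [Module 𝒪 W] : Prop :=
  Finite W ∨ ∀ w : W, ϖ • w = 0 → w = 0

/-- the comparison relation between two localised Hecke systems -/
def TWRel (S : HeckeSys Γ G I) (S' : HeckeSys Γ' G I) (𝔪 𝔪' : Ideal (MvPolynomial I 𝒪))
    [𝔪.IsPrime] [𝔪'.IsPrime] (ϖ : 𝒪) (E : Set I) : Prop :=
  ∃ T : NatF S S' 𝒪 𝔪 𝔪',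
    (∀ (W : Type) [AddCommGroup W] [Module 𝒪 W] [DistribMulAction G W] [SMulCommClass G 𝒪 W]
      [Module.Finite 𝒪 W], GoodW ϖ W → Function.Bijective (T.Φ W)) ∧
    (∀ i, i ∉ E → ∀ (W : Type) [AddCommGroup W] [Module 𝒪 W] [DistribMulAction G W]
      [SMulCommClass G 𝒪 W] [Module.Finite 𝒪 W] (y : S.F 𝒪 W 𝔪),
      T.Φ W ((X i : MvPolynomial I 𝒪) • y) = (X i : MvPolynomial I 𝒪) • T.Φ W y)

theorem TWRel.refl (S : HeckeSys Γ G I) (𝔪 : Ideal (MvPolynomial I 𝒪)) [𝔪.IsPrime] (ϖ : 𝒪) :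
    TWRel S S 𝔪 𝔪 ϖ ∅ :=
  ⟨NatF.id S 𝔪, fun W _ _ _ _ _ _ => Function.bijective_id, fun i _ W _ _ _ _ _ y => rfl⟩

theorem TWRel.trans {ϖ : 𝒪} {E E' : Set I} (h : TWRel S S' 𝔪 𝔪' ϖ E)
    (h' : TWRel S' S'' 𝔪' 𝔪'' ϖ E') : TWRel S S'' 𝔪 𝔪'' ϖ (E ∪ E') := by
  obtain ⟨T, hb, hX⟩ := h
  obtain ⟨T', hb', hX'⟩ := h'
  refine ⟨T.comp T', fun W _ _ _ _ _ hW => (hb' W hW).comp (hb W hW), fun i hi W _ _ _ _ _ y => ?_⟩
  show T'.Φ W (T.Φ W ((X i : MvPolynomial I 𝒪) • y)) = (X i : MvPolynomial I 𝒪) • T'.Φ W (T.Φ W y)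
  rw [hX i (fun h => hi (Or.inl h)), hX' i (fun h => hi (Or.inr h))]

theorem TWRel.mono {ϖ : 𝒪} {E E' : Set I} (h : TWRel S S' 𝔪 𝔪' ϖ E) (hE : E ⊆ E') :
    TWRel S S' 𝔪 𝔪' ϖ E' := by
  obtain ⟨T, hb, hX⟩ := h
  exact ⟨T, hb, fun i hi => hX i (fun h => hi (hE h))⟩

end Fermat.Agent.S43lib.B1
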