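/-
S43lib / B1 / Pull  (helper3).

Pull-back of crossed homomorphisms along a group homomorphism `ι : Γ' → Γ` compatible with the
homomorphisms to `G`, the induced map on `H¹`, naturality in the coefficients, and compatibility with
the operators of two coset data related by `ι` up to conjugation by elements of `ker π`.
-/
import Fermat.Agent.S43lib.B1.ZCoh

set_option autoImplicit false
set_option linter.unusedSectionVars false
set_option linter.unusedVariables false

noncomputable section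

namespace Fermat.Agent.S43lib.B1

open Fermat.Agent.S41lib.HC

variable {Γ Γ' G : Type*} [Group Γ] [Group Γ'] [Group G] {π : Γ →* G} {π' : Γ' →* G}
  (ι : Γ' →* Γ) (hπ : ∀ γ', π (ι γ') = π' γ')
variable (R : Type*) [CommRing R]
variable (W : Type*) [AddCommGroup W] [Module R W] [DistribMulAction G W] [SMulCommClass G R W]

/-- pull-back of crossed homomorphisms -/
def Z1.pull : ↥(Z1 π R W) →ₗ[R] ↥(Z1 π' R W) where
  toFun f := ⟨fun γ' => (f : Γ → W) (ι γ'), by
    intro γ γ'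
    show (f : Γ → W) (ι (γ * γ')) = (f : Γ → W) (ι γ) + π' γ • (f : Γ → W) (ι γ')
    rw [map_mul, f.2, hπ]⟩
  map_add' f f' := rfl
  map_smul' r f := rfl

@[simp] theorem Z1.pull_apply (f : ↥(Z1 π R W)) (γ' : Γ') :
    ((Z1.pull ι hπ R W f : ↥(Z1 π' R W)) : Γ' → W) γ' = (f : Γ → W) (ι γ') := rfl

/-- pull-back on cohomology -/
def H1.pull : H1 π R W →ₗ[R] H1 π' R W :=
  (B1z π R W).mapQ (B1z π' R W) (Z1.pull ι hπ R W) (by
    rintro f ⟨w, hw⟩
    refine ⟨w, ?_⟩
    funext γ'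
    show π' γ' • w - w = (f : Γ → W) (ι γ')
    rw [← hπ]
    exact congrFun hw (ι γ'))

@[simp] theorem H1.pull_mk (f : ↥(Z1 π R W)) :
    H1.pull ι hπ R W (H1.mk π R W f) = H1.mk π' R W (Z1.pull ι hπ R W f) := rfl

variable {R W}
variable {W' : Type*} [AddCommGroup W'] [Module R W'] [DistribMulAction G W'] [SMulCommClass G R W']

/-- naturality in the coefficients -/
theorem H1.pull_map (u : W →ₗ[R] W') (hu : IsEquivar G u) (x : H1 π R W) :
    H1.pull ι hπ R W' (H1.map π u hu x) = H1.map π' u hu (H1.pull ι hπ R W x) := by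
  obtain ⟨f, rfl⟩ := H1.mk_surjective π R W x
  rfl

/-- compatibility with the operators of coset data related by `ι` -/
theorem H1.pull_heckeH {κ : Type*} [Fintype κ] {D : CosetData Γ Γ κ} {D' : CosetData Γ' Γ' κ}
    (hD : CosetData.IsEquivariant π D) (hD' : CosetData.IsEquivariant π' D')
    (d : κ → Γ) (hd : ∀ x, π (d x) = 1) (hσ : ∀ γ' x, D'.σ γ' x = D.σ (ι γ') x)
    (hc : ∀ γ' x, ι (D'.c γ' x) = d x * D.c (ι γ') x * (d (D.σ (ι γ') x))⁻¹)
    (x : H1 π R W) :
    H1.pull ι hπ R W (heckeH R W hD x) = heckeH R W hD' (H1.pull ι hπ R W x) := by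
  obtain ⟨f, rfl⟩ := H1.mk_surjective π R W x
  rw [heckeH_mk, H1.pull_mk, H1.pull_mk, heckeH_mk, ← sub_eq_zero, ← map_sub,
    H1.mk_eq_zero_iff]
  have hf := f.2
  refine ⟨∑ x, (f : Γ → W) (d x), fun γ' => ?_⟩
  show ∑ x, (f : Γ → W) (D.c (ι γ') x) - ∑ x, (f : Γ → W) (ι (D'.c γ' x)) =
    π' γ' • ∑ x, (f : Γ → W) (d x) - ∑ x, (f : Γ → W) (d x)
  have h1 : ∀ x, (f : Γ → W) (ι (D'.c γ' x)) =
      (f : Γ → W) (d x) + (f : Γ → W) (D.c (ι γ') x) -
        π' γ' • (f : Γ → W) (d (D.σ (ι γ') x)) := by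
    intro x
    rw [hc, hf, hf, hd, one_smul, Z1_inv hf, hd, inv_one, one_smul, map_mul, hd, one_mul, hD, hπ,
      smul_neg]
    abel
  simp_rw [h1]
  rw [Finset.sum_sub_distrib, Finset.sum_add_distrib, ← Finset.smul_sum,
    Equiv.sum_comp (D.σ (ι γ')) (fun x => (f : Γ → W) (d x))]
  abel

end Fermat.Agent.S43lib.B1
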