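/-
S43lib / B1 / TWLevel  (helper3).

The Taylor–Wiles comparison at the level of groups: `Γ' = Γ₀(N q) ⊂ Γ = Γ₀(N)` (`q ∤ N` prime).
* `unitHom_inclMul` : the diamond homomorphisms are compatible;
* `lvlOp χ R W j` : the operator of the index `j : LvlIdx M` on `H¹(Γ₀(M), W)`;
* `pull_lvlOp` : restriction intertwines the operators of `down j'` and `j'` (`j' ≠ U_q`);
* `pull_Tq` : `res ∘ T_q = U_q ∘ res + δ^σ`, and `Uq_pullSig` : `U_q ∘ δ^σ = q · ⟨q⟩ ∘ res`.
-/
import Fermat.Agent.S43lib.B1.Iface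
import Fermat.Agent.S43lib.B1.Pull
import Fermat.Agent.S41lib.HC.Equivariance

set_option autoImplicit false
set_option linter.unusedSectionVars false
set_option linter.unusedVariables false

noncomputable section

namespace Fermat.Agent.S43lib.B1

open CongruenceSubgroup Matrix.SpecialLinearGroup ModularForm
open Fermat.Agent.S16lib.LH Fermat.Agent.S29lib.H Fermat.Agent.S41lib.HC Fermat.Agent.S48lib.W1
open Fermat.Agent.S31lib.PET
open P2MW.S_ModularForm_heckeT_slash_eq_self_of_mem_Gamma0.ModularForm.HeckeSlashInvariance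
open scoped MatrixGroups

section basic

variable {N q : ℕ} [NeZero N] [Fact q.Prime] [NeZero (N * q)]

/-- the diamond homomorphisms of `Γ₀(N q) ⊂ Γ₀(N)` are compatible -/
theorem unitHom_inclMul (γ' : ↥(Gamma0 (N * q))) :
    unitHom N (inclMul N q γ') = ZMod.unitsMap (dvd_mul_right N q) (unitHom (N * q) γ') := by
  apply Units.ext
  rw [coe_unitHom, ZMod.unitsMap_def, Units.coe_map, coe_unitHom]
  show (((inclMul N q γ' : ↥(Gamma0 N)) : SL(2, ℤ)) 1 1 : ZMod N) =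
    ZMod.castHom (dvd_mul_right N q) (ZMod N) (((γ' : SL(2, ℤ)) 1 1 : ℤ) : ZMod (N * q))
  rw [map_intCast]
  rfl

end basic

/-! ### The operators of the indices -/

section op

variable {M : ℕ} [NeZero M] {G : Type} [CommGroup G] (χ : (ZMod M)ˣ →* G)
variable (R : Type) [CommRing R]
variable (W : Type) [AddCommGroup W] [Module R W] [DistribMulAction G W] [SMulCommClass G R W]

/-- the operator of the index `j` on `H¹(Γ₀(M), W)` -/
def lvlOp (j : LvlIdx M) : Module.End R (H1 (levelPi χ) R W) :=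
  heckeH R W (isEquivariant_levelPi χ (lvlD_equivariant M j))

theorem lvlSys_T {I : Type} (f : I → LvlIdx M) (hcomm : CommStmt M) (i : I) :
    (lvlSys χ f hcomm).T R W i = lvlOp χ R W (f i) := rfl

/-- the diamond operator of `u` is the action of `χ u` on the coefficients -/
theorem lvlOp_diam (u : (ZMod M)ˣ) (x : H1 (levelPi χ) R W) :
    lvlOp χ R W (Sum.inr u) x =
      H1.map (levelPi χ) (QuotG.actLin (G := G) R W (χ u)) (isEquivar_actLin (χ u)) x := by
  have h := heckeH_diamData (levelPi χ) R W (unitRep u) x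
  have hu : levelPi χ (unitRep u) = χ u := by
    rw [levelPi_apply, unitHom_apply, gamma0Unit_unitRep]
  rw [hu] at h
  exact h

end op

/-! ### Restriction and the operators away from `q` -/

section res

variable {N q : ℕ} [NeZero N] [Fact q.Prime] [NeZero (N * q)] (hqN : ¬ q ∣ N)
variable {G : Type} [CommGroup G] (χ : (ZMod N)ˣ →* G)
variable (R : Type) [CommRing R]
variable (W : Type) [AddCommGroup W] [Module R W] [DistribMulAction G W] [SMulCommClass G R W]

/-- the character of level `N q` induced by a character of level `N` -/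
def chiUp : (ZMod (N * q))ˣ →* G := χ.comp (ZMod.unitsMap (dvd_mul_right N q))

theorem chiUp_apply (u : (ZMod (N * q))ˣ) :
    chiUp χ u = χ (ZMod.unitsMap (dvd_mul_right N q) u) := rfl

theorem levelPi_inclMul (γ' : ↥(Gamma0 (N * q))) :
    levelPi χ (inclMul N q γ') = levelPi (chiUp (q := q) χ) γ' := by
  rw [levelPi_apply, levelPi_apply, unitHom_inclMul, chiUp_apply]

/-- restriction `H¹(Γ₀(N), W) → H¹(Γ₀(N q), W)` -/
def resH : H1 (levelPi χ) R W →ₗ[R] H1 (levelPi (chiUp (q := q) χ)) R W :=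
  H1.pull (inclMul N q) (levelPi_inclMul χ) R W

/-- `T_ℓ`, `ℓ ∤ N q` -/
theorem resH_T {ℓ : ℕ} (hℓ : ℓ.Prime) (hℓNq : ¬ ℓ ∣ N * q) (hℓN : ¬ ℓ ∣ N)
    (x : H1 (levelPi χ) R W) :
    resH χ R W (lvlOp χ R W (Sum.inl (Sum.inl ⟨ℓ, hℓ, hℓN⟩)) x) =
      lvlOp (chiUp (q := q) χ) R W (Sum.inl (Sum.inl ⟨ℓ, hℓ, hℓNq⟩)) (resH χ R W x) := by
  have : Fact ℓ.Prime := ⟨hℓ⟩
  have hun : ZMod.unitsMap (dvd_mul_right N q) (ellUnit hℓNq) = ellUnit hℓN := by
    apply Units.ext
    rw [ZMod.unitsMap_def, Units.coe_map, coe_ellUnit, coe_ellUnit]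
    exact map_natCast (ZMod.castHom (dvd_mul_right N q) (ZMod N)) ℓ
  refine H1.pull_heckeH (inclMul N q) (levelPi_inclMul χ)
    (isEquivariant_levelPi χ (nData_equivariant hℓN))
    (isEquivariant_levelPi (chiUp (q := q) χ) (nData_equivariant hℓNq))
    (fun y => inclMul N q (nDelta hℓNq y) * (nDelta hℓN y)⁻¹) ?_ ?_ ?_ x
  · intro y
    rw [map_mul, map_inv, levelPi_apply, levelPi_apply, unitHom_inclMul, unitHom_nDelta,
      unitHom_nDelta]
    induction y using OnePoint.rec with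
    | infty => simp [repDUnit, hun]
    | coe j => simp [repDUnit]
  · intro γ' y
    rfl
  · intro γ' y
    show inclMul N q (nDelta hℓNq y * tCoc hℓNq γ' y * (nDelta hℓNq (tPerm ℓ γ' y))⁻¹) =
      inclMul N q (nDelta hℓNq y) * (nDelta hℓN y)⁻¹ *
        (nDelta hℓN y * tCoc hℓN (inclMul N q γ') y *
          (nDelta hℓN (tPerm ℓ (inclMul N q γ') y))⁻¹) *
        (inclMul N q (nDelta hℓNq (tPerm ℓ (inclMul N q γ') y)) *
          (nDelta hℓN (tPerm ℓ (inclMul N q γ') y))⁻¹)⁻¹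
    rw [map_mul, map_mul, map_inv, inclMul_tCoc hℓN hℓNq]
    have h1 : tPerm ℓ γ' y = tPerm ℓ (inclMul N q γ') y := rfl
    rw [h1]
    group

/-- `U_{q'}`, `q' ∣ N` -/
theorem resH_U {q' : ℕ} (hq' : q'.Prime) (hq'Nq : q' ∣ N * q) (hq'N : q' ∣ N)
    (x : H1 (levelPi χ) R W) :
    resH χ R W (lvlOp χ R W (Sum.inl (Sum.inr ⟨q', hq', hq'N⟩)) x) =
      lvlOp (chiUp (q := q) χ) R W (Sum.inl (Sum.inr ⟨q', hq', hq'Nq⟩)) (resH χ R W x) := by
  have : NeZero q' := ⟨hq'.ne_zero⟩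
  refine H1.pull_heckeH (inclMul N q) (levelPi_inclMul χ)
    (isEquivariant_levelPi χ (uData_equivariant hq'N))
    (isEquivariant_levelPi (chiUp (q := q) χ) (uData_equivariant hq'Nq))
    (fun _ => 1) (fun _ => map_one _) ?_ ?_ x
  · intro γ' y
    rfl
  · intro γ' y
    show inclMul N q (uCoc hq'Nq γ' y) =
      1 * uCoc hq'N (inclMul N q γ') y * (1 : ↥(Gamma0 N))⁻¹
    rw [one_mul, inv_one, mul_one]
    apply toMZ_injective
    have h1 := uCoc_rel_int hq'Nq γ' y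
    have h2 := uCoc_rel_int hq'N (inclMul N q γ') y
    have h3 : uPerm hq'Nq γ' y = uPerm hq'N (inclMul N q γ') y := rfl
    have h4 : toMZ (inclMul N q γ') = toMZ γ' := rfl
    have h5 : toMZ (inclMul N q (uCoc hq'Nq γ' y)) = toMZ (uCoc hq'Nq γ' y) := rfl
    rw [h4, h1, h3] at h2
    rw [h5]
    refine MZ_mul_right_cancel (B := finRep q' (uPerm hq'N (inclMul N q γ') y).val) ?_ h2
    rw [finRep_det]
    exact_mod_cast hq'.ne_zero

/-- the diamond operators -/
theorem resH_diam (u : (ZMod (N * q))ˣ) (x : H1 (levelPi χ) R W) :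
    resH χ R W (lvlOp χ R W (Sum.inr (ZMod.unitsMap (dvd_mul_right N q) u)) x) =
      lvlOp (chiUp (q := q) χ) R W (Sum.inr u) (resH χ R W x) := by
  refine H1.pull_heckeH (inclMul N q) (levelPi_inclMul χ)
    (isEquivariant_levelPi χ (diamData_equivariant (unitHom N) _))
    (isEquivariant_levelPi (chiUp (q := q) χ) (diamData_equivariant (unitHom (N * q)) _))
    (fun _ => inclMul N q (unitRep u) * (unitRep (ZMod.unitsMap (dvd_mul_right N q) u))⁻¹)
    ?_ ?_ ?_ x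
  · intro _
    rw [map_mul, map_inv, levelPi_apply, levelPi_apply, unitHom_inclMul, unitHom_apply,
      unitHom_apply, gamma0Unit_unitRep, gamma0Unit_unitRep, mul_inv_cancel]
  · intro γ' y
    rfl
  · intro γ' y
    show inclMul N q (unitRep u * γ' * (unitRep u)⁻¹) = _
    rw [map_mul, map_mul, map_inv]
    show _ = inclMul N q (unitRep u) * (unitRep (ZMod.unitsMap (dvd_mul_right N q) u))⁻¹ *
      (unitRep (ZMod.unitsMap (dvd_mul_right N q) u) * inclMul N q γ' *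
        (unitRep (ZMod.unitsMap (dvd_mul_right N q) u))⁻¹) *
      (inclMul N q (unitRep u) * (unitRep (ZMod.unitsMap (dvd_mul_right N q) u))⁻¹)⁻¹
    group

/-- restriction intertwines the operators of `down j'` and `j'`, for `j' ≠ U_q` -/
theorem resH_lvlOp (j' : LvlIdx (N * q))
    (hj' : ∀ h : q.Prime ∧ q ∣ N * q, j' ≠ Sum.inl (Sum.inr ⟨q, h⟩)) (x : H1 (levelPi χ) R W) :
    resH χ R W (lvlOp χ R W (LvlIdx.down (dvd_mul_right N q) j') x) =
      lvlOp (chiUp (q := q) χ) R W j' (resH χ R W x) := by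
  rcases j' with (ℓ | q') | u
  · exact resH_T χ R W ℓ.2.1 ℓ.2.2 (fun hd => ℓ.2.2 (hd.trans (dvd_mul_right N q))) x
  · have hne : q'.1 ≠ q := by
      intro h
      obtain ⟨q'', hq''⟩ := q'
      simp only at h
      subst h
      exact hj' hq'' rfl
    have hq'N : q'.1 ∣ N := by
      rcases (Nat.Prime.dvd_mul q'.2.1).mp q'.2.2 with h | h
      · exact h
      · exact absurd ((Nat.prime_dvd_prime_iff_eq q'.2.1 Fact.out).mp h) hne
    have hd : LvlIdx.down (dvd_mul_right N q) (Sum.inl (Sum.inr q') : LvlIdx (N * q)) =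
        Sum.inl (Sum.inr ⟨q'.1, q'.2.1, hq'N⟩) := by
      simp only [LvlIdx.down, dif_pos hq'N]
    rw [hd]
    exact resH_U χ R W q'.2.1 q'.2.2 hq'N x
  · exact resH_diam χ R W u x

end res

/-! ### The operators at `q` -/

section KR

variable {N q : ℕ} [NeZero N] [Fact q.Prime] [NeZero (N * q)] (hqN : ¬ q ∣ N)
variable {G : Type} [CommGroup G] (χ : (ZMod N)ˣ →* G)
variable (R : Type) [CommRing R]
variable (W : Type) [AddCommGroup W] [Module R W] [DistribMulAction G W] [SMulCommClass G R W]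

/-- `γ' ↦ σ (δ γ' δ⁻¹) σ⁻¹`, with `σ ∈ Γ₀(N)` of lower right entry `q` -/
def sigHom : ↥(Gamma0 (N * q)) →* ↥(Gamma0 N) :=
  (MulAut.conj (unitRep (ellUnit hqN))).toMonoidHom.comp (conjDelta hqN)

theorem sigHom_apply (γ' : ↥(Gamma0 (N * q))) :
    sigHom hqN γ' = unitRep (ellUnit hqN) * conjDelta hqN γ' * (unitRep (ellUnit hqN))⁻¹ := rfl

theorem nData_c_infty (γ' : ↥(Gamma0 (N * q))) :
    (nData hqN).c (inclMul N q γ') OnePoint.infty = sigHom hqN γ' := by
  show nDelta hqN OnePoint.infty * tCoc hqN (inclMul N q γ') OnePoint.infty *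
    (nDelta hqN (tPerm q (inclMul N q γ') OnePoint.infty))⁻¹ = _
  rw [tPerm_inclMul, nDelta_infty, sigHom_apply]
  rfl

theorem levelPi_sigHom (γ' : ↥(Gamma0 (N * q))) :
    levelPi χ (sigHom hqN γ') = levelPi (chiUp (q := q) χ) γ' := by
  rw [← nData_c_infty, isEquivariant_levelPi χ (nData_equivariant hqN), levelPi_inclMul]

/-- the map `δ^σ : H¹(Γ₀(N), W) → H¹(Γ₀(N q), W)` -/
def sigH : H1 (levelPi χ) R W →ₗ[R] H1 (levelPi (chiUp (q := q) χ)) R W :=
  H1.pull (sigHom hqN) (levelPi_sigHom hqN χ) R W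

theorem tPerm_inclMul_coe (γ' : ↥(Gamma0 (N * q))) (j : ZMod q) :
    tPerm q (inclMul N q γ') (j : OnePoint (ZMod q)) =
      ((uPerm (dvd_mul_left q N) γ' j : ZMod q) : OnePoint (ZMod q)) ∧
    tCoc hqN (inclMul N q γ') (j : OnePoint (ZMod q)) =
      inclMul N q (uCoc (dvd_mul_left q N) γ' j) := by
  have h := tCoc_unique hqN (inclMul N q γ') (j : OnePoint (ZMod q))
    ((uPerm (dvd_mul_left q N) γ' j : ZMod q) : OnePoint (ZMod q))
    ((uCoc (dvd_mul_left q N) γ' j : ↥(Gamma0 (N * q))) : SL(2, ℤ))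
    (uCoc_rel (dvd_mul_left q N) γ' j)
  exact ⟨h.1.symm, Subtype.ext h.2.symm⟩

theorem nData_c_coe (γ' : ↥(Gamma0 (N * q))) (j : ZMod q) :
    (nData hqN).c (inclMul N q γ') (j : OnePoint (ZMod q)) =
      inclMul N q (uCoc (dvd_mul_left q N) γ' j) := by
  show nDelta hqN (j : OnePoint (ZMod q)) * tCoc hqN (inclMul N q γ') (j : OnePoint (ZMod q)) *
    (nDelta hqN (tPerm q (inclMul N q γ') (j : OnePoint (ZMod q))))⁻¹ = _
  rw [(tPerm_inclMul_coe hqN γ' j).1, (tPerm_inclMul_coe hqN γ' j).2, nDelta_coe, nDelta_coe,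
    one_mul, inv_one, mul_one]

/-- **`res ∘ T_q = U_q ∘ res + δ^σ`** -/
theorem resH_Tq (hq : q.Prime) (x : H1 (levelPi χ) R W) :
    resH χ R W (lvlOp χ R W (Sum.inl (Sum.inl ⟨q, hq, hqN⟩)) x) =
      lvlOp (chiUp (q := q) χ) R W (Sum.inl (Sum.inr ⟨q, hq, dvd_mul_left q N⟩)) (resH χ R W x) +
        sigH hqN χ R W x := by
  obtain ⟨f, rfl⟩ := H1.mk_surjective (levelPi χ) R W x
  have : NeZero q := ⟨hq.ne_zero⟩
  show H1.mk _ R W (Z1.pull (inclMul N q) (levelPi_inclMul χ) R W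
      (heckeZ R W (isEquivariant_levelPi χ (nData_equivariant hqN)) f)) =
    H1.mk _ R W (heckeZ R W (isEquivariant_levelPi (chiUp (q := q) χ)
      (uData_equivariant (dvd_mul_left q N)))
      (Z1.pull (inclMul N q) (levelPi_inclMul χ) R W f)) +
    H1.mk _ R W (Z1.pull (sigHom hqN) (levelPi_sigHom hqN χ) R W f)
  rw [← map_add]
  congr 1
  apply Subtype.ext
  funext γ'
  show ∑ y : Option (ZMod q), (f : ↥(Gamma0 N) → W) ((nData hqN).c (inclMul N q γ') y) =
    ∑ j : ZMod q, (f : ↥(Gamma0 N) → W) (inclMul N q (uCoc (dvd_mul_left q N) γ' j)) +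
      (f : ↥(Gamma0 N) → W) (sigHom hqN γ')
  rw [Fintype.sum_option, add_comm]
  congr 1
  · exact Finset.sum_congr rfl fun j _ => congrArg _ (nData_c_coe hqN γ' j)
  · exact congrArg _ (nData_c_infty hqN γ')

theorem conjDelta_int (γ'' : ↥(Gamma0 (N * q))) :
    repInt q OnePoint.infty * toMZ γ'' = toMZ (conjDelta hqN γ'') * repInt q OnePoint.infty := by
  have h := tCoc_rel_int hqN (inclMul N q γ'') OnePoint.infty
  rw [tPerm_inclMul] at h
  exact h

theorem repInt_infty_mul_finRep (j : ℕ) :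
    repInt q OnePoint.infty * finRep q j = (q : ℤ) • toMZ (unipT N (j : ℤ)) := by
  rw [repInt_infty, finRep]
  ext a b
  fin_cases a <;> fin_cases b <;> simp [toMZ, unipT, Matrix.mul_apply, Fin.sum_univ_two]

/-- `δ (c_j γ') δ⁻¹ = τ^j γ' τ^{-j'}` -/
theorem conjDelta_uCoc (γ' : ↥(Gamma0 (N * q))) (j : ZMod q) :
    conjDelta hqN (uCoc (dvd_mul_left q N) γ' j) =
      unipT N (j.val : ℤ) * inclMul N q γ' *
        (unipT N ((uPerm (dvd_mul_left q N) γ' j).val : ℤ))⁻¹ := by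
  have : NeZero q := ⟨(Fact.out : q.Prime).ne_zero⟩
  apply eq_mul_inv_of_mul_eq
  apply toMZ_injective
  rw [toMZ_mul, toMZ_mul]
  have h1 := uCoc_rel_int (dvd_mul_left q N) γ' j
  have h2 := conjDelta_int hqN (uCoc (dvd_mul_left q N) γ' j)
  have hq0 : (q : ℤ) ≠ 0 := by exact_mod_cast (Fact.out : q.Prime).ne_zero
  have h3 : (q : ℤ) • (toMZ (conjDelta hqN (uCoc (dvd_mul_left q N) γ' j)) *
      toMZ (unipT N ((uPerm (dvd_mul_left q N) γ' j).val : ℤ))) =
      (q : ℤ) • (toMZ (unipT N (j.val : ℤ)) * toMZ (inclMul N q γ')) := by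
    rw [← Matrix.mul_smul, ← repInt_infty_mul_finRep (N := N), ← Matrix.mul_assoc, ← h2,
      Matrix.mul_assoc, ← h1, ← Matrix.mul_assoc, repInt_infty_mul_finRep (N := N),
      Matrix.smul_mul]
    rfl
  exact smul_right_injective _ hq0 h3

theorem unitHom_unipT (k : ℤ) : unitHom N (unipT N k) = 1 := by
  apply Units.ext
  rw [coe_unitHom]
  show (((1 : ℤ) : ℤ) : ZMod N) = _
  simp

/-- **`U_q ∘ δ^σ = q · ⟨q⟩ ∘ res`** -/
theorem lvlOp_Uq_sigH (hq : q.Prime) (x : H1 (levelPi χ) R W) :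
    lvlOp (chiUp (q := q) χ) R W (Sum.inl (Sum.inr ⟨q, hq, dvd_mul_left q N⟩))
        (sigH hqN χ R W x) =
      ((q : ℕ) : R) • H1.map (levelPi (chiUp (q := q) χ))
        (QuotG.actLin (G := G) R W (χ (ellUnit hqN))) (isEquivar_actLin _) (resH χ R W x) := by
  obtain ⟨f, rfl⟩ := H1.mk_surjective (levelPi χ) R W x
  have : NeZero q := ⟨hq.ne_zero⟩
  set σ : ↥(Gamma0 N) := unitRep (ellUnit hqN) with hσ
  set ζ : G := χ (ellUnit hqN) with hζ
  have hf := f.2
  show H1.mk _ R W (heckeZ R W (isEquivariant_levelPi (chiUp (q := q) χ)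
      (uData_equivariant (dvd_mul_left q N)))
      (Z1.pull (sigHom hqN) (levelPi_sigHom hqN χ) R W f)) =
    ((q : ℕ) : R) • H1.mk _ R W (Z1.map _ (QuotG.actLin (G := G) R W ζ) (isEquivar_actLin _)
      (Z1.pull (inclMul N q) (levelPi_inclMul χ) R W f))
  rw [← map_smul, ← sub_eq_zero, ← map_sub, H1.mk_eq_zero_iff]
  -- the elements `g_j = σ τ^j`
  obtain ⟨g, hg⟩ : ∃ g : ZMod q → ↥(Gamma0 N), ∀ j, g j = σ * unipT N (j.val : ℤ) :=
    ⟨_, fun _ => rfl⟩
  have hπg : ∀ j, levelPi χ (g j) = ζ := by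
    intro j
    rw [hg, levelPi_apply, map_mul, unitHom_unipT, mul_one, unitHom_apply, gamma0Unit_unitRep]
  refine ⟨-∑ j, (f : ↥(Gamma0 N) → W) (g j), fun γ' => ?_⟩
  have hsig : ∀ j, sigHom hqN (uCoc (dvd_mul_left q N) γ' j) =
      g j * inclMul N q γ' * (g (uPerm (dvd_mul_left q N) γ' j))⁻¹ := by
    intro j
    rw [sigHom_apply, conjDelta_uCoc]
    show σ * _ * σ⁻¹ = _
    rw [hg, hg]
    group
  have hterm : ∀ j, (f : ↥(Gamma0 N) → W) (sigHom hqN (uCoc (dvd_mul_left q N) γ' j)) =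
      (f : ↥(Gamma0 N) → W) (g j) + ζ • (f : ↥(Gamma0 N) → W) (inclMul N q γ') -
        levelPi (chiUp (q := q) χ) γ' •
          (f : ↥(Gamma0 N) → W) (g (uPerm (dvd_mul_left q N) γ' j)) := by
    intro j
    rw [hsig, hf, hf, Z1_inv hf, map_mul, hπg, hπg, levelPi_inclMul, smul_neg, ← mul_smul,
      mul_comm ζ, mul_assoc, mul_inv_cancel, mul_one, sub_eq_add_neg]
  show ∑ j : ZMod q, (f : ↥(Gamma0 N) → W) (sigHom hqN (uCoc (dvd_mul_left q N) γ' j)) -
      ((q : ℕ) : R) • (ζ • (f : ↥(Gamma0 N) → W) (inclMul N q γ')) =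
    levelPi (chiUp (q := q) χ) γ' • -∑ j, (f : ↥(Gamma0 N) → W) (g j) -
      -∑ j, (f : ↥(Gamma0 N) → W) (g j)
  have hsum : ∑ j : ZMod q, (f : ↥(Gamma0 N) → W) (g (uPerm (dvd_mul_left q N) γ' j)) =
      ∑ j, (f : ↥(Gamma0 N) → W) (g j) :=
    Equiv.sum_comp (uPerm (dvd_mul_left q N) γ') (fun j => (f : ↥(Gamma0 N) → W) (g j))
  rw [Finset.sum_congr rfl (fun j _ => hterm j), Finset.sum_sub_distrib, Finset.sum_add_distrib,
    Finset.sum_const, Finset.card_univ, ZMod.card, ← Finset.smul_sum, hsum,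
    Nat.cast_smul_eq_nsmul, smul_neg]
  abel

end KR

end Fermat.Agent.S43lib.B1
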