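/-
S43lib / B1 / TWTriv  (helper3).

The Taylor–Wiles relations for coefficients with trivial action, in the vocabulary of
`S41lib.HC` (`H(Γ; A) = Hom(Γ, A)`):
* `res_coresA` : `res ∘ cores = 1 + U_q ∘ w` on `H(Γ₀(N q))`  (`w` the Atkin–Lehner operator);
* consequently `(1 - U_q²) φ = res (coresA φ) - U_q (res (coresB φ))`.
-/
import Fermat.Agent.S43lib.B1.TWLevel
import Fermat.Agent.S41lib.HC.LevelAL

set_option autoImplicit false
set_option linter.unusedSectionVars false
set_option linter.unusedVariables false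

noncomputable section

namespace Fermat.Agent.S43lib.B1

open CongruenceSubgroup Matrix.SpecialLinearGroup ModularForm
open Fermat.Agent.S16lib.LH Fermat.Agent.S29lib.H Fermat.Agent.S41lib.HC Fermat.Agent.S48lib.W1
open Fermat.Agent.S31lib.PET
open P2MW.S_ModularForm_heckeT_slash_eq_self_of_mem_Gamma0.ModularForm.HeckeSlashInvariance
open scoped MatrixGroups

section R7

variable {N q : ℕ} [NeZero N] [Fact q.Prime] (hqN : ¬ q ∣ N)
  (x y z w : ℤ) (h : (q : ℤ) * x * w - (N : ℤ) * y * z = 1)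

/-- the matrix `W⁻¹ (1 j; 0 q)` -/
def bMat (N q : ℕ) (x y z w : ℤ) (j : ℤ) : MZ :=
  !![w, w * j - y; -((N : ℤ) * z), -((N : ℤ) * z * j) + (q : ℤ) * x]

include h in
theorem bMat_det (j : ℤ) : (bMat N q x y z w j).det = 1 := by
  rw [bMat, Matrix.det_fin_two_of]
  linear_combination h

/-- `W⁻¹ (1 j; 0 q)` as an element of `Γ₀(N)` -/
def bElt (j : ℤ) : ↥(Gamma0 N) :=
  ofMZ (bMat N q x y z w j) (bMat_det x y z w h j) ⟨-z, by simp [bMat]⟩

theorem toMZ_bElt (j : ℤ) : toMZ (bElt x y z w h j) = bMat N q x y z w j := rfl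

include h in
theorem alMat_mul_bMat (j : ℕ) :
    alMat N q x y z w * bMat N q x y z w (j : ℤ) = finRep q j := by
  ext a b
  fin_cases a <;> fin_cases b <;>
    simp [alMat, bMat, finRep, Matrix.mul_apply, Fin.sum_univ_two]
  · linear_combination h
  · linear_combination (j : ℤ) * h
  · ring
  · linear_combination (q : ℤ) * h

include hqN h in
theorem tPerm_bElt (j : ZMod q) :
    tPerm q (bElt x y z w h (j.val : ℤ)) OnePoint.infty = (j : OnePoint (ZMod q)) := by
  have hNz : (((N : ℤ) * z : ℤ) : ZMod q) ≠ 0 := by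
    intro h0
    have h1 := congrArg (Int.cast : ℤ → ZMod q) h
    push_cast at h1
    push_cast at h0
    rw [ZMod.natCast_self, zero_mul, zero_mul, zero_sub, mul_right_comm, h0, zero_mul,
      neg_zero] at h1
    exact zero_ne_one h1
  have hne : ((((bElt x y z w h (j.val : ℤ) : ↥(Gamma0 N)) : SL(2, ℤ)) 1 0 : ℤ) : ZMod q) ≠ 0 := by
    show (((-((N : ℤ) * z) : ℤ)) : ZMod q) ≠ 0
    rw [Int.cast_neg, neg_ne_zero]
    exact hNz
  rw [tPerm_infty_of_ne _ hne]
  congr 1
  show (((-((N : ℤ) * z * (j.val : ℤ)) + (q : ℤ) * x : ℤ)) : ZMod q) /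
    (((-((N : ℤ) * z) : ℤ)) : ZMod q) = j
  rw [div_eq_iff (by rw [Int.cast_neg, neg_ne_zero]; exact hNz)]
  push_cast
  rw [ZMod.natCast_self, zero_mul, add_zero, ZMod.natCast_zmod_val]
  ring

/-- `c_j = B_j g_j⁻¹ ∈ Γ₀(N q)` -/
def cElt (j : ZMod q) : ↥(Gamma0 (N * q)) :=
  ⟨((bElt x y z w h (j.val : ℤ) * (alphaRep hqN (j : OnePoint (ZMod q)))⁻¹ : ↥(Gamma0 N)) :
      SL(2, ℤ)), by
    apply mem_Gamma0_mul_of_tPerm hqN
    rw [tPerm_mul, tPerm_bElt hqN x y z w h j]
    have := tPerm_inv_apply (alphaRep hqN (j : OnePoint (ZMod q)))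
      (OnePoint.infty : OnePoint (ZMod q))
    rw [tPerm_alphaRep] at this
    exact this⟩

theorem inclMul_cElt (j : ZMod q) :
    inclMul N q (cElt hqN x y z w h j) =
      bElt x y z w h (j.val : ℤ) * (alphaRep hqN (j : OnePoint (ZMod q)))⁻¹ := rfl

theorem inclMul_injective : Function.Injective (inclMul N q) := by
  intro a b hab
  apply Subtype.ext
  have := congrArg (fun g : ↥(Gamma0 N) => (g : SL(2, ℤ))) hab
  exact this

/-- `B_j γ' = (W⁻¹ c_j(γ') W) B_{j'}` -/
theorem bElt_mul (γ' : ↥(Gamma0 (N * q))) (j : ZMod q) :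
    bElt x y z w h (j.val : ℤ) * inclMul N q γ' =
      inclMul N q (alConj x y z w h (uCoc (dvd_mul_left q N) γ' j)) *
        bElt x y z w h ((uPerm (dvd_mul_left q N) γ' j).val : ℤ) := by
  apply toMZ_injective
  rw [toMZ_mul, toMZ_mul, toMZ_bElt, toMZ_bElt]
  apply alMat_mul_left_cancel x y z w h
  have h1 := uCoc_rel_int (dvd_mul_left q N) γ' j
  have h2 := alMat_mul_alConj x y z w h (uCoc (dvd_mul_left q N) γ' j)
  have e1 : toMZ (inclMul N q γ') = toMZ γ' := rfl
  have e2 : toMZ (inclMul N q (alConj x y z w h (uCoc (dvd_mul_left q N) γ' j))) =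
      ((alConj x y z w h (uCoc (dvd_mul_left q N) γ' j) : ↥(Gamma0 (N * q))) : SL(2, ℤ)).1 := rfl
  have e3 : ((uCoc (dvd_mul_left q N) γ' j : ↥(Gamma0 (N * q))) : SL(2, ℤ)).1 =
      toMZ (uCoc (dvd_mul_left q N) γ' j) := rfl
  rw [e1, e2, ← Matrix.mul_assoc, alMat_mul_bMat x y z w h, h1, ← Matrix.mul_assoc, h2, e3,
    Matrix.mul_assoc, alMat_mul_bMat x y z w h]

/-- `W⁻¹ c_j(γ') W = c_j · (g_j γ' g_{j'}⁻¹) · c_{j'}⁻¹` -/
theorem alConj_uCoc (γ' : ↥(Gamma0 (N * q))) (j : ZMod q) :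
    alConj x y z w h (uCoc (dvd_mul_left q N) γ' j) =
      cElt hqN x y z w h j * (coresAData hqN).c (inclMul N q γ') (j : OnePoint (ZMod q)) *
        (cElt hqN x y z w h (uPerm (dvd_mul_left q N) γ' j))⁻¹ := by
  apply inclMul_injective
  rw [map_mul, map_mul, map_inv, inclMul_cElt, inclMul_cElt, inclMul_coresAData_c, alphaCoc,
    (tPerm_inclMul_coe hqN γ' j).1]
  have h1 := bElt_mul x y z w h γ' j
  have h2 : inclMul N q (alConj x y z w h (uCoc (dvd_mul_left q N) γ' j)) =
      bElt x y z w h (j.val : ℤ) * inclMul N q γ' *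
        (bElt x y z w h ((uPerm (dvd_mul_left q N) γ' j).val : ℤ))⁻¹ := by
    rw [h1, mul_inv_cancel_right]
  rw [h2]
  group

/-- **`res ∘ cores = 1 + U_q ∘ w`** on `Hom(Γ₀(N q), A)` -/
theorem res_coresA {A : Type*} [AddCommGroup A] (φ : H (Gamma0 (N * q)) A) :
    res N q A (coresA hqN A φ) =
      φ + (uData (dvd_mul_left q N)).op A (alW x y z w h A φ) := by
  ext γ'
  show res N q A (coresA hqN A φ) (Additive.ofMul γ') =
    φ (Additive.ofMul γ') + (uData (dvd_mul_left q N)).op A (alW x y z w h A φ) (Additive.ofMul γ')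
  rw [res_apply, coresA_apply, CosetData.op_apply]
  show ∑ y : Option (ZMod q), φ (Additive.ofMul ((coresAData hqN).c (inclMul N q γ') y)) = _
  rw [Fintype.sum_option]
  congr 1
  · -- the point at infinity: an inner conjugate
    let gi : ↥(Gamma0 (N * q)) := ⟨((alphaRep hqN (OnePoint.infty : OnePoint (ZMod q)) :
      ↥(Gamma0 N)) : SL(2, ℤ)), mem_Gamma0_mul_of_tPerm hqN _ (tPerm_alphaRep hqN _)⟩
    have e : (coresAData hqN).c (inclMul N q γ') (OnePoint.infty : OnePoint (ZMod q)) =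
        gi * γ' * gi⁻¹ := by
      apply inclMul_injective
      rw [inclMul_coresAData_c, alphaCoc, map_mul, map_mul, map_inv, tPerm_inclMul]
      rfl
    show φ (Additive.ofMul ((coresAData hqN).c (inclMul N q γ')
      (OnePoint.infty : OnePoint (ZMod q)))) = _
    rw [e, hom_conj]
  · have hterm : ∀ j : ZMod q, alW x y z w h A φ
        (Additive.ofMul ((uData (dvd_mul_left q N)).c γ' j)) =
        φ (Additive.ofMul (cElt hqN x y z w h j)) +
          φ (Additive.ofMul ((coresAData hqN).c (inclMul N q γ') (some j))) -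
          φ (Additive.ofMul (cElt hqN x y z w h (uPerm (dvd_mul_left q N) γ' j))) := by
      intro j
      rw [alW_apply, uData_c, alConj_uCoc hqN x y z w h γ' j, ofMul_mul, ofMul_mul, ofMul_inv,
        map_add, map_add, map_neg, sub_eq_add_neg]
      rfl
    rw [Finset.sum_congr rfl (fun j _ => hterm j), Finset.sum_sub_distrib, Finset.sum_add_distrib,
      Equiv.sum_comp (uPerm (dvd_mul_left q N) γ')
        (fun j => φ (Additive.ofMul (cElt hqN x y z w h j)))]
    abel

end R7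

/-! ### Cohomology with trivial action is `Hom` -/

section triv

variable {Γ G : Type*} [Group Γ] [Group G] (π : Γ →* G)
variable (R : Type*) [CommRing R]
variable (W : Type*) [AddCommGroup W] [Module R W] [DistribMulAction G W] [SMulCommClass G R W]
variable (htriv : ∀ (g : G) (w : W), g • w = w)

/-- crossed homomorphisms for the trivial action are homomorphisms -/
def trivZ : ↥(Z1 π R W) →ₗ[R] (Additive Γ →+ W) where
  toFun f := AddMonoidHom.mk' (fun γ => (f : Γ → W) (Additive.toMul γ)) (by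
    intro γ γ'
    show (f : Γ → W) (Additive.toMul γ * Additive.toMul γ') = _
    rw [f.2, htriv])
  map_add' f f' := rfl
  map_smul' r f := rfl

@[simp] theorem trivZ_apply (f : ↥(Z1 π R W)) (γ : Γ) :
    trivZ π R W htriv f (Additive.ofMul γ) = (f : Γ → W) γ := rfl

/-- `H¹(Γ, W) → Hom(Γ, W)` for the trivial action -/
def trivToHom : H1 π R W →ₗ[R] (Additive Γ →+ W) :=
  (B1z π R W).liftQ (trivZ π R W htriv) (by
    rintro f ⟨w, hw⟩
    rw [LinearMap.mem_ker]
    ext γ
    show (f : Γ → W) (Additive.toMul γ) = 0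
    have := congrFun hw (Additive.toMul γ)
    rw [dW_apply, htriv, sub_self] at this
    exact this.symm)

@[simp] theorem trivToHom_mk (f : ↥(Z1 π R W)) :
    trivToHom π R W htriv (H1.mk π R W f) = trivZ π R W htriv f := rfl

/-- homomorphisms are crossed homomorphisms for the trivial action -/
def trivZinv : (Additive Γ →+ W) →ₗ[R] ↥(Z1 π R W) where
  toFun φ := ⟨fun γ => φ (Additive.ofMul γ), by
    intro γ γ'
    show φ (Additive.ofMul (γ * γ')) = _
    rw [ofMul_mul, map_add, htriv]⟩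
  map_add' φ φ' := rfl
  map_smul' r φ := by
    apply Subtype.ext
    rfl

/-- `Hom(Γ, W) → H¹(Γ, W)` for the trivial action -/
def trivOfHom : (Additive Γ →+ W) →ₗ[R] H1 π R W :=
  (H1.mk π R W).comp (trivZinv π R W htriv)

theorem trivOfHom_toHom (x : H1 π R W) :
    trivOfHom π R W htriv (trivToHom π R W htriv x) = x := by
  obtain ⟨f, rfl⟩ := H1.mk_surjective π R W x
  rfl

theorem trivToHom_ofHom (φ : Additive Γ →+ W) :
    trivToHom π R W htriv (trivOfHom π R W htriv φ) = φ := by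
  ext γ
  rfl

theorem trivToHom_injective : Function.Injective (trivToHom π R W htriv) :=
  Function.LeftInverse.injective (trivOfHom_toHom π R W htriv)

/-- compatibility with the operators of coset data -/
theorem trivToHom_heckeH {ι : Type*} [Fintype ι] {D : CosetData Γ Γ ι}
    (hD : CosetData.IsEquivariant π D) (x : H1 π R W) :
    trivToHom π R W htriv (heckeH R W hD x) = D.op W (trivToHom π R W htriv x) := by
  obtain ⟨f, rfl⟩ := H1.mk_surjective π R W x
  ext γ
  rfl

/-- compatibility with pull-backs -/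
theorem trivToHom_pull {Γ' : Type*} [Group Γ'] {π' : Γ' →* G} (ι : Γ' →* Γ)
    (hπ : ∀ γ', π (ι γ') = π' γ') (x : H1 π R W) :
    trivToHom π' R W htriv (H1.pull ι hπ R W x) =
      (CosetData.ofHom ι).op W (trivToHom π R W htriv x) := by
  obtain ⟨f, rfl⟩ := H1.mk_surjective π R W x
  ext γ'
  show (f : Γ → W) (ι (Additive.toMul γ')) =
    (CosetData.ofHom ι).op W (trivZ π R W htriv f) (Additive.ofMul (Additive.toMul γ'))
  rw [CosetData.ofHom_op_apply]
  rfl

end triv

/-! ### The relations on `H¹` for coefficients with trivial action -/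

section rel

variable {N q : ℕ} [NeZero N] [Fact q.Prime] [NeZero (N * q)] (hqN : ¬ q ∣ N)
  (x y z w : ℤ) (h : (q : ℤ) * x * w - (N : ℤ) * y * z = 1)
variable {G : Type} [CommGroup G] (χ : (ZMod N)ˣ →* G)
variable (R : Type) [CommRing R]
variable (W : Type) [AddCommGroup W] [Module R W] [DistribMulAction G W] [SMulCommClass G R W]
variable (htriv : ∀ (g : G) (w : W), g • w = w)

theorem trivToHom_resH (m : H1 (levelPi χ) R W) :
    trivToHom (levelPi (chiUp (q := q) χ)) R W htriv (resH χ R W m) =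
      res N q W (trivToHom (levelPi χ) R W htriv m) :=
  trivToHom_pull (levelPi χ) R W htriv (inclMul N q) (levelPi_inclMul χ) m

theorem trivToHom_sigH (m : H1 (levelPi χ) R W) :
    trivToHom (levelPi (chiUp (q := q) χ)) R W htriv (sigH hqN χ R W m) =
      deg hqN W (trivToHom (levelPi χ) R W htriv m) := by
  rw [sigH, trivToHom_pull]
  ext γ'
  show (CosetData.ofHom (sigHom hqN)).op W _ (Additive.ofMul (Additive.toMul γ')) =
    deg hqN W _ (Additive.ofMul (Additive.toMul γ'))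
  rw [CosetData.ofHom_op_apply, deg_apply, sigHom_apply, hom_conj]

theorem trivToHom_Tq (hq : q.Prime) (m : H1 (levelPi χ) R W) :
    trivToHom (levelPi χ) R W htriv (lvlOp χ R W (Sum.inl (Sum.inl ⟨q, hq, hqN⟩)) m) =
      heckeT hqN W (trivToHom (levelPi χ) R W htriv m) := by
  rw [← nData_op]
  exact trivToHom_heckeH (levelPi χ) R W htriv _ m

theorem trivToHom_Uq (hq : q.Prime) (m' : H1 (levelPi (chiUp (q := q) χ)) R W) :
    trivToHom (levelPi (chiUp (q := q) χ)) R W htriv
        (lvlOp (chiUp (q := q) χ) R W (Sum.inl (Sum.inr ⟨q, hq, dvd_mul_left q N⟩)) m') =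
      (@uData (N * q) q ⟨hq.ne_zero⟩ (dvd_mul_left q N)).op W
        (trivToHom (levelPi (chiUp (q := q) χ)) R W htriv m') :=
  trivToHom_heckeH (levelPi (chiUp (q := q) χ)) R W htriv _ m'

/-- the first transfer on `H¹` -/
def trA : H1 (levelPi (chiUp (q := q) χ)) R W →+ H1 (levelPi χ) R W :=
  (trivOfHom (levelPi χ) R W htriv).toAddMonoidHom.comp
    ((coresA hqN W).comp (trivToHom (levelPi (chiUp (q := q) χ)) R W htriv).toAddMonoidHom)

/-- the second transfer on `H¹` -/
def trB : H1 (levelPi (chiUp (q := q) χ)) R W →+ H1 (levelPi χ) R W :=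
  (trivOfHom (levelPi χ) R W htriv).toAddMonoidHom.comp
    ((coresB hqN x y z w h W).comp
      (trivToHom (levelPi (chiUp (q := q) χ)) R W htriv).toAddMonoidHom)

theorem trA_apply (m' : H1 (levelPi (chiUp (q := q) χ)) R W) :
    trA hqN χ R W htriv m' = trivOfHom (levelPi χ) R W htriv
      (coresA hqN W (trivToHom (levelPi (chiUp (q := q) χ)) R W htriv m')) := rfl

theorem trB_apply (m' : H1 (levelPi (chiUp (q := q) χ)) R W) :
    trB hqN x y z w h χ R W htriv m' = trivOfHom (levelPi χ) R W htriv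
      (coresB hqN x y z w h W (trivToHom (levelPi (chiUp (q := q) χ)) R W htriv m')) := rfl

theorem trA_resH (m : H1 (levelPi χ) R W) :
    trA hqN χ R W htriv (resH χ R W m) = (q + 1) • m := by
  rw [trA_apply, trivToHom_resH, coresA_res, map_nsmul, trivOfHom_toHom]

theorem trB_resH (hq : q.Prime) (m : H1 (levelPi χ) R W) :
    trB hqN x y z w h χ R W htriv (resH χ R W m) =
      lvlOp χ R W (Sum.inl (Sum.inl ⟨q, hq, hqN⟩)) m := by
  rw [trB_apply, trivToHom_resH, coresB_res, ← trivToHom_Tq hqN χ R W htriv hq, trivOfHom_toHom]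

theorem trA_sigH (hq : q.Prime) (m : H1 (levelPi χ) R W) :
    trA hqN χ R W htriv (sigH hqN χ R W m) =
      lvlOp χ R W (Sum.inl (Sum.inl ⟨q, hq, hqN⟩)) m := by
  rw [trA_apply, trivToHom_sigH, coresA_deg, ← trivToHom_Tq hqN χ R W htriv hq, trivOfHom_toHom]

theorem trB_sigH (m : H1 (levelPi χ) R W) :
    trB hqN x y z w h χ R W htriv (sigH hqN χ R W m) = (q + 1) • m := by
  rw [trB_apply, trivToHom_sigH, coresB_deg, map_nsmul, trivOfHom_toHom]

/-- `U_q ∘ res = res ∘ T_q - δ^σ` -/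
theorem Uq_resH (hq : q.Prime) (m : H1 (levelPi χ) R W) :
    lvlOp (chiUp (q := q) χ) R W (Sum.inl (Sum.inr ⟨q, hq, dvd_mul_left q N⟩)) (resH χ R W m) =
      resH χ R W (lvlOp χ R W (Sum.inl (Sum.inl ⟨q, hq, hqN⟩)) m) - sigH hqN χ R W m := by
  rw [resH_Tq hqN χ R W hq m, add_sub_cancel_right]

theorem trA_Uq_resH (hq : q.Prime) (m : H1 (levelPi χ) R W) :
    trA hqN χ R W htriv (lvlOp (chiUp (q := q) χ) R W
        (Sum.inl (Sum.inr ⟨q, hq, dvd_mul_left q N⟩)) (resH χ R W m)) =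
      q • lvlOp χ R W (Sum.inl (Sum.inl ⟨q, hq, hqN⟩)) m := by
  rw [Uq_resH hqN χ R W hq, map_sub, trA_resH, trA_sigH hqN χ R W htriv hq, add_smul, one_smul,
    add_sub_cancel_right]

theorem trB_Uq_resH (hq : q.Prime) (m : H1 (levelPi χ) R W) :
    trB hqN x y z w h χ R W htriv (lvlOp (chiUp (q := q) χ) R W
        (Sum.inl (Sum.inr ⟨q, hq, dvd_mul_left q N⟩)) (resH χ R W m)) =
      lvlOp χ R W (Sum.inl (Sum.inl ⟨q, hq, hqN⟩))
        (lvlOp χ R W (Sum.inl (Sum.inl ⟨q, hq, hqN⟩)) m) - (q + 1) • m := by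
  rw [Uq_resH hqN χ R W hq, map_sub, trB_resH hqN x y z w h χ R W htriv hq, trB_sigH]

/-- **`(1 - U_q²) y = res (trA y) - U_q (res (trB y))`** -/
theorem one_sub_Uq_sq (hq : q.Prime) (m' : H1 (levelPi (chiUp (q := q) χ)) R W) :
    m' - lvlOp (chiUp (q := q) χ) R W (Sum.inl (Sum.inr ⟨q, hq, dvd_mul_left q N⟩))
        (lvlOp (chiUp (q := q) χ) R W (Sum.inl (Sum.inr ⟨q, hq, dvd_mul_left q N⟩)) m') =
      resH χ R W (trA hqN χ R W htriv m') -
        lvlOp (chiUp (q := q) χ) R W (Sum.inl (Sum.inr ⟨q, hq, dvd_mul_left q N⟩))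
          (resH χ R W (trB hqN x y z w h χ R W htriv m')) := by
  apply trivToHom_injective (levelPi (chiUp (q := q) χ)) R W htriv
  set φ := trivToHom (levelPi (chiUp (q := q) χ)) R W htriv m' with hφ
  have : NeZero q := ⟨hq.ne_zero⟩
  rw [map_sub, map_sub, trivToHom_Uq χ R W htriv hq, trivToHom_Uq χ R W htriv hq,
    trivToHom_Uq χ R W htriv hq, trivToHom_resH, trivToHom_resH, trA_apply, trB_apply,
    trivToHom_ofHom, trivToHom_ofHom, ← hφ]
  have e1 := res_coresA hqN x y z w h φ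
  have e2 := res_coresA hqN x y z w h (alW x y z w h W φ)
  rw [alW_alW] at e2
  rw [coresB_def, e2, e1, map_add]
  abel

end rel

end Fermat.Agent.S43lib.B1
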