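/-
S43lib / B1 / TWStep  (helper3).

The one-prime Taylor–Wiles comparison: for `q ∤ N`, the Hecke systems `S = levelSys χ f` on `Γ₀(N)`
and `S' = levelSys (chiUp χ) f'` on `Γ₀(N q)` (`f = down ∘ f'`, `f' o = U_q`), and two points
`ev`, `ev'` related by `Pts`, restriction induces a natural transformation `twNat : S.F · 𝔪 ⟶ S'.F · 𝔪'`
which is bijective on the residue field.
-/
import Fermat.Agent.S43lib.B1.TWTriv
import Fermat.Agent.S43lib.B1.TWAlg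
import Fermat.Agent.S43lib.B1.TWNat
import Fermat.Agent.S43lib.B1.LevelFree

set_option autoImplicit false
set_option linter.unusedSectionVars false
set_option linter.unusedVariables false

noncomputable section

namespace Fermat.Agent.S43lib.B1

open MvPolynomial IsLocalRing CongruenceSubgroup
open Fermat.Agent.S41lib.HC Fermat.Agent.S31lib.PET

section step

variable {𝒪 : Type} [CommRing 𝒪]
variable {N q : ℕ} [NeZero N] [Fact q.Prime] [NeZero (N * q)] (hqN : ¬ q ∣ N)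
variable {G : Type} [CommGroup G] (χ : (ZMod N)ˣ →* G)
variable {I : Type} [DecidableEq I] (f' : I → LvlIdx (N * q)) (f : I → LvlIdx N)

/-- the hypotheses on the indices -/
structure StepIdx (hqN : ¬ q ∣ N) (χ : (ZMod N)ˣ →* G) (f' : I → LvlIdx (N * q))
    (f : I → LvlIdx N) (o z : I) : Prop where
  hf : ∀ i, f i = LvlIdx.down (dvd_mul_right N q) (f' i)
  ho : ∃ h : q.Prime ∧ q ∣ N * q, f' o = Sum.inl (Sum.inr ⟨q, h⟩)
  hinj : ∀ i, f' i = f' o → i = o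
  hz : ∃ u : (ZMod (N * q))ˣ, f' z = Sum.inr u ∧
    χ (ZMod.unitsMap (dvd_mul_right N q) u) = χ (ellUnit hqN)

variable {hqN χ f' f} {o z : I} (H : StepIdx hqN χ f' f o z)
variable (W : Type) [AddCommGroup W] [Module 𝒪 W] [DistribMulAction G W] [SMulCommClass G 𝒪 W]

/-- restriction, as a map between the cohomology modules of the two systems -/
def twRes (χ : (ZMod N)ˣ →* G) (f' : I → LvlIdx (N * q)) (f : I → LvlIdx N) :
    (levelSys χ f).Coh 𝒪 W →ₗ[𝒪] (levelSys (chiUp (q := q) χ) f').Coh 𝒪 W :=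
  resH χ 𝒪 W

include H in
theorem StepIdx.fo : f o = Sum.inl (Sum.inl ⟨q, Fact.out, hqN⟩) := by
  obtain ⟨h, ho⟩ := H.ho
  rw [H.hf o, ho]
  simp only [LvlIdx.down, dif_neg hqN]

include H in
theorem StepIdx.cmp : TWAlg.Cmp o (twRes (𝒪 := 𝒪) W χ f' f) z ((q : ℕ) : 𝒪) := by
  obtain ⟨h, ho⟩ := H.ho
  obtain ⟨u, hzu, hχu⟩ := H.hz
  constructor
  · intro i hi m
    rw [HeckeSys.X_smul, HeckeSys.X_smul]
    show resH χ 𝒪 W (lvlOp χ 𝒪 W (f i) m) =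
      lvlOp (chiUp (q := q) χ) 𝒪 W (f' i) (resH χ 𝒪 W m)
    rw [H.hf i]
    refine resH_lvlOp χ 𝒪 W (f' i) (fun h' hi' => hi (H.hinj i ?_)) m
    rw [hi', ho]
  · intro m
    rw [HeckeSys.X_smul, HeckeSys.X_smul, HeckeSys.X_smul, HeckeSys.X_smul, HeckeSys.X_smul]
    show lvlOp (chiUp (q := q) χ) 𝒪 W (f' o) (lvlOp (chiUp (q := q) χ) 𝒪 W (f' o) (resH χ 𝒪 W m)) +
        ((q : ℕ) : 𝒪) • lvlOp (chiUp (q := q) χ) 𝒪 W (f' z) (resH χ 𝒪 W m) =
      lvlOp (chiUp (q := q) χ) 𝒪 W (f' o) (resH χ 𝒪 W (lvlOp χ 𝒪 W (f o) m))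
    rw [H.fo, ho, hzu, resH_Tq hqN χ 𝒪 W Fact.out m, map_add,
      lvlOp_Uq_sigH hqN χ 𝒪 W Fact.out m, lvlOp_diam, chiUp_apply, hχu]

/-! ### The natural transformation -/

section nat

variable [IsLocalRing 𝒪] [IsNoetherianRing 𝒪] [IsAdicComplete (maximalIdeal 𝒪) 𝒪]
variable {k : Type} [Field k] {ev ev' : MvPolynomial I 𝒪 →+* k}
variable {𝔪 𝔪' : Ideal (MvPolynomial I 𝒪)} [𝔪.IsMaximal] [𝔪'.IsMaximal]
variable (hp : TWAlg.Pts o ev ev' 𝔪 𝔪' z ((q : ℕ) : 𝒪))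

/-- the component of the comparison map at `W` -/
def twΦ (H : StepIdx hqN χ f' f o z) (hp : TWAlg.Pts o ev ev' 𝔪 𝔪' z ((q : ℕ) : 𝒪))
    (W : Type) [AddCommGroup W] [Module 𝒪 W] [DistribMulAction G W] [SMulCommClass G 𝒪 W]
    [Module.Finite 𝒪 W] :
    (levelSys χ f).F 𝒪 W 𝔪 →+ (levelSys (chiUp (q := q) χ) f').F 𝒪 W 𝔪' :=
  AddMonoidHom.mk' (TWAlg.Φ (𝔪' := 𝔪') (twRes (𝒪 := 𝒪) W χ f' f)
      ((levelSys χ f).loc_surjective W 𝔪))
    ((H.cmp W).Φ_add hp ((levelSys χ f).loc_surjective W 𝔪))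

theorem twΦ_loc [Module.Finite 𝒪 W] (m : (levelSys χ f).Coh 𝒪 W) :
    twΦ H hp W ((levelSys χ f).loc 𝒪 W 𝔪 m) =
      (levelSys (chiUp (q := q) χ) f').loc 𝒪 W 𝔪' (twRes (𝒪 := 𝒪) W χ f' f m) :=
  (H.cmp W).Φ_lam hp ((levelSys χ f).loc_surjective W 𝔪) m

/-- the comparison maps form a natural transformation -/
def twNat (H : StepIdx hqN χ f' f o z) (hp : TWAlg.Pts o ev ev' 𝔪 𝔪' z ((q : ℕ) : 𝒪)) :
    NatF (levelSys χ f) (levelSys (chiUp (q := q) χ) f') 𝒪 𝔪 𝔪' where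
  Φ W := twΦ H hp W
  nat W W' _ _ _ _ _ _ _ _ _ _ u hu y := by
    obtain ⟨m, rfl⟩ := (levelSys χ f).loc_surjective W 𝔪 y
    rw [HeckeSys.Fmap_loc, twΦ_loc, twΦ_loc, HeckeSys.Fmap_loc]
    congr 1
    exact H1.pull_map (inclMul N q) (levelPi_inclMul χ) u hu m

theorem twNat_Φ [Module.Finite 𝒪 W] : (twNat H hp).Φ W = twΦ H hp W := rfl

/-- the comparison maps commute with the operators `X i`, `i ≠ o` -/
theorem twΦ_X [Module.Finite 𝒪 W] (i : I) (hi : i ≠ o) (y : (levelSys χ f).F 𝒪 W 𝔪) :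
    twΦ H hp W ((X i : MvPolynomial I 𝒪) • y) = (X i : MvPolynomial I 𝒪) • twΦ H hp W y :=
  (H.cmp W).Φ_X hp ((levelSys χ f).loc_surjective W 𝔪) i hi y

end nat

/-! ### The transfer relations in the vocabulary of the two systems -/

section transfer

variable (htriv : ∀ (g : G) (w : W), g • w = w)
  (x y z' w : ℤ) (hal : (q : ℤ) * x * w - (N : ℤ) * y * z' = 1)

/-- the first transfer -/
def twA (χ : (ZMod N)ˣ →* G) (f' : I → LvlIdx (N * q)) (f : I → LvlIdx N) (hqN : ¬ q ∣ N)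
    (htriv : ∀ (g : G) (w : W), g • w = w) :
    (levelSys (chiUp (q := q) χ) f').Coh 𝒪 W →+ (levelSys χ f).Coh 𝒪 W :=
  trA hqN χ 𝒪 W htriv

/-- the second transfer -/
def twB (χ : (ZMod N)ˣ →* G) (f' : I → LvlIdx (N * q)) (f : I → LvlIdx N) (hqN : ¬ q ∣ N)
    (htriv : ∀ (g : G) (w : W), g • w = w)
    (x y z' w : ℤ) (hal : (q : ℤ) * x * w - (N : ℤ) * y * z' = 1) :
    (levelSys (chiUp (q := q) χ) f').Coh 𝒪 W →+ (levelSys χ f).Coh 𝒪 W :=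
  trB hqN x y z' w hal χ 𝒪 W htriv

/-- `T_q` on the cohomology of the first system -/
def opT (χ : (ZMod N)ˣ →* G) (f : I → LvlIdx N) (hqN : ¬ q ∣ N) :
    Module.End 𝒪 ((levelSys χ f).Coh 𝒪 W) :=
  lvlOp χ 𝒪 W (Sum.inl (Sum.inl ⟨q, Fact.out, hqN⟩))

/-- `U_q` on the cohomology of the second system -/
def opU (χ : (ZMod N)ˣ →* G) (f' : I → LvlIdx (N * q)) :
    Module.End 𝒪 ((levelSys (chiUp (q := q) χ) f').Coh 𝒪 W) :=
  lvlOp (chiUp (q := q) χ) 𝒪 W (Sum.inl (Sum.inr ⟨q, Fact.out, dvd_mul_left q N⟩))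

include H in
theorem StepIdx.Xo_smul (m : (levelSys χ f).Coh 𝒪 W) :
    (X o : MvPolynomial I 𝒪) • m = opT W χ f hqN m := by
  rw [HeckeSys.X_smul]
  show lvlOp χ 𝒪 W (f o) m = _
  rw [H.fo]
  rfl

include H in
theorem StepIdx.Xo_smul' (m' : (levelSys (chiUp (q := q) χ) f').Coh 𝒪 W) :
    (X o : MvPolynomial I 𝒪) • m' = opU W χ f' m' := by
  obtain ⟨hoh, ho⟩ := H.ho
  rw [HeckeSys.X_smul]
  show lvlOp (chiUp (q := q) χ) 𝒪 W (f' o) m' = _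
  rw [ho]
  rfl

theorem twA_res (m : (levelSys χ f).Coh 𝒪 W) :
    twA (𝒪 := 𝒪) W χ f' f hqN htriv (twRes W χ f' f m) = (q + 1) • m :=
  trA_resH hqN χ 𝒪 W htriv m

theorem twB_res (m : (levelSys χ f).Coh 𝒪 W) :
    twB (𝒪 := 𝒪) W χ f' f hqN htriv x y z' w hal (twRes W χ f' f m) = opT W χ f hqN m :=
  trB_resH hqN x y z' w hal χ 𝒪 W htriv Fact.out m

theorem twA_U_res (m : (levelSys χ f).Coh 𝒪 W) :
    twA (𝒪 := 𝒪) W χ f' f hqN htriv (opU W χ f' (twRes W χ f' f m)) = q • opT W χ f hqN m :=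
  trA_Uq_resH hqN χ 𝒪 W htriv Fact.out m

theorem twB_U_res (m : (levelSys χ f).Coh 𝒪 W) :
    twB (𝒪 := 𝒪) W χ f' f hqN htriv x y z' w hal (opU W χ f' (twRes W χ f' f m)) =
      opT W χ f hqN (opT W χ f hqN m) - (q + 1) • m :=
  trB_Uq_resH hqN x y z' w hal χ 𝒪 W htriv Fact.out m

theorem tw_one_sub (m' : (levelSys (chiUp (q := q) χ) f').Coh 𝒪 W) :
    m' - opU W χ f' (opU W χ f' m') =
      twRes W χ f' f (twA (𝒪 := 𝒪) W χ f' f hqN htriv m') -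
        opU W χ f' (twRes W χ f' f (twB (𝒪 := 𝒪) W χ f' f hqN htriv x y z' w hal m')) :=
  one_sub_Uq_sq hqN x y z' w hal χ 𝒪 W htriv Fact.out m'

theorem natCast_smul_coh {Γ₁ : Type} [Group Γ₁] (S₁ : HeckeSys Γ₁ G I) (n : ℕ)
    (m : S₁.Coh 𝒪 W) : ((n : ℕ) : 𝒪) • m = n • m := Nat.cast_smul_eq_nsmul 𝒪 n m

include H in
theorem StepIdx.h1 (m : (levelSys χ f).Coh 𝒪 W) :
    twA (𝒪 := 𝒪) W χ f' f hqN htriv (twRes W χ f' f m) =
      (C (((q : ℕ) : 𝒪) + 1) : MvPolynomial I 𝒪) • m := by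
  have e : ((q : ℕ) : 𝒪) + 1 = ((q + 1 : ℕ) : 𝒪) := by push_cast; rfl
  rw [HeckeSys.C_smul, e, natCast_smul_coh, twA_res]

include H in
theorem StepIdx.h2 (m : (levelSys χ f).Coh 𝒪 W) :
    twB (𝒪 := 𝒪) W χ f' f hqN htriv x y z' w hal (twRes W χ f' f m) =
      (X o : MvPolynomial I 𝒪) • m := by
  rw [H.Xo_smul, twB_res]

include H in
theorem StepIdx.h3 (m : (levelSys χ f).Coh 𝒪 W) :
    twA (𝒪 := 𝒪) W χ f' f hqN htriv ((X o : MvPolynomial I 𝒪) • twRes W χ f' f m) =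
      (C ((q : ℕ) : 𝒪) * X o : MvPolynomial I 𝒪) • m := by
  rw [H.Xo_smul', mul_smul, HeckeSys.C_smul, natCast_smul_coh, H.Xo_smul, twA_U_res]

include H in
theorem StepIdx.h4 (m : (levelSys χ f).Coh 𝒪 W) :
    twB (𝒪 := 𝒪) W χ f' f hqN htriv x y z' w hal
        ((X o : MvPolynomial I 𝒪) • twRes W χ f' f m) =
      ((X o : MvPolynomial I 𝒪) ^ 2 - C (((q : ℕ) : 𝒪) + 1) : MvPolynomial I 𝒪) • m := by
  have e : ((q : ℕ) : 𝒪) + 1 = ((q + 1 : ℕ) : 𝒪) := by push_cast; rfl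
  rw [H.Xo_smul', sub_smul, HeckeSys.C_smul, e, natCast_smul_coh, pow_two, mul_smul, H.Xo_smul,
    H.Xo_smul, twB_U_res]

include H in
theorem StepIdx.hS (m' : (levelSys (chiUp (q := q) χ) f').Coh 𝒪 W) :
    (1 - (X o : MvPolynomial I 𝒪) ^ 2 : MvPolynomial I 𝒪) • m' =
      twRes W χ f' f (twA (𝒪 := 𝒪) W χ f' f hqN htriv m') +
        (X o : MvPolynomial I 𝒪) •
          twRes W χ f' f (-twB (𝒪 := 𝒪) W χ f' f hqN htriv x y z' w hal m') := by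
  rw [sub_smul, one_smul, pow_two, mul_smul, map_neg, smul_neg, ← sub_eq_add_neg, H.Xo_smul',
    H.Xo_smul', H.Xo_smul', tw_one_sub W htriv x y z' w hal]

end transfer

/-! ### Bijectivity on the residue field -/

section resfield

variable [IsLocalRing 𝒪] [IsNoetherianRing 𝒪] [IsAdicComplete (maximalIdeal 𝒪) 𝒪]
  [Finite (ResidueField 𝒪)]
variable {ev ev' : MvPolynomial I 𝒪 →+* ResidueField 𝒪}
variable {𝔪 𝔪' : Ideal (MvPolynomial I 𝒪)} [𝔪.IsMaximal] [𝔪'.IsMaximal]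
variable (hp : TWAlg.Pts o ev ev' 𝔪 𝔪' z ((q : ℕ) : 𝒪))

include H hp in
theorem twΦ_bijective_resField [Module.Finite 𝒪 (TrivMod G (ResidueField 𝒪))]
    (hevC : ∀ a, ev' (C a) = residue 𝒪 a) (hq1 : ((q : ℕ) : ResidueField 𝒪) = 1)
    (hevz : ev' (X z) = 1) (hα1 : ev' (X o) ^ 2 ≠ 1) :
    Function.Bijective (twΦ H hp (TrivMod G (ResidueField 𝒪))) := by
  classical
  have htriv : ∀ (g : G) (w : TrivMod G (ResidueField 𝒪)), g • w = w := fun _ _ => rfl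
  obtain ⟨x, y, z', w, hal⟩ := exists_al_params (N := N) (q := q) hqN
  have hsur := (levelSys χ f).loc_surjective (TrivMod G (ResidueField 𝒪)) 𝔪
  have hsur' := (levelSys (chiUp (q := q) χ) f').loc_surjective (TrivMod G (ResidueField 𝒪)) 𝔪'
  have hqC : ev' (C ((q : ℕ) : 𝒪)) = 1 := by rw [hevC, map_natCast, hq1]
  have hT := hp.rel.hT
  rw [hqC, hevz, mul_one] at hT
  constructor
  · refine (H.cmp (TrivMod G (ResidueField 𝒪))).Φ_injective hp hsur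
      (twA (𝒪 := 𝒪) (TrivMod G (ResidueField 𝒪)) χ f' f hqN htriv)
      (twB (𝒪 := 𝒪) (TrivMod G (ResidueField 𝒪)) χ f' f hqN htriv x y z' w hal)
      (H.h1 _ htriv) (H.h2 _ htriv x y z' w hal) (H.h3 _ htriv) (H.h4 _ htriv x y z' w hal) ?_
    rw [map_sub, map_pow, hp.rel.hC, hevC, map_pow, map_add, map_one, map_natCast, hq1]
    intro h0
    apply hα1
    have h1 : (ev' (X o) ^ 2 - 1) ^ 2 = 0 := by
      linear_combination (-(ev' (X o) * ev (X o) + ev' (X o) ^ 2 + 1)) * hT +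
        ev' (X o) ^ 2 * h0
    exact sub_eq_zero.mp ((pow_eq_zero_iff two_ne_zero).mp h1)
  · obtain ⟨α₀, hα₀⟩ := residue_surjective (ev' (X o))
    refine (H.cmp (TrivMod G (ResidueField 𝒪))).Φ_surjective hp hsur hsur' ?_ hα1 α₀
      (by rw [hevC, hα₀]) ?_
    · rw [hqC, hevz, mul_one]
      exact hα1
    · intro y'
      exact ⟨_, _, H.hS _ htriv x y z' w hal y'⟩

end resfield

end step

end Fermat.Agent.S43lib.B1
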