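/-
S43lib / B1 / TWFlex  (helper3).

The one-prime Taylor–Wiles comparison in a flexible form (levels `N` and `M` with `M = N * q`, a
character `χ'` of level `M` with `χ' = χ ∘ (reduction)`), as a relation `TWRel`.
-/
import Fermat.Agent.S43lib.B1.TWStep
import Fermat.Agent.S43lib.B1.TWRel
import Fermat.Agent.S43lib.B1x.Devissage

set_option autoImplicit false
set_option linter.unusedSectionVars false
set_option linter.unusedVariables false

noncomputable section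

namespace Fermat.Agent.S43lib.B1

open MvPolynomial IsLocalRing CongruenceSubgroup
open Fermat.Agent.S41lib.HC Fermat.Agent.S31lib.PET

/-! ### Lemmas on `down` -/

section down

theorem card_lvlIota_down {N q : ℕ} [NeZero N] [NeZero (N * q)] (hq : q.Prime)
    (j : LvlIdx (N * q)) (hj : ∀ h : q.Prime ∧ q ∣ N * q, j ≠ Sum.inl (Sum.inr ⟨q, h⟩)) :
    Fintype.card (lvlIota N (LvlIdx.down (dvd_mul_right N q) j)) =
      Fintype.card (lvlIota (N * q) j) := by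
  rcases j with (ℓ | q') | u
  · rfl
  · have hne : q'.1 ≠ q := by
      intro h
      obtain ⟨q'', hq''⟩ := q'
      simp only at h
      subst h
      exact hj hq'' rfl
    have hq'N : q'.1 ∣ N := by
      rcases (Nat.Prime.dvd_mul q'.2.1).mp q'.2.2 with h | h
      · exact h
      · exact absurd ((Nat.prime_dvd_prime_iff_eq q'.2.1 hq).mp h) hne
    have hd : LvlIdx.down (dvd_mul_right N q) (Sum.inl (Sum.inr q') : LvlIdx (N * q)) =
        Sum.inl (Sum.inr ⟨q'.1, q'.2.1, hq'N⟩) := by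
      simp only [LvlIdx.down, dif_pos hq'N]
    rw [hd]
    rfl
  · rfl

theorem LvlIdx.down_down {M M' M'' : ℕ} [NeZero M] [NeZero M'] [NeZero M''] (h : M' ∣ M)
    (h' : M'' ∣ M') (j : LvlIdx M) :
    LvlIdx.down h' (LvlIdx.down h j) = LvlIdx.down (h'.trans h) j := by
  rcases j with (ℓ | q') | u
  · rfl
  · by_cases hq' : q'.1 ∣ M'
    · by_cases hq'' : q'.1 ∣ M''
      · simp only [LvlIdx.down, dif_pos hq', dif_pos hq'']
      · simp only [LvlIdx.down, dif_pos hq', dif_neg hq'']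
    · have hq'' : ¬ q'.1 ∣ M'' := fun hd => hq' (hd.trans h')
      simp only [LvlIdx.down, dif_neg hq', dif_neg hq'']
  · show (Sum.inr (ZMod.unitsMap h' (ZMod.unitsMap h u)) : LvlIdx M'') =
      Sum.inr (ZMod.unitsMap (h'.trans h) u)
    congr 1
    rw [← MonoidHom.comp_apply, ZMod.unitsMap_comp]

theorem card_lvlIota_down' {N M q : ℕ} [NeZero N] [NeZero M] (hq : q.Prime) (hM : M = N * q)
    (hdvd : N ∣ M) (j : LvlIdx M) (hj : ∀ h : q.Prime ∧ q ∣ M, j ≠ Sum.inl (Sum.inr ⟨q, h⟩)) :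
    Fintype.card (lvlIota N (LvlIdx.down hdvd j)) = Fintype.card (lvlIota M j) := by
  subst hM
  exact card_lvlIota_down hq j hj

theorem LvlIdx.down_self {M : ℕ} [NeZero M] (j : LvlIdx M) : LvlIdx.down (dvd_refl M) j = j := by
  rcases j with (ℓ | q') | u
  · rfl
  · simp only [LvlIdx.down, dif_pos q'.2.2]
  · show (Sum.inr (ZMod.unitsMap (dvd_refl M) u) : LvlIdx M) = Sum.inr u
    rw [ZMod.unitsMap_self]
    rfl

/-- an index which goes down to `U_r` is `U_r` -/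
theorem LvlIdx.eq_of_down_eq_U {M M' : ℕ} [NeZero M] [NeZero M'] (h : M' ∣ M) (j : LvlIdx M)
    (r : ℕ) (hr : r.Prime ∧ r ∣ M') (hj : LvlIdx.down h j = Sum.inl (Sum.inr ⟨r, hr⟩)) :
    j = Sum.inl (Sum.inr ⟨r, hr.1, hr.2.trans h⟩) := by
  rcases j with (ℓ | q') | u
  · simp [LvlIdx.down] at hj
  · by_cases hq' : q'.1 ∣ M'
    · simp only [LvlIdx.down, dif_pos hq'] at hj
      have h1 : q'.1 = r := by
        have := Sum.inr.inj (Sum.inl.inj hj)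
        exact congrArg Subtype.val this
      congr 2
      exact Subtype.ext h1
    · simp [LvlIdx.down, dif_neg hq'] at hj
  · simp [LvlIdx.down] at hj

end down

/-! ### The step -/

section flex

variable {𝒪 : Type} [CommRing 𝒪] [IsLocalRing 𝒪] [IsNoetherianRing 𝒪]
  [IsAdicComplete (maximalIdeal 𝒪) 𝒪] [Finite (ResidueField 𝒪)]
  [Invertible (2 : 𝒪)] [Invertible (3 : 𝒪)]
variable {p : ℕ} [Fact p.Prime]

theorem unitsMap_neg_one {N M : ℕ} (h : N ∣ M) : ZMod.unitsMap h (-1) = -1 := by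
  apply Units.ext
  rw [ZMod.unitsMap_def, Units.coe_map]
  show ZMod.castHom h (ZMod N) (-1) = -1
  rw [map_neg, map_one]

/-- the step for the literal levels `N`, `N * q` and the character `chiUp χ` -/
theorem twRel_step_lit {ϖ : 𝒪} (hϖ : maximalIdeal 𝒪 = Ideal.span {ϖ})
    (hp𝒪 : (p : 𝒪) ∈ maximalIdeal 𝒪)
    {N q : ℕ} [NeZero N] [NeZero (N * q)] [Fact q.Prime] (hqN : ¬ q ∣ N)
    {G : Type} [CommGroup G] [Fintype G] (hG : IsPGroup p G) (χ : (ZMod N)ˣ →* G)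
    (hχ1 : χ (-1) = 1)
    {I : Type} (f' : I → LvlIdx (N * q)) (f : I → LvlIdx N)
    (hf : ∀ i, f i = LvlIdx.down (dvd_mul_right N q) (f' i))
    (o z : I) (ho : ∃ h : q.Prime ∧ q ∣ N * q, f' o = Sum.inl (Sum.inr ⟨q, h⟩))
    (hinj : ∀ i, f' i = f' o → i = o)
    (hz : ∃ (u : (ZMod (N * q))ˣ) (v : (ZMod N)ˣ), f' z = Sum.inr u ∧
      (v : ZMod N) = (q : ZMod N) ∧ chiUp (q := q) χ u = χ v)
    (ev ev' : MvPolynomial I 𝒪 →+* ResidueField 𝒪)
    (hevC : ∀ a, ev (C a) = residue 𝒪 a) (hevC' : ∀ a, ev' (C a) = residue 𝒪 a)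
    (hevX : ∀ i, i ≠ o → ev (X i) = ev' (X i))
    (hq1 : ((q : ℕ) : ResidueField 𝒪) = 1) (hevz : ev' (X z) = 1)
    (hevo : ev' (X o) * ev (X o) = ev' (X o) ^ 2 + 1) (hα : ev' (X o) ^ 2 ≠ 1)
    (hne : ∃ i, i ≠ o ∧
      ev' (X i) ≠ ((Fintype.card (lvlIota (N * q) (f' i)) : ℕ) : ResidueField 𝒪))
    (𝔪 𝔪' : Ideal (MvPolynomial I 𝒪)) [𝔪.IsMaximal] [𝔪'.IsMaximal]
    (h𝔪 : ∀ s, s ∈ 𝔪 ↔ ev s = 0) (h𝔪' : ∀ s, s ∈ 𝔪' ↔ ev' s = 0) :
    TWRel (levelSys χ f) (levelSys (chiUp (q := q) χ) f') 𝔪 𝔪' ϖ {o} := by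
  classical
  have hq : q.Prime := Fact.out
  obtain ⟨hoh, ho'⟩ := ho
  obtain ⟨u, v, hzu, hv, hu⟩ := hz
  have hzo : z ≠ o := by
    intro h
    rw [h, ho'] at hzu
    exact absurd hzu (by simp)
  have hqC : ev' (C ((q : ℕ) : 𝒪)) = 1 := by rw [hevC', map_natCast, hq1]
  -- the index hypotheses
  have H : StepIdx hqN χ f' f o z := by
    refine ⟨hf, ⟨hoh, ho'⟩, hinj, u, hzu, ?_⟩
    rw [← chiUp_apply, hu]
    congr 1
    apply Units.ext
    rw [hv, coe_ellUnit]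
  -- the points
  have hp : TWAlg.Pts o ev ev' 𝔪 𝔪' z ((q : ℕ) : 𝒪) := by
    refine ⟨⟨hzo, fun a => by rw [hevC, hevC'], hevX, ?_⟩, h𝔪, h𝔪', ?_⟩
    · rw [hqC, hevz, mul_one]
      exact hevo
    · intro h0
      rw [h0, zero_mul, zero_pow two_ne_zero, zero_add] at hevo
      exact zero_ne_one hevo
  -- exactness and non-Eisenstein
  have hχ1' : chiUp (q := q) χ (-1) = 1 := by rw [chiUp_apply, unitsMap_neg_one, hχ1]
  have hS := lvlSys_rightExact χ f (commStmt N) hχ1 𝒪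
  have hS' := lvlSys_rightExact (chiUp (q := q) χ) f' (commStmt (N * q)) hχ1' 𝒪
  obtain ⟨i₀, hi₀, hne₀⟩ := hne
  have hne' : (levelSys (chiUp (q := q) χ) f').NonEis 𝔪' := by
    refine ⟨i₀, ?_⟩
    rw [h𝔪', map_sub, hevC', map_natCast]
    exact sub_ne_zero.mpr hne₀
  have hneS : (levelSys χ f).NonEis 𝔪 := by
    refine ⟨i₀, ?_⟩
    rw [h𝔪, map_sub, hevC, map_natCast, hevX i₀ hi₀]
    apply sub_ne_zero.mpr
    have hc : Fintype.card ((levelSys χ f).ι i₀) = Fintype.card (lvlIota (N * q) (f' i₀)) := by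
      show Fintype.card (lvlIota N (f i₀)) = _
      rw [hf i₀]
      refine card_lvlIota_down hq (f' i₀) (fun h' hi' => hi₀ (hinj i₀ ?_))
      rw [hi', ho']
    rw [hc]
    exact hne₀
  have : Module.Finite 𝒪 (TrivMod G (ResidueField 𝒪)) := Module.Finite.of_finite
  have h0 := twΦ_bijective_resField H hp hevC' hq1 hevz hα
  have hfin : ∀ (W : Type) [AddCommGroup W] [Module 𝒪 W] [DistribMulAction G W]
      [SMulCommClass G 𝒪 W] [Module.Finite 𝒪 W] [Finite W],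
      Function.Bijective ((twNat H hp).Φ W) := fun W _ _ _ _ _ _ =>
    NatF.bijective_of_finite (twNat H hp) hS hS' hneS hne' hG hϖ hp𝒪 h0 W
  refine ⟨twNat H hp, fun W _ _ _ _ _ hW => ?_, fun i hi W _ _ _ _ _ y => ?_⟩
  · rcases hW with hW | hW
    · exact hfin W
    · exact NatF.bijective_of_torsionFree (twNat H hp) hS hS' hneS hne' hϖ hfin W hW
  · exact twΦ_X H W hp i hi y

/-- **The one-prime Taylor–Wiles comparison**, flexible form. -/
theorem twRel_step {ϖ : 𝒪} (hϖ : maximalIdeal 𝒪 = Ideal.span {ϖ})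
    (hp𝒪 : (p : 𝒪) ∈ maximalIdeal 𝒪)
    {N M q : ℕ} [NeZero N] [NeZero M] (hq : q.Prime) (hqN : ¬ q ∣ N) (hM : M = N * q)
    (hdvd : N ∣ M)
    {G : Type} [CommGroup G] [Fintype G] (hG : IsPGroup p G) (χ : (ZMod N)ˣ →* G)
    (χ' : (ZMod M)ˣ →* G) (hχ : ∀ u, χ' u = χ (ZMod.unitsMap hdvd u)) (hχ1 : χ (-1) = 1)
    {I : Type} (f' : I → LvlIdx M) (f : I → LvlIdx N)
    (hf : ∀ i, f i = LvlIdx.down hdvd (f' i))
    (o z : I) (ho : ∃ h : q.Prime ∧ q ∣ M, f' o = Sum.inl (Sum.inr ⟨q, h⟩))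
    (hinj : ∀ i, f' i = f' o → i = o)
    (hz : ∃ (u : (ZMod M)ˣ) (v : (ZMod N)ˣ), f' z = Sum.inr u ∧
      (v : ZMod N) = (q : ZMod N) ∧ χ' u = χ v)
    (ev ev' : MvPolynomial I 𝒪 →+* ResidueField 𝒪)
    (hevC : ∀ a, ev (C a) = residue 𝒪 a) (hevC' : ∀ a, ev' (C a) = residue 𝒪 a)
    (hevX : ∀ i, i ≠ o → ev (X i) = ev' (X i))
    (hq1 : ((q : ℕ) : ResidueField 𝒪) = 1) (hevz : ev' (X z) = 1)
    (hevo : ev' (X o) * ev (X o) = ev' (X o) ^ 2 + 1) (hα : ev' (X o) ^ 2 ≠ 1)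
    (hne : ∃ i, i ≠ o ∧
      ev' (X i) ≠ ((Fintype.card (lvlIota M (f' i)) : ℕ) : ResidueField 𝒪))
    (𝔪 𝔪' : Ideal (MvPolynomial I 𝒪)) [𝔪.IsMaximal] [𝔪'.IsMaximal]
    (h𝔪 : ∀ s, s ∈ 𝔪 ↔ ev s = 0) (h𝔪' : ∀ s, s ∈ 𝔪' ↔ ev' s = 0) :
    TWRel (levelSys χ f) (levelSys χ' f') 𝔪 𝔪' ϖ {o} := by
  subst hM
  have : Fact q.Prime := ⟨hq⟩
  have hχ' : χ' = chiUp (q := q) χ := by
    ext u
    rw [hχ]
    rfl
  subst hχ'
  exact twRel_step_lit hϖ hp𝒪 hqN hG χ hχ1 f' f hf o z ho hinj hz ev ev' hevC hevC' hevX hq1 hevz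
    hevo hα hne 𝔪 𝔪' h𝔪 h𝔪'

end flex

end Fermat.Agent.S43lib.B1
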