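/-
S43lib / B1 / TWMulti  (helper3).

The multi-prime Taylor–Wiles comparison: induction over the list `Q` of Taylor–Wiles primes.
-/
import Fermat.Agent.S43lib.B1.TWFlex

set_option autoImplicit false
set_option linter.unusedSectionVars false
set_option linter.unusedVariables false

noncomputable section

namespace Fermat.Agent.S43lib.B1

open MvPolynomial IsLocalRing CongruenceSubgroup

section multi

variable {𝒪 : Type} [CommRing 𝒪] [IsLocalRing 𝒪] [IsNoetherianRing 𝒪]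
  [IsAdicComplete (maximalIdeal 𝒪) 𝒪] [Finite (ResidueField 𝒪)]
  [Invertible (2 : 𝒪)] [Invertible (3 : 𝒪)]
variable {p : ℕ} [Fact p.Prime]

/-- two points with the same values define the same ideal -/
theorem ideal_eq_of_ev {I : Type} {ev ev' : MvPolynomial I 𝒪 →+* ResidueField 𝒪}
    (hC : ∀ a, ev (C a) = ev' (C a)) (hX : ∀ i, ev (X i) = ev' (X i))
    {𝔪 𝔪' : Ideal (MvPolynomial I 𝒪)} (h𝔪 : ∀ s, s ∈ 𝔪 ↔ ev s = 0)
    (h𝔪' : ∀ s, s ∈ 𝔪' ↔ ev' s = 0) : 𝔪 = 𝔪' := by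
  have h : ev = ev' := MvPolynomial.ringHom_ext hC hX
  ext s
  rw [h𝔪, h𝔪', h]

theorem prime_not_dvd_list_prod {q : ℕ} (hq : q.Prime) (Q : List ℕ)
    (hQ : ∀ r ∈ Q, r.Prime) (hqQ : q ∉ Q) : ¬ q ∣ Q.prod := by
  intro h
  obtain ⟨r, hr, hqr⟩ := (Prime.dvd_prod_iff hq.prime).mp h
  have := (Nat.prime_dvd_prime_iff_eq hq (hQ r hr)).mp hqr
  exact hqQ (this ▸ hr)

/-- the hypotheses relating the base level `M₀` and the level `M = M₀ * ∏ Q` -/
structure TWHyp (𝒪 : Type) [CommRing 𝒪] [IsLocalRing 𝒪] {M₀ M : ℕ} [NeZero M₀] [NeZero M]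
    (hdvd : M₀ ∣ M) {G₀ : Type} [CommGroup G₀] (χ₀ : (ZMod M₀)ˣ →* G₀) (χ : (ZMod M)ˣ →* G₀)
    {I : Type} (f₀ : I → LvlIdx M₀) (f : I → LvlIdx M) (o z : ℕ → I)
    (ev₀ ev : MvPolynomial I 𝒪 →+* ResidueField 𝒪) (Q : List ℕ) : Prop where
  hM : M = M₀ * Q.prod
  hQp : ∀ q ∈ Q, q.Prime ∧ ¬ q ∣ M₀ ∧ ((q : ℕ) : ResidueField 𝒪) = 1
  hχ : ∀ u, χ u = χ₀ (ZMod.unitsMap hdvd u)
  hf : ∀ i, f₀ i = LvlIdx.down hdvd (f i)
  ho : ∀ q ∈ Q, ∃ h : q.Prime ∧ q ∣ M, f (o q) = Sum.inl (Sum.inr ⟨q, h⟩)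
  hinj : ∀ q ∈ Q, ∀ i, f i = f (o q) → i = o q
  hz : ∀ q ∈ Q, ∃ u : (ZMod M)ˣ, f (z q) = Sum.inr u ∧
    ((ZMod.unitsMap hdvd u : (ZMod M₀)ˣ) : ZMod M₀) = (q : ZMod M₀)
  hevC : ∀ a, ev (C a) = residue 𝒪 a
  hevX : ∀ i, (∀ q ∈ Q, i ≠ o q) → ev₀ (X i) = ev (X i)
  hevz : ∀ q ∈ Q, ev (X (z q)) = 1
  hevo : ∀ q ∈ Q, ev (X (o q)) * ev₀ (X (o q)) = ev (X (o q)) ^ 2 + 1
  hα : ∀ q ∈ Q, ev (X (o q)) ^ 2 ≠ 1
  hne : ∃ i, (∀ q ∈ Q, i ≠ o q) ∧
    ev (X i) ≠ ((Fintype.card (lvlIota M (f i)) : ℕ) : ResidueField 𝒪)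

/-- **The multi-prime Taylor–Wiles comparison.** -/
theorem twRel_multi {ϖ : 𝒪} (hϖ : maximalIdeal 𝒪 = Ideal.span {ϖ})
    (hp𝒪 : (p : 𝒪) ∈ maximalIdeal 𝒪)
    {M₀ : ℕ} [NeZero M₀] {G₀ : Type} [CommGroup G₀] [Fintype G₀] (hG : IsPGroup p G₀)
    (χ₀ : (ZMod M₀)ˣ →* G₀) (hχ1 : χ₀ (-1) = 1) {I : Type} (f₀ : I → LvlIdx M₀) (o z : ℕ → I)
    (ev₀ : MvPolynomial I 𝒪 →+* ResidueField 𝒪) (hev₀C : ∀ a, ev₀ (C a) = residue 𝒪 a)
    (𝔪₀ : Ideal (MvPolynomial I 𝒪)) [𝔪₀.IsMaximal] (h𝔪₀ : ∀ s, s ∈ 𝔪₀ ↔ ev₀ s = 0) :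
    ∀ (Q : List ℕ), Q.Nodup → ∀ {M : ℕ} [NeZero M] (hdvd : M₀ ∣ M) (χ : (ZMod M)ˣ →* G₀)
      (f : I → LvlIdx M) (ev : MvPolynomial I 𝒪 →+* ResidueField 𝒪)
      (H : TWHyp 𝒪 hdvd χ₀ χ f₀ f o z ev₀ ev Q) (𝔪 : Ideal (MvPolynomial I 𝒪)) [𝔪.IsMaximal]
      (h𝔪 : ∀ s, s ∈ 𝔪 ↔ ev s = 0),
      TWRel (levelSys χ₀ f₀) (levelSys χ f) 𝔪₀ 𝔪 ϖ {i | ∃ q ∈ Q, i = o q} := by
  classical
  intro Q
  induction Q with
  | nil =>
    intro _ M _ hdvd χ f ev H 𝔪 _ h𝔪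
    have hM : M = M₀ := by simpa using H.hM
    subst hM
    have hχ : χ = χ₀ := by
      ext u
      rw [H.hχ, ZMod.unitsMap_self]
      rfl
    have hf : f = f₀ := by
      funext i
      rw [H.hf, LvlIdx.down_self]
    have h𝔪eq : 𝔪 = 𝔪₀ := by
      refine ideal_eq_of_ev (fun a => by rw [H.hevC, hev₀C]) (fun i => ?_) h𝔪 h𝔪₀
      exact (H.hevX i (fun q hq => absurd hq (List.not_mem_nil))).symm
    subst hχ hf h𝔪eq
    exact (TWRel.refl _ _ ϖ).mono (Set.empty_subset _)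
  | cons q Q' ih =>
    intro hnd M _ hdvd χ f ev H 𝔪 _ h𝔪
    have hqQ' : q ∉ Q' := (List.nodup_cons.mp hnd).1
    have hnd' : Q'.Nodup := (List.nodup_cons.mp hnd).2
    obtain ⟨hq, hqM₀, hq1⟩ := H.hQp q (List.mem_cons_self)
    have hQ'p : ∀ r ∈ Q', r.Prime := fun r hr => (H.hQp r (List.mem_cons_of_mem q hr)).1
    -- the intermediate level
    set M' : ℕ := M₀ * Q'.prod with hM'def
    have hMM' : M = M' * q := by
      rw [H.hM, List.prod_cons, hM'def]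
      ring
    have hM'M : M' ∣ M := ⟨q, hMM'⟩
    have hdvd' : M₀ ∣ M' := ⟨Q'.prod, rfl⟩
    have : NeZero M' := ⟨fun h0 => NeZero.ne M (by rw [hMM', h0, zero_mul])⟩
    have hqM' : ¬ q ∣ M' := by
      intro h
      rcases (Nat.Prime.dvd_mul hq).mp h with h | h
      · exact hqM₀ h
      · exact prime_not_dvd_list_prod hq Q' hQ'p hqQ' h
    -- the intermediate data
    set χ' : (ZMod M')ˣ →* G₀ := χ₀.comp (ZMod.unitsMap hdvd') with hχ'def
    set f' : I → LvlIdx M' := fun i => LvlIdx.down hM'M (f i) with hf'def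
    set vals : I → ResidueField 𝒪 := fun i => if i = o q then ev₀ (X (o q)) else ev (X i)
      with hvals
    set ev' : MvPolynomial I 𝒪 →+* ResidueField 𝒪 := eval₂Hom (residue 𝒪) vals with hev'def
    have hev'C : ∀ a, ev' (C a) = residue 𝒪 a := fun a => by rw [hev'def, coe_eval₂Hom, eval₂_C]
    have hev'X : ∀ i, ev' (X i) = vals i := fun i => by rw [hev'def, coe_eval₂Hom, eval₂_X]
    have hev'o : ev' (X (o q)) = ev₀ (X (o q)) := by rw [hev'X, hvals]; exact if_pos rfl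
    have hev'ne : ∀ i, i ≠ o q → ev' (X i) = ev (X i) := fun i hi => by
      rw [hev'X, hvals]
      exact if_neg hi
    have hev'sur : Function.Surjective ev' := by
      intro c
      obtain ⟨a, rfl⟩ := residue_surjective c
      exact ⟨C a, hev'C a⟩
    set 𝔪' : Ideal (MvPolynomial I 𝒪) := RingHom.ker ev' with h𝔪'def
    have : 𝔪'.IsMaximal := RingHom.ker_isMaximal_of_surjective ev' hev'sur
    have h𝔪' : ∀ s, s ∈ 𝔪' ↔ ev' s = 0 := fun s => RingHom.mem_ker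
    -- facts on the indices
    obtain ⟨hoq, hfoq⟩ := H.ho q (List.mem_cons_self)
    have hoo : ∀ r ∈ Q', o r ≠ o q := by
      intro r hr h
      obtain ⟨hor, hfor⟩ := H.ho r (List.mem_cons_of_mem q hr)
      rw [h, hfoq] at hfor
      have h1 : q = r := congrArg Subtype.val (Sum.inr.inj (Sum.inl.inj hfor))
      exact hqQ' (h1 ▸ hr)
    have hzo : ∀ r ∈ q :: Q', z r ≠ o q := by
      intro r hr h
      obtain ⟨u, hu, -⟩ := H.hz r hr
      rw [h, hfoq] at hu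
      exact absurd hu (by simp)
    -- the hypotheses at the intermediate level
    have H' : TWHyp 𝒪 hdvd' χ₀ χ' f₀ f' o z ev₀ ev' Q' := by
      refine ⟨rfl, fun r hr => H.hQp r (List.mem_cons_of_mem q hr), fun u => rfl, fun i => ?_,
        fun r hr => ?_, fun r hr i hi => ?_, fun r hr => ?_, hev'C, fun i hi => ?_,
        fun r hr => ?_, fun r hr => ?_, fun r hr => ?_, ?_⟩
      · rw [hf'def, LvlIdx.down_down, H.hf]
      · obtain ⟨hor, hfor⟩ := H.ho r (List.mem_cons_of_mem q hr)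
        have hrM' : r ∣ M' := by
          rw [hM'def]
          exact dvd_mul_of_dvd_right (List.dvd_prod hr) M₀
        refine ⟨⟨hor.1, hrM'⟩, ?_⟩
        show LvlIdx.down hM'M (f (o r)) = _
        rw [hfor]
        simp only [LvlIdx.down, dif_pos hrM']
      · obtain ⟨hor, hfor⟩ := H.ho r (List.mem_cons_of_mem q hr)
        have hrM' : r ∣ M' := by
          rw [hM'def]
          exact dvd_mul_of_dvd_right (List.dvd_prod hr) M₀
        have h1 : LvlIdx.down hM'M (f (o r)) = Sum.inl (Sum.inr ⟨r, hor.1, hrM'⟩) := by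
          rw [hfor]
          simp only [LvlIdx.down, dif_pos hrM']
        have h2 : LvlIdx.down hM'M (f i) = Sum.inl (Sum.inr ⟨r, hor.1, hrM'⟩) := hi.trans h1
        have h3 := LvlIdx.eq_of_down_eq_U hM'M (f i) r ⟨hor.1, hrM'⟩ h2
        exact H.hinj r (List.mem_cons_of_mem q hr) i (h3.trans hfor.symm)
      · obtain ⟨u, hu, huq⟩ := H.hz r (List.mem_cons_of_mem q hr)
        refine ⟨ZMod.unitsMap hM'M u, ?_, ?_⟩
        · show LvlIdx.down hM'M (f (z r)) = _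
          rw [hu]
          rfl
        · rw [← huq, ← MonoidHom.comp_apply, ZMod.unitsMap_comp]
      · by_cases hi' : i = o q
        · rw [hi', hev'o]
        · rw [hev'ne i hi']
          refine H.hevX i (fun r hr => ?_)
          rcases List.mem_cons.mp hr with rfl | hr
          · exact hi'
          · exact hi r hr
      · rw [hev'ne _ (hzo r (List.mem_cons_of_mem q hr))]
        exact H.hevz r (List.mem_cons_of_mem q hr)
      · rw [hev'ne _ (hoo r hr)]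
        exact H.hevo r (List.mem_cons_of_mem q hr)
      · rw [hev'ne _ (hoo r hr)]
        exact H.hα r (List.mem_cons_of_mem q hr)
      · obtain ⟨i₀, hi₀, hne₀⟩ := H.hne
        have hi₀q : i₀ ≠ o q := hi₀ q (List.mem_cons_self)
        refine ⟨i₀, fun r hr => hi₀ r (List.mem_cons_of_mem q hr), ?_⟩
        rw [hev'ne i₀ hi₀q]
        have hc : Fintype.card (lvlIota M' (f' i₀)) = Fintype.card (lvlIota M (f i₀)) := by
          refine card_lvlIota_down' hq hMM' hM'M (f i₀) (fun h' hi' => hi₀q ?_)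
          refine H.hinj q (List.mem_cons_self) i₀ ?_
          rw [hi', hfoq]
        rw [hc]
        exact hne₀
    have R₁ := ih hnd' hdvd' χ' f' ev' H' 𝔪' h𝔪'
    -- the step
    have hχ'1 : χ' (-1) = 1 := by
      rw [hχ'def, MonoidHom.comp_apply, unitsMap_neg_one, hχ1]
    have hcop : Nat.Coprime q M' := (Nat.Prime.coprime_iff_not_dvd hq).mpr hqM'
    have R₂ : TWRel (levelSys χ' f') (levelSys χ f) 𝔪' 𝔪 ϖ {o q} := by
      refine twRel_step hϖ hp𝒪 hq hqM' hMM' hM'M hG χ' χ (fun u => ?_) hχ'1 f f' (fun i => rfl)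
        (o q) (z q) ⟨hoq, hfoq⟩ (H.hinj q (List.mem_cons_self)) ?_ ev' ev hev'C H.hevC
        (fun i hi => hev'ne i hi) hq1 (H.hevz q (List.mem_cons_self)) ?_
        (H.hα q (List.mem_cons_self)) ?_ 𝔪' 𝔪 h𝔪' h𝔪
      · rw [H.hχ, hχ'def, MonoidHom.comp_apply, ← MonoidHom.comp_apply (ZMod.unitsMap hdvd'),
          ZMod.unitsMap_comp]
      · obtain ⟨u, hu, huq⟩ := H.hz q (List.mem_cons_self)
        refine ⟨u, ZMod.unitOfCoprime q hcop, hu, ZMod.coe_unitOfCoprime q hcop, ?_⟩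
        rw [H.hχ, hχ'def, MonoidHom.comp_apply]
        congr 1
        apply Units.ext
        rw [huq, ZMod.unitsMap_def, Units.coe_map, ZMod.coe_unitOfCoprime]
        exact (map_natCast (ZMod.castHom hdvd' (ZMod M₀)) q).symm
      · rw [hev'o]
        exact H.hevo q (List.mem_cons_self)
      · obtain ⟨i₀, hi₀, hne₀⟩ := H.hne
        exact ⟨i₀, hi₀ q (List.mem_cons_self), hne₀⟩
    refine (R₁.trans R₂).mono ?_
    rintro i (⟨r, hr, rfl⟩ | hi)
    · exact ⟨r, List.mem_cons_of_mem q hr, rfl⟩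
    · exact ⟨q, List.mem_cons_self, hi⟩

end multi

end Fermat.Agent.S43lib.B1
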