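/-
S43lib / B1 / Control  (helper3).

**The Taylor–Wiles control theorem** `twControl : TWControlStmt`: freeness of the localised
cohomologies at the levels `M₀` and `M = M₀ ∏ Q` over `𝒪[G₀]` and `𝒪[G]`, of the same rank, and the
control map `M_Q → M_∅`.
-/
import Fermat.Agent.S43lib.B1.TWMulti
import Fermat.Agent.S43lib.B1.RegPush
import Fermat.Agent.S43lib.B1.Iface

set_option autoImplicit false
set_option linter.unusedSectionVars false
set_option linter.unusedVariables false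

noncomputable section

namespace Fermat.Agent.S43lib.B1

open MvPolynomial IsLocalRing CongruenceSubgroup

theorem card_lvlIota_down_gen {M₀ M : ℕ} [NeZero M₀] [NeZero M] (hdvd : M₀ ∣ M) (j : LvlIdx M)
    (hj : ∀ (q : ℕ) (h : q.Prime ∧ q ∣ M), j = Sum.inl (Sum.inr ⟨q, h⟩) → q ∣ M₀) :
    Fintype.card (lvlIota M₀ (LvlIdx.down hdvd j)) = Fintype.card (lvlIota M j) := by
  rcases j with (ℓ | q') | u
  · rfl
  · have hq' : q'.1 ∣ M₀ := hj q'.1 q'.2 rfl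
    have hd : LvlIdx.down hdvd (Sum.inl (Sum.inr q') : LvlIdx M) =
        Sum.inl (Sum.inr ⟨q'.1, q'.2.1, hq'⟩) := by
      simp only [LvlIdx.down, dif_pos hq']
    rw [hd]
    rfl
  · rfl

theorem levelSys_push {M : ℕ} [NeZero M] {G G₀ : Type} [Group G] [Group G₀]
    (χ : (ZMod M)ˣ →* G) (φ : G →* G₀) {I : Type} (f : I → LvlIdx M) :
    levelSys (φ.comp χ) f = (levelSys χ f).push φ := rfl

/-- **The Taylor–Wiles control theorem.** -/
theorem twControl : TWControlStmt := by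
  intro 𝒪 _ _ _ _ _ _ _ _ p _ ϖ hϖ hϖ0 hp𝒪 M₀ M _ _ Q hQ hdvd hM hQp G G₀ _ _ _ _ hG φ hφ χ χ₀
    hχ hχ1 I f f₀ hf o z ho hinj hz ev ev₀ hevC hev₀C hevX hevz hevo hα hne 𝔪 𝔪₀ _ _ h𝔪 h𝔪₀
  classical
  have hG₀ : IsPGroup p G₀ := hG.of_surjective φ hφ
  have hχ₀1 : χ₀ (-1) = 1 := by
    rw [← unitsMap_neg_one hdvd, ← hχ, hχ1, map_one]
  have H : TWHyp 𝒪 hdvd χ₀ (φ.comp χ) f₀ f o z ev₀ ev Q :=
    ⟨hM, hQp, hχ, hf, ho, hinj, hz, hevC, hevX, hevz, hevo, hα, hne⟩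
  have R : TWRel (levelSys χ₀ f₀) ((levelSys χ f).push φ) 𝔪₀ 𝔪 ϖ {i | ∃ q ∈ Q, i = o q} :=
    twRel_multi hϖ hp𝒪 hG₀ χ₀ hχ₀1 f₀ o z ev₀ hev₀C 𝔪₀ h𝔪₀ Q hQ hdvd (φ.comp χ) f ev H 𝔪 h𝔪
  obtain ⟨T, hbij, hX⟩ := R
  -- right exactness and the non-Eisenstein conditions
  have hS : (levelSys χ f).RightExact 𝒪 := lvlSys_rightExact χ f (commStmt M) hχ1 𝒪
  obtain ⟨i₀, hi₀, hne₀⟩ := hne
  have hneTop : (levelSys χ f).NonEis 𝔪 := by
    refine ⟨i₀, ?_⟩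
    rw [h𝔪, map_sub, hevC, map_natCast]
    exact sub_ne_zero.mpr hne₀
  have hneBase : (levelSys χ₀ f₀).NonEis 𝔪₀ := by
    refine ⟨i₀, ?_⟩
    rw [h𝔪₀, map_sub, hev₀C, map_natCast, hevX i₀ hi₀]
    apply sub_ne_zero.mpr
    have hc : Fintype.card ((levelSys χ₀ f₀).ι i₀) = Fintype.card (lvlIota M (f i₀)) := by
      show Fintype.card (lvlIota M₀ (f₀ i₀)) = _
      rw [hf i₀]
      refine card_lvlIota_down_gen hdvd (f i₀) (fun q h hj => ?_)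
      by_contra hqM₀
      have hqQ : q ∣ Q.prod := by
        have h1 : q ∣ M₀ * Q.prod := hM ▸ h.2
        rcases (Nat.Prime.dvd_mul h.1).mp h1 with h2 | h2
        · exact absurd h2 hqM₀
        · exact h2
      obtain ⟨r, hr, hqr⟩ := (Prime.dvd_prod_iff h.1.prime).mp hqQ
      have hqr' : q = r := (Nat.prime_dvd_prime_iff_eq h.1 (hQp r hr).1).mp hqr
      subst hqr'
      obtain ⟨h', hfo⟩ := ho q hr
      exact hi₀ q hr (hinj q hr i₀ (hj.trans hfo.symm))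
    rw [hc]
    exact hne₀
  -- the bases
  obtain ⟨r, b, hcard, hb⟩ :=
    lvlSys_exists_basis χ f (commStmt M) hG hχ1 hϖ hϖ0 hp𝒪 𝔪 hneTop
  obtain ⟨r₀, b₀, hcard₀, hb₀⟩ :=
    lvlSys_exists_basis χ₀ f₀ (commStmt M₀) hG₀ hχ₀1 hϖ hϖ0 hp𝒪 𝔪₀ hneBase
  -- the ranks agree
  have hr : r₀ = r := by
    have : Module.Finite 𝒪 (TrivMod G₀ (ResidueField 𝒪)) := Module.Finite.of_finite
    have e1 := (levelSys χ f).ctrlTriv_bijective φ 𝔪 (ResidueField 𝒪)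
    have e2 := hbij (TrivMod G₀ (ResidueField 𝒪)) (Or.inl inferInstance)
    have h1 := Nat.card_eq_of_bijective _ e1
    have h2 := Nat.card_eq_of_bijective _ e2
    have h3 : Nat.card (ResidueField 𝒪) ^ r₀ = Nat.card (ResidueField 𝒪) ^ r := by
      rw [← hcard, ← hcard₀, h1, h2]
    have hk2 : 2 ≤ Nat.card (ResidueField 𝒪) := by
      have : 1 < Nat.card (ResidueField 𝒪) := Finite.one_lt_card
      omega
    exact Nat.pow_right_injective hk2 h3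
  subst hr
  -- the comparison at `𝒪[G₀]`
  have htf : GoodW ϖ (Reg G₀ 𝒪) := by
    refine Or.inr fun w hw => ?_
    ext x
    have h1 : ϖ * w x = 0 := congrArg (fun w' : Reg G₀ 𝒪 => w' x) hw
    rcases mul_eq_zero.mp h1 with h2 | h2
    · exact absurd h2 hϖ0
    · exact h2
  have hΨ := hbij (Reg G₀ 𝒪) htf
  set Ψ := AddEquiv.ofBijective (T.Φ (Reg G₀ 𝒪)) hΨ with hΨdef
  have hΨapply : ∀ y, Ψ y = T.Φ (Reg G₀ 𝒪) y := fun y => rfl
  set v : (levelSys χ f).F 𝒪 (Reg G 𝒪) 𝔪 →+ (levelSys χ₀ f₀).F 𝒪 (Reg G₀ 𝒪) 𝔪₀ :=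
    Ψ.symm.toAddMonoidHom.comp ((levelSys χ f).ctrl φ 𝔪).toAddMonoidHom with hvdef
  have hv : ∀ y, v y = Ψ.symm ((levelSys χ f).ctrl φ 𝔪 y) := fun y => rfl
  refine ⟨r₀, b, b₀, v, hb, hb₀, ?_, ?_, ?_, ?_, ?_⟩
  · -- surjectivity
    intro y₀
    obtain ⟨y, hy⟩ := (levelSys χ f).ctrl_surjective φ 𝔪 hS hφ (Ψ y₀)
    exact ⟨y, by rw [hv, hy, AddEquiv.symm_apply_apply]⟩
  · -- the kernel
    intro y
    rw [hv, AddEquiv.map_eq_zero_iff]
    exact (levelSys χ f).ctrl_eq_zero_iff φ 𝔪 hS hφ y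
  · -- the Hecke operators
    intro i hi y
    rw [hv, hv, map_smul, AddEquiv.symm_apply_eq, hΨapply,
      hX i (fun ⟨q, hq, hiq⟩ => hi q hq hiq) (Reg G₀ 𝒪), ← hΨapply, AddEquiv.apply_symm_apply]
  · -- linearity
    intro a y
    rw [hv, hv, ← algebraMap_smul (MvPolynomial I 𝒪) a y, map_smul, algebraMap_smul,
      AddEquiv.symm_apply_eq, hΨapply, T.map_smul', ← hΨapply, AddEquiv.apply_symm_apply]
  · -- the diamond operators
    intro g y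
    rw [hv, hv, (levelSys χ f).ctrl_Gact φ 𝔪, AddEquiv.symm_apply_eq, hΨapply, T.map_Gact,
      ← hΨapply, AddEquiv.apply_symm_apply]

end Fermat.Agent.S43lib.B1
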