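/-
S43lib / B1 / LAEigen  (helper3).

Pure linear algebra: a commuting family of endomorphisms `T j` of a finite dimensional vector space
`V` over the fraction field `K` of a domain `R`, and values `a j ∈ R` such that every polynomial
relation `P(T) = 0` (`P ∈ R[X_J]`) holds for the values (`P(a) = 0`).  Then there is a common
eigenvector with eigenvalues `a j`.
-/
import Mathlib
import Fermat.Agent.S43lib.B1.HeckeLoc

set_option autoImplicit false
set_option linter.unusedSectionVars false
set_option linter.unusedVariables false

noncomputable section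

namespace Fermat.Agent.S43lib.B1

section nilp

variable {K V : Type*} [Field K] [AddCommGroup V] [Module K V]

/-- a locally nilpotent operator preserving a nonzero subspace kills a nonzero vector of it -/
theorem exists_ne_zero_mem_ker_of_locNilpotent (U : Submodule K V) (hU : U ≠ ⊥)
    (N : Module.End K V) (hNU : ∀ u ∈ U, N u ∈ U) (hnil : ∀ u ∈ U, ∃ k : ℕ, (N ^ k) u = 0) :
    ∃ u ∈ U, u ≠ 0 ∧ N u = 0 := by
  classical
  obtain ⟨u, hu, hu0⟩ := Submodule.exists_mem_ne_zero_of_ne_bot hU
  have hpowU : ∀ k : ℕ, (N ^ k) u ∈ U := by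
    intro k
    induction k with
    | zero => simpa using hu
    | succ k ih =>
      rw [pow_succ', Module.End.mul_apply]
      exact hNU _ ih
  set k := Nat.find (hnil u hu) with hk
  have hk0 : (N ^ k) u = 0 := Nat.find_spec (hnil u hu)
  have hkpos : k ≠ 0 := by
    intro h0
    rw [h0, pow_zero, Module.End.one_apply] at hk0
    exact hu0 hk0
  obtain ⟨k', hk'⟩ := Nat.exists_eq_succ_of_ne_zero hkpos
  have hk'' : k = k' + 1 := hk'
  refine ⟨(N ^ k') u, hpowU k', ?_, ?_⟩
  · intro h
    exact Nat.find_min (hnil u hu) (by omega : k' < k) h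
  · rw [← Module.End.mul_apply, ← pow_succ', ← hk'']
    exact hk0

end nilp

section single

open Polynomial

variable {R K V : Type*} [CommRing R] [IsDomain R] [Field K] [Algebra R K] [IsFractionRing R K]
  [AddCommGroup V] [Module K V] [FiniteDimensional K V]

/-- for an endomorphism `f` and a value `a`, a polynomial `ν` over `R` with `ν(a) ≠ 0` such that
`ν(f)` maps into the generalized eigenspace of `f` for `a` -/
theorem exists_poly_into_genEigenspace (f : Module.End K V) (a : R) :
    ∃ ν : R[X], ν.eval a ≠ 0 ∧
      ∀ v : V, aeval f (ν.map (algebraMap R K)) v ∈ f.maxGenEigenspace (algebraMap R K a) := by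
  set μ : K := algebraMap R K a with hμ
  have hp : f.charpoly ≠ 0 := (LinearMap.charpoly_monic f).ne_zero
  obtain ⟨q, hpq, hq⟩ := exists_eq_pow_rootMultiplicity_mul_and_not_dvd f.charpoly hp μ
  have hqμ : q.eval μ ≠ 0 := fun h => hq (dvd_iff_isRoot.mpr h)
  obtain ⟨b, hb, hbq⟩ := IsLocalization.integerNormalization_spec (nonZeroDivisors R) q
  refine ⟨IsLocalization.integerNormalization (nonZeroDivisors R) q, ?_, fun v => ?_⟩
  · intro h0
    have h1 : ((IsLocalization.integerNormalization (nonZeroDivisors R) q).map
        (algebraMap R K)).eval μ = 0 := by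
      rw [hμ, eval_map_algebraMap, aeval_algebraMap_apply_eq_algebraMap_eval, h0, map_zero]
    rw [hbq, ← algebraMap_smul K b q, eval_smul, smul_eq_mul, mul_eq_zero] at h1
    rcases h1 with h1 | h1
    · have : b = 0 := (IsFractionRing.injective R K) (by rw [h1, map_zero])
      exact nonZeroDivisors.ne_zero hb this
    · exact hqμ h1
  · rw [hbq, ← algebraMap_smul K b q, Module.End.mem_maxGenEigenspace]
    refine ⟨f.charpoly.rootMultiplicity μ, ?_⟩
    have h2 : (f - μ • (1 : Module.End K V)) ^ (f.charpoly.rootMultiplicity μ) =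
        aeval f ((X - C μ) ^ (f.charpoly.rootMultiplicity μ)) := by
      rw [map_pow, map_sub, aeval_X, aeval_C, Algebra.algebraMap_eq_smul_one]
    rw [h2, map_smul, LinearMap.smul_apply, map_smul, ← Module.End.mul_apply, ← map_mul, ← hpq,
      LinearMap.aeval_self_charpoly, LinearMap.zero_apply, smul_zero]

end single

section family

open MvPolynomial

variable {R K V : Type*} [CommRing R] [IsDomain R] [Field K] [Algebra R K] [IsFractionRing R K]
  [AddCommGroup V] [Module K V] [FiniteDimensional K V]
variable {J : Type*} (T : J → Module.End K V) (hT : ∀ i j, T i * T j = T j * T i)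

/-- the evaluation of polynomials over `R` at the family `T` -/
def famHom : MvPolynomial J R →+* Module.End K V :=
  (polyHom (R := K) T hT).toRingHom.comp (MvPolynomial.map (algebraMap R K))

@[simp] theorem famHom_X (j : J) : famHom T hT (X j : MvPolynomial J R) = T j := by
  unfold famHom
  rw [RingHom.comp_apply, MvPolynomial.map_X]
  exact polyHom_X T hT j

theorem famHom_C (r : R) : famHom T hT (C r) = algebraMap K (Module.End K V) (algebraMap R K r) := by
  unfold famHom
  rw [RingHom.comp_apply, MvPolynomial.map_C, ← MvPolynomial.algebraMap_eq]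
  exact (polyHom (R := K) T hT).commutes _

theorem famHom_aeval (j : J) (ν : Polynomial R) :
    famHom T hT (Polynomial.aeval (X j : MvPolynomial J R) ν) =
      Polynomial.aeval (T j) (ν.map (algebraMap R K)) := by
  rw [Polynomial.aeval_def, Polynomial.hom_eval₂, famHom_X, Polynomial.aeval_def,
    Polynomial.eval₂_map]
  congr 1
  ext r
  rw [RingHom.comp_apply, RingHom.comp_apply, MvPolynomial.algebraMap_eq, famHom_C]

theorem eval_aeval_X (a : J → R) (j : J) (ν : Polynomial R) :
    MvPolynomial.eval a (Polynomial.aeval (X j : MvPolynomial J R) ν) = ν.eval (a j) := by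
  rw [Polynomial.aeval_def, Polynomial.hom_eval₂, MvPolynomial.eval_X]
  have : (MvPolynomial.eval a).comp (algebraMap R (MvPolynomial J R)) = RingHom.id R := by
    ext r
    rw [RingHom.comp_apply, MvPolynomial.algebraMap_eq, MvPolynomial.eval_C, RingHom.id_apply]
  rw [this, Polynomial.eval₂_id]

theorem famHom_commute (P Q : MvPolynomial J R) : Commute (famHom T hT P) (famHom T hT Q) := by
  show famHom T hT P * famHom T hT Q = famHom T hT Q * famHom T hT P
  rw [← map_mul, ← map_mul, mul_comm]

/-- **common eigenvectors**: if every polynomial relation among the `T j` holds for the values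
`a j`, there is a common eigenvector with these eigenvalues -/
theorem exists_common_eigenvector (a : J → R)
    (h : ∀ P : MvPolynomial J R, famHom T hT P = 0 → MvPolynomial.eval a P = 0) :
    ∃ v : V, v ≠ 0 ∧ ∀ j, T j v = algebraMap R K (a j) • v := by
  classical
  set μ : J → K := fun j => algebraMap R K (a j) with hμ
  -- the generalized eigenspaces and the eigenspaces
  set 𝔊 : J → Submodule K V := fun j => (T j).maxGenEigenspace (μ j) with h𝔊
  set 𝔈 : J → Submodule K V := fun j => LinearMap.ker (T j - μ j • (1 : Module.End K V)) with h𝔈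
  have hcomm : ∀ i j, Commute (T i) (T j) := fun i j => hT i j
  have hcommN : ∀ i j, Commute (T i) (T j - μ j • (1 : Module.End K V)) := fun i j =>
    (hcomm i j).sub_right (Commute.smul_right (Commute.one_right _) _)
  -- stability
  have h𝔊stab : ∀ i (g : Module.End K V), Commute (T i) g → ∀ v ∈ 𝔊 i, g v ∈ 𝔊 i :=
    fun i g hg v hv => Module.End.mapsTo_maxGenEigenspace_of_comm hg (μ i) hv
  have h𝔈stab : ∀ i (g : Module.End K V), Commute (T i) g → ∀ v ∈ 𝔈 i, g v ∈ 𝔈 i := by
    intro i g hg v hv
    rw [h𝔈, LinearMap.mem_ker] at hv ⊢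
    have h1 : Commute (T i - μ i • (1 : Module.End K V)) g :=
      hg.sub_left (Commute.smul_left (Commute.one_left _) _)
    rw [← Module.End.mul_apply, h1.eq, Module.End.mul_apply, hv, map_zero]
  -- Stage 1: the intersections of generalized eigenspaces are nonzero
  choose ν hν1 hν2 using fun j => exists_poly_into_genEigenspace (R := R) (T j) (a j)
  have hstage1 : ∀ B : Finset J, (⨅ j ∈ B, 𝔊 j) ≠ ⊥ := by
    intro B
    set PB : MvPolynomial J R := ∏ j ∈ B, Polynomial.aeval (X j : MvPolynomial J R) (ν j)
      with hPB
    have hPBa : MvPolynomial.eval a PB ≠ 0 := by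
      rw [hPB, map_prod]
      refine Finset.prod_ne_zero_iff.mpr fun j _ => ?_
      rw [eval_aeval_X]
      exact hν1 j
    have hne : famHom T hT PB ≠ 0 := fun h0 => hPBa (h PB h0)
    have hmaps : ∀ (B' : Finset J) (v : V),
        famHom T hT (∏ j ∈ B', Polynomial.aeval (X j : MvPolynomial J R) (ν j)) v ∈
          ⨅ j ∈ B', 𝔊 j := by
      intro B'
      induction B' using Finset.induction_on with
      | empty =>
        intro v
        simp
      | insert j B' hj ih =>
        intro v
        rw [Finset.prod_insert hj, map_mul, Module.End.mul_apply, famHom_aeval]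
        rw [Finset.iInf_insert, Submodule.mem_inf]
        refine ⟨hν2 j _, ?_⟩
        rw [Submodule.mem_iInf]
        intro i
        rw [Submodule.mem_iInf]
        intro hi
        have h1 := ih v
        rw [Submodule.mem_iInf] at h1
        have h2 := h1 i
        rw [Submodule.mem_iInf] at h2
        have h3 := h2 hi
        rw [← famHom_aeval]
        refine h𝔊stab i _ ?_ _ h3
        have := famHom_commute T hT (X i) (Polynomial.aeval (X j : MvPolynomial J R) (ν j))
        rwa [famHom_X] at this
    intro hbot
    apply hne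
    ext v
    have := hmaps B v
    rw [hbot, Submodule.mem_bot] at this
    rw [this, LinearMap.zero_apply]
  -- Stage 2: the intersections of eigenspaces are nonzero
  have hstage2 : ∀ B : Finset J, (⨅ j ∈ B, 𝔈 j) ≠ ⊥ := by
    intro B
    have key : ∀ A : Finset J, A ⊆ B → ((⨅ j ∈ A, 𝔈 j) ⊓ ⨅ j ∈ B, 𝔊 j) ≠ ⊥ := by
      intro A
      induction A using Finset.induction_on with
      | empty =>
        intro _
        simpa using hstage1 B
      | insert j A hj ih =>
        intro hAB
        have hjB : j ∈ B := hAB (Finset.mem_insert_self j A)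
        have hA : A ⊆ B := fun x hx => hAB (Finset.mem_insert_of_mem hx)
        set U : Submodule K V := (⨅ j ∈ A, 𝔈 j) ⊓ ⨅ j ∈ B, 𝔊 j with hU
        set N : Module.End K V := T j - μ j • (1 : Module.End K V) with hN
        have hNU : ∀ u ∈ U, N u ∈ U := by
          intro u hu
          rw [hU, Submodule.mem_inf] at hu ⊢
          refine ⟨?_, ?_⟩
          · rw [Submodule.mem_iInf]
            intro i
            rw [Submodule.mem_iInf]
            intro hi
            have h1 := hu.1
            rw [Submodule.mem_iInf] at h1
            have h2 := h1 i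
            rw [Submodule.mem_iInf] at h2
            exact h𝔈stab i N (hcommN i j) u (h2 hi)
          · rw [Submodule.mem_iInf]
            intro i
            rw [Submodule.mem_iInf]
            intro hi
            have h1 := hu.2
            rw [Submodule.mem_iInf] at h1
            have h2 := h1 i
            rw [Submodule.mem_iInf] at h2
            exact h𝔊stab i N (hcommN i j) u (h2 hi)
        have hnil : ∀ u ∈ U, ∃ k : ℕ, (N ^ k) u = 0 := by
          intro u hu
          rw [hU, Submodule.mem_inf] at hu
          have h1 := hu.2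
          rw [Submodule.mem_iInf] at h1
          have h2 := h1 j
          rw [Submodule.mem_iInf] at h2
          exact (Module.End.mem_maxGenEigenspace (T j) (μ j) u).mp (h2 hjB)
        obtain ⟨u, huU, hu0, hNu⟩ := exists_ne_zero_mem_ker_of_locNilpotent U (ih hA) N hNU hnil
        intro hbot
        apply hu0
        have hmem : u ∈ (⨅ i ∈ insert j A, 𝔈 i) ⊓ ⨅ i ∈ B, 𝔊 i := by
          rw [hU, Submodule.mem_inf] at huU
          rw [Submodule.mem_inf, Finset.iInf_insert, Submodule.mem_inf]
          exact ⟨⟨LinearMap.mem_ker.mpr hNu, huU.1⟩, huU.2⟩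
        rw [hbot, Submodule.mem_bot] at hmem
        exact hmem
    intro hbot
    refine key B (Finset.Subset.refl B) ?_
    rw [hbot, bot_inf_eq]
  -- Stage 3: a minimal intersection
  set E : Finset J → Submodule K V := fun B => ⨅ j ∈ B, 𝔈 j with hE
  obtain ⟨m, ⟨B₀, rfl⟩, hmin⟩ := wellFounded_lt.has_min (Set.range E) ⟨E ∅, ∅, rfl⟩
  obtain ⟨v, hv, hv0⟩ := Submodule.exists_mem_ne_zero_of_ne_bot (hstage2 B₀)
  refine ⟨v, hv0, fun j => ?_⟩
  have hle : E (insert j B₀) ≤ E B₀ := by
    rw [hE]
    simp only
    rw [Finset.iInf_insert]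
    exact inf_le_right
  have hge : E B₀ ≤ E (insert j B₀) := by
    by_contra hnot
    exact hmin (E (insert j B₀)) ⟨_, rfl⟩ (lt_of_le_not_ge hle hnot)
  have hvj : v ∈ 𝔈 j := by
    have h1 : v ∈ E (insert j B₀) := hge hv
    rw [hE] at h1
    simp only at h1
    rw [Finset.iInf_insert, Submodule.mem_inf] at h1
    exact h1.1
  rw [h𝔈, LinearMap.mem_ker, LinearMap.sub_apply, LinearMap.smul_apply, Module.End.one_apply,
    sub_eq_zero] at hvj
  exact hvj

end family

end Fermat.Agent.S43lib.B1
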