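/-
S43lib / B1 / ChMod  (helper3).

The module `R` with `G` acting through a character `ψ : G →* Rˣ`, the equivariant maps between
`𝒪[G]` and `ChMod ψ` (`ψ` with values in an `𝒪`-algebra `𝒪'`), and semilinear functoriality of `H¹`
(change of the base ring).
-/
import Fermat.Agent.S43lib.B1.Fun

set_option autoImplicit false
set_option linter.unusedSectionVars false
set_option linter.unusedVariables false

noncomputable section

namespace Fermat.Agent.S43lib.B1

open Fermat.Agent.S41lib.HC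

/-- `R` with `G` acting through the character `ψ`: `g • w = ψ g * w` -/
def ChMod {G R : Type*} [Group G] [CommRing R] (ψ : G →* Rˣ) : Type _ := R

namespace ChMod

variable {G R : Type*} [Group G] [CommRing R] (ψ : G →* Rˣ)

/-- the underlying element -/
def out (w : ChMod ψ) : R := w

/-- an element of `R` as an element of `ChMod ψ` -/
def mk (r : R) : ChMod ψ := r

@[simp] theorem out_mk (r : R) : out ψ (mk ψ r) = r := rfl
@[simp] theorem mk_out (w : ChMod ψ) : mk ψ (out ψ w) = w := rfl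

instance : AddCommGroup (ChMod ψ) := inferInstanceAs (AddCommGroup R)

instance {A : Type*} [Semiring A] [Module A R] : Module A (ChMod ψ) := inferInstanceAs (Module A R)

instance {A : Type*} [Semiring A] [Module A R] [Module.Finite A R] : Module.Finite A (ChMod ψ) :=
  inferInstanceAs (Module.Finite A R)

@[simp] theorem out_add (w w' : ChMod ψ) : out ψ (w + w') = out ψ w + out ψ w' := rfl
@[simp] theorem out_zero : out ψ (0 : ChMod ψ) = 0 := rfl
@[simp] theorem out_sub (w w' : ChMod ψ) : out ψ (w - w') = out ψ w - out ψ w' := rfl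
@[simp] theorem out_smul {A : Type*} [Semiring A] [Module A R] (a : A) (w : ChMod ψ) :
    out ψ (a • w) = a • out ψ w := rfl
@[simp] theorem mk_add (r r' : R) : mk ψ (r + r') = mk ψ r + mk ψ r' := rfl
@[simp] theorem mk_zero : mk ψ (0 : R) = 0 := rfl
@[simp] theorem mk_sub (r r' : R) : mk ψ (r - r') = mk ψ r - mk ψ r' := rfl

theorem ext {w w' : ChMod ψ} (h : out ψ w = out ψ w') : w = w' := h

instance : DistribMulAction G (ChMod ψ) where
  smul g w := mk ψ ((ψ g : R) * out ψ w)
  one_smul w := by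
    show ((ψ 1 : Rˣ) : R) * out ψ w = out ψ w
    rw [map_one, Units.val_one, one_mul]
  mul_smul g h w := by
    show ((ψ (g * h) : Rˣ) : R) * out ψ w = (ψ g : R) * ((ψ h : R) * out ψ w)
    rw [map_mul, Units.val_mul, mul_assoc]
  smul_zero g := mul_zero (ψ g : R)
  smul_add g w w' := mul_add (ψ g : R) (out ψ w) (out ψ w')

theorem smul_def (g : G) (w : ChMod ψ) : g • w = mk ψ ((ψ g : R) * out ψ w) := rfl

@[simp] theorem out_gsmul (g : G) (w : ChMod ψ) : out ψ (g • w) = (ψ g : R) * out ψ w := rfl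

instance {A : Type*} [CommSemiring A] [Algebra A R] : SMulCommClass G A (ChMod ψ) :=
  ⟨fun g a w => (mul_smul_comm a (ψ g : R) (out ψ w))⟩

end ChMod

/-! ### Semilinear functoriality of `H¹` -/

section semilinear

variable {Γ G : Type*} [Group Γ] [Group G] (π : Γ →* G)
variable {R R' : Type*} [CommRing R] [CommRing R'] (σ : R →+* R')
variable {W W' : Type*} [AddCommGroup W] [Module R W] [DistribMulAction G W] [SMulCommClass G R W]
  [AddCommGroup W'] [Module R' W'] [DistribMulAction G W'] [SMulCommClass G R' W']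

/-- the map on crossed homomorphisms induced by a semilinear equivariant map -/
def Z1.mapSL (u : W →ₛₗ[σ] W') (hu : ∀ (g : G) (w : W), u (g • w) = g • u w) :
    ↥(Z1 π R W) →ₛₗ[σ] ↥(Z1 π R' W') where
  toFun f := ⟨fun γ => u ((f : Γ → W) γ), by
    intro γ γ'
    show u ((f : Γ → W) (γ * γ')) = u ((f : Γ → W) γ) + π γ • u ((f : Γ → W) γ')
    rw [f.2 γ γ', map_add, hu]⟩
  map_add' f f' := by
    apply Subtype.ext
    funext γ
    exact map_add u _ _
  map_smul' r f := by
    apply Subtype.ext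
    funext γ
    exact u.map_smulₛₗ r _

@[simp] theorem Z1.mapSL_apply (u : W →ₛₗ[σ] W') (hu : ∀ (g : G) (w : W), u (g • w) = g • u w)
    (f : ↥(Z1 π R W)) (γ : Γ) :
    ((Z1.mapSL π σ u hu f : ↥(Z1 π R' W')) : Γ → W') γ = u ((f : Γ → W) γ) := rfl

/-- the map on cohomology induced by a semilinear equivariant map -/
def H1.mapSL (u : W →ₛₗ[σ] W') (hu : ∀ (g : G) (w : W), u (g • w) = g • u w) :
    H1 π R W →ₛₗ[σ] H1 π R' W' :=
  (B1z π R W).mapQ (B1z π R' W') (Z1.mapSL π σ u hu) (by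
    rintro f ⟨w, hw⟩
    refine ⟨u w, ?_⟩
    funext γ
    show π γ • u w - u w = u ((f : Γ → W) γ)
    have h1 : (f : Γ → W) γ = π γ • w - w := (congrFun hw γ).symm
    rw [h1, map_sub, hu])

@[simp] theorem H1.mapSL_mk (u : W →ₛₗ[σ] W') (hu : ∀ (g : G) (w : W), u (g • w) = g • u w)
    (f : ↥(Z1 π R W)) :
    H1.mapSL π σ u hu (H1.mk π R W f) = H1.mk π R' W' (Z1.mapSL π σ u hu f) := rfl

variable {π}

theorem H1.mapSL_heckeH {ι : Type*} [Fintype ι] {D : CosetData Γ Γ ι}
    (hD : CosetData.IsEquivariant π D) (u : W →ₛₗ[σ] W')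
    (hu : ∀ (g : G) (w : W), u (g • w) = g • u w) (x : H1 π R W) :
    H1.mapSL π σ u hu (heckeH R W hD x) = heckeH R' W' hD (H1.mapSL π σ u hu x) := by
  obtain ⟨f, rfl⟩ := H1.mk_surjective π R W x
  rw [heckeH_mk, H1.mapSL_mk, H1.mapSL_mk, heckeH_mk]
  congr 1
  apply Subtype.ext
  funext γ
  show u (∑ x, (f : Γ → W) (D.c γ x)) = ∑ x, u ((f : Γ → W) (D.c γ x))
  rw [map_sum]

/-- compatibility with the maps induced by linear maps -/
theorem H1.mapSL_map {W₁ W₁' : Type*} [AddCommGroup W₁] [Module R W₁] [DistribMulAction G W₁]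
    [SMulCommClass G R W₁] [AddCommGroup W₁'] [Module R' W₁'] [DistribMulAction G W₁']
    [SMulCommClass G R' W₁']
    (u : W →ₛₗ[σ] W') (hu : ∀ (g : G) (w : W), u (g • w) = g • u w)
    (u₁ : W₁ →ₛₗ[σ] W₁') (hu₁ : ∀ (g : G) (w : W₁), u₁ (g • w) = g • u₁ w)
    (v : W →ₗ[R] W₁) (hv : IsEquivar G v) (v' : W' →ₗ[R'] W₁') (hv' : IsEquivar G v')
    (hcomm : ∀ w, u₁ (v w) = v' (u w)) (x : H1 π R W) :
    H1.mapSL π σ u₁ hu₁ (H1.map π v hv x) = H1.map π v' hv' (H1.mapSL π σ u hu x) := by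
  obtain ⟨f, rfl⟩ := H1.mk_surjective π R W x
  rw [H1.map_mk, H1.mapSL_mk, H1.mapSL_mk, H1.map_mk]
  congr 1
  apply Subtype.ext
  funext γ
  exact hcomm _

end semilinear

end Fermat.Agent.S43lib.B1
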