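/-
S43lib / B1 / PointRel  (helper3).

The equivariant maps between `𝒪[G]` and `ChMod ψ` (`ψ : G →* 𝒪'ˣ`, `𝒪'` a finite free `𝒪`-algebra),
and the transfer of relations: a relation with coefficients in `𝒪'` on the localised cohomology with
coefficients in `ChMod ψ` gives relations `∑_g P_g ⟨g⟩ = 0` on the localised cohomology with
coefficients in `𝒪[G]`; for a point `(a, ψ)` of the Hecke algebra of the latter, the relation holds
for the values.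
-/
import Fermat.Agent.S43lib.B1.ChMod
import Fermat.Agent.S43lib.B1.Free

set_option autoImplicit false
set_option linter.unusedSectionVars false
set_option linter.unusedVariables false

noncomputable section

namespace Fermat.Agent.S43lib.B1

open MvPolynomial Fermat.Agent.S41lib.HC

section maps

variable {G : Type} [CommGroup G] [Fintype G]
variable {𝒪 𝒪' : Type} [CommRing 𝒪] [CommRing 𝒪'] [Algebra 𝒪 𝒪'] (ψ : G →* 𝒪'ˣ)

/-- `f ↦ c * ∑ g, ψ g * f g` -/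
def chE (c : 𝒪') : Reg G 𝒪 →ₗ[𝒪] ChMod ψ where
  toFun f := ChMod.mk ψ (c * ∑ g, (ψ g : 𝒪') * algebraMap 𝒪 𝒪' (f g))
  map_add' f f' := by
    apply ChMod.ext
    show c * ∑ g, (ψ g : 𝒪') * algebraMap 𝒪 𝒪' ((f + f') g) =
      c * ∑ g, (ψ g : 𝒪') * algebraMap 𝒪 𝒪' (f g) + c * ∑ g, (ψ g : 𝒪') * algebraMap 𝒪 𝒪' (f' g)
    rw [← mul_add, ← Finset.sum_add_distrib]
    congr 1
    refine Finset.sum_congr rfl fun g _ => ?_
    rw [Reg.add_apply, map_add, mul_add]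
  map_smul' r f := by
    apply ChMod.ext
    show c * ∑ g, (ψ g : 𝒪') * algebraMap 𝒪 𝒪' ((r • f) g) =
      r • (c * ∑ g, (ψ g : 𝒪') * algebraMap 𝒪 𝒪' (f g))
    have h : ∀ g, (ψ g : 𝒪') * algebraMap 𝒪 𝒪' ((r • f) g) =
        algebraMap 𝒪 𝒪' r * ((ψ g : 𝒪') * algebraMap 𝒪 𝒪' (f g)) := by
      intro g
      have h1 : (r • f) g = r * f g := rfl
      rw [h1, map_mul]
      ring
    simp_rw [h]
    rw [← Finset.mul_sum, Algebra.smul_def]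
    ring

theorem chE_apply (c : 𝒪') (f : Reg G 𝒪) :
    ChMod.out ψ (chE ψ c f) = c * ∑ g, (ψ g : 𝒪') * algebraMap 𝒪 𝒪' (f g) := rfl

theorem isEquivar_chE (c : 𝒪') : IsEquivar G (chE (𝒪 := 𝒪) ψ c) := by
  intro h f
  apply ChMod.ext
  rw [ChMod.out_gsmul, chE_apply, chE_apply]
  have key : ∑ g, (ψ g : 𝒪') * algebraMap 𝒪 𝒪' ((h • f) g) =
      (ψ h : 𝒪') * ∑ g, (ψ g : 𝒪') * algebraMap 𝒪 𝒪' (f g) := by
    rw [Finset.mul_sum]
    refine Fintype.sum_equiv (Equiv.mulLeft h⁻¹)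
      (fun g => (ψ g : 𝒪') * algebraMap 𝒪 𝒪' ((h • f) g))
      (fun g => (ψ h : 𝒪') * ((ψ g : 𝒪') * algebraMap 𝒪 𝒪' (f g))) fun g => ?_
    show (ψ g : 𝒪') * algebraMap 𝒪 𝒪' (f (h⁻¹ * g)) =
      (ψ h : 𝒪') * ((ψ (h⁻¹ * g) : 𝒪') * algebraMap 𝒪 𝒪' (f (h⁻¹ * g)))
    rw [← mul_assoc, ← Units.val_mul, ← map_mul, mul_inv_cancel_left]
  rw [key]
  ring

/-- `w ↦ (g ↦ τ ((ψ g)⁻¹ * w))` -/
def chL (τ : 𝒪' →ₗ[𝒪] 𝒪) : ChMod ψ →ₗ[𝒪] Reg G 𝒪 where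
  toFun w := Reg.mk fun g => τ ((((ψ g)⁻¹ : 𝒪'ˣ) : 𝒪') * ChMod.out ψ w)
  map_add' w w' := by
    ext g
    show τ ((((ψ g)⁻¹ : 𝒪'ˣ) : 𝒪') * (ChMod.out ψ w + ChMod.out ψ w')) = _
    rw [mul_add, map_add]
    rfl
  map_smul' r w := by
    ext g
    show τ ((((ψ g)⁻¹ : 𝒪'ˣ) : 𝒪') * (r • ChMod.out ψ w)) = _
    rw [mul_smul_comm, map_smul]
    rfl

theorem chL_apply (τ : 𝒪' →ₗ[𝒪] 𝒪) (w : ChMod ψ) (g : G) :
    chL ψ τ w g = τ ((((ψ g)⁻¹ : 𝒪'ˣ) : 𝒪') * ChMod.out ψ w) := rfl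

theorem isEquivar_chL (τ : 𝒪' →ₗ[𝒪] 𝒪) : IsEquivar G (chL ψ τ) := by
  intro h w
  ext g
  rw [Reg.smul_apply, chL_apply, chL_apply, ChMod.out_gsmul, ← mul_assoc, ← Units.val_mul,
    ← map_inv, ← map_inv, ← map_mul]
  congr 4
  rw [mul_inv_rev, inv_inv, mul_comm]

/-- multiplication by `c` -/
def chMul (c : 𝒪') : ChMod ψ →ₗ[𝒪] ChMod ψ where
  toFun w := ChMod.mk ψ (c * ChMod.out ψ w)
  map_add' w w' := mul_add c (ChMod.out ψ w) (ChMod.out ψ w')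
  map_smul' r w := mul_smul_comm r c (ChMod.out ψ w)

theorem chMul_apply (c : 𝒪') (w : ChMod ψ) : ChMod.out ψ (chMul (𝒪 := 𝒪) ψ c w) = c * ChMod.out ψ w :=
  rfl

theorem isEquivar_chMul (c : 𝒪') : IsEquivar G (chMul (𝒪 := 𝒪) ψ c) := by
  intro h w
  apply ChMod.ext
  rw [ChMod.out_gsmul, chMul_apply, chMul_apply, ChMod.out_gsmul, mul_left_comm]

theorem chMul_comp_chE (c c' : 𝒪') :
    (chMul (𝒪 := 𝒪) ψ c).comp (chE ψ c') = chE ψ (c * c') := by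
  ext f
  apply ChMod.ext
  rw [LinearMap.comp_apply, chMul_apply, chE_apply, chE_apply, mul_assoc]

theorem chMul_mul (c c' : 𝒪') :
    chMul (𝒪 := 𝒪) ψ (c * c') = (chMul ψ c).comp (chMul ψ c') := by
  ext w
  apply ChMod.ext
  rw [LinearMap.comp_apply, chMul_apply, chMul_apply, chMul_apply, mul_assoc]

theorem chL_comp_chE (τ : 𝒪' →ₗ[𝒪] 𝒪) (c : 𝒪') :
    (chL ψ τ).comp (chE ψ c) =
      ∑ u : G, τ (c * (ψ u : 𝒪')) • QuotG.actLin (G := G) 𝒪 (Reg G 𝒪) u⁻¹ := by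
  ext f g
  rw [LinearMap.comp_apply, chL_apply, chE_apply, LinearMap.sum_apply, Reg.sum_apply]
  simp only [LinearMap.smul_apply, QuotG.actLin_apply, Reg.smul_apply', Reg.smul_apply, inv_inv,
    smul_eq_mul]
  rw [← mul_assoc, mul_comm _ c, mul_assoc, Finset.mul_sum, Finset.mul_sum, map_sum]
  refine (Fintype.sum_equiv (Equiv.mulRight g) _ _ fun u => ?_).symm
  rw [Equiv.coe_mulRight]
  have h1 : c * ((((ψ g)⁻¹ : 𝒪'ˣ) : 𝒪') * ((ψ (u * g) : 𝒪') * algebraMap 𝒪 𝒪' (f (u * g)))) =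
      f (u * g) • (c * (ψ u : 𝒪')) := by
    rw [map_mul, Units.val_mul, Algebra.smul_def]
    have : (((ψ g)⁻¹ : 𝒪'ˣ) : 𝒪') * (ψ g : 𝒪') = 1 := by
      rw [← Units.val_mul, inv_mul_cancel, Units.val_one]
    linear_combination (c * (ψ u : 𝒪') * algebraMap 𝒪 𝒪' (f (u * g))) * this
  rw [h1, map_smul, smul_eq_mul, mul_comm]

end maps

/-! ### Transfer of relations -/

namespace HeckeSys

variable {Γ G : Type} [Group Γ] [CommGroup G] [Fintype G] {I : Type} (S : HeckeSys Γ G I)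
variable {𝒪 𝒪' : Type} [CommRing 𝒪] [CommRing 𝒪'] [Algebra 𝒪 𝒪'] (ψ : G →* 𝒪'ˣ)
variable (𝔪 : Ideal (MvPolynomial I 𝒪)) [𝔪.IsPrime]

/-- the map induced by an element of the group ring -/
theorem Fmap_groupRing {W : Type} [AddCommGroup W] [Module 𝒪 W] [DistribMulAction G W]
    [SMulCommClass G 𝒪 W] (r : G → 𝒪) (hr : IsEquivar G (∑ u : G, r u • QuotG.actLin (G := G) 𝒪 W u⁻¹))
    (y : S.F 𝒪 W 𝔪) :
    S.Fmap 𝔪 (∑ u : G, r u • QuotG.actLin (G := G) 𝒪 W u⁻¹) hr y =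
      ∑ u : G, r u • S.Gact 𝔪 u⁻¹ y := by
  have hu : ∀ u : G, IsEquivar G (r u • QuotG.actLin (G := G) 𝒪 W u⁻¹) := fun u =>
    (isEquivar_actLin u⁻¹).smul (r u)
  have h1 := S.Fmap_sum 𝔪 Finset.univ hu
  have h2 : S.Fmap 𝔪 (∑ u : G, r u • QuotG.actLin (G := G) 𝒪 W u⁻¹) hr =
      S.Fmap 𝔪 (∑ u : G, r u • QuotG.actLin (G := G) 𝒪 W u⁻¹) (IsEquivar.sum Finset.univ hu) := rfl
  rw [h2, h1, LinearMap.sum_apply]
  refine Finset.sum_congr rfl fun u _ => ?_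
  exact S.Fmap_smul_apply 𝔪 (isEquivar_actLin u⁻¹) (r u) y

/-- **transfer of relations to a point** -/
theorem point_rel [IsDomain 𝒪'] [Module.Finite 𝒪 𝒪'] [Module.Free 𝒪 𝒪']
    (hcard : (Fintype.card G : 𝒪') ≠ 0) (J' : Set I) (a : I → 𝒪')
    (hx : ∀ P : G → MvPolynomial I 𝒪, (∀ g, P g ∈ MvPolynomial.supported 𝒪 J') →
      (∀ y : S.F 𝒪 (Reg G 𝒪) 𝔪, ∑ g, P g • S.Gact 𝔪 g y = 0) →
      ∑ g, MvPolynomial.aeval a (P g) * (ψ g : 𝒪') = 0)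
    {𝓚 : Type} [Fintype 𝓚] (c : 𝓚 → 𝒪') (Pk : 𝓚 → MvPolynomial I 𝒪)
    (hPk : ∀ k, Pk k ∈ MvPolynomial.supported 𝒪 J')
    (H : ∀ y : S.F 𝒪 (ChMod ψ) 𝔪,
      ∑ k, S.Fmap 𝔪 (chMul ψ (c k)) (isEquivar_chMul ψ (c k)) (Pk k • y) = 0) :
    ∑ k, c k * MvPolynomial.aeval a (Pk k) = 0 := by
  classical
  -- the relations on `F(𝒪[G])`
  have hrel : ∀ τ : 𝒪' →ₗ[𝒪] 𝒪, ∀ y : S.F 𝒪 (Reg G 𝒪) 𝔪,
      ∑ g, (∑ k, τ (c k * (ψ g⁻¹ : 𝒪')) • Pk k) • S.Gact 𝔪 g y = 0 := by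
    intro τ y
    have h1 := congrArg (S.Fmap 𝔪 (chL ψ τ) (isEquivar_chL ψ τ))
      (H (S.Fmap 𝔪 (chE ψ 1) (isEquivar_chE ψ 1) y))
    rw [map_zero, map_sum] at h1
    have h2 : ∀ k, S.Fmap 𝔪 (chL ψ τ) (isEquivar_chL ψ τ)
        (S.Fmap 𝔪 (chMul ψ (c k)) (isEquivar_chMul ψ (c k))
          (Pk k • S.Fmap 𝔪 (chE ψ 1) (isEquivar_chE ψ 1) y)) =
        ∑ u : G, τ (c k * (ψ u : 𝒪')) • Pk k • S.Gact 𝔪 u⁻¹ y := by
      intro k
      rw [← map_smul, ← Fmap_comp_apply, ← Fmap_comp_apply]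
      have h3 : ((chL ψ τ).comp (chMul (𝒪 := 𝒪) ψ (c k))).comp (chE ψ 1) =
          ∑ u : G, τ (c k * (ψ u : 𝒪')) • QuotG.actLin (G := G) 𝒪 (Reg G 𝒪) u⁻¹ := by
        rw [LinearMap.comp_assoc, chMul_comp_chE, mul_one, chL_comp_chE]
      rw [S.Fmap_congr 𝔪 h3, Fmap_groupRing]
      refine Finset.sum_congr rfl fun u _ => ?_
      unfold Gact
      rw [map_smul]
    rw [Finset.sum_congr rfl (fun k _ => h2 k), Finset.sum_comm] at h1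
    rw [← h1]
    refine (Fintype.sum_equiv (Equiv.inv G) _ _ fun g => ?_)
    rw [Equiv.inv_apply, inv_inv, Finset.sum_smul]
    refine Finset.sum_congr rfl fun k _ => ?_
    rw [smul_assoc]
  -- the values
  have hval : ∀ τ : 𝒪' →ₗ[𝒪] 𝒪,
      ∑ g, (∑ k, algebraMap 𝒪 𝒪' (τ (c k * (ψ g⁻¹ : 𝒪'))) * MvPolynomial.aeval a (Pk k)) *
        (ψ g : 𝒪') = 0 := by
    intro τ
    have h1 := hx (fun g => ∑ k, τ (c k * (ψ g⁻¹ : 𝒪')) • Pk k)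
      (fun g => Subalgebra.sum_mem _ fun k _ => Subalgebra.smul_mem _ (hPk k) _) (hrel τ)
    rw [← h1]
    refine Finset.sum_congr rfl fun g _ => ?_
    rw [map_sum]
    congr 1
    refine Finset.sum_congr rfl fun k _ => ?_
    rw [map_smul, Algebra.smul_def]
  -- the dual basis
  set b := Module.Free.chooseBasis 𝒪 𝒪' with hb
  have hsum : ∀ w : 𝒪', ∑ s, algebraMap 𝒪 𝒪' (b.coord s w) * b s = w := by
    intro w
    have := b.sum_repr w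
    simp only [Algebra.smul_def] at this
    exact this
  have hfin : (Fintype.card G : 𝒪') * ∑ k, c k * MvPolynomial.aeval a (Pk k) =
      ∑ s, b s * ∑ g, (∑ k, algebraMap 𝒪 𝒪' (b.coord s (c k * (ψ g⁻¹ : 𝒪'))) *
        MvPolynomial.aeval a (Pk k)) * (ψ g : 𝒪') := by
    have h1 : ∀ g : G, ∑ s, ∑ k, b s * (algebraMap 𝒪 𝒪' (b.coord s (c k * (ψ g⁻¹ : 𝒪'))) *
        MvPolynomial.aeval a (Pk k) * (ψ g : 𝒪')) =
        ∑ k, c k * MvPolynomial.aeval a (Pk k) := by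
      intro g
      rw [Finset.sum_comm]
      refine Finset.sum_congr rfl fun k _ => ?_
      have h2 : ∑ s, b s * (algebraMap 𝒪 𝒪' (b.coord s (c k * (ψ g⁻¹ : 𝒪'))) *
          MvPolynomial.aeval a (Pk k) * (ψ g : 𝒪')) =
          (∑ s, algebraMap 𝒪 𝒪' (b.coord s (c k * (ψ g⁻¹ : 𝒪'))) * b s) *
            (MvPolynomial.aeval a (Pk k) * (ψ g : 𝒪')) := by
        rw [Finset.sum_mul]
        refine Finset.sum_congr rfl fun s _ => ?_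
        ring
      rw [h2, hsum]
      have h3 : ((ψ g⁻¹ : 𝒪'ˣ) : 𝒪') * (ψ g : 𝒪') = 1 := by
        rw [← Units.val_mul, ← map_mul, inv_mul_cancel, map_one, Units.val_one]
      linear_combination (c k * MvPolynomial.aeval a (Pk k)) * h3
    have e1 : ∀ s, b s * ∑ g, (∑ k, algebraMap 𝒪 𝒪' (b.coord s (c k * (ψ g⁻¹ : 𝒪'))) *
          MvPolynomial.aeval a (Pk k)) * (ψ g : 𝒪') =
        ∑ g, ∑ k, b s * (algebraMap 𝒪 𝒪' (b.coord s (c k * (ψ g⁻¹ : 𝒪'))) *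
          MvPolynomial.aeval a (Pk k) * (ψ g : 𝒪')) := by
      intro s
      rw [Finset.mul_sum]
      refine Finset.sum_congr rfl fun g _ => ?_
      rw [Finset.sum_mul, Finset.mul_sum]
    rw [Finset.sum_congr rfl (fun s _ => e1 s), Finset.sum_comm,
      Finset.sum_congr rfl (fun g _ => h1 g), Finset.sum_const, Finset.card_univ, nsmul_eq_mul]
  have hzero : (Fintype.card G : 𝒪') * ∑ k, c k * MvPolynomial.aeval a (Pk k) = 0 := by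
    rw [hfin]
    refine Finset.sum_eq_zero fun s _ => ?_
    rw [hval (b.coord s), mul_zero]
  rcases mul_eq_zero.mp hzero with h | h
  · exact absurd h hcard
  · exact h

end HeckeSys

end Fermat.Agent.S43lib.B1
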