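/-
S43lib / B1 / Point  (helper3).

**Eigenclasses at a point.**  Let `(a, ψ)` be a point of the Hecke algebra acting on the localised
cohomology `F(𝒪[G])` (values in a finite free domain `𝒪'` over `𝒪`, fraction field `K'`): every
relation `∑_g P_g(T) ⟨g⟩ = 0` holds for the values.  Then `H¹(Γ, K'_ψ)` contains a nonzero class `c`
with `T_j c = a_j c` for all `j ∈ J'`.
-/
import Fermat.Agent.S43lib.B1.PointRel
import Fermat.Agent.S43lib.B1.LAEigen
import Fermat.Agent.S43lib.B1.Count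
import Fermat.Agent.S43lib.B1.Comm
import Fermat.Agent.S43lib.B1.LevelFree

set_option autoImplicit false
set_option linter.unusedSectionVars false
set_option linter.unusedVariables false

noncomputable section

namespace Fermat.Agent.S43lib.B1

open MvPolynomial IsLocalRing Fermat.Agent.S41lib.HC

/-! ### Semilinear intertwining of polynomial actions -/

section polysl

variable {R R' : Type*} [CommRing R] [CommRing R'] (σ : R →+* R') {I : Type*}
variable {M M' : Type*} [AddCommGroup M] [Module R M] [AddCommGroup M'] [Module R' M']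

theorem polyHom_intertwine_sl (t : I → Module.End R M) (ht : ∀ i j, t i * t j = t j * t i)
    (t' : I → Module.End R' M') (ht' : ∀ i j, t' i * t' j = t' j * t' i) (φ : M →ₛₗ[σ] M')
    (h : ∀ i x, φ (t i x) = t' i (φ x)) (p : MvPolynomial I R) (x : M) :
    φ (polyHom t ht p x) = polyHom t' ht' (MvPolynomial.map σ p) (φ x) := by
  induction p using MvPolynomial.induction_on generalizing x with
  | C a =>
    have h1 : polyHom t ht (C a) = algebraMap R (Module.End R M) a := by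
      rw [← MvPolynomial.algebraMap_eq]; exact (polyHom t ht).commutes a
    have h2 : polyHom t' ht' (C (σ a)) = algebraMap R' (Module.End R' M') (σ a) := by
      rw [← MvPolynomial.algebraMap_eq]; exact (polyHom t' ht').commutes (σ a)
    rw [MvPolynomial.map_C, h1, h2, Module.algebraMap_end_apply, Module.algebraMap_end_apply,
      φ.map_smulₛₗ]
  | add p q hp hq =>
    rw [map_add, map_add, map_add, LinearMap.add_apply, LinearMap.add_apply, map_add, hp, hq]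
  | mul_X p i hp =>
    rw [map_mul, map_mul, map_mul, MvPolynomial.map_X, polyHom_X, polyHom_X, Module.End.mul_apply,
      Module.End.mul_apply, hp, h]

end polysl

/-! ### The comparison `H¹(Γ, 𝒪'_ψ) → H¹(Γ, K'_ψ)` -/

namespace HeckeSys

variable {Γ G : Type} [Group Γ] [CommGroup G] [Fintype G] {I : Type} (S : HeckeSys Γ G I)
variable {𝒪 𝒪' K' : Type} [CommRing 𝒪] [CommRing 𝒪'] [Algebra 𝒪 𝒪'] [Field K'] [Algebra 𝒪' K']
variable (ψ : G →* 𝒪'ˣ)

/-- the ring homomorphism `𝒪 → 𝒪' → K'` -/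
def sigK (𝒪 𝒪' K' : Type) [CommRing 𝒪] [CommRing 𝒪'] [Algebra 𝒪 𝒪'] [Field K'] [Algebra 𝒪' K'] :
    𝒪 →+* K' := (algebraMap 𝒪' K').comp (algebraMap 𝒪 𝒪')

/-- the character with values in `K'` -/
def psiK (K' : Type) [Field K'] [Algebra 𝒪' K'] : G →* K'ˣ :=
  (Units.map (algebraMap 𝒪' K' : 𝒪' →* K')).comp ψ

theorem psiK_apply (g : G) : ((psiK ψ K' g : K'ˣ) : K') = algebraMap 𝒪' K' (ψ g : 𝒪') := rfl

/-- the coefficient map `𝒪'_ψ → K'_ψ` -/
def coefK : ChMod ψ →ₛₗ[sigK 𝒪 𝒪' K'] ChMod (psiK ψ K') where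
  toFun w := ChMod.mk _ (algebraMap 𝒪' K' (ChMod.out ψ w))
  map_add' w w' := map_add (algebraMap 𝒪' K') (ChMod.out ψ w) (ChMod.out ψ w')
  map_smul' r w := by
    show algebraMap 𝒪' K' (r • ChMod.out ψ w) = sigK 𝒪 𝒪' K' r * algebraMap 𝒪' K' (ChMod.out ψ w)
    rw [Algebra.smul_def, map_mul]
    rfl

theorem coefK_apply (w : ChMod ψ) :
    ChMod.out _ (coefK (𝒪 := 𝒪) (K' := K') ψ w) = algebraMap 𝒪' K' (ChMod.out ψ w) := rfl

theorem coefK_equivar (g : G) (w : ChMod ψ) :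
    coefK (𝒪 := 𝒪) (K' := K') ψ (g • w) = g • coefK (𝒪 := 𝒪) (K' := K') ψ w := by
  apply ChMod.ext
  rw [coefK_apply, ChMod.out_gsmul, ChMod.out_gsmul, coefK_apply, map_mul, psiK_apply]

/-- the comparison map -/
def kap : S.Coh 𝒪 (ChMod ψ) →ₛₗ[sigK 𝒪 𝒪' K'] S.Coh K' (ChMod (psiK ψ K')) :=
  H1.mapSL S.π (sigK 𝒪 𝒪' K') (coefK ψ) (coefK_equivar ψ)

theorem kap_cls (f : ↥(Z1 S.π 𝒪 (ChMod ψ))) :
    S.kap (K' := K') ψ (S.cls 𝒪 (ChMod ψ) f) =
      S.cls K' (ChMod (psiK ψ K')) (Z1.mapSL S.π (sigK 𝒪 𝒪' K') (coefK ψ) (coefK_equivar ψ) f) :=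
  rfl

theorem kap_T (i : I) (z : S.Coh 𝒪 (ChMod ψ)) :
    S.kap (K' := K') ψ (S.T 𝒪 (ChMod ψ) i z) = S.T K' (ChMod (psiK ψ K')) i (S.kap ψ z) :=
  H1.mapSL_heckeH (sigK 𝒪 𝒪' K') (S.equi i) (coefK ψ) (coefK_equivar ψ) z

theorem kap_poly (Q : MvPolynomial I 𝒪) (z : S.Coh 𝒪 (ChMod ψ)) :
    S.kap (K' := K') ψ (Q • z) =
      polyHom (S.T K' (ChMod (psiK ψ K'))) (S.T_comm K' _) (MvPolynomial.map (sigK 𝒪 𝒪' K') Q)
        (S.kap ψ z) := by
  rw [poly_smul]
  exact polyHom_intertwine_sl (sigK 𝒪 𝒪' K') (S.T 𝒪 (ChMod ψ)) (S.T_comm 𝒪 _)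
    (S.T K' (ChMod (psiK ψ K'))) (S.T_comm K' _) (S.kap ψ) (S.kap_T ψ) Q z

theorem kap_chMul (c : 𝒪') (z : S.Coh 𝒪 (ChMod ψ)) :
    S.kap (K' := K') ψ (S.map (chMul ψ c) (isEquivar_chMul ψ c) z) =
      algebraMap 𝒪' K' c • S.kap ψ z := by
  obtain ⟨f, rfl⟩ := S.cls_surjective 𝒪 (ChMod ψ) z
  rw [map_cls, kap_cls, kap_cls, ← map_smul]
  congr 1
  apply Subtype.ext
  funext γ
  apply ChMod.ext
  show algebraMap 𝒪' K' (c * ChMod.out ψ ((f : Γ → ChMod ψ) γ)) =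
    algebraMap 𝒪' K' c * algebraMap 𝒪' K' (ChMod.out ψ ((f : Γ → ChMod ψ) γ))
  rw [map_mul]

/-- the kernel of the comparison map is torsion -/
theorem kap_eq_zero [IsDomain 𝒪'] [IsFractionRing 𝒪' K'] (z : S.Coh 𝒪 (ChMod ψ))
    (hz : S.kap (K' := K') ψ z = 0) :
    ∃ d : 𝒪', d ≠ 0 ∧ S.map (chMul ψ d) (isEquivar_chMul ψ d) z = 0 := by
  obtain ⟨f, rfl⟩ := S.cls_surjective 𝒪 (ChMod ψ) z
  rw [kap_cls, cls_eq_zero_iff] at hz
  obtain ⟨w, hw⟩ := hz
  obtain ⟨w₀, d, hd⟩ := IsLocalization.exists_mk'_eq (nonZeroDivisors 𝒪') (ChMod.out _ w)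
  have hd0 : (d : 𝒪') ≠ 0 := nonZeroDivisors.ne_zero d.2
  have hwd : algebraMap 𝒪' K' (d : 𝒪') * ChMod.out _ w = algebraMap 𝒪' K' w₀ := by
    rw [← hd, mul_comm]
    exact IsLocalization.mk'_spec K' w₀ d
  refine ⟨d, hd0, ?_⟩
  rw [map_cls, cls_eq_zero_iff]
  refine ⟨ChMod.mk ψ w₀, fun γ => ?_⟩
  apply ChMod.ext
  apply IsFractionRing.injective 𝒪' K'
  have h1 := congrArg (ChMod.out _) (hw γ)
  rw [Z1.mapSL_apply, coefK_apply, ChMod.out_sub, ChMod.out_gsmul, psiK_apply] at h1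
  show algebraMap 𝒪' K' ((d : 𝒪') * ChMod.out ψ ((f : Γ → ChMod ψ) γ)) =
    algebraMap 𝒪' K' ((ψ (S.π γ) : 𝒪') * w₀ - w₀)
  rw [map_mul, h1, map_sub, map_mul, ← hwd]
  ring

end HeckeSys

/-! ### The main theorem -/

section polyrename

variable {K : Type*} [CommRing K] {E : Type*} [Ring E] [Algebra K E] {I J : Type*}

theorem polyHom_comp_rename (t : I → E) (ht : ∀ i j, t i * t j = t j * t i) (e : J → I)
    (q : MvPolynomial J K) :
    polyHom (fun j => t (e j)) (fun i j => ht (e i) (e j)) q =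
      polyHom t ht (MvPolynomial.rename e q) := by
  have h : (polyHom (R := K) (fun j => t (e j)) (fun i j => ht (e i) (e j))) =
      (polyHom (R := K) t ht).comp (MvPolynomial.rename e) := by
    apply MvPolynomial.algHom_ext
    intro j
    rw [AlgHom.comp_apply, MvPolynomial.rename_X, polyHom_X, polyHom_X]
  rw [h]
  exact AlgHom.comp_apply _ _ _

end polyrename

namespace HeckeSys

section main

variable {Γ G : Type} [Group Γ] [Group.FG Γ] [CommGroup G] [Fintype G] {I : Type}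
  (S : HeckeSys Γ G I)
variable {𝒪 : Type} [CommRing 𝒪] [IsLocalRing 𝒪] [IsNoetherianRing 𝒪]
  [IsAdicComplete (maximalIdeal 𝒪) 𝒪]
variable {𝒪' K' : Type} [CommRing 𝒪'] [IsDomain 𝒪'] [Algebra 𝒪 𝒪'] [Module.Finite 𝒪 𝒪']
  [Module.Free 𝒪 𝒪'] [Field K'] [Algebra 𝒪' K'] [IsFractionRing 𝒪' K']
variable (𝔪 : Ideal (MvPolynomial I 𝒪)) [𝔪.IsMaximal]

/-- **Eigenclasses at a point of the Hecke algebra.** -/
theorem exists_eigenclass (hcard : (Fintype.card G : 𝒪') ≠ 0) (J' : Set I) (a : I → 𝒪')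
    (ψ : G →* 𝒪'ˣ)
    (hx : ∀ P : G → MvPolynomial I 𝒪, (∀ g, P g ∈ MvPolynomial.supported 𝒪 J') →
      (∀ y : S.F 𝒪 (Reg G 𝒪) 𝔪, ∑ g, P g • S.Gact 𝔪 g y = 0) →
      ∑ g, MvPolynomial.aeval a (P g) * (ψ g : 𝒪') = 0) :
    ∃ c : S.Coh K' (ChMod (psiK ψ K')), c ≠ 0 ∧
      ∀ j ∈ J', S.T K' (ChMod (psiK ψ K')) j c = algebraMap 𝒪' K' (a j) • c := by
  classical
  set T' : ↥J' → Module.End K' (S.Coh K' (ChMod (psiK ψ K'))) :=
    fun j => S.T K' (ChMod (psiK ψ K')) j.1 with hT'def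
  have hT' : ∀ i j, T' i * T' j = T' j * T' i := fun i j => S.T_comm K' _ i.1 j.1
  suffices hcrit : ∀ P : MvPolynomial ↥J' 𝒪', famHom T' hT' P = 0 →
      MvPolynomial.eval (fun j : ↥J' => a j.1) P = 0 by
    obtain ⟨v, hv0, hv⟩ :=
      exists_common_eigenvector (R := 𝒪') (K := K') T' hT' (fun j => a j.1) hcrit
    exact ⟨v, hv0, fun j hj => hv ⟨j, hj⟩⟩
  intro P hP
  -- the family of coefficients and monomials
  set c : ↥P.support → 𝒪' := fun m => MvPolynomial.coeff m.1 P with hc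
  set Pk : ↥P.support → MvPolynomial I 𝒪 :=
    fun m => MvPolynomial.rename Subtype.val (MvPolynomial.monomial m.1 (1 : 𝒪)) with hPkdef
  have hPk : ∀ m, Pk m ∈ MvPolynomial.supported 𝒪 J' := by
    intro m
    rw [MvPolynomial.supported_eq_range_rename]
    exact ⟨_, rfl⟩
  -- the operator `L`
  set L : S.Coh 𝒪 (ChMod ψ) →ₗ[𝒪] S.Coh 𝒪 (ChMod ψ) :=
    ∑ m : ↥P.support, ((S.map (chMul ψ (c m)) (isEquivar_chMul ψ (c m))).restrictScalars 𝒪).comp
      ((LinearMap.lsmul (MvPolynomial I 𝒪) (S.Coh 𝒪 (ChMod ψ)) (Pk m)).restrictScalars 𝒪) with hL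
  have hLapply : ∀ z, L z =
      ∑ m : ↥P.support, S.map (chMul ψ (c m)) (isEquivar_chMul ψ (c m)) (Pk m • z) := by
    intro z
    rw [hL, LinearMap.sum_apply]
    rfl
  -- Step A: the comparison map takes `L` to `P(T)`
  have hmono : ∀ (m : ↥J' →₀ ℕ),
      famHom T' hT' (MvPolynomial.monomial m (1 : 𝒪')) =
        polyHom (S.T K' (ChMod (psiK ψ K'))) (S.T_comm K' _)
          (MvPolynomial.map (sigK 𝒪 𝒪' K')
            (MvPolynomial.rename Subtype.val (MvPolynomial.monomial m (1 : 𝒪)))) := by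
    intro m
    unfold famHom
    rw [RingHom.comp_apply, MvPolynomial.map_monomial, (algebraMap 𝒪' K').map_one,
      MvPolynomial.rename_monomial, MvPolynomial.map_monomial, (sigK 𝒪 𝒪' K').map_one]
    have := polyHom_comp_rename (K := K') (S.T K' (ChMod (psiK ψ K'))) (S.T_comm K' _)
      (Subtype.val : ↥J' → I) (MvPolynomial.monomial m (1 : K'))
    rw [MvPolynomial.rename_monomial] at this
    exact this
  have hA : ∀ z, S.kap (K' := K') ψ (L z) = famHom T' hT' P (S.kap ψ z) := by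
    intro z
    rw [hLapply, map_sum]
    have h1 : famHom T' hT' P =
        ∑ m : ↥P.support, famHom T' hT' (MvPolynomial.monomial m.1 (c m)) := by
      conv_lhs => rw [← MvPolynomial.support_sum_monomial_coeff P]
      rw [map_sum]
      exact (Finset.sum_coe_sort P.support
        (fun m => famHom T' hT' (MvPolynomial.monomial m (MvPolynomial.coeff m P)))).symm
    rw [h1, LinearMap.sum_apply]
    refine Finset.sum_congr rfl fun m _ => ?_
    rw [kap_chMul, kap_poly]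
    have h2 : (MvPolynomial.monomial m.1 (c m) : MvPolynomial ↥J' 𝒪') =
        MvPolynomial.C (c m) * MvPolynomial.monomial m.1 (1 : 𝒪') := by
      rw [MvPolynomial.C_mul_monomial, mul_one]
    rw [h2, map_mul, famHom_C, Module.End.mul_apply, hmono, Module.algebraMap_end_apply]
  -- Step B: a common denominator
  have hB : ∀ z, ∃ d : 𝒪', d ≠ 0 ∧ S.map (chMul ψ d) (isEquivar_chMul ψ d) (L z) = 0 := by
    intro z
    refine S.kap_eq_zero (K' := K') ψ (L z) ?_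
    rw [hA, hP, LinearMap.zero_apply]
  obtain ⟨n, zgen, hzgen⟩ := Module.Finite.exists_fin (R := 𝒪) (M := S.Coh 𝒪 (ChMod ψ))
  choose dz hdz0 hdz using fun i => hB (zgen i)
  set d : 𝒪' := ∏ i, dz i with hd
  have hd0 : d ≠ 0 := Finset.prod_ne_zero_iff.mpr fun i _ => hdz0 i
  have hdL : ∀ z, S.map (chMul ψ d) (isEquivar_chMul ψ d) (L z) = 0 := by
    have h0 : ((S.map (chMul ψ d) (isEquivar_chMul ψ d)).restrictScalars 𝒪).comp L = 0 := by
      refine LinearMap.ext_on hzgen ?_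
      rintro _ ⟨i, rfl⟩
      rw [LinearMap.comp_apply, LinearMap.zero_apply]
      show S.map (chMul ψ d) (isEquivar_chMul ψ d) (L (zgen i)) = 0
      have h1 : d = (∏ i' ∈ Finset.univ.erase i, dz i') * dz i :=
        (Finset.prod_erase_mul Finset.univ dz (Finset.mem_univ i)).symm
      have h2 : chMul (𝒪 := 𝒪) ψ d =
          (chMul ψ (∏ i' ∈ Finset.univ.erase i, dz i')).comp (chMul ψ (dz i)) := by
        rw [h1]
        exact chMul_mul ψ _ _
      rw [S.map_congr h2, S.map_comp (chMul ψ (dz i)) (isEquivar_chMul ψ _)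
        (chMul ψ (∏ i' ∈ Finset.univ.erase i, dz i')) (isEquivar_chMul ψ _), hdz, map_zero]
    intro z
    exact LinearMap.congr_fun h0 z
  -- Step C: the relation on the localisation
  have hC : ∀ y : S.F 𝒪 (ChMod ψ) 𝔪,
      ∑ m : ↥P.support, S.Fmap 𝔪 (chMul ψ (d * c m)) (isEquivar_chMul ψ (d * c m)) (Pk m • y) = 0 := by
    intro y
    obtain ⟨z, rfl⟩ := S.loc_surjective (ChMod ψ) 𝔪 y
    have h1 : ∀ m : ↥P.support,
        S.Fmap 𝔪 (chMul ψ (d * c m)) (isEquivar_chMul ψ (d * c m)) (Pk m • S.loc 𝒪 (ChMod ψ) 𝔪 z) =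
          S.loc 𝒪 (ChMod ψ) 𝔪 (S.map (chMul ψ d) (isEquivar_chMul ψ d)
            (S.map (chMul ψ (c m)) (isEquivar_chMul ψ (c m)) (Pk m • z))) := by
      intro m
      rw [← map_smul, Fmap_loc, S.map_congr (chMul_mul ψ d (c m)),
        S.map_comp (chMul ψ (c m)) (isEquivar_chMul ψ _) (chMul ψ d) (isEquivar_chMul ψ _)]
    rw [Finset.sum_congr rfl (fun m _ => h1 m), ← map_sum, ← map_sum, ← hLapply, hdL, map_zero]
  -- Step D: the values
  have hD := S.point_rel ψ 𝔪 hcard J' a hx (fun m => d * c m) Pk hPk hC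
  have hD' : d * ∑ m : ↥P.support, c m * MvPolynomial.aeval a (Pk m) = 0 := by
    rw [Finset.mul_sum, ← hD]
    refine Finset.sum_congr rfl fun m _ => ?_
    rw [mul_assoc]
  have hD'' : ∑ m : ↥P.support, c m * MvPolynomial.aeval a (Pk m) = 0 := by
    rcases mul_eq_zero.mp hD' with h | h
    · exact absurd h hd0
    · exact h
  rw [← hD'']
  conv_lhs => rw [← MvPolynomial.support_sum_monomial_coeff P]
  rw [map_sum, ← Finset.sum_coe_sort P.support]
  refine Finset.sum_congr rfl fun m _ => ?_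
  rw [MvPolynomial.eval_monomial, hPkdef]
  simp only
  rw [MvPolynomial.aeval_rename, MvPolynomial.aeval_monomial, map_one, one_mul]
  rfl

end main

end HeckeSys

/-- **Eigenclasses at a point of the Hecke algebra of level `M`**: if `(a, ψ)` is a point of the
Hecke algebra generated by the `T_j` (`j ∈ J'`) and the diamond operators acting on
`H¹(Γ₀(M), 𝒪[G])_𝔪`, then `H¹(Γ₀(M), K'_ψ)` contains a nonzero eigenclass with eigenvalues `a j`. -/
theorem exists_eigenclass_of_point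
    {𝒪 : Type} [CommRing 𝒪] [IsLocalRing 𝒪] [IsNoetherianRing 𝒪]
    [IsAdicComplete (maximalIdeal 𝒪) 𝒪]
    {M : ℕ} [NeZero M] {G : Type} [CommGroup G] [Fintype G] (χ : (ZMod M)ˣ →* G) {I : Type}
    (f : I → LvlIdx M) (𝔪 : Ideal (MvPolynomial I 𝒪)) [𝔪.IsMaximal]
    {𝒪' : Type} [CommRing 𝒪'] [IsDomain 𝒪'] [Algebra 𝒪 𝒪'] [Module.Finite 𝒪 𝒪'] [Module.Free 𝒪 𝒪']
    {K' : Type} [Field K'] [Algebra 𝒪' K'] [IsFractionRing 𝒪' K']
    (hcard : (Fintype.card G : 𝒪') ≠ 0) (J' : Set I) (a : I → 𝒪') (ψ : G →* 𝒪'ˣ)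
    (hx : ∀ P : G → MvPolynomial I 𝒪, (∀ g, P g ∈ MvPolynomial.supported 𝒪 J') →
      (∀ y : (levelSys χ f).F 𝒪 (Reg G 𝒪) 𝔪, ∑ g, P g • (levelSys χ f).Gact 𝔪 g y = 0) →
      ∑ g, MvPolynomial.aeval a (P g) * (ψ g : 𝒪') = 0) :
    ∃ c : H1 (levelPi χ) K' (ChMod ((Units.map (algebraMap 𝒪' K' : 𝒪' →* K')).comp ψ)), c ≠ 0 ∧
      ∀ j ∈ J', heckeH K' (ChMod ((Units.map (algebraMap 𝒪' K' : 𝒪' →* K')).comp ψ))
        ((levelSys χ f).equi j) c = algebraMap 𝒪' K' (a j) • c :=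
  (levelSys χ f).exists_eigenclass 𝔪 hcard J' a ψ hx

end Fermat.Agent.S43lib.B1
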