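/-
S43lib / B1 / PointHecke  (helper3).

The seam between helper1's abstract Hecke algebras `H.hecke J'` (`S43lib/Loc/HeckeAlg.lean`) and
`exists_eigenclass_of_point`: an `𝒪`-algebra homomorphism `x : H.hecke J' →ₐ[𝒪] 𝒪'` satisfies all
relations `∑_g P_g(T) ⟨g⟩ = 0` of the Hecke module.
-/
import Fermat.Agent.S43lib.Loc.HeckeAlg

set_option autoImplicit false
set_option linter.unusedSectionVars false
set_option linter.unusedVariables false

noncomputable section

namespace Fermat.Agent.S43lib.Loc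

open IsLocalRing MvPolynomial

namespace AbsHecke

variable {𝒪 : Type} [CommRing 𝒪] [IsLocalRing 𝒪] {G : Type} [CommGroup G] [Fintype G] {J : Type}
  (H : AbsHecke 𝒪 G J) (J' : Set J)
variable {𝒪' : Type} [CommRing 𝒪'] [Algebra 𝒪 𝒪'] (x : H.hecke J' →ₐ[𝒪] 𝒪')

/-- the value of a point on a polynomial in the `T_j`, `j ∈ J'` -/
theorem point_incl (a : J → 𝒪') (ha : ∀ j (hj : j ∈ J'), a j = x (H.tX J' j hj))
    (t : MvPolynomial (↥J') 𝒪) :
    x (H.heckeMk J' (symIncl (G := G) J' t)) =
      MvPolynomial.aeval a (MvPolynomial.rename (Subtype.val : ↥J' → J) t) := by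
  have h : (x.comp ((H.heckeMk J').comp (symIncl (G := G) J'))) =
      (MvPolynomial.aeval a).comp (MvPolynomial.rename (Subtype.val : ↥J' → J)) := by
    apply MvPolynomial.algHom_ext
    intro j
    rw [AlgHom.comp_apply, AlgHom.comp_apply, AlgHom.comp_apply, symIncl, rename_X, rename_X,
      aeval_X, heckeMk_X_inl, ha j.1 j.2]
  exact congrArg (fun F : MvPolynomial (↥J') 𝒪 →ₐ[𝒪] 𝒪' => F t) h

/-- **a point of the Hecke algebra satisfies the relations of the Hecke module** -/
theorem point_hx (a : J → 𝒪') (ha : ∀ j (hj : j ∈ J'), a j = x (H.tX J' j hj))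
    (P : G → MvPolynomial J 𝒪) (hP : ∀ g, P g ∈ MvPolynomial.supported 𝒪 J')
    (h0 : ∀ y : H.Mod, ∑ g, P g • H.act g y = 0) :
    ∑ g, MvPolynomial.aeval a (P g) * x (H.tG J' g) = 0 := by
  classical
  have hex : ∀ g, ∃ t : MvPolynomial (↥J') 𝒪,
      MvPolynomial.rename (Subtype.val : ↥J' → J) t = P g := by
    intro g
    have := hP g
    rw [MvPolynomial.supported_eq_range_rename] at this
    exact this
  choose t ht using hex
  set s : Sym 𝒪 G J' := ∑ g, symIncl (G := G) J' (t g) * X (Sum.inr g) with hs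
  have hs0 : H.heckeMk J' s = 0 := by
    apply H.hecke_ext J'
    intro y
    rw [zero_smul, heckeMk_smul, hs, map_sum, LinearMap.sum_apply, ← h0 y]
    refine Finset.sum_congr rfl fun g _ => ?_
    rw [map_mul, Module.End.mul_apply, symEnd_incl, symEnd_X_inr, ht]
  have h1 := congrArg x hs0
  rw [map_zero, hs, map_sum, map_sum] at h1
  rw [← h1]
  refine Finset.sum_congr rfl fun g _ => ?_
  rw [map_mul, map_mul, H.point_incl J' x a ha, ht, heckeMk_X_inr]

end AbsHecke

end Fermat.Agent.S43lib.Loc
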