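/-
S43lib / B1 / TWAlg  (helper3).

The algebra of the Taylor–Wiles comparison.  `M` (level `N`) and `M'` (level `N q`) are modules over
the polynomial ring `𝒫 = 𝒪[X_i, i ∈ I][X_none]`; on `M` the variable `X_none` acts as `T_q`, on `M'`
as `U_q`.  A comparison map `ρ : M → M'` (restriction) commutes with the `X_i` and satisfies
`U² ρ + q Z ρ = U ρ T` (`Z = X_z` the diamond operator).  For two points `ev`, `ev'` of `𝒫` related
by `α · ev(T) = α² + q z` (`α = ev'(U)`) the map `ρ` induces a map `Φ` between the localisations;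
it is injective as soon as there are transfer maps `a`, `b` with the classical relations and
`ev(T² − (q+1)²) ≠ 0`, and surjective for finite modules when `(1 − U²) M' ⊆ ρ M + U ρ M`.
-/
import Mathlib
import Fermat.Agent.S43lib.B1.HeckeLoc

set_option autoImplicit false
set_option linter.unusedSectionVars false
set_option linter.unusedVariables false

noncomputable section

namespace Fermat.Agent.S43lib.B1.TWAlg

open MvPolynomial

variable {𝒪 : Type} [CommRing 𝒪] {I : Type} [DecidableEq I]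
variable {M M' : Type} [AddCommGroup M] [AddCommGroup M'] [Module 𝒪 M] [Module 𝒪 M']
  [Module (MvPolynomial I 𝒪) M] [Module (MvPolynomial I 𝒪) M']
  [IsScalarTower 𝒪 (MvPolynomial I 𝒪) M] [IsScalarTower 𝒪 (MvPolynomial I 𝒪) M']

local notation "𝒫" => MvPolynomial I 𝒪

/-- the comparison hypotheses -/
structure Cmp (o : I) (ρ : M →ₗ[𝒪] M') (z : I) (q : 𝒪) : Prop where
  comm : ∀ (i : I), i ≠ o → ∀ (m : M), ρ ((X i : 𝒫) • m) = (X i : 𝒫) • ρ m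
  kr : ∀ m : M, (X o : MvPolynomial I 𝒪) • (X o : MvPolynomial I 𝒪) • ρ m + q • (X z : 𝒫) • ρ m = (X o : MvPolynomial I 𝒪) • ρ ((X o : MvPolynomial I 𝒪) • m)

/-- the relation between the two points -/
structure EvRel {k : Type} [Field k] (o : I) (ev ev' : 𝒫 →+* k) (z : I) (q : 𝒪) : Prop where
  hz : z ≠ o
  hC : ∀ a, ev (C a) = ev' (C a)
  hX : ∀ i, i ≠ o → ev (X i) = ev' (X i)
  hT : ev' (X o : MvPolynomial I 𝒪) * ev (X o : MvPolynomial I 𝒪) = (ev' (X o : MvPolynomial I 𝒪) : k) ^ 2 + ev' (C q) * ev' (X z)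

theorem C_smul_eq {N : Type} [AddCommGroup N] [Module 𝒪 N] [Module 𝒫 N] [IsScalarTower 𝒪 𝒫 N]
    (a : 𝒪) (x : N) : (C a : 𝒫) • x = a • x := by
  rw [← MvPolynomial.algebraMap_eq, algebraMap_smul]

variable {o : I}

local notation "𝐔" => (X o : MvPolynomial I 𝒪)

variable {ρ : M →ₗ[𝒪] M'} {z : I} {q : 𝒪} {k : Type} [Field k]
  {ev ev' : MvPolynomial I 𝒪 →+* k}

/-- clearing denominators: `Uⁿ ρ (s m) = s' ρ m` -/
theorem Cmp.exists_clear (h : Cmp o ρ z q) (hev : EvRel o ev ev' z q) (s : 𝒫) :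
    ∃ (n : ℕ) (s' : 𝒫), (∀ m : M, 𝐔 ^ n • ρ (s • m) = s' • ρ m) ∧
      ev' s' = (ev' 𝐔 : k) ^ n * ev s := by
  induction s using MvPolynomial.induction_on with
  | C a =>
    refine ⟨0, C a, fun m => ?_, ?_⟩
    · rw [pow_zero, one_smul, C_smul_eq, C_smul_eq, map_smul]
    · rw [pow_zero, one_mul, hev.hC]
  | add p p' hp hp' =>
    obtain ⟨n, s, hs, he⟩ := hp
    obtain ⟨n', s', hs', he'⟩ := hp'
    refine ⟨n + n', 𝐔 ^ n' * s + 𝐔 ^ n * s', fun m => ?_, ?_⟩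
    · rw [add_smul, map_add, smul_add, add_smul, mul_smul, mul_smul, ← hs, ← hs', ← mul_smul,
        ← mul_smul, ← pow_add, ← pow_add, add_comm n' n]
    · rw [map_add, map_mul, map_mul, he, he', map_pow, map_pow, map_add]
      ring
  | mul_X p j hp =>
    obtain ⟨n, s, hs, he⟩ := hp
    by_cases hj : j = o
    · subst hj
      refine ⟨n + 1, s * (X j ^ 2 + C q * X z), fun m => ?_, ?_⟩
      · rw [mul_smul, pow_succ', mul_smul, hs, smul_comm, ← h.kr m, mul_smul, add_smul, pow_two,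
          mul_smul, mul_smul, C_smul_eq]
      · rw [map_mul, map_add, map_pow, map_mul, he, map_mul, ← hev.hT]
        ring
    · refine ⟨n, s * X j, fun m => ?_, ?_⟩
      · rw [mul_smul, hs, h.comm j hj, mul_smul]
      · rw [map_mul, map_mul, he, hev.hX j hj]
        ring

/-- reduction modulo `U² − T U + q Z`: `r ρ m = ρ (r₀ m) + U ρ (r₁ m)` -/
theorem Cmp.exists_red (h : Cmp o ρ z q) (hev : EvRel o ev ev' z q) (r : 𝒫) :
    ∃ r₀ r₁ : 𝒫, (∀ m : M, r • ρ m = ρ (r₀ • m) + 𝐔 • ρ (r₁ • m)) ∧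
      ev' r = ev r₀ + ev' 𝐔 * ev r₁ := by
  induction r using MvPolynomial.induction_on with
  | C a =>
    refine ⟨C a, 0, fun m => ?_, ?_⟩
    · rw [zero_smul, map_zero, smul_zero, add_zero, C_smul_eq, C_smul_eq, map_smul]
    · rw [map_zero, mul_zero, add_zero, hev.hC]
  | add p p' hp hp' =>
    obtain ⟨r₀, r₁, hr, he⟩ := hp
    obtain ⟨r₀', r₁', hr', he'⟩ := hp'
    refine ⟨r₀ + r₀', r₁ + r₁', fun m => ?_, ?_⟩
    · rw [add_smul, hr, hr', add_smul, add_smul, map_add, map_add, smul_add]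
      abel
    · rw [map_add, map_add, map_add, he, he']
      ring
  | mul_X p j hp =>
    obtain ⟨r₀, r₁, hr, he⟩ := hp
    by_cases hj : j = o
    · subst hj
      refine ⟨-(C q * X z * r₁), r₀ + X j * r₁, fun m => ?_, ?_⟩
      · have h1 := h.kr (r₁ • m)
        have h2 : ρ ((C q * X z * r₁ : 𝒫) • m) = q • (X z : 𝒫) • ρ (r₁ • m) := by
          rw [mul_smul, mul_smul, C_smul_eq, map_smul, h.comm z hev.hz]
        have h3 : ρ ((r₀ + X j * r₁) • m) = ρ (r₀ • m) + ρ ((X j : 𝒫) • r₁ • m) := by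
          rw [add_smul, map_add, mul_smul]
        rw [mul_comm p, mul_smul, hr, smul_add, neg_smul, map_neg, h2, h3, smul_add, ← h1]
        abel
      · rw [map_mul, he, map_neg, map_mul, map_mul, map_add, map_mul]
        have := hev.hT
        rw [hev.hC, hev.hX z hev.hz]
        linear_combination (-(ev r₁)) * this
    · refine ⟨r₀ * X j, r₁ * X j, fun m => ?_, ?_⟩
      · rw [mul_smul, ← h.comm j hj, hr, mul_smul, mul_smul]
      · rw [map_mul, map_mul, map_mul, he, hev.hX j hj]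
        ring

/-! ### Localisations -/

section loc

variable {𝔪 𝔪' : Ideal (MvPolynomial I 𝒪)} [𝔪.IsPrime] [𝔪'.IsPrime]

/-- the hypotheses relating the two ideals and the two points -/
structure Pts (o : I) (ev ev' : MvPolynomial I 𝒪 →+* k)
    (𝔪 𝔪' : Ideal (MvPolynomial I 𝒪)) (z : I) (q : 𝒪) : Prop where
  rel : EvRel o ev ev' z q
  h𝔪 : ∀ s, s ∈ 𝔪 ↔ ev s = 0
  h𝔪' : ∀ s, s ∈ 𝔪' ↔ ev' s = 0
  hα : ev' (X o : MvPolynomial I 𝒪) ≠ 0

/-- the localisation map -/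
abbrev lam (𝔫 : Ideal (MvPolynomial I 𝒪)) [𝔫.IsPrime] (N : Type) [AddCommGroup N]
    [Module (MvPolynomial I 𝒪) N] :
    N →ₗ[MvPolynomial I 𝒪] LocalizedModule 𝔫.primeCompl N :=
  LocalizedModule.mkLinearMap 𝔫.primeCompl N

theorem lam_eq_zero_iff {N : Type} [AddCommGroup N] [Module 𝒫 N] (𝔫 : Ideal 𝒫) [𝔫.IsPrime]
    (m : N) : lam 𝔫 N m = 0 ↔ ∃ t : 𝒫, t ∉ 𝔫 ∧ t • m = 0 := by
  rw [LocalizedModule.mkLinearMap_apply, localizedModule_mk_eq_zero_iff]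
  constructor
  · rintro ⟨t, ht⟩
    exact ⟨t, t.2, ht⟩
  · rintro ⟨t, ht, h⟩
    exact ⟨⟨t, ht⟩, h⟩

theorem eq_zero_of_smul {N : Type} [AddCommGroup N] [Module 𝒫 N] (𝔫 : Ideal 𝒫) [𝔫.IsPrime]
    {t : 𝒫} (ht : t ∉ 𝔫) {y : LocalizedModule 𝔫.primeCompl N} (h : t • y = 0) : y = 0 := by
  have := IsLocalizedModule.smul_injective (lam 𝔫 N) (⟨t, ht⟩ : 𝔫.primeCompl)
  apply this
  show t • y = t • 0
  rw [h, smul_zero]

/-- well-definedness of the induced map -/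
theorem Cmp.ker_le (h : Cmp o ρ z q) (hp : Pts o ev ev' 𝔪 𝔪' z q) (m : M)
    (hm : lam 𝔪 M m = 0) : lam 𝔪' M' (ρ m) = 0 := by
  obtain ⟨t, ht, htm⟩ := (lam_eq_zero_iff 𝔪 m).mp hm
  obtain ⟨n, t', ht', he⟩ := h.exists_clear hp.rel t
  refine (lam_eq_zero_iff 𝔪' _).mpr ⟨t', ?_, ?_⟩
  · rw [hp.h𝔪', he]
    exact mul_ne_zero (pow_ne_zero _ hp.hα) (fun h0 => ht ((hp.h𝔪 t).mpr h0))
  · rw [← ht', htm, map_zero, smul_zero]

variable (ρ) in
/-- the induced map between the localisations (when the localisation map is surjective) -/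
def Φ (hsur : Function.Surjective (lam 𝔪 M)) (y : LocalizedModule 𝔪.primeCompl M) :
    LocalizedModule 𝔪'.primeCompl M' :=
  lam 𝔪' M' (ρ (Function.surjInv hsur y))

theorem Cmp.Φ_lam (h : Cmp o ρ z q) (hp : Pts o ev ev' 𝔪 𝔪' z q)
    (hsur : Function.Surjective (lam 𝔪 M)) (m : M) :
    Φ (𝔪' := 𝔪') ρ hsur (lam 𝔪 M m) = lam 𝔪' M' (ρ m) := by
  unfold Φ
  have h1 : lam 𝔪 M (Function.surjInv hsur (lam 𝔪 M m) - m) = 0 := by
    rw [map_sub, Function.surjInv_eq hsur, sub_self]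
  have h2 := h.ker_le hp _ h1
  rw [map_sub, map_sub, sub_eq_zero] at h2
  exact h2

theorem Cmp.Φ_add (h : Cmp o ρ z q) (hp : Pts o ev ev' 𝔪 𝔪' z q)
    (hsur : Function.Surjective (lam 𝔪 M)) (y y' : LocalizedModule 𝔪.primeCompl M) :
    Φ (𝔪' := 𝔪') ρ hsur (y + y') = Φ (𝔪' := 𝔪') ρ hsur y + Φ (𝔪' := 𝔪') ρ hsur y' := by
  obtain ⟨m, rfl⟩ := hsur y
  obtain ⟨m', rfl⟩ := hsur y'
  rw [← map_add, h.Φ_lam hp, h.Φ_lam hp, h.Φ_lam hp, map_add, map_add]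

theorem Cmp.Φ_smul (h : Cmp o ρ z q) (hp : Pts o ev ev' 𝔪 𝔪' z q)
    (hsur : Function.Surjective (lam 𝔪 M)) (a : 𝒪) (y : LocalizedModule 𝔪.primeCompl M) :
    Φ (𝔪' := 𝔪') ρ hsur ((C a : 𝒫) • y) = (C a : 𝒫) • Φ (𝔪' := 𝔪') ρ hsur y := by
  obtain ⟨m, rfl⟩ := hsur y
  rw [← map_smul, h.Φ_lam hp, h.Φ_lam hp, ← map_smul, C_smul_eq, C_smul_eq, map_smul]

theorem Cmp.Φ_X (h : Cmp o ρ z q) (hp : Pts o ev ev' 𝔪 𝔪' z q)
    (hsur : Function.Surjective (lam 𝔪 M)) (i : I) (hi : i ≠ o)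
    (y : LocalizedModule 𝔪.primeCompl M) :
    Φ (𝔪' := 𝔪') ρ hsur ((X i : 𝒫) • y) = (X i : 𝒫) • Φ (𝔪' := 𝔪') ρ hsur y := by
  obtain ⟨m, rfl⟩ := hsur y
  rw [← map_smul, h.Φ_lam hp, h.Φ_lam hp, ← map_smul, h.comm i hi]

theorem Cmp.Φ_U (h : Cmp o ρ z q) (hp : Pts o ev ev' 𝔪 𝔪' z q)
    (hsur : Function.Surjective (lam 𝔪 M)) (y : LocalizedModule 𝔪.primeCompl M) :
    𝐔 • Φ (𝔪' := 𝔪') ρ hsur (𝐔 • y) =
      (𝐔 ^ 2 + C q * X z : 𝒫) • Φ (𝔪' := 𝔪') ρ hsur y := by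
  obtain ⟨m, rfl⟩ := hsur y
  have e1 : 𝐔 • lam 𝔪 M m = lam 𝔪 M (𝐔 • m) := (map_smul _ _ _).symm
  rw [e1, h.Φ_lam hp, h.Φ_lam hp, ← map_smul (lam 𝔪' M'), ← map_smul (lam 𝔪' M'), ← h.kr m,
    add_smul, pow_two, mul_smul, mul_smul, C_smul_eq]

/-- injectivity from the transfer maps -/
theorem Cmp.Φ_injective (h : Cmp o ρ z q) (hp : Pts o ev ev' 𝔪 𝔪' z q)
    (hsur : Function.Surjective (lam 𝔪 M)) (a b : M' →+ M)
    (h1 : ∀ m, a (ρ m) = (C (q + 1) : 𝒫) • m)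
    (h2 : ∀ m, b (ρ m) = 𝐔 • m)
    (h3 : ∀ m, a (𝐔 • ρ m) = (C q * 𝐔 : 𝒫) • m)
    (h4 : ∀ m, b (𝐔 • ρ m) = (𝐔 ^ 2 - C (q + 1) : 𝒫) • m)
    (hd : ev (𝐔 ^ 2 - C ((q + 1) ^ 2)) ≠ 0) :
    Function.Injective (Φ (𝔪' := 𝔪') ρ hsur) := by
  have key : ∀ m : M, lam 𝔪' M' (ρ m) = 0 → lam 𝔪 M m = 0 := by
    intro m hm
    obtain ⟨t, ht, htm⟩ := (lam_eq_zero_iff 𝔪' _).mp hm
    obtain ⟨r₀, r₁, hr, he⟩ := h.exists_red hp.rel t
    have hr' := hr m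
    rw [htm] at hr'
    have E1 : (C (q + 1) : 𝒫) • r₀ • m + (C q * 𝐔 : 𝒫) • r₁ • m = 0 := by
      rw [← h1, ← h3, ← map_add, ← hr', map_zero]
    have E2 : 𝐔 • r₀ • m + (𝐔 ^ 2 - C (q + 1) : 𝒫) • r₁ • m = 0 := by
      rw [← h2, ← h4, ← map_add, ← hr', map_zero]
    have hC : (C ((q + 1) ^ 2) : 𝒫) = C (q + 1) ^ 2 := by rw [map_pow]
    have hq : (C (q + 1) : 𝒫) = C q + 1 := by rw [map_add, map_one]
    rw [hq] at E1 E2
    have D0 : ((𝐔 ^ 2 - C ((q + 1) ^ 2)) * r₀ : 𝒫) • m = 0 := by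
      rw [mul_smul, hC, hq]
      calc (𝐔 ^ 2 - (C q + 1) ^ 2 : 𝒫) • r₀ • m
          = (𝐔 ^ 2 - (C q + 1) : 𝒫) • ((C q + 1 : 𝒫) • r₀ • m + (C q * 𝐔 : 𝒫) • r₁ • m) -
            (C q * 𝐔 : 𝒫) • (𝐔 • r₀ • m + (𝐔 ^ 2 - (C q + 1) : 𝒫) • r₁ • m) := by module
        _ = 0 := by rw [E1, E2, smul_zero, smul_zero, sub_zero]
    have D1 : ((𝐔 ^ 2 - C ((q + 1) ^ 2)) * r₁ : 𝒫) • m = 0 := by
      rw [mul_smul, hC, hq]
      calc (𝐔 ^ 2 - (C q + 1) ^ 2 : 𝒫) • r₁ • m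
          = (C q + 1 : 𝒫) • (𝐔 • r₀ • m + (𝐔 ^ 2 - (C q + 1) : 𝒫) • r₁ • m) -
            (𝐔 : 𝒫) • ((C q + 1 : 𝒫) • r₀ • m + (C q * 𝐔 : 𝒫) • r₁ • m) := by module
        _ = 0 := by rw [E1, E2, smul_zero, smul_zero, sub_zero]
    have hne : ev r₀ ≠ 0 ∨ ev r₁ ≠ 0 := by
      by_contra hcon
      push Not at hcon
      apply ht
      rw [hp.h𝔪', he, hcon.1, hcon.2, mul_zero, add_zero]
    rcases hne with h0 | h0
    · refine (lam_eq_zero_iff 𝔪 m).mpr ⟨_, ?_, D0⟩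
      rw [hp.h𝔪, map_mul]
      exact mul_ne_zero hd h0
    · refine (lam_eq_zero_iff 𝔪 m).mpr ⟨_, ?_, D1⟩
      rw [hp.h𝔪, map_mul]
      exact mul_ne_zero hd h0
  intro y y' hy
  obtain ⟨m, rfl⟩ := hsur y
  obtain ⟨m', rfl⟩ := hsur y'
  rw [h.Φ_lam hp, h.Φ_lam hp, ← sub_eq_zero, ← map_sub, ← map_sub] at hy
  have := key _ hy
  rwa [map_sub, sub_eq_zero] at this

end loc

/-! ### Finite localised modules -/

section fin

variable {N : Type} [AddCommGroup N] [Module (MvPolynomial I 𝒪) N]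
  (𝔫 : Ideal (MvPolynomial I 𝒪)) [𝔫.IsPrime]

theorem exists_pow_eq [Finite (LocalizedModule 𝔫.primeCompl N)] (s : 𝒫) :
    ∃ a j : ℕ, 0 < j ∧ ∀ x : LocalizedModule 𝔫.primeCompl N, s ^ a • x = s ^ a • s ^ j • x := by
  obtain ⟨a, b, hab, h⟩ := Finite.exists_ne_map_eq_of_infinite
    (fun (k : ℕ) (x : LocalizedModule 𝔫.primeCompl N) => s ^ k • x)
  wlog hlt : a < b generalizing a b
  · exact this b a hab.symm h.symm (lt_of_le_of_ne (not_lt.mp hlt) hab.symm)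
  refine ⟨a, b - a, Nat.sub_pos_of_lt hlt, fun x => ?_⟩
  rw [← mul_smul, ← pow_add, Nat.add_sub_cancel' hlt.le]
  exact congrFun h x

/-- elements of the prime act nilpotently on a finite localised module -/
theorem exists_pow_smul_eq_zero [Finite (LocalizedModule 𝔫.primeCompl N)] {s : 𝒫} (hs : s ∈ 𝔫) :
    ∃ a : ℕ, ∀ x : LocalizedModule 𝔫.primeCompl N, s ^ a • x = 0 := by
  obtain ⟨a, j, hj, h⟩ := exists_pow_eq 𝔫 (N := N) s
  refine ⟨a, fun x => ?_⟩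
  have h1 : (1 - s ^ j : 𝒫) ∉ 𝔫 := by
    intro hmem
    have h2 : s ^ j ∈ 𝔫 := Ideal.pow_mem_of_mem 𝔫 hs j hj
    have := 𝔫.add_mem hmem h2
    rw [sub_add_cancel] at this
    exact (Ideal.ne_top_iff_one 𝔫).mp (Ideal.IsPrime.ne_top inferInstance) this
  apply eq_zero_of_smul 𝔫 h1
  rw [sub_smul, one_smul, smul_comm, ← h x, sub_self]

/-- elements outside the prime act with finite order on a finite localised module -/
theorem exists_pow_smul_eq_self [Finite (LocalizedModule 𝔫.primeCompl N)] {s : 𝒫} (hs : s ∉ 𝔫) :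
    ∃ j : ℕ, 0 < j ∧ ∀ x : LocalizedModule 𝔫.primeCompl N, s ^ j • x = x := by
  obtain ⟨a, j, hj, h⟩ := exists_pow_eq 𝔫 (N := N) s
  refine ⟨j, hj, fun x => ?_⟩
  have h1 : (s ^ a : 𝒫) ∉ 𝔫 := fun hmem => hs (Ideal.IsPrime.mem_of_pow_mem inferInstance a hmem)
  have h2 : s ^ a • (s ^ j • x - x) = 0 := by rw [smul_sub, ← h x, sub_self]
  exact sub_eq_zero.mp (eq_zero_of_smul 𝔫 h1 h2)

theorem exists_smul_eq (𝔫 : Ideal 𝒫) [𝔫.IsPrime] {s : 𝒫} (hs : s ∉ 𝔫)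
    (x : LocalizedModule 𝔫.primeCompl N) : ∃ x' : LocalizedModule 𝔫.primeCompl N, s • x' = x := by
  have h := IsLocalizedModule.map_units (lam 𝔫 N) (⟨s, hs⟩ : 𝔫.primeCompl)
  obtain ⟨x', hx'⟩ := ((Module.End.isUnit_iff _).mp h).surjective x
  exact ⟨x', hx'⟩

end fin

/-! ### A root of the Hecke polynomial (nilpotent Hensel) -/

section root

variable {N : Type} [AddCommGroup N] [Module (MvPolynomial I 𝒪) N]
  (𝔫 : Ideal (MvPolynomial I 𝒪)) [𝔫.IsPrime]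

theorem exists_root [Finite (LocalizedModule 𝔫.primeCompl N)]
    [Nontrivial (LocalizedModule 𝔫.primeCompl N)] (t c x₀ : 𝒫)
    (h0 : x₀ ^ 2 - t * x₀ + c ∈ 𝔫) (h1 : 2 * x₀ - t ∉ 𝔫) :
    ∃ A : 𝒫, (∀ x : LocalizedModule 𝔫.primeCompl N, (A ^ 2 - t * A + c) • x = 0) ∧
      x₀ - A ∈ 𝔫 := by
  classical
  set J : Ideal 𝒫 := Module.annihilator 𝒫 (LocalizedModule 𝔫.primeCompl N) with hJ
  have hJ𝔫 : J ≤ 𝔫 := by
    intro s hs
    by_contra hs𝔫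
    obtain ⟨x, y, hxy⟩ := exists_pair_ne (LocalizedModule 𝔫.primeCompl N)
    apply hxy
    have hx : s • (x - y) = 0 := Module.mem_annihilator.mp hs _
    exact sub_eq_zero.mp (eq_zero_of_smul 𝔫 hs𝔫 hx)
  have hnil : ∀ s ∈ 𝔫, IsNilpotent (Ideal.Quotient.mk J s) := by
    intro s hs
    obtain ⟨a, ha⟩ := exists_pow_smul_eq_zero 𝔫 (N := N) hs
    refine ⟨a, ?_⟩
    rw [← map_pow, Ideal.Quotient.eq_zero_iff_mem, hJ, Module.mem_annihilator]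
    exact ha
  have hunit : ∀ s, s ∉ 𝔫 → IsUnit (Ideal.Quotient.mk J s) := by
    intro s hs
    obtain ⟨j, hj, hj'⟩ := exists_pow_smul_eq_self 𝔫 (N := N) hs
    refine IsUnit.of_pow_eq_one (n := j) ?_ hj.ne'
    rw [← map_pow, ← sub_eq_zero, ← map_one (Ideal.Quotient.mk J), ← map_sub,
      Ideal.Quotient.eq_zero_iff_mem, hJ, Module.mem_annihilator]
    intro x
    rw [sub_smul, one_smul, hj' x, sub_self]
  set Pol : Polynomial (𝒫 ⧸ J) :=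
    Polynomial.X ^ 2 - Polynomial.C (Ideal.Quotient.mk J t) * Polynomial.X +
      Polynomial.C (Ideal.Quotient.mk J c) with hPol
  have hev : ∀ r : 𝒫 ⧸ J, Polynomial.aeval r Pol =
      r ^ 2 - Ideal.Quotient.mk J t * r + Ideal.Quotient.mk J c := by
    intro r
    simp [hPol]
  have hder : ∀ r : 𝒫 ⧸ J, Polynomial.aeval r (Polynomial.derivative Pol) =
      2 * r - Ideal.Quotient.mk J t := by
    intro r
    simp [hPol]
    ring
  have hn : IsNilpotent (Polynomial.aeval (Ideal.Quotient.mk J x₀) Pol) := by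
    rw [hev]
    have := hnil _ h0
    simpa using this
  have hu : IsUnit (Polynomial.aeval (Ideal.Quotient.mk J x₀) (Polynomial.derivative Pol)) := by
    rw [hder]
    have := hunit _ h1
    rw [map_sub, map_mul, map_ofNat] at this
    exact this
  obtain ⟨r, ⟨hr1, hr2⟩, -⟩ := Polynomial.existsUnique_nilpotent_sub_and_aeval_eq_zero hn hu
  obtain ⟨A, rfl⟩ := Ideal.Quotient.mk_surjective r
  refine ⟨A, fun x => ?_, ?_⟩
  · rw [hev] at hr2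
    have h2 : Ideal.Quotient.mk J (A ^ 2 - t * A + c) = 0 := by
      simpa using hr2
    rw [Ideal.Quotient.eq_zero_iff_mem, hJ, Module.mem_annihilator] at h2
    exact h2 x
  · obtain ⟨k, hk⟩ := hr1
    rw [← map_sub, ← map_pow, Ideal.Quotient.eq_zero_iff_mem] at hk
    exact Ideal.IsPrime.mem_of_pow_mem inferInstance k (hJ𝔫 hk)

end root

/-! ### Surjectivity -/

section surj

variable {𝔪 𝔪' : Ideal (MvPolynomial I 𝒪)} [𝔪.IsPrime] [𝔪'.IsPrime]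

/-- surjectivity from the trace identity `(1 − U²) y ∈ ρ M + U ρ M` -/
theorem Cmp.Φ_surjective (h : Cmp o ρ z q) (hp : Pts o ev ev' 𝔪 𝔪' z q)
    (hsur : Function.Surjective (lam 𝔪 M)) (hsur' : Function.Surjective (lam 𝔪' M'))
    [Finite (LocalizedModule 𝔪.primeCompl M)]
    (hαβ : (ev' 𝐔 : k) ^ 2 ≠ ev' (C q) * ev' (X z))
    (hα1 : (ev' 𝐔 : k) ^ 2 ≠ 1)
    (α₀ : 𝒪) (hα₀ : ev' (C α₀) = ev' 𝐔)
    (hS : ∀ y : M', ∃ m₁ m₂ : M, (1 - 𝐔 ^ 2 : 𝒫) • y = ρ m₁ + 𝐔 • ρ m₂) :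
    Function.Surjective (Φ (𝔪' := 𝔪') ρ hsur) := by
  have hT := hp.rel.hT
  have h1U : (1 - 𝐔 ^ 2 : 𝒫) ∉ 𝔪' := by
    rw [hp.h𝔪', map_sub, map_one, map_pow]
    exact fun h0 => hα1 (sub_eq_zero.mp h0).symm
  -- the map `φ = λ' ∘ ρ`
  have hφadd : ∀ m m' : M, lam 𝔪' M' (ρ (m + m')) = lam 𝔪' M' (ρ m) + lam 𝔪' M' (ρ m') := by
    intro m m'
    rw [map_add, map_add]
  have hφsub : ∀ m m' : M, lam 𝔪' M' (ρ (m - m')) = lam 𝔪' M' (ρ m) - lam 𝔪' M' (ρ m') := by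
    intro m m'
    rw [map_sub, map_sub]
  rcases subsingleton_or_nontrivial (LocalizedModule 𝔪.primeCompl M) with hss | hnt
  · -- trivial case
    have hφ0 : ∀ m : M, lam 𝔪' M' (ρ m) = 0 := fun m => h.ker_le hp m (Subsingleton.elim _ _)
    intro y
    obtain ⟨y₀, rfl⟩ := hsur' y
    obtain ⟨m₁, m₂, hm⟩ := hS y₀
    have h2 : (1 - 𝐔 ^ 2 : 𝒫) • lam 𝔪' M' y₀ = 0 := by
      rw [← map_smul, hm, map_add, map_smul, hφ0, hφ0, smul_zero, add_zero]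
    refine ⟨lam 𝔪 M 0, ?_⟩
    rw [h.Φ_lam hp, hφ0, eq_zero_of_smul 𝔪' h1U h2]
  · -- the root
    have hαev : ev (C α₀) = ev' 𝐔 := by rw [hp.rel.hC, hα₀]
    obtain ⟨A, hA, hA'⟩ := exists_root 𝔪 (N := M) 𝐔 (C q * X z) (C α₀)
      (by
        rw [hp.h𝔪, map_add, map_sub, map_pow, map_mul, map_mul, hαev, hp.rel.hC,
          hp.rel.hX z hp.rel.hz]
        linear_combination -hT)
      (by
        rw [hp.h𝔪, map_sub, map_mul, hαev, map_ofNat]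
        intro h0
        apply hαβ
        have h3 : ev 𝐔 = 2 * ev' 𝐔 := by linear_combination -h0
        rw [h3] at hT
        linear_combination hT)
    have hevA : ev A = ev' 𝐔 := by
      rw [hp.h𝔪, map_sub, hαev] at hA'
      exact (sub_eq_zero.mp hA').symm
    obtain ⟨n, A', hA'1, hA'2⟩ := h.exists_clear hp.rel A
    rw [hevA] at hA'2
    -- the facts on `φ`
    have f1 : ∀ m : M, 𝐔 ^ n • lam 𝔪' M' (ρ (A • m)) = A' • lam 𝔪' M' (ρ m) := by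
      intro m
      rw [← map_smul, hA'1, map_smul]
    have f2 : ∀ m : M, 𝐔 • lam 𝔪' M' (ρ (𝐔 • m)) =
        (𝐔 ^ 2 + C q * X z : 𝒫) • lam 𝔪' M' (ρ m) := by
      intro m
      have hq : q • (X z : 𝒫) • ρ m = (C q * X z : 𝒫) • ρ m := by
        rw [mul_smul, C_smul_eq]
      calc 𝐔 • lam 𝔪' M' (ρ (𝐔 • m)) = lam 𝔪' M' (𝐔 • ρ (𝐔 • m)) := (map_smul _ _ _).symm
        _ = lam 𝔪' M' (𝐔 • 𝐔 • ρ m + (C q * X z : 𝒫) • ρ m) := by rw [← h.kr m, hq]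
        _ = (𝐔 ^ 2 + C q * X z : 𝒫) • lam 𝔪' M' (ρ m) := by
            rw [map_add, map_smul, map_smul, map_smul, add_smul, pow_two, mul_smul, mul_smul]
    have f3 : ∀ m : M, lam 𝔪' M' (ρ ((A ^ 2 - 𝐔 * A + C q * X z : 𝒫) • m)) = 0 := by
      intro m
      apply h.ker_le hp
      rw [map_smul]
      exact hA _
    have f4 : ∀ m : M, lam 𝔪' M' (ρ ((C q * X z : 𝒫) • m)) =
        (C q * X z : 𝒫) • lam 𝔪' M' (ρ m) := by
      intro m
      have h6 : ρ ((C q * X z : 𝒫) • m) = (C q * X z : 𝒫) • ρ m := by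
        rw [mul_smul, C_smul_eq, map_smul, h.comm z hp.rel.hz, mul_smul, C_smul_eq]
      rw [h6, map_smul]
    have hUn : (𝐔 ^ n : 𝒫) ∉ 𝔪' := by
      rw [hp.h𝔪', map_pow]
      exact pow_ne_zero _ hp.hα
    have key : ∀ m : M, 𝐔 • lam 𝔪' M' (ρ m) = lam 𝔪' M' (ρ (A • m)) := by
      intro m
      set P0 := lam 𝔪' M' (ρ m) with hP0
      set P1 := lam 𝔪' M' (ρ (A • m)) with hP1
      set P2 := lam 𝔪' M' (ρ (A • A • m)) with hP2
      set P3 := lam 𝔪' M' (ρ (𝐔 • A • m)) with hP3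
      have ha : 𝐔 ^ n • P1 = A' • P0 := f1 m
      have hb : 𝐔 ^ n • P2 = A' • P1 := f1 (A • m)
      have hc : 𝐔 • P3 = (𝐔 ^ 2 + C q * X z : 𝒫) • P1 := f2 (A • m)
      have hd : P2 - P3 + (C q * X z : 𝒫) • P0 = 0 := by
        have := f3 m
        rw [add_smul, sub_smul, pow_two, mul_smul, mul_smul, hφadd, hφsub, f4] at this
        exact this
      have e2 : 𝐔 ^ (2 * n + 1) • P2 = (𝐔 * A' * A' : 𝒫) • P0 := by
        calc 𝐔 ^ (2 * n + 1) • P2 = (𝐔 ^ (n + 1) : 𝒫) • (𝐔 ^ n • P2) := by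
              rw [← mul_smul, ← pow_add]
              congr 2
              ring
          _ = (𝐔 * A' : 𝒫) • (𝐔 ^ n • P1) := by
              rw [hb, ← mul_smul, ← mul_smul]
              congr 1
              ring
          _ = (𝐔 * A' * A' : 𝒫) • P0 := by rw [ha, ← mul_smul]
      have e3 : 𝐔 ^ (2 * n + 1) • P3 = (𝐔 ^ n * (𝐔 ^ 2 + C q * X z) * A' : 𝒫) • P0 := by
        calc 𝐔 ^ (2 * n + 1) • P3 = (𝐔 ^ (2 * n) : 𝒫) • (𝐔 • P3) := by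
              rw [← mul_smul, ← pow_succ]
          _ = (𝐔 ^ n * (𝐔 ^ 2 + C q * X z) : 𝒫) • (𝐔 ^ n • P1) := by
              rw [hc, ← mul_smul, ← mul_smul]
              congr 1
              ring
          _ = (𝐔 ^ n * (𝐔 ^ 2 + C q * X z) * A' : 𝒫) • P0 := by rw [ha, ← mul_smul]
      have e4 : ((𝐔 * A' - C q * X z * 𝐔 ^ n) * (A' - 𝐔 ^ (n + 1)) : 𝒫) • P0 = 0 := by
        calc ((𝐔 * A' - C q * X z * 𝐔 ^ n) * (A' - 𝐔 ^ (n + 1)) : 𝒫) • P0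
            = (𝐔 * A' * A' : 𝒫) • P0 - (𝐔 ^ n * (𝐔 ^ 2 + C q * X z) * A' : 𝒫) • P0 +
                (𝐔 ^ (2 * n + 1) : 𝒫) • (C q * X z : 𝒫) • P0 := by module
          _ = 𝐔 ^ (2 * n + 1) • (P2 - P3 + (C q * X z : 𝒫) • P0) := by
              rw [← e2, ← e3, smul_add, smul_sub]
          _ = 0 := by rw [hd, smul_zero]
      have hne : (𝐔 * A' - C q * X z * 𝐔 ^ n : 𝒫) ∉ 𝔪' := by
        rw [hp.h𝔪', map_sub, map_mul, map_mul, map_mul, map_pow, hA'2]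
        intro h0
        apply hαβ
        have h5 : (ev' 𝐔 : k) ^ n * ((ev' 𝐔 : k) ^ 2 - ev' (C q) * ev' (X z)) = 0 := by
          linear_combination h0
        rcases mul_eq_zero.mp h5 with h6 | h6
        · exact absurd h6 (pow_ne_zero _ hp.hα)
        · exact sub_eq_zero.mp h6
      rw [mul_smul] at e4
      have e5 := eq_zero_of_smul 𝔪' hne e4
      have e6 : 𝐔 ^ n • (𝐔 • P0 - P1) = 0 := by
        rw [smul_sub, ha, ← mul_smul, ← pow_succ, ← sub_smul, ← neg_sub, neg_smul, e5, neg_zero]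
      exact sub_eq_zero.mp (eq_zero_of_smul 𝔪' hUn e6)
    -- surjectivity
    have h1A : (1 - A ^ 2 : 𝒫) ∉ 𝔪 := by
      rw [hp.h𝔪, map_sub, map_one, map_pow, hevA]
      exact fun h0 => hα1 (sub_eq_zero.mp h0).symm
    intro y
    obtain ⟨y₀, rfl⟩ := hsur' y
    obtain ⟨m₁, m₂, hm⟩ := hS y₀
    obtain ⟨x', hx'⟩ := exists_smul_eq 𝔪 h1A (lam 𝔪 M (m₁ + A • m₂))
    obtain ⟨m', rfl⟩ := hsur x'
    refine ⟨lam 𝔪 M m', ?_⟩
    rw [h.Φ_lam hp]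
    have h2 : (1 - 𝐔 ^ 2 : 𝒫) • lam 𝔪' M' y₀ = lam 𝔪' M' (ρ (m₁ + A • m₂)) := by
      rw [← map_smul, hm, hφadd, map_add, map_smul, key m₂]
    have h3 : lam 𝔪' M' (ρ ((1 - A ^ 2 : 𝒫) • m')) = lam 𝔪' M' (ρ (m₁ + A • m₂)) := by
      rw [← map_smul] at hx'
      rw [← h.Φ_lam hp hsur, ← h.Φ_lam hp hsur, hx']
    have h4 : lam 𝔪' M' (ρ ((1 - A ^ 2 : 𝒫) • m')) = (1 - 𝐔 ^ 2 : 𝒫) • lam 𝔪' M' (ρ m') := by
      rw [sub_smul, one_smul, hφsub, pow_two, mul_smul, ← key, ← key, sub_smul, one_smul,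
        pow_two, mul_smul]
    have h5 : (1 - 𝐔 ^ 2 : 𝒫) • (lam 𝔪' M' (ρ m') - lam 𝔪' M' y₀) = 0 := by
      rw [smul_sub, ← h4, h3, h2, sub_self]
    exact sub_eq_zero.mp (eq_zero_of_smul 𝔪' h1U h5)

end surj

end Fermat.Agent.S43lib.B1.TWAlg
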